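import Mathlib
import Fermat.Prelude.Def_GaloisRep_Adic

set_option autoImplicit false

open scoped TensorProduct

namespace Fermat.Agent.S53.MatRep

local notation "Γℚ" => (AlgebraicClosure ℚ ≃ₐ[ℚ] AlgebraicClosure ℚ)

section Basic

variable {A : Type} [CommRing A]

/-- entrywise membership of a vector of `Fin 2 → A` in `I • ⊤`. -/
theorem mem_smul_top_pi_iff (I : Ideal A) (w : Fin 2 → A) :
    w ∈ I • (⊤ : Submodule A (Fin 2 → A)) ↔ ∀ i, w i ∈ I := by
  constructor
  · intro hw
    refine Submodule.smul_induction_on hw ?_ ?_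
    · intro a ha v _ i
      simpa using I.mul_mem_right (v i) ha
    · intro x y hx hy i
      simpa using I.add_mem (hx i) (hy i)
  · intro hw
    have : w = ∑ i, w i • (Pi.single i (1 : A) : Fin 2 → A) := by
      ext j
      simp [Finset.sum_apply, Pi.single_apply]
    rw [this]
    exact Submodule.sum_mem _ fun i _ => Submodule.smul_mem_smul (hw i) Submodule.mem_top

/-- the `End`-valued hom attached to a matrix-valued hom. -/
noncomputable def endOfMat (r : Γℚ →* Matrix (Fin 2) (Fin 2) A) :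
    Γℚ →* Module.End A (Fin 2 → A) :=
  ((Matrix.toLinAlgEquiv' : Matrix (Fin 2) (Fin 2) A ≃ₐ[A] Module.End A (Fin 2 → A)) :
    Matrix (Fin 2) (Fin 2) A →* Module.End A (Fin 2 → A)).comp r

@[simp] theorem endOfMat_apply (r : Γℚ →* Matrix (Fin 2) (Fin 2) A) (σ : Γℚ) (v : Fin 2 → A) :
    endOfMat r σ v = (r σ).mulVec v := by
  simp [endOfMat, Matrix.toLinAlgEquiv'_apply]

end Basic

section Local

variable {A : Type} [CommRing A] [IsLocalRing A]

/-- adic continuity of a matrix-valued representation. -/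
def IsContMat (r : Γℚ →* Matrix (Fin 2) (Fin 2) A) : Prop :=
  ∀ n : ℕ, ∃ L : IntermediateField ℚ (AlgebraicClosure ℚ), FiniteDimensional ℚ L ∧
    ∀ σ : Γℚ, (∀ x ∈ L, σ x = x) →
      ∀ i j, r σ i j - (1 : Matrix (Fin 2) (Fin 2) A) i j ∈ IsLocalRing.maximalIdeal A ^ n

/-- The adic Galois representation on `A²` given by a continuous matrix-valued hom. -/
@[reducible] noncomputable def ofMat (r : Γℚ →* Matrix (Fin 2) (Fin 2) A) (hr : IsContMat r) :
    GaloisRepAdic A where
  V := Fin 2 → A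
  finrank_eq := by simp
  ρ := endOfMat r
  isAdicContinuous := by
    intro n
    obtain ⟨L, hL, h⟩ := hr n
    refine ⟨L, hL, fun σ hσ v => ?_⟩
    rw [mem_smul_top_pi_iff]
    intro i
    have : (endOfMat r σ v - v) i = ∑ j, (r σ i j - (1 : Matrix (Fin 2) (Fin 2) A) i j) * v j := by
      simp [Fin.sum_univ_two, Matrix.one_apply]
      fin_cases i <;> simp <;> ring
    rw [this]
    exact Ideal.sum_mem _ fun j _ => Ideal.mul_mem_right _ _ (h σ hσ i j)

end Local


section LinAlg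

variable {K : Type} [CommRing K] {V W : Type} [AddCommGroup V] [Module K V]
  [AddCommGroup W] [Module K W]

theorem equivFun_end (b : Module.Basis (Fin 2) K V) (f : Module.End K V) (x : V) :
    b.equivFun (f x) = (LinearMap.toMatrix b b f).mulVec (b.equivFun x) := by
  have := LinearMap.toMatrix_mulVec_repr b b f x
  simpa using this.symm

theorem toMatrixAlgEquiv_eq_toMatrix (b : Module.Basis (Fin 2) K V) (f : Module.End K V) :
    LinearMap.toMatrixAlgEquiv b f = LinearMap.toMatrix b b f := rfl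

/-- the linear equivalence matching two bases. -/
noncomputable def basisEquiv (b : Module.Basis (Fin 2) K V) (c : Module.Basis (Fin 2) K W) :
    V ≃ₗ[K] W := b.equivFun.trans c.equivFun.symm

theorem basisEquiv_intertwine (b : Module.Basis (Fin 2) K V) (c : Module.Basis (Fin 2) K W)
    (f : Module.End K V) (g : Module.End K W)
    (h : LinearMap.toMatrix b b f = LinearMap.toMatrix c c g) (x : V) :
    basisEquiv b c (f x) = g (basisEquiv b c x) := by
  apply c.equivFun.injective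
  rw [equivFun_end c g, ← h]
  show c.equivFun (c.equivFun.symm (b.equivFun (f x))) =
    (LinearMap.toMatrix b b f).mulVec (c.equivFun (c.equivFun.symm (b.equivFun x)))
  rw [LinearEquiv.apply_symm_apply, LinearEquiv.apply_symm_apply, equivFun_end b f]

theorem toMatrix_conj_of_intertwine (b : Module.Basis (Fin 2) K V) (c : Module.Basis (Fin 2) K W)
    (e : V ≃ₗ[K] W) (f : Module.End K V) (g : Module.End K W)
    (h : ∀ x, e (f x) = g (e x)) :
    LinearMap.toMatrix b c e.toLinearMap * LinearMap.toMatrix b b f =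
      LinearMap.toMatrix c c g * LinearMap.toMatrix b c e.toLinearMap := by
  rw [← LinearMap.toMatrix_comp, ← LinearMap.toMatrix_comp]
  congr 1
  ext x
  simpa using h x

theorem isUnit_det_toMatrix_equiv (b : Module.Basis (Fin 2) K V) (c : Module.Basis (Fin 2) K W)
    (e : V ≃ₗ[K] W) : IsUnit (LinearMap.toMatrix b c e.toLinearMap).det := by
  have h : LinearMap.toMatrix b c e.toLinearMap * LinearMap.toMatrix c b e.symm.toLinearMap = 1 := by
    rw [← LinearMap.toMatrix_comp]
    simp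
  exact Matrix.isUnit_det_of_right_inverse h

end LinAlg

section Basis

variable {A : Type} [CommRing A] [IsLocalRing A]

/-- the matrix-valued hom of `ρ` in a basis. -/
noncomputable def matOfBasis (ρ : GaloisRepAdic A) (b : Module.Basis (Fin 2) A ρ.V) :
    Γℚ →* Matrix (Fin 2) (Fin 2) A :=
  ((LinearMap.toMatrixAlgEquiv b : Module.End A ρ.V ≃ₐ[A] Matrix (Fin 2) (Fin 2) A) :
    Module.End A ρ.V →* Matrix (Fin 2) (Fin 2) A).comp ρ.ρ

theorem matOfBasis_eq_toMatrix (ρ : GaloisRepAdic A) (b : Module.Basis (Fin 2) A ρ.V) (σ : Γℚ) :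
    matOfBasis ρ b σ = LinearMap.toMatrix b b (ρ.ρ σ) := rfl

theorem matOfBasis_apply (ρ : GaloisRepAdic A) (b : Module.Basis (Fin 2) A ρ.V) (σ : Γℚ)
    (i j : Fin 2) : matOfBasis ρ b σ i j = b.repr (ρ.ρ σ (b j)) i := by
  rw [matOfBasis_eq_toMatrix, LinearMap.toMatrix_apply]

omit [IsLocalRing A] in
theorem repr_mem_of_mem_smul_top {V : Type} [AddCommGroup V] [Module A V]
    (b : Module.Basis (Fin 2) A V) (I : Ideal A) {x : V}
    (hx : x ∈ I • (⊤ : Submodule A V)) (i : Fin 2) : b.repr x i ∈ I := by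
  refine Submodule.smul_induction_on hx ?_ ?_
  · intro a ha v _
    simpa using I.mul_mem_right _ ha
  · intro x y hx hy
    simpa using I.add_mem hx hy

theorem isContMat_matOfBasis (ρ : GaloisRepAdic A) (b : Module.Basis (Fin 2) A ρ.V) :
    IsContMat (matOfBasis ρ b) := by
  intro n
  obtain ⟨L, hL, h⟩ := ρ.isAdicContinuous n
  refine ⟨L, hL, fun σ hσ i j => ?_⟩
  have := repr_mem_of_mem_smul_top b _ (h σ hσ (b j)) i
  simpa [matOfBasis_apply, Matrix.one_apply, Finsupp.single_apply, eq_comm] using this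

/-- `ρ` is equivalent to the matrix representation of its matrices in a basis. -/
noncomputable def equivOfBasis (ρ : GaloisRepAdic A) (b : Module.Basis (Fin 2) A ρ.V) :
    GaloisRepAdic.Equiv ρ (ofMat (matOfBasis ρ b) (isContMat_matOfBasis ρ b)) where
  toLinearEquiv := b.equivFun
  map_apply σ x := by
    show b.equivFun (ρ.ρ σ x) = endOfMat (matOfBasis ρ b) σ (b.equivFun x)
    rw [endOfMat_apply, matOfBasis_eq_toMatrix, equivFun_end]

theorem nonempty_basis (ρ : GaloisRepAdic A) : Nonempty (Module.Basis (Fin 2) A ρ.V) :=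
  ⟨Module.finBasisOfFinrankEq A ρ.V ρ.finrank_eq⟩

theorem exists_isEquiv_ofMat (ρ : GaloisRepAdic A) :
    ∃ (r : Γℚ →* Matrix (Fin 2) (Fin 2) A) (hr : IsContMat r), ρ.IsEquiv (ofMat r hr) := by
  obtain ⟨b⟩ := nonempty_basis ρ
  exact ⟨_, _, ⟨equivOfBasis ρ b⟩⟩

theorem ofMat_congr {r r' : Γℚ →* Matrix (Fin 2) (Fin 2) A} (h : r = r') (hr : IsContMat r)
    (hr' : IsContMat r') : ofMat r hr = ofMat r' hr' := by
  subst h; rfl

theorem matOfBasis_ofMat (r : Γℚ →* Matrix (Fin 2) (Fin 2) A) (hr : IsContMat r) :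
    matOfBasis (ofMat r hr) (Pi.basisFun A (Fin 2)) = r := by
  ext σ i j
  rw [matOfBasis_apply]
  simp

end Basis


section LinAlg2

variable {K : Type} [CommRing K] {V W : Type} [AddCommGroup V] [Module K V]
  [AddCommGroup W] [Module K W]

/-- generic: intertwining linear equivalences correspond to conjugating matrices. -/
theorem exists_equiv_iff_exists_matrix {G : Type} (b : Module.Basis (Fin 2) K V)
    (c : Module.Basis (Fin 2) K W) (f : G → Module.End K V) (g : G → Module.End K W) :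
    (∃ e : V ≃ₗ[K] W, ∀ σ x, e (f σ x) = g σ (e x)) ↔
      ∃ M : Matrix (Fin 2) (Fin 2) K, IsUnit M.det ∧
        ∀ σ, M * LinearMap.toMatrix b b (f σ) = LinearMap.toMatrix c c (g σ) * M := by
  constructor
  · rintro ⟨e, he⟩
    exact ⟨LinearMap.toMatrix b c e.toLinearMap, isUnit_det_toMatrix_equiv b c e,
      fun σ => toMatrix_conj_of_intertwine b c e (f σ) (g σ) (he σ)⟩
  · rintro ⟨M, hM, h⟩
    let e' : (Fin 2 → K) ≃ₗ[K] (Fin 2 → K) :=
      Matrix.toLinearEquiv' M (Matrix.invertibleOfIsUnitDet M hM)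
    have he' : ∀ v, e' v = M.mulVec v := fun v => by
      show (Matrix.toLin' M) v = M.mulVec v
      rw [Matrix.toLin'_apply]
    refine ⟨(b.equivFun.trans e').trans c.equivFun.symm, fun σ x => ?_⟩
    apply c.equivFun.injective
    rw [equivFun_end c (g σ)]
    simp only [LinearEquiv.trans_apply, LinearEquiv.apply_symm_apply, he', equivFun_end b (f σ),
      Matrix.mulVec_mulVec, h σ]

end LinAlg2

section Conj

variable {A : Type} [CommRing A] [IsLocalRing A]

/-- (A3, basis form) equivalence of adic representations = conjugacy of their matrices. -/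
theorem isEquiv_iff_of_bases (ρ ρ' : GaloisRepAdic A) (b : Module.Basis (Fin 2) A ρ.V)
    (b' : Module.Basis (Fin 2) A ρ'.V) :
    ρ.IsEquiv ρ' ↔ ∃ M : Matrix (Fin 2) (Fin 2) A, IsUnit M.det ∧
      ∀ σ, M * matOfBasis ρ b σ = matOfBasis ρ' b' σ * M := by
  refine Iff.trans ?_ (exists_equiv_iff_exists_matrix b b' (fun σ => ρ.ρ σ) (fun σ => ρ'.ρ σ))
  constructor
  · rintro ⟨e⟩
    exact ⟨e.toLinearEquiv, e.map_apply⟩
  · rintro ⟨e, he⟩
    exact ⟨⟨e, he⟩⟩

/-- (A3) `ofMat r ≅ ofMat r'` iff `r`, `r'` are conjugate by an invertible matrix. -/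
theorem isEquiv_ofMat_iff (r r' : Γℚ →* Matrix (Fin 2) (Fin 2) A) (hr : IsContMat r)
    (hr' : IsContMat r') :
    (ofMat r hr).IsEquiv (ofMat r' hr') ↔ ∃ M : Matrix (Fin 2) (Fin 2) A, IsUnit M.det ∧
      ∀ σ, M * r σ = r' σ * M := by
  rw [isEquiv_iff_of_bases (ofMat r hr) (ofMat r' hr') (Pi.basisFun A (Fin 2))
    (Pi.basisFun A (Fin 2)), matOfBasis_ofMat, matOfBasis_ofMat]

/-- representations with equal matrices in some bases are equivalent. -/
theorem isEquiv_of_matOfBasis_eq (ρ ρ' : GaloisRepAdic A) (b : Module.Basis (Fin 2) A ρ.V)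
    (b' : Module.Basis (Fin 2) A ρ'.V) (h : matOfBasis ρ b = matOfBasis ρ' b') :
    ρ.IsEquiv ρ' :=
  (isEquiv_iff_of_bases ρ ρ' b b').2 ⟨1, by simp, fun σ => by rw [h, one_mul, mul_one]⟩

theorem isEquiv_ofMat_of_matOfBasis_eq (ρ : GaloisRepAdic A) (b : Module.Basis (Fin 2) A ρ.V)
    (r : Γℚ →* Matrix (Fin 2) (Fin 2) A) (hr : IsContMat r) (h : matOfBasis ρ b = r) :
    ρ.IsEquiv (ofMat r hr) :=
  isEquiv_of_matOfBasis_eq ρ (ofMat r hr) b (Pi.basisFun A (Fin 2))
    (by rw [matOfBasis_ofMat, h])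

end Conj


section MapMat

variable {A B C : Type} [CommRing A] [CommRing B] [CommRing C]

/-- entrywise image of a matrix-valued hom under a ring hom. -/
noncomputable def mapMat (φ : A →+* B) (r : Γℚ →* Matrix (Fin 2) (Fin 2) A) :
    Γℚ →* Matrix (Fin 2) (Fin 2) B :=
  (φ.mapMatrix : Matrix (Fin 2) (Fin 2) A →+* Matrix (Fin 2) (Fin 2) B).toMonoidHom.comp r

@[simp] theorem mapMat_apply (φ : A →+* B) (r : Γℚ →* Matrix (Fin 2) (Fin 2) A) (σ : Γℚ)
    (i j : Fin 2) : mapMat φ r σ i j = φ (r σ i j) := rfl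

theorem mapMat_apply' (φ : A →+* B) (r : Γℚ →* Matrix (Fin 2) (Fin 2) A) (σ : Γℚ) :
    mapMat φ r σ = (r σ).map φ := rfl

theorem mapMat_comp (ψ : B →+* C) (φ : A →+* B) (r : Γℚ →* Matrix (Fin 2) (Fin 2) A) :
    mapMat (ψ.comp φ) r = mapMat ψ (mapMat φ r) := by
  ext σ i j; rfl

theorem mapMat_id (r : Γℚ →* Matrix (Fin 2) (Fin 2) A) : mapMat (RingHom.id A) r = r := by
  ext σ i j; rfl

end MapMat

section BaseChange

variable {A B : Type} [CommRing A] [IsLocalRing A] [CommRing B] [IsLocalRing B]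

theorem IsContMat.map {r : Γℚ →* Matrix (Fin 2) (Fin 2) A} (hr : IsContMat r) (φ : A →+* B)
    (hφ : IsLocalHom φ) : IsContMat (mapMat φ r) := by
  intro n
  obtain ⟨L, hL, h⟩ := hr n
  refine ⟨L, hL, fun σ hσ i j => ?_⟩
  have hmap : (IsLocalRing.maximalIdeal A ^ n).map φ ≤ IsLocalRing.maximalIdeal B ^ n := by
    rw [Ideal.map_pow]
    exact Ideal.pow_right_mono (Ideal.map_le_iff_le_comap.mpr fun a ha =>
      Ideal.mem_comap.mpr (haveI := hφ; map_nonunit φ a ha)) n
  have h1 := hmap (Ideal.mem_map_of_mem φ (h σ hσ i j))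
  have h2 : φ (r σ i j - (1 : Matrix (Fin 2) (Fin 2) A) i j) =
      mapMat φ r σ i j - (1 : Matrix (Fin 2) (Fin 2) B) i j := by
    rw [map_sub, mapMat_apply, Matrix.one_apply, Matrix.one_apply]
    split_ifs <;> simp
  rwa [h2] at h1

/-- the basis `1 ⊗ b` of a base change. -/
noncomputable def baseChangeBasis (φ : A →+* B) (hφ : IsLocalHom φ) (ρ : GaloisRepAdic A)
    (b : Module.Basis (Fin 2) A ρ.V) : Module.Basis (Fin 2) B (ρ.baseChangeAlong φ hφ).V :=
  letI : Algebra A B := φ.toAlgebra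
  Algebra.TensorProduct.basis B b

/-- (A4, basis form) matrices of a base change are the entrywise images. -/
theorem matOfBasis_baseChangeAlong (φ : A →+* B) (hφ : IsLocalHom φ) (ρ : GaloisRepAdic A)
    (b : Module.Basis (Fin 2) A ρ.V) :
    matOfBasis (ρ.baseChangeAlong φ hφ) (baseChangeBasis φ hφ ρ b) = mapMat φ (matOfBasis ρ b) := by
  let _ : Algebra A B := φ.toAlgebra
  ext σ : 1
  rw [matOfBasis_eq_toMatrix, mapMat_apply', matOfBasis_eq_toMatrix]
  exact LinearMap.toMatrix_baseChange B (ρ.ρ σ) b b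

theorem baseChangeAlong_isEquiv_ofMat (φ : A →+* B) (hφ : IsLocalHom φ) (ρ : GaloisRepAdic A)
    (b : Module.Basis (Fin 2) A ρ.V) :
    (ρ.baseChangeAlong φ hφ).IsEquiv
      (ofMat (mapMat φ (matOfBasis ρ b)) ((isContMat_matOfBasis ρ b).map φ hφ)) :=
  isEquiv_ofMat_of_matOfBasis_eq _ (baseChangeBasis φ hφ ρ b) _ _
    (matOfBasis_baseChangeAlong φ hφ ρ b)

/-- (A4) base change of `ofMat r` is `ofMat` of the entrywise image. -/
theorem baseChangeAlong_ofMat_isEquiv (φ : A →+* B) (hφ : IsLocalHom φ)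
    (r : Γℚ →* Matrix (Fin 2) (Fin 2) A) (hr : IsContMat r) :
    ((ofMat r hr).baseChangeAlong φ hφ).IsEquiv (ofMat (mapMat φ r) (hr.map φ hφ)) :=
  isEquiv_ofMat_of_matOfBasis_eq _ (baseChangeBasis φ hφ (ofMat r hr) (Pi.basisFun A (Fin 2))) _ _
    (by rw [matOfBasis_baseChangeAlong, matOfBasis_ofMat])

end BaseChange


section Residual

variable {k : Type} [Field k]

/-- The residual representation on `k²` given by a matrix-valued hom of finite level. -/
@[reducible] noncomputable def ofMatRes (r : Γℚ →* Matrix (Fin 2) (Fin 2) k)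
    (hr : GaloisFactorsThroughFiniteLevel r) : ResidualGaloisRep k where
  V := Fin 2 → k
  finrank_eq := by simp
  ρ := endOfMat r
  factorsThroughFiniteLevel := by
    obtain ⟨L, hL, h⟩ := hr
    refine ⟨L, hL, fun σ hσ => ?_⟩
    refine LinearMap.ext fun v => ?_
    rw [endOfMat_apply, h σ hσ, Matrix.one_mulVec, Module.End.one_apply]

/-- the matrix-valued hom of a residual representation in a basis. -/
noncomputable def matOfBasisRes (ρ : ResidualGaloisRep k) (b : Module.Basis (Fin 2) k ρ.V) :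
    Γℚ →* Matrix (Fin 2) (Fin 2) k :=
  ((LinearMap.toMatrixAlgEquiv b : Module.End k ρ.V ≃ₐ[k] Matrix (Fin 2) (Fin 2) k) :
    Module.End k ρ.V →* Matrix (Fin 2) (Fin 2) k).comp ρ.ρ

theorem matOfBasisRes_eq_toMatrix (ρ : ResidualGaloisRep k) (b : Module.Basis (Fin 2) k ρ.V)
    (σ : Γℚ) : matOfBasisRes ρ b σ = LinearMap.toMatrix b b (ρ.ρ σ) := rfl

theorem factors_matOfBasisRes (ρ : ResidualGaloisRep k) (b : Module.Basis (Fin 2) k ρ.V) :
    GaloisFactorsThroughFiniteLevel (matOfBasisRes ρ b) := by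
  obtain ⟨L, hL, h⟩ := ρ.factorsThroughFiniteLevel
  exact ⟨L, hL, fun σ hσ => by
    rw [matOfBasisRes_eq_toMatrix, h σ hσ]; exact LinearMap.toMatrix_one b⟩

/-- a residual representation is equivalent to the matrix representation in a basis. -/
noncomputable def equivOfBasisRes (ρ : ResidualGaloisRep k) (b : Module.Basis (Fin 2) k ρ.V) :
    ResidualGaloisRep.Equiv ρ (ofMatRes (matOfBasisRes ρ b) (factors_matOfBasisRes ρ b)) where
  toLinearEquiv := b.equivFun
  map_apply σ x := by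
    show b.equivFun (ρ.ρ σ x) = endOfMat (matOfBasisRes ρ b) σ (b.equivFun x)
    rw [endOfMat_apply, matOfBasisRes_eq_toMatrix, equivFun_end]

theorem nonempty_basisRes (ρ : ResidualGaloisRep k) : Nonempty (Module.Basis (Fin 2) k ρ.V) :=
  ⟨Module.finBasisOfFinrankEq k ρ.V ρ.finrank_eq⟩

theorem matOfBasisRes_ofMatRes (r : Γℚ →* Matrix (Fin 2) (Fin 2) k)
    (hr : GaloisFactorsThroughFiniteLevel r) :
    matOfBasisRes (ofMatRes r hr) (Pi.basisFun k (Fin 2)) = r := by
  ext σ i j
  rw [matOfBasisRes_eq_toMatrix, LinearMap.toMatrix_apply]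
  simp

/-- equivalence of residual representations = conjugacy of their matrices. -/
theorem isEquivRes_iff_of_bases (ρ ρ' : ResidualGaloisRep k) (b : Module.Basis (Fin 2) k ρ.V)
    (b' : Module.Basis (Fin 2) k ρ'.V) :
    ρ.IsEquiv ρ' ↔ ∃ M : Matrix (Fin 2) (Fin 2) k, IsUnit M.det ∧
      ∀ σ, M * matOfBasisRes ρ b σ = matOfBasisRes ρ' b' σ * M := by
  refine Iff.trans ?_ (exists_equiv_iff_exists_matrix b b' (fun σ => ρ.ρ σ) (fun σ => ρ'.ρ σ))
  constructor
  · rintro ⟨e⟩
    exact ⟨e.toLinearEquiv, e.map_apply⟩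
  · rintro ⟨e, he⟩
    exact ⟨⟨e, he⟩⟩

theorem isEquivRes_of_matOfBasisRes_eq (ρ ρ' : ResidualGaloisRep k)
    (b : Module.Basis (Fin 2) k ρ.V) (b' : Module.Basis (Fin 2) k ρ'.V)
    (h : matOfBasisRes ρ b = matOfBasisRes ρ' b') : ρ.IsEquiv ρ' :=
  (isEquivRes_iff_of_bases ρ ρ' b b').2 ⟨1, by simp, fun σ => by rw [h, one_mul, mul_one]⟩

/-- the basis `1 ⊗ b` of a base change of a residual representation. -/
noncomputable def baseChangeBasisRes {k' : Type} [Field k'] (ψ : k →+* k')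
    (ρ : ResidualGaloisRep k) (b : Module.Basis (Fin 2) k ρ.V) :
    Module.Basis (Fin 2) k' (ρ.baseChangeAlong ψ).V :=
  letI : Algebra k k' := ψ.toAlgebra
  Algebra.TensorProduct.basis k' b

theorem matOfBasisRes_baseChangeAlong {k' : Type} [Field k'] (ψ : k →+* k')
    (ρ : ResidualGaloisRep k) (b : Module.Basis (Fin 2) k ρ.V) :
    matOfBasisRes (ρ.baseChangeAlong ψ) (baseChangeBasisRes ψ ρ b) =
      mapMat ψ (matOfBasisRes ρ b) := by
  let _ : Algebra k k' := ψ.toAlgebra
  ext σ : 1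
  rw [matOfBasisRes_eq_toMatrix, mapMat_apply', matOfBasisRes_eq_toMatrix]
  exact LinearMap.toMatrix_baseChange k' (ρ.ρ σ) b b

end Residual

section ResidualAdic

variable {A : Type} [CommRing A] [IsLocalRing A]

/-- the basis `1 ⊗ b` of the residual representation. -/
noncomputable def residualBasis (ρ : GaloisRepAdic A) (b : Module.Basis (Fin 2) A ρ.V) :
    Module.Basis (Fin 2) (IsLocalRing.ResidueField A) ρ.residual.V :=
  Algebra.TensorProduct.basis (IsLocalRing.ResidueField A) b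

theorem residualBasis_apply (ρ : GaloisRepAdic A) (b : Module.Basis (Fin 2) A ρ.V) (i : Fin 2) :
    residualBasis ρ b i = (1 : IsLocalRing.ResidueField A) ⊗ₜ[A] b i :=
  Algebra.TensorProduct.basis_apply b i

theorem matOfBasisRes_residual (ρ : GaloisRepAdic A) (b : Module.Basis (Fin 2) A ρ.V) :
    matOfBasisRes ρ.residual (residualBasis ρ b) =
      mapMat (IsLocalRing.residue A) (matOfBasis ρ b) := by
  ext σ : 1
  rw [matOfBasisRes_eq_toMatrix, mapMat_apply', matOfBasis_eq_toMatrix]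
  exact LinearMap.toMatrix_baseChange (IsLocalRing.ResidueField A) (ρ.ρ σ) b b

variable {k : Type} [Field k]

/-- (T2, basis form) if the matrices of `ρ` reduce to those of `ρbar` (pushed along `ψ`),
the residual representation of `ρ` is equivalent to the base change of `ρbar`. -/
theorem residual_isEquiv_of_mapMat_eq (ψ : k →+* IsLocalRing.ResidueField A)
    (ρbar : ResidualGaloisRep k) (b0 : Module.Basis (Fin 2) k ρbar.V)
    (ρ : GaloisRepAdic A) (b : Module.Basis (Fin 2) A ρ.V)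
    (h : mapMat (IsLocalRing.residue A) (matOfBasis ρ b) = mapMat ψ (matOfBasisRes ρbar b0)) :
    ρ.residual.IsEquiv (ρbar.baseChangeAlong ψ) :=
  isEquivRes_of_matOfBasisRes_eq _ _ (residualBasis ρ b) (baseChangeBasisRes ψ ρbar b0)
    (by rw [matOfBasisRes_residual, matOfBasisRes_baseChangeAlong, h])

/-- (T2) residual representation of `ofMat r`. -/
theorem residual_ofMat_isEquiv (ψ : k →+* IsLocalRing.ResidueField A)
    (ρbar : ResidualGaloisRep k) (b0 : Module.Basis (Fin 2) k ρbar.V)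
    (r : Γℚ →* Matrix (Fin 2) (Fin 2) A) (hr : IsContMat r)
    (h : mapMat (IsLocalRing.residue A) r = mapMat ψ (matOfBasisRes ρbar b0)) :
    (ofMat r hr).residual.IsEquiv (ρbar.baseChangeAlong ψ) :=
  residual_isEquiv_of_mapMat_eq ψ ρbar b0 (ofMat r hr) (Pi.basisFun A (Fin 2))
    (by rw [matOfBasis_ofMat, h])

end ResidualAdic


section Nakayama

variable {A : Type} [CommRing A] [IsLocalRing A]

/-- Nakayama: every basis of the residual module lifts to a basis. -/
theorem exists_basis_lift {V : Type} [AddCommGroup V] [Module A V] [Module.Free A V]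
    [Module.Finite A V]
    (bbar : Module.Basis (Fin 2) (IsLocalRing.ResidueField A) (IsLocalRing.ResidueField A ⊗[A] V)) :
    ∃ b : Module.Basis (Fin 2) A V, ∀ i, (1 : IsLocalRing.ResidueField A) ⊗ₜ[A] b i = bbar i := by
  have hsurj : Function.Surjective (TensorProduct.mk A (IsLocalRing.ResidueField A) V 1) :=
    TensorProduct.mk_surjective A V (IsLocalRing.ResidueField A) Ideal.Quotient.mk_surjective
  choose v hv using fun i => hsurj (bbar i)
  have hcomp : (TensorProduct.mk A (IsLocalRing.ResidueField A) V 1 ∘ v) = bbar := by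
    funext i; exact hv i
  have hbij : Function.Bijective (Finsupp.linearCombination (IsLocalRing.ResidueField A)
      (TensorProduct.mk A (IsLocalRing.ResidueField A) V 1 ∘ v)) := by
    rw [hcomp, ← Module.Basis.coe_repr_symm]
    exact bbar.repr.symm.bijective
  have h := Module.IsLocalRing.linearCombination_bijective_of_flat v hbij
  have hli : LinearIndependent A v := h.1
  have hsp : ⊤ ≤ Submodule.span A (Set.range v) := by
    rw [← Finsupp.range_linearCombination, LinearMap.range_eq_top.mpr h.2]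
  refine ⟨Module.Basis.mk hli hsp, fun i => ?_⟩
  rw [Module.Basis.mk_apply]
  exact hv i

variable {k : Type} [Field k]

/-- (T1, basis form) a representation whose residual representation is `ρbar` (pushed along
`ψ`) has a basis in which its matrices reduce to those of `ρbar` in the basis `b0`. -/
theorem exists_basis_of_residual_isEquiv (ψ : k →+* IsLocalRing.ResidueField A)
    (ρbar : ResidualGaloisRep k) (b0 : Module.Basis (Fin 2) k ρbar.V)
    (ρ : GaloisRepAdic A) (h : ρ.residual.IsEquiv (ρbar.baseChangeAlong ψ)) :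
    ∃ b : Module.Basis (Fin 2) A ρ.V,
      mapMat (IsLocalRing.residue A) (matOfBasis ρ b) = mapMat ψ (matOfBasisRes ρbar b0) := by
  obtain ⟨e⟩ := h
  let c := baseChangeBasisRes ψ ρbar b0
  let bbar : Module.Basis (Fin 2) (IsLocalRing.ResidueField A) ρ.residual.V :=
    c.map e.toLinearEquiv.symm
  obtain ⟨b, hb⟩ := exists_basis_lift (V := ρ.V) bbar
  refine ⟨b, ?_⟩
  have hbb : residualBasis ρ b = bbar := by
    apply Module.Basis.eq_of_apply_eq
    intro i
    rw [residualBasis_apply]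
    exact hb i
  rw [← matOfBasisRes_residual, hbb, ← matOfBasisRes_baseChangeAlong]
  ext σ i j
  rw [matOfBasisRes_eq_toMatrix, matOfBasisRes_eq_toMatrix, LinearMap.toMatrix_apply,
    LinearMap.toMatrix_apply]
  show (c.map e.toLinearEquiv.symm).repr (ρ.residual.ρ σ ((c.map e.toLinearEquiv.symm) j)) i = _
  rw [Module.Basis.map_repr, Module.Basis.map_apply, LinearEquiv.trans_apply,
    LinearEquiv.symm_symm, e.map_apply, LinearEquiv.apply_symm_apply]

/-- (T1) a representation whose residual representation is `ρbar` (pushed along `ψ`) is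
equivalent to `ofMat r` with `r` reducing entrywise to the matrices of `ρbar` in `b0`. -/
theorem exists_ofMat_of_residual_isEquiv (ψ : k →+* IsLocalRing.ResidueField A)
    (ρbar : ResidualGaloisRep k) (b0 : Module.Basis (Fin 2) k ρbar.V)
    (ρ : GaloisRepAdic A) (h : ρ.residual.IsEquiv (ρbar.baseChangeAlong ψ)) :
    ∃ (r : Γℚ →* Matrix (Fin 2) (Fin 2) A) (hr : IsContMat r), ρ.IsEquiv (ofMat r hr) ∧
      mapMat (IsLocalRing.residue A) r = mapMat ψ (matOfBasisRes ρbar b0) := by
  obtain ⟨b, hb⟩ := exists_basis_of_residual_isEquiv ψ ρbar b0 ρ h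
  exact ⟨matOfBasis ρ b, isContMat_matOfBasis ρ b, ⟨equivOfBasis ρ b⟩, hb⟩

end Nakayama


section Factors

/-- two finite-level homs factor through a common finite level. -/
theorem factors_both {M N : Type} [MulOneClass M] [MulOneClass N] {r : Γℚ →* M} {r' : Γℚ →* N}
    (h : GaloisFactorsThroughFiniteLevel r) (h' : GaloisFactorsThroughFiniteLevel r') :
    ∃ L : IntermediateField ℚ (AlgebraicClosure ℚ), FiniteDimensional ℚ L ∧
      ∀ σ : Γℚ, (∀ x ∈ L, σ x = x) → r σ = 1 ∧ r' σ = 1 := by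
  obtain ⟨L, hL, h⟩ := h
  obtain ⟨L', hL', h'⟩ := h'
  refine ⟨L ⊔ L', IntermediateField.finiteDimensional_sup L L', fun σ hσ => ⟨?_, ?_⟩⟩
  · exact h σ fun x hx => hσ x ((le_sup_left : L ≤ L ⊔ L') hx)
  · exact h' σ fun x hx => hσ x ((le_sup_right : L' ≤ L ⊔ L') hx)

variable {A B : Type} [CommRing A] [CommRing B]

theorem factors_mapMat (φ : A →+* B) {r : Γℚ →* Matrix (Fin 2) (Fin 2) A}
    (h : GaloisFactorsThroughFiniteLevel r) : GaloisFactorsThroughFiniteLevel (mapMat φ r) := by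
  obtain ⟨L, hL, h⟩ := h
  refine ⟨L, hL, fun σ hσ => ?_⟩
  rw [mapMat_apply', h σ hσ]
  exact (φ.mapMatrix : Matrix (Fin 2) (Fin 2) A →+* Matrix (Fin 2) (Fin 2) B).map_one

theorem mapMat_eq_one_iff_of_injective (φ : A →+* B) (hφ : Function.Injective φ)
    (r : Γℚ →* Matrix (Fin 2) (Fin 2) A) (σ : Γℚ) : mapMat φ r σ = 1 ↔ r σ = 1 := by
  have h1 : ((1 : Matrix (Fin 2) (Fin 2) A).map φ) = (1 : Matrix (Fin 2) (Fin 2) B) :=
    (φ.mapMatrix : Matrix (Fin 2) (Fin 2) A →+* Matrix (Fin 2) (Fin 2) B).map_one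
  rw [mapMat_apply', ← h1]
  exact (Matrix.map_injective hφ).eq_iff

theorem factors_of_mapMat_injective (φ : A →+* B) (hφ : Function.Injective φ)
    {r : Γℚ →* Matrix (Fin 2) (Fin 2) A}
    (h : GaloisFactorsThroughFiniteLevel (mapMat φ r)) : GaloisFactorsThroughFiniteLevel r := by
  obtain ⟨L, hL, h⟩ := h
  exact ⟨L, hL, fun σ hσ => (mapMat_eq_one_iff_of_injective φ hφ r σ).1 (h σ hσ)⟩

end Factors

section Continuity

variable {A : Type} [CommRing A] [IsLocalRing A]

theorem isContMat_of_factors {r : Γℚ →* Matrix (Fin 2) (Fin 2) A}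
    (h : GaloisFactorsThroughFiniteLevel r) : IsContMat r := by
  obtain ⟨L, hL, h⟩ := h
  exact fun n => ⟨L, hL, fun σ hσ i j => by rw [h σ hσ, sub_self]; exact Ideal.zero_mem _⟩

theorem factors_of_isContMat_of_pow_eq_bot {r : Γℚ →* Matrix (Fin 2) (Fin 2) A}
    (hr : IsContMat r) {n : ℕ} (hn : IsLocalRing.maximalIdeal A ^ n = ⊥) :
    GaloisFactorsThroughFiniteLevel r := by
  obtain ⟨L, hL, h⟩ := hr n
  refine ⟨L, hL, fun σ hσ => ?_⟩
  ext i j
  have := h σ hσ i j
  rw [hn, Ideal.mem_bot, sub_eq_zero] at this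
  exact this

/-- (A5) over a ring with nilpotent maximal ideal, continuity = finite level. -/
theorem isContMat_iff_factors_of_pow_eq_bot (r : Γℚ →* Matrix (Fin 2) (Fin 2) A) {n : ℕ}
    (hn : IsLocalRing.maximalIdeal A ^ n = ⊥) :
    IsContMat r ↔ GaloisFactorsThroughFiniteLevel r :=
  ⟨fun h => factors_of_isContMat_of_pow_eq_bot h hn, isContMat_of_factors⟩

/-- (A5) over an Artinian local ring, continuity = finite level. -/
theorem isContMat_iff_factors_of_isArtinianRing [IsArtinianRing A]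
    (r : Γℚ →* Matrix (Fin 2) (Fin 2) A) :
    IsContMat r ↔ GaloisFactorsThroughFiniteLevel r := by
  have h : IsNilpotent (IsLocalRing.maximalIdeal A) := by
    have := IsArtinianRing.isNilpotent_jacobson_bot (R := A)
    rwa [IsLocalRing.jacobson_eq_maximalIdeal (⊥ : Ideal A) bot_ne_top] at this
  obtain ⟨n, hn⟩ := h
  exact isContMat_iff_factors_of_pow_eq_bot r hn

/-- continuity can be checked on quotients `q n` whose kernels lie in `𝔪 ^ n`. -/
theorem isContMat_of_forall_factors {r : Γℚ →* Matrix (Fin 2) (Fin 2) A} {B : ℕ → Type}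
    [∀ n, CommRing (B n)] (q : ∀ n, A →+* B n)
    (hq : ∀ n, RingHom.ker (q n) ≤ IsLocalRing.maximalIdeal A ^ n)
    (h : ∀ n, GaloisFactorsThroughFiniteLevel (mapMat (q n) r)) : IsContMat r := by
  intro n
  obtain ⟨L, hL, hL'⟩ := h n
  refine ⟨L, hL, fun σ hσ i j => hq n ?_⟩
  have h1 := congrFun (congrFun (hL' σ hσ) i) j
  rw [mapMat_apply] at h1
  rw [RingHom.mem_ker, map_sub, h1, Matrix.one_apply, Matrix.one_apply]
  split_ifs <;> simp

theorem isContMat_iff_forall_factors_quotient (r : Γℚ →* Matrix (Fin 2) (Fin 2) A) :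
    IsContMat r ↔ ∀ n, GaloisFactorsThroughFiniteLevel
      (mapMat (Ideal.Quotient.mk (IsLocalRing.maximalIdeal A ^ n)) r) := by
  constructor
  · intro hr n
    obtain ⟨L, hL, h⟩ := hr n
    refine ⟨L, hL, fun σ hσ => ?_⟩
    ext i j
    rw [mapMat_apply, Matrix.one_apply]
    have h1 := h σ hσ i j
    rw [← Ideal.Quotient.eq, Matrix.one_apply] at h1
    rw [h1]
    split_ifs <;> simp
  · intro h
    exact isContMat_of_forall_factors (fun n => Ideal.Quotient.mk (IsLocalRing.maximalIdeal A ^ n))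
      (fun n => by rw [Ideal.mk_ker]) h

end Continuity

section EquivMisc

variable {A B C : Type} [CommRing A] [IsLocalRing A] [CommRing B] [IsLocalRing B]
  [CommRing C] [IsLocalRing C]

theorem isEquiv_refl (ρ : GaloisRepAdic A) : ρ.IsEquiv ρ := ⟨GaloisRepAdic.Equiv.refl ρ⟩

theorem isEquiv_symm {ρ ρ' : GaloisRepAdic A} (h : ρ.IsEquiv ρ') : ρ'.IsEquiv ρ :=
  h.elim fun e => ⟨e.symm⟩

theorem isEquiv_trans {ρ ρ' ρ'' : GaloisRepAdic A} (h : ρ.IsEquiv ρ') (h' : ρ'.IsEquiv ρ'') :
    ρ.IsEquiv ρ'' :=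
  h.elim fun e => h'.elim fun e' => ⟨e.trans e'⟩

theorem isEquiv_baseChangeAlong (φ : A →+* B) (hφ : IsLocalHom φ) {ρ ρ' : GaloisRepAdic A}
    (h : ρ.IsEquiv ρ') : (ρ.baseChangeAlong φ hφ).IsEquiv (ρ'.baseChangeAlong φ hφ) :=
  h.elim fun e => ⟨e.baseChangeAlong φ hφ⟩

theorem isEquiv_residual {ρ ρ' : GaloisRepAdic A} (h : ρ.IsEquiv ρ') :
    ρ.residual.IsEquiv ρ'.residual :=
  h.elim fun e => ⟨e.residual⟩

theorem isEquivRes_refl {k : Type} [Field k] (ρ : ResidualGaloisRep k) : ρ.IsEquiv ρ :=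
  ⟨ResidualGaloisRep.Equiv.refl ρ⟩

theorem isEquivRes_symm {k : Type} [Field k] {ρ ρ' : ResidualGaloisRep k} (h : ρ.IsEquiv ρ') :
    ρ'.IsEquiv ρ :=
  h.elim fun e => ⟨e.symm⟩

theorem isEquivRes_trans {k : Type} [Field k] {ρ ρ' ρ'' : ResidualGaloisRep k}
    (h : ρ.IsEquiv ρ') (h' : ρ'.IsEquiv ρ'') : ρ.IsEquiv ρ'' :=
  h.elim fun e => h'.elim fun e' => ⟨e.trans e'⟩

/-- base change is compatible with composition, up to equivalence. -/
theorem baseChangeAlong_comp_isEquiv (φ : A →+* B) (hφ : IsLocalHom φ) (ψ : B →+* C)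
    (hψ : IsLocalHom ψ) (hψφ : IsLocalHom (ψ.comp φ)) (ρ : GaloisRepAdic A) :
    ((ρ.baseChangeAlong φ hφ).baseChangeAlong ψ hψ).IsEquiv (ρ.baseChangeAlong (ψ.comp φ) hψφ) := by
  obtain ⟨b⟩ := nonempty_basis ρ
  refine isEquiv_of_matOfBasis_eq _ _
    (baseChangeBasis ψ hψ _ (baseChangeBasis φ hφ ρ b)) (baseChangeBasis (ψ.comp φ) hψφ ρ b) ?_
  rw [matOfBasis_baseChangeAlong, matOfBasis_baseChangeAlong, matOfBasis_baseChangeAlong,
    mapMat_comp]

theorem baseChangeAlong_id_isEquiv (h : IsLocalHom (RingHom.id A)) (ρ : GaloisRepAdic A) :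
    (ρ.baseChangeAlong (RingHom.id A) h).IsEquiv ρ := by
  obtain ⟨b⟩ := nonempty_basis ρ
  refine isEquiv_of_matOfBasis_eq _ _ (baseChangeBasis (RingHom.id A) h ρ b) b ?_
  rw [matOfBasis_baseChangeAlong, mapMat_id]

/-- base changes along equal ring homs are equivalent. -/
theorem baseChangeAlong_congr_isEquiv {φ φ' : A →+* B} (h : φ = φ') (hφ : IsLocalHom φ)
    (hφ' : IsLocalHom φ') (ρ : GaloisRepAdic A) :
    (ρ.baseChangeAlong φ hφ).IsEquiv (ρ.baseChangeAlong φ' hφ') := by
  subst h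
  exact isEquiv_refl _

end EquivMisc

section FieldCase

variable {k : Type} [Field k]

theorem matOfBasis_ofResidualGaloisRep (ρbar : ResidualGaloisRep k)
    (b0 : Module.Basis (Fin 2) k ρbar.V) :
    matOfBasis (GaloisRepAdic.ofResidualGaloisRep ρbar) b0 = matOfBasisRes ρbar b0 := rfl

/-- `ofResidualGaloisRep ρbar` is the matrix representation of `ρbar` in a basis. -/
theorem ofResidualGaloisRep_isEquiv_ofMat (ρbar : ResidualGaloisRep k)
    (b0 : Module.Basis (Fin 2) k ρbar.V) :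
    (GaloisRepAdic.ofResidualGaloisRep ρbar).IsEquiv
      (ofMat (matOfBasisRes ρbar b0) (isContMat_of_factors (factors_matOfBasisRes ρbar b0))) :=
  isEquiv_ofMat_of_matOfBasis_eq (GaloisRepAdic.ofResidualGaloisRep ρbar) b0
    (matOfBasisRes ρbar b0) (isContMat_of_factors (factors_matOfBasisRes ρbar b0))
    (matOfBasis_ofResidualGaloisRep ρbar b0)

end FieldCase

end Fermat.Agent.S53.MatRep
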