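import Mathlib
import Fermat.Prelude.Def_GaloisRep_Adic

set_option autoImplicit false

namespace Fermat.Agent.S53.ResidualMat

open scoped TensorProduct
open IsLocalRing

section Generic

variable {R : Type*} [CommRing R] {V₁ V₂ : Type*} [AddCommGroup V₁] [Module R V₁]
  [AddCommGroup V₂] [Module R V₂] {ι : Type*} [Fintype ι]

/-- The linear equivalence matching two bases indexed by the same type. -/
noncomputable def basisEquiv (c₁ : Module.Basis ι R V₁) (c₂ : Module.Basis ι R V₂) :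
    V₁ ≃ₗ[R] V₂ :=
  c₁.equivFun.trans c₂.equivFun.symm

theorem equivFun_basisEquiv (c₁ : Module.Basis ι R V₁) (c₂ : Module.Basis ι R V₂) (x : V₁) :
    c₂.equivFun (basisEquiv c₁ c₂ x) = c₁.equivFun x := by
  rw [basisEquiv, LinearEquiv.trans_apply, LinearEquiv.apply_symm_apply]

theorem basisEquiv_apply_basis [DecidableEq ι] (c₁ : Module.Basis ι R V₁)
    (c₂ : Module.Basis ι R V₂) (i : ι) :
    basisEquiv c₁ c₂ (c₁ i) = c₂ i := by
  apply c₂.equivFun.injective
  rw [equivFun_basisEquiv]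
  funext j
  rw [Module.Basis.equivFun_self, Module.Basis.equivFun_self]

/-- If two endomorphisms have the same matrix in two bases, the basis-matching equivalence
intertwines them. -/
theorem basisEquiv_comm [DecidableEq ι] (c₁ : Module.Basis ι R V₁) (c₂ : Module.Basis ι R V₂)
    (f₁ : V₁ →ₗ[R] V₁) (f₂ : V₂ →ₗ[R] V₂)
    (h : LinearMap.toMatrix c₁ c₁ f₁ = LinearMap.toMatrix c₂ c₂ f₂) (x : V₁) :
    basisEquiv c₁ c₂ (f₁ x) = f₂ (basisEquiv c₁ c₂ x) := by
  apply c₂.equivFun.injective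
  rw [equivFun_basisEquiv, Module.Basis.equivFun_apply, Module.Basis.equivFun_apply,
    ← LinearMap.toMatrix_mulVec_repr c₁ c₁ f₁ x, ← LinearMap.toMatrix_mulVec_repr c₂ c₂ f₂, h,
    ← Module.Basis.equivFun_apply, ← Module.Basis.equivFun_apply, equivFun_basisEquiv]

/-- Transporting a basis along an intertwining equivalence preserves matrices. -/
theorem toMatrix_map_of_comm [DecidableEq ι] (c₁ : Module.Basis ι R V₁) (e : V₁ ≃ₗ[R] V₂)
    (f₁ : V₁ →ₗ[R] V₁) (f₂ : V₂ →ₗ[R] V₂) (h : ∀ x, e (f₁ x) = f₂ (e x)) :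
    LinearMap.toMatrix (c₁.map e) (c₁.map e) f₂ = LinearMap.toMatrix c₁ c₁ f₁ := by
  ext i j
  rw [LinearMap.toMatrix_apply, LinearMap.toMatrix_apply, Module.Basis.map_apply, ← h,
    Module.Basis.map_repr, LinearEquiv.trans_apply, LinearEquiv.symm_apply_apply]

end Generic

section Adic

variable {A : Type} [CommRing A] [IsLocalRing A]

/-- Two adic representations with equal matrices in some bases are equivalent. -/
theorem isEquiv_of_toMatrix_eq {ρ₁ ρ₂ : GaloisRepAdic A}
    (c₁ : Module.Basis (Fin 2) A ρ₁.V) (c₂ : Module.Basis (Fin 2) A ρ₂.V)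
    (h : ∀ σ, LinearMap.toMatrix c₁ c₁ (ρ₁.ρ σ) = LinearMap.toMatrix c₂ c₂ (ρ₂.ρ σ)) :
    ρ₁.IsEquiv ρ₂ :=
  ⟨{ toLinearEquiv := basisEquiv c₁ c₂
     map_apply := fun σ x => basisEquiv_comm c₁ c₂ _ _ (h σ) x }⟩

/-- An equivalence of adic representations transports a basis, preserving all matrices. -/
theorem exists_basis_of_equiv {ρ₁ ρ₂ : GaloisRepAdic A} (e : GaloisRepAdic.Equiv ρ₁ ρ₂)
    (c₁ : Module.Basis (Fin 2) A ρ₁.V) :
    ∃ c₂ : Module.Basis (Fin 2) A ρ₂.V,
      ∀ σ, LinearMap.toMatrix c₂ c₂ (ρ₂.ρ σ) = LinearMap.toMatrix c₁ c₁ (ρ₁.ρ σ) :=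
  ⟨c₁.map e.toLinearEquiv, fun σ =>
    toMatrix_map_of_comm c₁ e.toLinearEquiv (ρ₁.ρ σ) (ρ₂.ρ σ) (e.map_apply σ)⟩

end Adic

section Residual

variable {k : Type} [Field k]

/-- Two residual representations with equal matrices in some bases are equivalent. -/
theorem residual_isEquiv_of_toMatrix_eq {ρ₁ ρ₂ : ResidualGaloisRep k}
    (c₁ : Module.Basis (Fin 2) k ρ₁.V) (c₂ : Module.Basis (Fin 2) k ρ₂.V)
    (h : ∀ σ, LinearMap.toMatrix c₁ c₁ (ρ₁.ρ σ) = LinearMap.toMatrix c₂ c₂ (ρ₂.ρ σ)) :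
    ρ₁.IsEquiv ρ₂ :=
  ⟨{ toLinearEquiv := basisEquiv c₁ c₂
     map_apply := fun σ x => basisEquiv_comm c₁ c₂ _ _ (h σ) x }⟩

/-- An equivalence of residual representations transports a basis, preserving all matrices. -/
theorem residual_exists_basis_of_equiv {ρ₁ ρ₂ : ResidualGaloisRep k}
    (e : ResidualGaloisRep.Equiv ρ₁ ρ₂) (c₁ : Module.Basis (Fin 2) k ρ₁.V) :
    ∃ c₂ : Module.Basis (Fin 2) k ρ₂.V,
      ∀ σ, LinearMap.toMatrix c₂ c₂ (ρ₂.ρ σ) = LinearMap.toMatrix c₁ c₁ (ρ₁.ρ σ) :=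
  ⟨c₁.map e.toLinearEquiv, fun σ =>
    toMatrix_map_of_comm c₁ e.toLinearEquiv (ρ₁.ρ σ) (ρ₂.ρ σ) (e.map_apply σ)⟩

/-- The basis of `ρbar.baseChangeAlong ψ` induced by a basis of `ρbar`. -/
noncomputable def baseChangeAlongBasis {k' : Type} [Field k'] (ψ : k →+* k')
    (ρbar : ResidualGaloisRep k) (b : Module.Basis (Fin 2) k ρbar.V) :
    Module.Basis (Fin 2) k' (ρbar.baseChangeAlong ψ).V :=
  letI : Algebra k k' := ψ.toAlgebra
  Algebra.TensorProduct.basis k' b

theorem toMatrix_baseChangeAlong {k' : Type} [Field k'] (ψ : k →+* k')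
    (ρbar : ResidualGaloisRep k) (b : Module.Basis (Fin 2) k ρbar.V)
    (σ : AlgebraicClosure ℚ ≃ₐ[ℚ] AlgebraicClosure ℚ) :
    LinearMap.toMatrix (baseChangeAlongBasis ψ ρbar b) (baseChangeAlongBasis ψ ρbar b)
        ((ρbar.baseChangeAlong ψ).ρ σ) = (LinearMap.toMatrix b b (ρbar.ρ σ)).map ψ := by
  let _ : Algebra k k' := ψ.toAlgebra
  exact LinearMap.toMatrix_baseChange k' (ρbar.ρ σ) b b

end Residual

section ResidualAdic

variable {A : Type} [CommRing A] [IsLocalRing A]

/-- The basis of the residual representation induced by a basis of `ρ.V`. -/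
noncomputable def residualBasis (ρ : GaloisRepAdic A) (c : Module.Basis (Fin 2) A ρ.V) :
    Module.Basis (Fin 2) (ResidueField A) ρ.residual.V :=
  Algebra.TensorProduct.basis (ResidueField A) c

theorem residualBasis_apply (ρ : GaloisRepAdic A) (c : Module.Basis (Fin 2) A ρ.V) (i : Fin 2) :
    residualBasis ρ c i = TensorProduct.mk A (ResidueField A) ρ.V 1 (c i) :=
  Algebra.TensorProduct.basis_apply c i

/-- Matrices of the residual representation in the base-changed basis. -/
theorem toMatrix_residual (ρ : GaloisRepAdic A) (c : Module.Basis (Fin 2) A ρ.V)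
    (σ : AlgebraicClosure ℚ ≃ₐ[ℚ] AlgebraicClosure ℚ) :
    LinearMap.toMatrix (residualBasis ρ c) (residualBasis ρ c) (ρ.residual.ρ σ) =
      (LinearMap.toMatrix c c (ρ.ρ σ)).map (residue A) :=
  LinearMap.toMatrix_baseChange (ResidueField A) (ρ.ρ σ) c c

/-- (RB1) If the matrices of `ρ` in a basis `c` reduce to the `ψ`-images of the matrices of
`ρbar` in a basis `b`, then the residual representation of `ρ` is equivalent to
`ρbar.baseChangeAlong ψ`. -/
theorem residual_isEquiv_of_basis {k : Type} [Field k] (ρ : GaloisRepAdic A)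
    (ρbar : ResidualGaloisRep k) (ψ : k →+* ResidueField A)
    (c : Module.Basis (Fin 2) A ρ.V) (b : Module.Basis (Fin 2) k ρbar.V)
    (h : ∀ σ, (LinearMap.toMatrix c c (ρ.ρ σ)).map (residue A) =
      (LinearMap.toMatrix b b (ρbar.ρ σ)).map ψ) :
    ρ.residual.IsEquiv (ρbar.baseChangeAlong ψ) :=
  residual_isEquiv_of_toMatrix_eq (ρ₁ := ρ.residual) (ρ₂ := ρbar.baseChangeAlong ψ)
    (residualBasis ρ c) (baseChangeAlongBasis ψ ρbar b)
    (fun σ => by rw [toMatrix_residual, toMatrix_baseChangeAlong, h])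

/-- (RB2) Conversely, an equivalence of the residual representation of `ρ` with
`ρbar.baseChangeAlong ψ` yields a basis of `ρ.V` in which the matrices of `ρ` reduce to the
`ψ`-images of the matrices of `ρbar` in the given basis `b` (Nakayama lift). -/
theorem exists_basis_of_residual_isEquiv {k : Type} [Field k] (ρ : GaloisRepAdic A)
    (ρbar : ResidualGaloisRep k) (ψ : k →+* ResidueField A)
    (b : Module.Basis (Fin 2) k ρbar.V)
    (h : ρ.residual.IsEquiv (ρbar.baseChangeAlong ψ)) :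
    ∃ c : Module.Basis (Fin 2) A ρ.V, ∀ σ,
      (LinearMap.toMatrix c c (ρ.ρ σ)).map (residue A) =
        (LinearMap.toMatrix b b (ρbar.ρ σ)).map ψ := by
  obtain ⟨e⟩ := h
  obtain ⟨cbar, hcbar⟩ := residual_exists_basis_of_equiv e.symm (baseChangeAlongBasis ψ ρbar b)
  have hsurj : Function.Surjective (TensorProduct.mk A (ResidueField A) ρ.V 1) :=
    TensorProduct.mk_surjective A ρ.V (ResidueField A) IsLocalRing.residue_surjective
  choose v hv using fun i => hsurj (cbar i)
  have hcomp : (TensorProduct.mk A (ResidueField A) ρ.V 1 ∘ v) = cbar := funext hv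
  have hli : LinearIndependent A v :=
    Module.IsLocalRing.linearIndependent_of_flat v (by rw [hcomp]; exact cbar.linearIndependent)
  have hsp : Submodule.span A (Set.range v) = ⊤ :=
    IsLocalRing.span_eq_top_of_tmul_eq_basis v cbar hv
  let c : Module.Basis (Fin 2) A ρ.V := Module.Basis.mk hli hsp.ge
  have hc : residualBasis ρ c = cbar := by
    apply Module.Basis.eq_of_apply_eq
    intro i
    rw [residualBasis_apply, Module.Basis.mk_apply]
    exact hv i
  refine ⟨c, fun σ => ?_⟩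
  rw [← toMatrix_residual, hc, hcbar, toMatrix_baseChangeAlong]

end ResidualAdic

section Congruence

variable {𝒪 : Type} [CommRing 𝒪] [IsLocalRing 𝒪] {A : Type} [CommRing A] [IsLocalRing A]
  [Algebra 𝒪 A] [IsLocalHom (algebraMap 𝒪 A)]

/-- Entrywise congruence modulo the maximal ideal, in terms of residue fields. -/
theorem map_residue_eq_iff_congr (M : Matrix (Fin 2) (Fin 2) A)
    (M0 : Matrix (Fin 2) (Fin 2) 𝒪) :
    M.map (residue A) = (M0.map (residue 𝒪)).map (ResidueField.map (algebraMap 𝒪 A)) ↔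
      ∀ i j, M i j - algebraMap 𝒪 A (M0 i j) ∈ maximalIdeal A := by
  constructor
  · intro h i j
    have h1 := congr_fun (congr_fun h i) j
    simp only [Matrix.map_apply, ResidueField.map_residue] at h1
    rw [← residue_eq_zero_iff, map_sub, sub_eq_zero]
    exact h1
  · intro h
    ext i j
    simp only [Matrix.map_apply, ResidueField.map_residue]
    have h1 := h i j
    rw [← residue_eq_zero_iff, map_sub, sub_eq_zero] at h1
    exact h1

/-- (RB1, congruence form) -/
theorem residual_isEquiv_of_congr (ρ : GaloisRepAdic A)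
    (ρbar : ResidualGaloisRep (ResidueField 𝒪))
    (c : Module.Basis (Fin 2) A ρ.V) (b : Module.Basis (Fin 2) (ResidueField 𝒪) ρbar.V)
    (rt : (AlgebraicClosure ℚ ≃ₐ[ℚ] AlgebraicClosure ℚ) → Matrix (Fin 2) (Fin 2) 𝒪)
    (hrt : ∀ σ, (rt σ).map (residue 𝒪) = LinearMap.toMatrix b b (ρbar.ρ σ))
    (h : ∀ σ i j, LinearMap.toMatrix c c (ρ.ρ σ) i j - algebraMap 𝒪 A (rt σ i j) ∈
      maximalIdeal A) :
    ρ.residual.IsEquiv (ρbar.baseChangeAlong (ResidueField.map (algebraMap 𝒪 A))) :=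
  residual_isEquiv_of_basis ρ ρbar _ c b (fun σ => by
    rw [← hrt σ]
    exact (map_residue_eq_iff_congr _ _).mpr (h σ))

/-- (RB2, congruence form) -/
theorem exists_basis_congr_of_residual_isEquiv (ρ : GaloisRepAdic A)
    (ρbar : ResidualGaloisRep (ResidueField 𝒪))
    (b : Module.Basis (Fin 2) (ResidueField 𝒪) ρbar.V)
    (rt : (AlgebraicClosure ℚ ≃ₐ[ℚ] AlgebraicClosure ℚ) → Matrix (Fin 2) (Fin 2) 𝒪)
    (hrt : ∀ σ, (rt σ).map (residue 𝒪) = LinearMap.toMatrix b b (ρbar.ρ σ))
    (h : ρ.residual.IsEquiv (ρbar.baseChangeAlong (ResidueField.map (algebraMap 𝒪 A)))) :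
    ∃ c : Module.Basis (Fin 2) A ρ.V, ∀ σ i j,
      LinearMap.toMatrix c c (ρ.ρ σ) i j - algebraMap 𝒪 A (rt σ i j) ∈ maximalIdeal A := by
  obtain ⟨c, hc⟩ := exists_basis_of_residual_isEquiv ρ ρbar _ b h
  exact ⟨c, fun σ => (map_residue_eq_iff_congr _ _).mp (by rw [hc σ, hrt σ])⟩

end Congruence

section Tangent

variable {k : Type} [Field k]

theorem dualNumber_residue_eq (x : DualNumber k) :
    residue (DualNumber k) x = residue (DualNumber k) (algebraMap k (DualNumber k) x.fst) := by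
  rw [← sub_eq_zero, ← map_sub, residue_eq_zero_iff, mem_maximalIdeal, mem_nonunits_iff,
    TrivSqZeroExt.isUnit_iff_isUnit_fst]
  simp [TrivSqZeroExt.algebraMap_eq_inl]

/-- (RB1) in the exact shape used by `GaloisRep.TangentFinite`. -/
theorem tangent_residual_isEquiv_of_fst (ρ : GaloisRepAdic (DualNumber k))
    (ρbar : ResidualGaloisRep k)
    (c : Module.Basis (Fin 2) (DualNumber k) ρ.V) (b : Module.Basis (Fin 2) k ρbar.V)
    (h : ∀ σ i j, (LinearMap.toMatrix c c (ρ.ρ σ) i j).fst = LinearMap.toMatrix b b (ρbar.ρ σ) i j) :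
    letI : Algebra k (ResidueField (DualNumber k)) :=
      ((IsLocalRing.residue (DualNumber k)).comp (algebraMap k (DualNumber k))).toAlgebra
    ρ.residual.IsEquiv (ρbar.baseChange (ResidueField (DualNumber k))) :=
  residual_isEquiv_of_basis ρ ρbar
    ((IsLocalRing.residue (DualNumber k)).comp (algebraMap k (DualNumber k))) c b (fun σ => by
      ext i j
      rw [Matrix.map_apply, Matrix.map_apply, dualNumber_residue_eq, h σ i j]
      rfl)

/-- (RB2) in the exact shape used by `GaloisRep.TangentFinite`. -/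
theorem tangent_exists_basis_of_residual_isEquiv (ρ : GaloisRepAdic (DualNumber k))
    (ρbar : ResidualGaloisRep k) (b : Module.Basis (Fin 2) k ρbar.V)
    (h : letI : Algebra k (ResidueField (DualNumber k)) :=
      ((IsLocalRing.residue (DualNumber k)).comp (algebraMap k (DualNumber k))).toAlgebra
      ρ.residual.IsEquiv (ρbar.baseChange (ResidueField (DualNumber k)))) :
    ∃ c : Module.Basis (Fin 2) (DualNumber k) ρ.V, ∀ σ i j,
      (LinearMap.toMatrix c c (ρ.ρ σ) i j).fst = LinearMap.toMatrix b b (ρbar.ρ σ) i j := by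
  obtain ⟨c, hc⟩ := exists_basis_of_residual_isEquiv ρ ρbar
    ((IsLocalRing.residue (DualNumber k)).comp (algebraMap k (DualNumber k))) b h
  refine ⟨c, fun σ i j => ?_⟩
  have h1 := congr_fun (congr_fun (hc σ) i) j
  rw [Matrix.map_apply, Matrix.map_apply, dualNumber_residue_eq] at h1
  exact ((IsLocalRing.residue (DualNumber k)).comp (algebraMap k (DualNumber k))).injective h1

end Tangent

end Fermat.Agent.S53.ResidualMat
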