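import Mathlib

set_option autoImplicit false

namespace Fermat.Agent.S53.Rigid

open IsLocalRing Matrix

variable {A : Type*} [CommRing A] {G : Type*} [Monoid G]

/-- If `X e₁ = e₂ = X' e₁` and `M` intertwines `X` and `X'`, then `M = u + v X'`. -/
lemma intertwiner_form (X X' M : Matrix (Fin 2) (Fin 2) A)
    (h0 : X 0 0 = 0) (h1 : X 1 0 = 1) (h0' : X' 0 0 = 0) (h1' : X' 1 0 = 1)
    (hM : M * X = X' * M) :
    M = M 0 0 • (1 : Matrix (Fin 2) (Fin 2) A) + M 1 0 • X' := by
  have e00 := congrFun (congrFun hM 0) 0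
  have e10 := congrFun (congrFun hM 1) 0
  simp only [Matrix.mul_apply, Fin.sum_univ_two, h0, h1, h0', h1'] at e00 e10
  ext i j
  fin_cases i <;> fin_cases j
  · simp [h0']
  · simp; linear_combination e00
  · simp [h1']
  · simp; linear_combination e10

/-- Uniqueness of rigid lifts: two rigid lifts, congruent modulo the maximal ideal at `g1`,
which are conjugate by an invertible matrix, are equal. -/
theorem rigid_unique [IsLocalRing A] (r r' : G →* Matrix (Fin 2) (Fin 2) A) (g0 g1 : G)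
    (i0 : Fin 2)
    (h0 : r g0 0 0 = 0) (h1 : r g0 1 0 = 1) (h0' : r' g0 0 0 = 0) (h1' : r' g0 1 0 = 1)
    (hβ : r g1 i0 0 = r' g1 i0 0)
    (hcong : ∀ i j, r g1 i j - r' g1 i j ∈ maximalIdeal A)
    (hcomm : IsUnit ((r' g1 * r' g0 - r' g0 * r' g1) i0 0))
    (M : Matrix (Fin 2) (Fin 2) A) (hMu : IsUnit M) (hM : ∀ g, M * r g = r' g * M) :
    r = r' := by
  have hform := intertwiner_form (r g0) (r' g0) M h0 h1 h0' h1' (hM g0)
  set u := M 0 0 with hu
  set v := M 1 0 with hv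
  -- the key equation at `g1`
  have key : v * ((r' g1 * r' g0 - r' g0 * r g1) i0 0) = 0 := by
    have e := congrFun (congrFun (hM g1) i0) 0
    rw [hform] at e
    simp only [Matrix.add_mul, Matrix.mul_add, Matrix.smul_mul, Matrix.mul_smul, Matrix.one_mul,
      Matrix.mul_one, Matrix.add_apply, Matrix.smul_apply, smul_eq_mul] at e
    rw [Matrix.sub_apply, mul_sub]
    linear_combination (-1 : A) * e + u * hβ
  have hunit : IsUnit ((r' g1 * r' g0 - r' g0 * r g1) i0 0) := by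
    have hdiff : (r' g1 * r' g0 - r' g0 * r g1) i0 0 =
        (r' g1 * r' g0 - r' g0 * r' g1) i0 0 - (r' g0 * (r g1 - r' g1)) i0 0 := by
      simp only [Matrix.sub_apply, Matrix.mul_sub]
      ring
    have hmem : (r' g0 * (r g1 - r' g1)) i0 0 ∈ maximalIdeal A := by
      rw [Matrix.mul_apply]
      refine Ideal.sum_mem _ fun j _ => Ideal.mul_mem_left _ _ ?_
      simpa [Matrix.sub_apply] using hcong j 0
    rw [hdiff]
    by_contra hnu
    have h2 : (r' g1 * r' g0 - r' g0 * r' g1) i0 0 ∈ maximalIdeal A := by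
      have := Ideal.add_mem _ ((IsLocalRing.mem_maximalIdeal _).mpr hnu) hmem
      simpa using this
    exact (IsLocalRing.mem_maximalIdeal _).mp h2 hcomm
  have hv0 : v = 0 := by
    obtain ⟨w, hw⟩ := hunit.exists_right_inv
    calc v = v * ((r' g1 * r' g0 - r' g0 * r g1) i0 0 * w) := by rw [hw, mul_one]
      _ = 0 := by rw [← mul_assoc, key, zero_mul]
  have hMu' : M = u • (1 : Matrix (Fin 2) (Fin 2) A) := by
    rw [hform, hv0, zero_smul, add_zero]
  have huu : IsUnit u := by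
    obtain ⟨N, hN⟩ := hMu.exists_right_inv
    have e := congrFun (congrFun hN 0) 0
    rw [hMu'] at e
    simp only [Matrix.smul_mul, Matrix.one_mul, Matrix.smul_apply, smul_eq_mul,
      Matrix.one_apply_eq] at e
    exact IsUnit.of_mul_eq_one _ e
  ext g : 1
  have e := hM g
  rw [hMu'] at e
  simp only [Matrix.smul_mul, Matrix.one_mul, Matrix.mul_smul, Matrix.mul_one] at e
  obtain ⟨w, hw⟩ := huu.exists_left_inv
  calc r g = (w * u) • r g := by rw [hw, one_smul]
    _ = w • (u • r g) := by rw [mul_smul]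
    _ = w • (u • r' g) := by rw [e]
    _ = r' g := by rw [← mul_smul, hw, one_smul]


lemma isUnit_add_of_mem [IsLocalRing A] {a b : A} (ha : IsUnit a) (hb : b ∈ maximalIdeal A) :
    IsUnit (a + b) := by
  by_contra hnu
  have h2 : a ∈ maximalIdeal A := by
    have := Ideal.sub_mem _ ((IsLocalRing.mem_maximalIdeal _).mpr hnu) hb
    simpa using this
  exact (IsLocalRing.mem_maximalIdeal _).mp h2 ha

/-- A quadratic `a0 + a1 c + a2 c^2` with `a0 ∈ m` and `a1` a unit has a root in `m`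
(over a local ring which is Henselian at its maximal ideal). -/
lemma exists_root_quadratic [IsLocalRing A] [HenselianRing A (maximalIdeal A)] (a0 a1 a2 : A)
    (h0 : a0 ∈ maximalIdeal A) (h1 : IsUnit a1) :
    ∃ c ∈ maximalIdeal A, a0 + a1 * c + a2 * c ^ 2 = 0 := by
  classical
  let f : Polynomial A :=
    Polynomial.X ^ 2 + (Polynomial.C a1 * Polynomial.X + Polynomial.C (a0 * a2))
  have hf : f.Monic :=
    Polynomial.monic_X_pow_add (lt_of_le_of_lt (Polynomial.degree_linear_le) (by norm_num))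
  have hev : f.eval 0 = a0 * a2 := by simp [f]
  have hder : f.derivative.eval 0 = a1 := by simp [f]
  obtain ⟨t, ht, htm⟩ := HenselianRing.is_henselian (I := maximalIdeal A) f hf 0
    (by rw [hev]; exact Ideal.mul_mem_right _ _ h0)
    (by rw [hder]; exact h1.map _)
  rw [sub_zero] at htm
  have ht' : t ^ 2 + (a1 * t + a0 * a2) = 0 := by
    have := ht
    simpa [f, Polynomial.IsRoot] using this
  have hu : IsUnit (a1 + t) := isUnit_add_of_mem h1 htm
  obtain ⟨w, hw⟩ := hu.exists_left_inv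
  refine ⟨-a0 * w, Ideal.mul_mem_right _ _ (by simpa using h0), ?_⟩
  linear_combination (a0 * w ^ 2) * ht' - a0 * (1 + w * t) * hw

section conj

/-- Conjugation `g ↦ N' * r g * N` of a matrix-valued monoid homomorphism. -/
def conj (N N' : Matrix (Fin 2) (Fin 2) A) (h : N * N' = 1)
    (r : G →* Matrix (Fin 2) (Fin 2) A) : G →* Matrix (Fin 2) (Fin 2) A where
  toFun g := N' * r g * N
  map_one' := by rw [map_one, mul_one]; exact mul_eq_one_comm.mp h
  map_mul' x y := by
    rw [map_mul]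
    calc N' * (r x * r y) * N = N' * r x * (N * N') * r y * N := by
          rw [h]; simp [mul_assoc]
      _ = N' * r x * N * (N' * r y * N) := by simp [mul_assoc]

@[simp] lemma conj_apply (N N' : Matrix (Fin 2) (Fin 2) A) (h : N * N' = 1)
    (r : G →* Matrix (Fin 2) (Fin 2) A) (g : G) : conj N N' h r g = N' * r g * N := rfl

lemma conj_intertwine (N N' : Matrix (Fin 2) (Fin 2) A) (h : N * N' = 1)
    (r : G →* Matrix (Fin 2) (Fin 2) A) (g : G) : N * conj N N' h r g = r g * N := by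
  rw [conj_apply, ← mul_assoc, ← mul_assoc, h, one_mul]

lemma conj_conj (N₁ N₁' N₂ N₂' : Matrix (Fin 2) (Fin 2) A) (h₁ : N₁ * N₁' = 1)
    (h₂ : N₂ * N₂' = 1) (r : G →* Matrix (Fin 2) (Fin 2) A) :
    conj N₂ N₂' h₂ (conj N₁ N₁' h₁ r) =
      conj (N₁ * N₂) (N₂' * N₁')
        (by rw [mul_assoc, ← mul_assoc N₂, h₂, one_mul, h₁]) r := by
  ext g : 1
  simp [mul_assoc]

end conj


section cong

variable (I : Ideal A)

/-- Entrywise congruence of matrices modulo an ideal, as an equation over the quotient. -/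
lemma mapMatrix_mk_eq_iff (M M' : Matrix (Fin 2) (Fin 2) A) :
    (Ideal.Quotient.mk I).mapMatrix M = (Ideal.Quotient.mk I).mapMatrix M' ↔
      ∀ i j, M i j - M' i j ∈ I := by
  constructor
  · intro h i j
    have := congrFun (congrFun h i) j
    simpa [Ideal.Quotient.eq] using this
  · intro h
    ext i j
    simpa [Ideal.Quotient.eq] using h i j

lemma mapMatrix_mk_eq_one_iff (M : Matrix (Fin 2) (Fin 2) A) :
    (Ideal.Quotient.mk I).mapMatrix M = 1 ↔ ∀ i j, (M - 1) i j ∈ I := by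
  rw [← map_one (Ideal.Quotient.mk I).mapMatrix, mapMatrix_mk_eq_iff]
  simp [Matrix.sub_apply]

/-- If `N ≡ 1` and `N * N' = 1` then `N' ≡ 1`. -/
lemma inv_cong_one (N N' : Matrix (Fin 2) (Fin 2) A) (h : N * N' = 1)
    (hN : ∀ i j, (N - 1) i j ∈ I) : ∀ i j, (N' - 1) i j ∈ I := by
  rw [← mapMatrix_mk_eq_one_iff] at hN ⊢
  have := congrArg (Ideal.Quotient.mk I).mapMatrix h
  rw [map_mul, hN, one_mul, map_one] at this
  exact this

/-- Conjugation by `N ≡ 1` does not change a representation modulo `I`. -/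
lemma conj_cong (N N' : Matrix (Fin 2) (Fin 2) A) (h : N * N' = 1)
    (hN : ∀ i j, (N - 1) i j ∈ I) (r : G →* Matrix (Fin 2) (Fin 2) A) (g : G) :
    (Ideal.Quotient.mk I).mapMatrix (conj N N' h r g) = (Ideal.Quotient.mk I).mapMatrix (r g) := by
  have hN' := inv_cong_one I N N' h hN
  rw [← mapMatrix_mk_eq_one_iff] at hN hN'
  rw [conj_apply, map_mul, map_mul, hN, hN', one_mul, mul_one]

/-- Conjugation by `N ≡ 1` preserves congruence to `1` modulo any ideal `J`. -/
lemma conj_sub_one_mem (J : Ideal A) (N N' : Matrix (Fin 2) (Fin 2) A) (h : N * N' = 1)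
    (r : G →* Matrix (Fin 2) (Fin 2) A) (g : G) (hg : ∀ i j, (r g - 1) i j ∈ J) :
    ∀ i j, (conj N N' h r g - 1) i j ∈ J := by
  rw [← mapMatrix_mk_eq_one_iff] at hg ⊢
  rw [conj_apply, map_mul, map_mul, hg, mul_one, ← map_mul, mul_eq_one_comm.mp h, map_one]

end cong

/-- Step 1 of rigidification: make `r g0 e₁ = e₂` hold exactly. -/
lemma rigid_step1 [IsLocalRing A] (r : G →* Matrix (Fin 2) (Fin 2) A) (g0 : G)
    (ha : r g0 0 0 ∈ maximalIdeal A) (hb : r g0 1 0 - 1 ∈ maximalIdeal A) :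
    ∃ (N N' : Matrix (Fin 2) (Fin 2) A) (h : N * N' = 1),
      (∀ i j, (N - 1) i j ∈ maximalIdeal A) ∧
      conj N N' h r g0 0 0 = 0 ∧ conj N N' h r g0 1 0 = 1 := by
  set a := r g0 0 0 with ha'
  set b := r g0 1 0 with hb'
  have hbu : IsUnit b := by
    have := isUnit_add_of_mem (isUnit_one (M := A)) hb
    simpa using this
  obtain ⟨b', hbb'⟩ := hbu.exists_right_inv
  have hb'b : b' * b = 1 := by rw [mul_comm]; exact hbb'
  refine ⟨!![1, a; 0, b], !![1, -a * b'; 0, b'], ?_, ?_, ?_, ?_⟩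
  · rw [Matrix.mul_fin_two, Matrix.one_fin_two]
    congr 1
    ext i j
    fin_cases i <;> fin_cases j <;> simp [hbb']
  · intro i j
    fin_cases i <;> fin_cases j <;> simp [ha, hb]
  · simp only [conj_apply, Matrix.mul_apply, Fin.sum_univ_two]
    simp only [Matrix.of_apply, Matrix.cons_val', Matrix.cons_val_zero, Matrix.cons_val_one,
      Matrix.cons_val_fin_one]
    rw [← ha', ← hb']
    linear_combination (-a) * hb'b
  · simp only [conj_apply, Matrix.mul_apply, Fin.sum_univ_two]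
    simp only [Matrix.of_apply, Matrix.cons_val', Matrix.cons_val_zero, Matrix.cons_val_one,
      Matrix.cons_val_fin_one]
    rw [← ha', ← hb']
    linear_combination hb'b


/-- Step 2 of rigidification: if `r g0 e₁ = e₂` already, conjugate by `1 + c • r g0`
to make the `(i0, 0)` entry of `r g1` equal to `β`. -/
lemma rigid_step2 [IsLocalRing A] [HenselianRing A (maximalIdeal A)]
    (r : G →* Matrix (Fin 2) (Fin 2) A) (g0 g1 : G) (i0 : Fin 2) (β : A)
    (h0 : r g0 0 0 = 0) (h1 : r g0 1 0 = 1)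
    (hcomm : IsUnit ((r g1 * r g0 - r g0 * r g1) i0 0))
    (hβ : r g1 i0 0 - β ∈ maximalIdeal A) :
    ∃ (N N' : Matrix (Fin 2) (Fin 2) A) (h : N * N' = 1),
      (∀ i j, (N - 1) i j ∈ maximalIdeal A) ∧
      conj N N' h r g0 0 0 = 0 ∧ conj N N' h r g0 1 0 = 1 ∧ conj N N' h r g1 i0 0 = β := by
  set X := r g0 with hX
  set Y := r g1 with hY
  set p := X 0 1 with hp
  set q := X 1 1 with hq
  -- the adjugate of `X`
  have hadjX : X.adjugate = q • (1 : Matrix (Fin 2) (Fin 2) A) - X := by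
    ext i j
    rw [Matrix.adjugate_fin_two]
    fin_cases i <;> fin_cases j <;> simp [h0, h1, hq]
  -- entries of `adjugate X * Y`
  have hadjXY : ∀ i j, (X.adjugate * Y) i j = q * Y i j - (X * Y) i j := by
    intro i j
    rw [hadjX, Matrix.sub_mul, Matrix.smul_mul, Matrix.one_mul, Matrix.sub_apply,
      Matrix.smul_apply, smul_eq_mul]
  -- the commutator entry
  have hcomm' : (Y * X - X * Y) i0 0 = Y i0 1 - (X * Y) i0 0 := by
    simp only [Matrix.sub_apply, Matrix.mul_apply, Fin.sum_univ_two, h0, h1]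
    ring
  -- coefficients of the quadratic
  set a0 := Y i0 0 - β with ha0
  set a1 := Y i0 1 + (X.adjugate * Y) i0 0 - β * q with ha1
  set a2 := (X.adjugate * Y) i0 1 + β * p with ha2
  have ha1u : IsUnit a1 := by
    have e : a1 = (Y * X - X * Y) i0 0 + q * a0 := by
      rw [ha1, hcomm', hadjXY, ha0]; ring
    rw [e]
    exact isUnit_add_of_mem hcomm (Ideal.mul_mem_left _ _ hβ)
  obtain ⟨c, hc, hroot⟩ := exists_root_quadratic a0 a1 a2 hβ ha1u
  -- the conjugating matrix
  set N : Matrix (Fin 2) (Fin 2) A := 1 + c • X with hN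
  have hN00 : N 0 0 = 1 := by simp [hN, h0]
  have hN10 : N 1 0 = c := by simp [hN, h1]
  have hN01 : N 0 1 = c * p := by simp [hN, hp]
  have hN11 : N 1 1 = 1 + c * q := by simp [hN, hq]
  have hdet : N.det = 1 + c * q - c ^ 2 * p := by
    rw [Matrix.det_fin_two, hN00, hN10, hN01, hN11]; ring
  have hdetu : IsUnit N.det := by
    rw [hdet]
    have : (1 : A) + c * q - c ^ 2 * p = 1 + c * (q - c * p) := by ring
    rw [this]
    exact isUnit_add_of_mem isUnit_one (Ideal.mul_mem_right _ _ hc)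
  obtain ⟨δ', hδ'⟩ := hdetu.exists_left_inv
  have hNN' : N * (δ' • N.adjugate) = 1 := by
    rw [Matrix.mul_smul, Matrix.mul_adjugate, smul_smul, hδ', one_smul]
  have hcommNX : X * N = N * X := by
    rw [hN, mul_add, add_mul, mul_one, one_mul, Matrix.mul_smul, Matrix.smul_mul]
  have hadjN : N.adjugate = 1 + c • X.adjugate := by
    ext i j
    rw [Matrix.adjugate_fin_two, Matrix.adjugate_fin_two, hN00, hN10, hN01, hN11]
    fin_cases i <;> fin_cases j <;> simp [h0, h1, hp, hq]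
  refine ⟨N, δ' • N.adjugate, hNN', ?_, ?_, ?_, ?_⟩
  · intro i j
    have : (N - 1) i j = c * X i j := by simp [hN]
    rw [this]
    exact Ideal.mul_mem_right _ _ hc
  · have : conj N (δ' • N.adjugate) hNN' r g0 = X := by
      rw [conj_apply, ← hX, mul_assoc, hcommNX, ← mul_assoc, mul_eq_one_comm.mp hNN', one_mul]
    rw [this, h0]
  · have : conj N (δ' • N.adjugate) hNN' r g0 = X := by
      rw [conj_apply, ← hX, mul_assoc, hcommNX, ← mul_assoc, mul_eq_one_comm.mp hNN', one_mul]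
    rw [this, h1]
  · rw [conj_apply, ← hY, Matrix.smul_mul, Matrix.smul_mul, Matrix.smul_apply, smul_eq_mul]
    have key : (N.adjugate * Y * N) i0 0 = β * N.det := by
      have e1 : (N.adjugate * Y * N) i0 0 =
          (N.adjugate * Y) i0 0 + (N.adjugate * Y) i0 1 * c := by
        rw [Matrix.mul_apply, Fin.sum_univ_two, hN00, hN10, mul_one]
      have e2 : ∀ j, (N.adjugate * Y) i0 j = Y i0 j + c * (X.adjugate * Y) i0 j := by
        intro j
        rw [hadjN, Matrix.add_mul, Matrix.one_mul, Matrix.smul_mul, Matrix.add_apply,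
          Matrix.smul_apply, smul_eq_mul]
      rw [e1, e2, e2, hdet]
      linear_combination hroot
    rw [key, mul_comm β, ← mul_assoc, hδ', one_mul]

/-- Existence of rigid lifts: over a local ring Henselian at its maximal ideal, a matrix
representation `r` with `r g0 e₁ ≡ e₂` and unit commutator entry at `(i0, 0)` is conjugate,
by a matrix congruent to `1`, to one with `r' g0 e₁ = e₂` exactly and `r' g1 i0 0 = β`,
for any `β ≡ r g1 i0 0`. -/
theorem rigid_exists [IsLocalRing A] [HenselianRing A (maximalIdeal A)]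
    (r : G →* Matrix (Fin 2) (Fin 2) A) (g0 g1 : G) (i0 : Fin 2) (β : A)
    (ha : r g0 0 0 ∈ maximalIdeal A) (hb : r g0 1 0 - 1 ∈ maximalIdeal A)
    (hcomm : IsUnit ((r g1 * r g0 - r g0 * r g1) i0 0))
    (hβ : r g1 i0 0 - β ∈ maximalIdeal A) :
    ∃ (N N' : Matrix (Fin 2) (Fin 2) A) (h : N * N' = 1),
      (∀ i j, (N - 1) i j ∈ maximalIdeal A) ∧
      conj N N' h r g0 0 0 = 0 ∧ conj N N' h r g0 1 0 = 1 ∧ conj N N' h r g1 i0 0 = β := by
  obtain ⟨N₁, N₁', h₁, hN₁, h10, h11⟩ := rigid_step1 r g0 ha hb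
  set r₁ := conj N₁ N₁' h₁ r with hr₁
  have hc₁ : ∀ g, (Ideal.Quotient.mk (maximalIdeal A)).mapMatrix (r₁ g) =
      (Ideal.Quotient.mk (maximalIdeal A)).mapMatrix (r g) :=
    fun g => conj_cong _ N₁ N₁' h₁ hN₁ r g
  have hcomm₁ : IsUnit ((r₁ g1 * r₁ g0 - r₁ g0 * r₁ g1) i0 0) := by
    have e : (Ideal.Quotient.mk (maximalIdeal A)).mapMatrix (r₁ g1 * r₁ g0 - r₁ g0 * r₁ g1) =
        (Ideal.Quotient.mk (maximalIdeal A)).mapMatrix (r g1 * r g0 - r g0 * r g1) := by
      simp only [map_sub, map_mul, hc₁]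
    have e' := (mapMatrix_mk_eq_iff _ _ _).mp e i0 0
    have : (r₁ g1 * r₁ g0 - r₁ g0 * r₁ g1) i0 0 = (r g1 * r g0 - r g0 * r g1) i0 0 +
        ((r₁ g1 * r₁ g0 - r₁ g0 * r₁ g1) i0 0 - (r g1 * r g0 - r g0 * r g1) i0 0) := by ring
    rw [this]
    exact isUnit_add_of_mem hcomm e'
  have hβ₁ : r₁ g1 i0 0 - β ∈ maximalIdeal A := by
    have e' := (mapMatrix_mk_eq_iff _ _ _).mp (hc₁ g1) i0 0
    have : r₁ g1 i0 0 - β = (r₁ g1 i0 0 - r g1 i0 0) + (r g1 i0 0 - β) := by ring
    rw [this]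
    exact Ideal.add_mem _ e' hβ
  obtain ⟨N₂, N₂', h₂, hN₂, h20, h21, h2β⟩ := rigid_step2 r₁ g0 g1 i0 β h10 h11 hcomm₁ hβ₁
  have h12 : N₁ * N₂ * (N₂' * N₁') = 1 := by
    rw [mul_assoc, ← mul_assoc N₂, h₂, one_mul, h₁]
  have hcc : conj N₂ N₂' h₂ (conj N₁ N₁' h₁ r) = conj (N₁ * N₂) (N₂' * N₁') h12 r :=
    conj_conj N₁ N₁' N₂ N₂' h₁ h₂ r
  refine ⟨N₁ * N₂, N₂' * N₁', h12, ?_, ?_, ?_, ?_⟩
  · rw [← mapMatrix_mk_eq_one_iff] at hN₁ hN₂ ⊢
    rw [map_mul, hN₁, hN₂, one_mul]
  · rw [← hcc]; exact h20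
  · rw [← hcc]; exact h21
  · rw [← hcc]; exact h2β

end Fermat.Agent.S53.Rigid
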