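import Mathlib
import Fermat.Prelude.Def_GaloisRep_DeformationCondition

set_option autoImplicit false
set_option linter.unusedSectionVars false

namespace Fermat.Agent.S53.TestAlgBase

open IsLocalRing

variable (𝒪 : Type) [CommRing 𝒪] [IsLocalRing 𝒪]

/-- (T1) a finite local `𝒪`-algebra with local structure map and surjective residue map is an
Artinian test algebra. -/
theorem isArtinianTestAlgebra_of_finite (A : Type) [CommRing A] [IsLocalRing A] [Algebra 𝒪 A]
    [Finite A] (hloc : IsLocalHom (algebraMap 𝒪 A))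
    (hres : Function.Surjective (IsLocalRing.residue A ∘ algebraMap 𝒪 A)) :
    GaloisRep.IsArtinianTestAlgebra 𝒪 A :=
  ⟨hloc, hres, inferInstance⟩

/-- residue field of a local `𝒪`-algebra with surjective residue map is finite. -/
theorem finite_residueField_of_surjective [Finite (ResidueField 𝒪)] (A : Type) [CommRing A]
    [IsLocalRing A] [Algebra 𝒪 A] (hloc : IsLocalHom (algebraMap 𝒪 A))
    (hres : Function.Surjective (IsLocalRing.residue A ∘ algebraMap 𝒪 A)) :
    Finite (ResidueField A) := by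
  have := hloc
  refine Finite.of_surjective (IsLocalRing.ResidueField.map (algebraMap 𝒪 A)) ?_
  intro x
  obtain ⟨a, rfl⟩ := hres x
  exact ⟨IsLocalRing.residue 𝒪 a, by simp [IsLocalRing.ResidueField.map_residue]⟩

/-- an Artinian local ring has nilpotent maximal ideal. -/
theorem exists_maximalIdeal_pow_eq_bot (A : Type) [CommRing A] [IsLocalRing A] [IsArtinianRing A] :
    ∃ n : ℕ, maximalIdeal A ^ n = ⊥ := by
  obtain ⟨n, hn⟩ := IsArtinianRing.isNilpotent_jacobson_bot (R := A)
  rw [jacobson_eq_maximalIdeal _ bot_ne_top] at hn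
  exact ⟨n, hn⟩

/-- (T2) an Artinian test algebra over `𝒪` with finite residue field is a finite ring. -/
theorem finite_of_isArtinianTestAlgebra [Finite (ResidueField 𝒪)] (A : Type) [CommRing A]
    [IsLocalRing A] [Algebra 𝒪 A] (hA : GaloisRep.IsArtinianTestAlgebra 𝒪 A) : Finite A := by
  have := hA.isArtinian
  have := finite_residueField_of_surjective 𝒪 A hA.isLocalHom hA.residue_surjective
  obtain ⟨n, hn⟩ := exists_maximalIdeal_pow_eq_bot A
  have : Finite (A ⧸ (⊥ : Ideal A)) := IsLocalRing.finite_quotient_iff.mpr ⟨n, hn.le⟩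
  exact Finite.of_equiv _ (RingEquiv.quotientBot A).toEquiv

section Quot

variable (A : Type) [CommRing A] [IsLocalRing A]

theorem isLocalRing_quotient (I : Ideal A) (hI : I ≠ ⊤) : IsLocalRing (A ⧸ I) := by
  have : Nontrivial (A ⧸ I) := Ideal.Quotient.nontrivial_iff.mpr hI
  exact IsLocalRing.of_surjective' (Ideal.Quotient.mk I) Ideal.Quotient.mk_surjective

theorem maximalIdeal_pow_ne_top {n : ℕ} (hn : n ≠ 0) : maximalIdeal A ^ n ≠ ⊤ := by
  intro h
  have h1 : maximalIdeal A ^ n ≤ maximalIdeal A := Ideal.pow_le_self hn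
  rw [h] at h1
  exact (maximalIdeal.isMaximal A).ne_top (top_le_iff.mp h1)

theorem isLocalRing_quotient_pow {n : ℕ} (hn : n ≠ 0) : IsLocalRing (A ⧸ maximalIdeal A ^ n) :=
  isLocalRing_quotient A _ (maximalIdeal_pow_ne_top A hn)

theorem isLocalHom_quotient_mk (I : Ideal A) [IsLocalRing (A ⧸ I)] :
    IsLocalHom (Ideal.Quotient.mk I) :=
  IsLocalHom.of_surjective _ Ideal.Quotient.mk_surjective

theorem maximalIdeal_quotient (I : Ideal A) [IsLocalRing (A ⧸ I)] :
    maximalIdeal (A ⧸ I) = (maximalIdeal A).map (Ideal.Quotient.mk I) := by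
  have := isLocalHom_quotient_mk A I
  apply le_antisymm
  · intro x hx
    obtain ⟨a, rfl⟩ := Ideal.Quotient.mk_surjective x
    refine Ideal.mem_map_of_mem _ ?_
    rw [mem_maximalIdeal, mem_nonunits_iff] at hx ⊢
    exact fun h => hx (h.map _)
  · exact map_maximalIdeal_le (Ideal.Quotient.mk I)

theorem maximalIdeal_quotient_pow (I : Ideal A) [IsLocalRing (A ⧸ I)] (n : ℕ) :
    maximalIdeal (A ⧸ I) ^ n = (maximalIdeal A ^ n).map (Ideal.Quotient.mk I) := by
  rw [maximalIdeal_quotient, Ideal.map_pow]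

theorem maximalIdeal_quotient_pow_pow (n : ℕ) [IsLocalRing (A ⧸ maximalIdeal A ^ n)] :
    maximalIdeal (A ⧸ maximalIdeal A ^ n) ^ n = ⊥ := by
  rw [maximalIdeal_quotient_pow, Ideal.map_quotient_self]

variable [Algebra 𝒪 A]

theorem isLocalHom_algebraMap_quotient (I : Ideal A) [IsLocalRing (A ⧸ I)]
    (hloc : IsLocalHom (algebraMap 𝒪 A)) : IsLocalHom (algebraMap 𝒪 (A ⧸ I)) := by
  have := isLocalHom_quotient_mk A I
  exact RingHom.isLocalHom_comp (Ideal.Quotient.mk I) (algebraMap 𝒪 A)

theorem residue_surjective_quotient (I : Ideal A) [IsLocalRing (A ⧸ I)]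
    (hres : Function.Surjective (IsLocalRing.residue A ∘ algebraMap 𝒪 A)) :
    Function.Surjective (IsLocalRing.residue (A ⧸ I) ∘ algebraMap 𝒪 (A ⧸ I)) := by
  have := isLocalHom_quotient_mk A I
  intro x
  obtain ⟨y, rfl⟩ := IsLocalRing.residue_surjective x
  obtain ⟨a, rfl⟩ := Ideal.Quotient.mk_surjective y
  obtain ⟨c, hc⟩ := hres (IsLocalRing.residue A a)
  refine ⟨c, ?_⟩
  have h2 : IsLocalRing.residue (A ⧸ I) (Ideal.Quotient.mk I (algebraMap 𝒪 A c)) =
      IsLocalRing.ResidueField.map (Ideal.Quotient.mk I) (IsLocalRing.residue A (algebraMap 𝒪 A c)) :=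
    (IsLocalRing.ResidueField.map_residue _ _).symm
  have h3 : IsLocalRing.residue (A ⧸ I) (Ideal.Quotient.mk I a) =
      IsLocalRing.ResidueField.map (Ideal.Quotient.mk I) (IsLocalRing.residue A a) :=
    (IsLocalRing.ResidueField.map_residue _ _).symm
  change IsLocalRing.residue (A ⧸ I) (Ideal.Quotient.mk I (algebraMap 𝒪 A c)) = _
  rw [h2, h3]
  exact congrArg _ hc

/-- (T3) finiteness of `A ⧸ 𝔪ⁿ` for a noetherian local `𝒪`-algebra with surjective residue map. -/
theorem finite_quotient_pow [Finite (ResidueField 𝒪)] [IsNoetherianRing A]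
    (hloc : IsLocalHom (algebraMap 𝒪 A))
    (hres : Function.Surjective (IsLocalRing.residue A ∘ algebraMap 𝒪 A)) (n : ℕ) :
    Finite (A ⧸ maximalIdeal A ^ n) := by
  have := finite_residueField_of_surjective 𝒪 A hloc hres
  exact IsLocalRing.finite_quotient_iff.mpr ⟨n, le_rfl⟩

/-- (T3) `A ⧸ 𝔪ⁿ` is an Artinian test algebra. -/
theorem isArtinianTestAlgebra_quotient_pow [Finite (ResidueField 𝒪)] [IsNoetherianRing A]
    (hloc : IsLocalHom (algebraMap 𝒪 A))
    (hres : Function.Surjective (IsLocalRing.residue A ∘ algebraMap 𝒪 A)) (n : ℕ)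
    [IsLocalRing (A ⧸ maximalIdeal A ^ n)] :
    GaloisRep.IsArtinianTestAlgebra 𝒪 (A ⧸ maximalIdeal A ^ n) := by
  have := finite_quotient_pow 𝒪 A hloc hres n
  exact isArtinianTestAlgebra_of_finite 𝒪 _ (isLocalHom_algebraMap_quotient 𝒪 A _ hloc)
    (residue_surjective_quotient 𝒪 A _ hres)

end Quot

/-- (T4) a local hom into a ring with `𝔪_Bⁿ = 0` kills `𝔪_Aⁿ`. -/
theorem maximalIdeal_pow_le_ker {A B : Type} [CommRing A] [IsLocalRing A] [CommRing B]
    [IsLocalRing B] (q : A →+* B) [IsLocalHom q] {n : ℕ} (hn : maximalIdeal B ^ n = ⊥) :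
    maximalIdeal A ^ n ≤ RingHom.ker q := by
  rw [← Ideal.map_eq_bot_iff_le_ker, Ideal.map_pow, ← le_bot_iff, ← hn]
  exact Ideal.pow_right_mono (map_maximalIdeal_le q) n

/-- (T5) the residue field is an Artinian test algebra. -/
theorem isArtinianTestAlgebra_residueField :
    GaloisRep.IsArtinianTestAlgebra 𝒪 (ResidueField 𝒪) where
  isLocalHom := by
    rw [IsLocalRing.ResidueField.algebraMap_eq]
    infer_instance
  residue_surjective := by
    intro x
    obtain ⟨y, rfl⟩ := IsLocalRing.residue_surjective x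
    obtain ⟨a, rfl⟩ := IsLocalRing.residue_surjective y
    exact ⟨a, rfl⟩
  isArtinian := inferInstance

end Fermat.Agent.S53.TestAlgBase
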