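import Mathlib
import Fermat.Agent.S53.Rigid

set_option autoImplicit false

namespace Fermat.Agent.S53.Universal

open IsLocalRing

section Lift

variable {𝒪 : Type*} [CommRing 𝒪]
variable {P : Type*} [CommRing P] [Algebra 𝒪 P]
variable {R : Type*} [CommRing R] [IsLocalRing R] [Algebra 𝒪 R]
variable {A : Type*} [CommRing A] [IsLocalRing A] [Algebra 𝒪 A]

/-- A ring hom between local rings sending the maximal ideal into the maximal ideal sends
its powers into the corresponding powers. -/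
theorem map_pow_mem (φ : R →+* A) (hφ : ∀ x ∈ maximalIdeal R, φ x ∈ maximalIdeal A)
    (n : ℕ) {x : R} (hx : x ∈ maximalIdeal R ^ n) : φ x ∈ maximalIdeal A ^ n := by
  have h1 : (maximalIdeal R).map φ ≤ maximalIdeal A :=
    Ideal.map_le_iff_le_comap.mpr fun y hy => Ideal.mem_comap.mpr (hφ y hy)
  have h2 : (maximalIdeal R ^ n).map φ ≤ maximalIdeal A ^ n := by
    rw [Ideal.map_pow]
    exact Ideal.pow_right_mono h1 n
  exact h2 (Ideal.mem_map_of_mem φ hx)

/-- Uniqueness: two "continuous" algebra homs out of `R` agreeing on a dense subalgebra `ι P`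
into a Hausdorff local ring agree. -/
theorem lift_unique [IsHausdorff (maximalIdeal A) A]
    (ι : P →ₐ[𝒪] R)
    (hdense : ∀ (n : ℕ) (x : R), ∃ p : P, x - ι p ∈ maximalIdeal R ^ n)
    (φ φ' : R →ₐ[𝒪] A)
    (hφ : ∀ x ∈ maximalIdeal R, φ x ∈ maximalIdeal A)
    (hφ' : ∀ x ∈ maximalIdeal R, φ' x ∈ maximalIdeal A)
    (h : φ.comp ι = φ'.comp ι) : φ = φ' := by
  apply AlgHom.ext
  intro x
  have hx : ∀ n : ℕ, φ x - φ' x ∈ maximalIdeal A ^ n := by
    intro n
    obtain ⟨p, hp⟩ := hdense n x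
    have e : φ (ι p) = φ' (ι p) := by
      have := congrArg (fun f : P →ₐ[𝒪] A => f p) h
      simpa using this
    have e2 : φ x - φ' x = φ (x - ι p) - φ' (x - ι p) := by
      rw [map_sub, map_sub, e]; ring
    rw [e2]
    exact Ideal.sub_mem _ (map_pow_mem (φ : R →+* A) hφ n hp)
      (map_pow_mem (φ' : R →+* A) hφ' n hp)
  have h0 : φ x - φ' x = 0 := by
    apply IsHausdorff.haus (I := maximalIdeal A) (M := A) inferInstance
    intro n
    rw [SModEq.zero, smul_eq_mul, Ideal.mul_top]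
    exact hx n
  exact sub_eq_zero.mp h0

/-- Existence: a compatible system of maps on the dense subalgebra extends to `R → A`
when `A` is adically complete. `hker` says `comap ι (𝔪_R ^ n) ≤ comap ev (𝔪_A ^ n)`. -/
theorem exists_lift [IsAdicComplete (maximalIdeal A) A]
    (ι : P →ₐ[𝒪] R)
    (hdense : ∀ (n : ℕ) (x : R), ∃ p : P, x - ι p ∈ maximalIdeal R ^ n)
    (ev : P →ₐ[𝒪] A)
    (hker : ∀ (n : ℕ) (p : P), ι p ∈ maximalIdeal R ^ n → ev p ∈ maximalIdeal A ^ n) :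
    ∃ φ : R →ₐ[𝒪] A, φ.comp ι = ev ∧
      ∀ (n : ℕ) (x : R), x ∈ maximalIdeal R ^ n → φ x ∈ maximalIdeal A ^ n := by
  classical
  -- the surjections `P → R ⧸ 𝔪_R ^ n`
  let π : ∀ n : ℕ, P →ₐ[𝒪] R ⧸ maximalIdeal R ^ n := fun n =>
    (Ideal.Quotient.mkₐ 𝒪 (maximalIdeal R ^ n)).comp ι
  have hπ : ∀ n, Function.Surjective (π n) := by
    intro n y
    obtain ⟨x, rfl⟩ := Ideal.Quotient.mk_surjective y
    obtain ⟨p, hp⟩ := hdense n x
    refine ⟨p, ?_⟩
    show Ideal.Quotient.mk (maximalIdeal R ^ n) (ι p) = Ideal.Quotient.mk (maximalIdeal R ^ n) x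
    exact (Ideal.Quotient.eq.mpr hp).symm
  let g : ∀ n : ℕ, P →ₐ[𝒪] A ⧸ maximalIdeal A ^ n := fun n =>
    (Ideal.Quotient.mkₐ 𝒪 (maximalIdeal A ^ n)).comp ev
  have hH : ∀ n, RingHom.ker (π n).toRingHom ≤ RingHom.ker (g n).toRingHom := by
    intro n p hp
    rw [RingHom.mem_ker] at hp ⊢
    have hp' : ι p ∈ maximalIdeal R ^ n := Ideal.Quotient.eq_zero_iff_mem.mp hp
    exact Ideal.Quotient.eq_zero_iff_mem.mpr (hker n p hp')
  let f : ∀ n : ℕ, R →ₐ[𝒪] A ⧸ maximalIdeal A ^ n := fun n =>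
    (AlgHom.liftOfSurjective (π n) (hπ n) (g n) (hH n)).comp
      (Ideal.Quotient.mkₐ 𝒪 (maximalIdeal R ^ n))
  have hfι : ∀ n p, f n (ι p) = Ideal.Quotient.mk (maximalIdeal A ^ n) (ev p) := by
    intro n p
    show AlgHom.liftOfSurjective (π n) (hπ n) (g n) (hH n) (π n p) = g n p
    exact AlgHom.liftOfSurjective_apply _ _ _ _ _
  have hfx : ∀ n x p, x - ι p ∈ maximalIdeal R ^ n →
      f n x = Ideal.Quotient.mk (maximalIdeal A ^ n) (ev p) := by
    intro n x p hp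
    rw [← hfι n p]
    show AlgHom.liftOfSurjective (π n) (hπ n) (g n) (hH n)
        (Ideal.Quotient.mk (maximalIdeal R ^ n) x) =
      AlgHom.liftOfSurjective (π n) (hπ n) (g n) (hH n)
        (Ideal.Quotient.mk (maximalIdeal R ^ n) (ι p))
    rw [Ideal.Quotient.eq.mpr hp]
  have hf : ∀ {m n : ℕ} (hle : m ≤ n),
      (Ideal.Quotient.factorₐ 𝒪 (Ideal.pow_le_pow_right hle)).comp (f n) = f m := by
    intro m n hle
    apply AlgHom.ext
    intro x
    obtain ⟨p, hp⟩ := hdense n x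
    have hp' : x - ι p ∈ maximalIdeal R ^ m := Ideal.pow_le_pow_right hle hp
    rw [AlgHom.comp_apply, hfx n x p hp, hfx m x p hp']
    rfl
  refine ⟨IsAdicComplete.liftAlgHom (maximalIdeal A) f hf, ?_, ?_⟩
  · apply IsAdicComplete.algHom_ext (maximalIdeal A)
    intro n
    apply AlgHom.ext
    intro p
    simp only [AlgHom.comp_apply, Ideal.Quotient.mkₐ_eq_mk]
    rw [IsAdicComplete.mk_liftAlgHom (maximalIdeal A) f hf n (ι p), hfι]
  · intro n x hx
    rw [← Ideal.Quotient.eq_zero_iff_mem,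
      IsAdicComplete.mk_liftAlgHom (maximalIdeal A) f hf n x]
    have : x - ι 0 ∈ maximalIdeal R ^ n := by simpa using hx
    rw [hfx n x 0 this]
    simp

end Lift


section Matrix

open MvPolynomial

variable {𝒪 : Type*} [CommRing 𝒪]
variable {Γ : Type*}
variable {R : Type*} [CommRing R] [IsLocalRing R] [Algebra 𝒪 R]
variable {A : Type*} [CommRing A] [IsLocalRing A] [Algebra 𝒪 A]

/-- The evaluation homomorphism of the "generic matrix entries" polynomial ring attached to a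
family of `2 × 2` matrices. -/
noncomputable def evalHom (𝒪 : Type*) [CommRing 𝒪] {Γ : Type*} {A : Type*} [CommRing A]
    [Algebra 𝒪 A] (r : Γ → Matrix (Fin 2) (Fin 2) A) :
    MvPolynomial (Γ × Fin 2 × Fin 2) 𝒪 →ₐ[𝒪] A :=
  MvPolynomial.aeval (fun x : Γ × Fin 2 × Fin 2 => r x.1 x.2.1 x.2.2)

omit [IsLocalRing A] in
@[simp] theorem evalHom_X (r : Γ → Matrix (Fin 2) (Fin 2) A) (g : Γ) (i j : Fin 2) :
    evalHom 𝒪 r (X (g, i, j)) = r g i j := by
  simp [evalHom]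

/-- Matrix form of the existence half of the universal property. -/
theorem exists_hom_of_compatible [IsAdicComplete (maximalIdeal A) A]
    (ι : MvPolynomial (Γ × Fin 2 × Fin 2) 𝒪 →ₐ[𝒪] R)
    (hdense : ∀ (n : ℕ) (x : R), ∃ p, x - ι p ∈ maximalIdeal R ^ n)
    (rA : Γ → Matrix (Fin 2) (Fin 2) A)
    (hker : ∀ (n : ℕ) (p : MvPolynomial (Γ × Fin 2 × Fin 2) 𝒪),
      ι p ∈ maximalIdeal R ^ n → evalHom 𝒪 rA p ∈ maximalIdeal A ^ n) :
    ∃ φ : R →ₐ[𝒪] A, (∀ g i j, φ (ι (X (g, i, j))) = rA g i j) ∧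
      φ.comp ι = evalHom 𝒪 rA ∧
      ∀ (n : ℕ) (x : R), x ∈ maximalIdeal R ^ n → φ x ∈ maximalIdeal A ^ n := by
  obtain ⟨φ, h1, h2⟩ := exists_lift ι hdense (evalHom 𝒪 rA) hker
  refine ⟨φ, fun g i j => ?_, h1, h2⟩
  have := congrArg (fun f : MvPolynomial (Γ × Fin 2 × Fin 2) 𝒪 →ₐ[𝒪] A => f (X (g, i, j))) h1
  simpa using this

/-- Two local `𝒪`-algebra homs out of a local `𝒪`-algebra with residue field generated by `𝒪`
agree modulo the maximal ideal of the target. -/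
theorem sub_mem_maximalIdeal_of_residue_surjective
    (hsurj : Function.Surjective (IsLocalRing.residue R ∘ algebraMap 𝒪 R))
    (φ φ' : R →ₐ[𝒪] A)
    (hφ : ∀ x ∈ maximalIdeal R, φ x ∈ maximalIdeal A)
    (hφ' : ∀ x ∈ maximalIdeal R, φ' x ∈ maximalIdeal A) (x : R) :
    φ x - φ' x ∈ maximalIdeal A := by
  obtain ⟨c, hc⟩ := hsurj (IsLocalRing.residue R x)
  have hm : x - algebraMap 𝒪 R c ∈ maximalIdeal R := by
    rw [← IsLocalRing.residue_eq_zero_iff, map_sub, sub_eq_zero]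
    exact hc.symm
  have e : φ x - φ' x = φ (x - algebraMap 𝒪 R c) - φ' (x - algebraMap 𝒪 R c) := by
    rw [map_sub, map_sub, AlgHom.commutes, AlgHom.commutes]; ring
  rw [e]
  exact Ideal.sub_mem _ (hφ _ hm) (hφ' _ hm)

/-- Matrix form of the uniqueness half of the universal property: if the two specialisations
of a rigid (slice-form) universal matrix family are conjugate, the two homs agree. -/
theorem hom_unique_of_rigid [IsHausdorff (maximalIdeal A) A] {G : Type*} [Monoid G]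
    (ι : MvPolynomial (G × Fin 2 × Fin 2) 𝒪 →ₐ[𝒪] R)
    (hdense : ∀ (n : ℕ) (x : R), ∃ p, x - ι p ∈ maximalIdeal R ^ n)
    (hsurj : Function.Surjective (IsLocalRing.residue R ∘ algebraMap 𝒪 R))
    (g₀ g₁ : G) (i₀ : Fin 2) (β : 𝒪)
    (rR : G →* Matrix (Fin 2) (Fin 2) R) (hrR : ∀ g i j, rR g i j = ι (X (g, i, j)))
    (h00 : rR g₀ 0 0 = 0) (h10 : rR g₀ 1 0 = 1)
    (hβ : rR g₁ i₀ 0 = algebraMap 𝒪 R β)
    (hunit : IsUnit ((rR g₁ * rR g₀ - rR g₀ * rR g₁) i₀ 0))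
    (φ φ' : R →ₐ[𝒪] A)
    (hφ : ∀ x ∈ maximalIdeal R, φ x ∈ maximalIdeal A)
    (hφ' : ∀ x ∈ maximalIdeal R, φ' x ∈ maximalIdeal A)
    (N : Matrix (Fin 2) (Fin 2) A) (hN : IsUnit N)
    (hconj : ∀ g, N * (rR g).map φ = (rR g).map φ' * N) : φ = φ' := by
  have hres := sub_mem_maximalIdeal_of_residue_surjective hsurj φ φ' hφ hφ'
  let r : G →* Matrix (Fin 2) (Fin 2) A := (φ : R →+* A).mapMatrix.toMonoidHom.comp rR
  let r' : G →* Matrix (Fin 2) (Fin 2) A := (φ' : R →+* A).mapMatrix.toMonoidHom.comp rR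
  have hr : ∀ g, r g = (rR g).map φ := fun g => rfl
  have hr' : ∀ g, r' g = (rR g).map φ' := fun g => rfl
  have hu : IsUnit ((r' g₁ * r' g₀ - r' g₀ * r' g₁) i₀ 0) := by
    have hu' : IsUnit (φ' ((rR g₁ * rR g₀ - rR g₀ * rR g₁) i₀ 0)) := hunit.map φ'
    have e : (r' g₁ * r' g₀ - r' g₀ * r' g₁) i₀ 0 =
        φ' ((rR g₁ * rR g₀ - rR g₀ * rR g₁) i₀ 0) := by
      simp only [hr', Matrix.sub_apply, Matrix.mul_apply, Fin.sum_univ_two, Matrix.map_apply,
        map_sub, map_add, map_mul]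
    rw [e]; exact hu'
  have hrr : r = r' := by
    refine Fermat.Agent.S53.Rigid.rigid_unique r r' g₀ g₁ i₀ ?_ ?_ ?_ ?_ ?_ ?_ hu N hN ?_
    · simp [hr, h00]
    · simp [hr, h10]
    · simp [hr', h00]
    · simp [hr', h10]
    · simp [hr, hr', hβ]
    · intro i j
      simpa [hr, hr'] using hres (rR g₁ i j)
    · intro g
      rw [hr, hr']; exact hconj g
  have hentry : ∀ g i j, φ (rR g i j) = φ' (rR g i j) := by
    intro g i j
    have := congrFun (congrFun (congrArg (fun f : G →* Matrix (Fin 2) (Fin 2) A => f g) hrr) i) j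
    simpa [hr, hr'] using this
  apply lift_unique ι hdense φ φ' hφ hφ'
  apply MvPolynomial.algHom_ext
  rintro ⟨g, i, j⟩
  simp only [AlgHom.comp_apply]
  rw [← hrR g i j]
  exact hentry g i j

end Matrix

end Fermat.Agent.S53.Universal
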