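import Mathlib
import Fermat.Prelude.Def_GaloisRep_DeformationRingData
import Fermat.Prelude.Def_GaloisRep_DeformationCondition
import Fermat.Agent.S53.MatRep
import Fermat.Agent.S53.Rigid
import Fermat.Agent.S53.Universal
import Fermat.Agent.S53.TestAlgBase
import Fermat.Agent.S53.ResidualMat

set_option autoImplicit false
set_option linter.unusedSectionVars false

namespace Fermat.Agent.S53.Assemble

open IsLocalRing GaloisRep
open Fermat.Agent.S53.MatRep Fermat.Agent.S53.TestAlgBase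

local notation "Γℚ" => (AlgebraicClosure ℚ ≃ₐ[ℚ] AlgebraicClosure ℚ)
local notation "M₂" => Matrix (Fin 2) (Fin 2)
local notation "Pol" => MvPolynomial (Γℚ × Fin 2 × Fin 2)

/-- A rigid lift of the framed residual matrices `rt` (reduced mod `𝔪_𝒪`). -/
structure IsRigidLift {𝒪 : Type} [CommRing 𝒪] (rt : Γℚ → M₂ 𝒪) (g0 g1 : Γℚ) (i0 : Fin 2)
    {A : Type} [CommRing A] [IsLocalRing A] [Algebra 𝒪 A] (r : Γℚ →* M₂ A) : Prop where
  cont : IsContMat r
  cong : ∀ g i j, r g i j - algebraMap 𝒪 A (rt g i j) ∈ maximalIdeal A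
  e00 : r g0 0 0 = 0
  e10 : r g0 1 0 = 1
  eβ : r g1 i0 0 = algebraMap 𝒪 A (rt g1 i0 0)

section Eqv

variable {A B : Type} [CommRing A] [IsLocalRing A] [CommRing B] [IsLocalRing B]

theorem eqvSymm {ρ ρ' : GaloisRepAdic A} (h : ρ.IsEquiv ρ') : ρ'.IsEquiv ρ :=
  h.elim fun e => ⟨e.symm⟩

theorem eqvTrans {ρ ρ' ρ'' : GaloisRepAdic A} (h : ρ.IsEquiv ρ') (h' : ρ'.IsEquiv ρ'') :
    ρ.IsEquiv ρ'' :=
  h.elim fun e => h'.elim fun e' => ⟨e.trans e'⟩

theorem eqvBaseChange (φ : A →+* B) (hφ : IsLocalHom φ) {ρ ρ' : GaloisRepAdic A}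
    (h : ρ.IsEquiv ρ') : (ρ.baseChangeAlong φ hφ).IsEquiv (ρ'.baseChangeAlong φ hφ) :=
  h.elim fun e => ⟨e.baseChangeAlong φ hφ⟩

theorem toMatrix_ofMat (r : Γℚ →* M₂ A) (hr : IsContMat r) (σ : Γℚ) :
    LinearMap.toMatrix (Pi.basisFun A (Fin 2)) (Pi.basisFun A (Fin 2)) ((ofMat r hr).ρ σ) = r σ :=
  congrArg (fun f => f σ) (matOfBasis_ofMat r hr)

end Eqv

section Basic

variable {𝒪 : Type} [CommRing 𝒪] {rt : Γℚ → M₂ 𝒪} {g0 g1 : Γℚ} {i0 : Fin 2}

/-- The commutator entry of any lift of `rt` is a unit. -/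
theorem isUnit_comm_of_cong {A : Type} [CommRing A] [IsLocalRing A] [Algebra 𝒪 A]
    (hcomm : IsUnit ((rt g1 * rt g0 - rt g0 * rt g1) i0 0))
    (r : Γℚ →* M₂ A) (hc : ∀ g i j, r g i j - algebraMap 𝒪 A (rt g i j) ∈ maximalIdeal A) :
    IsUnit ((r g1 * r g0 - r g0 * r g1) i0 0) := by
  have hq : ∀ g i j, Ideal.Quotient.mk (maximalIdeal A) (r g i j) =
      Ideal.Quotient.mk (maximalIdeal A) (algebraMap 𝒪 A (rt g i j)) :=
    fun g i j => Ideal.Quotient.eq.mpr (hc g i j)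
  have h1 : (r g1 * r g0 - r g0 * r g1) i0 0 -
      algebraMap 𝒪 A ((rt g1 * rt g0 - rt g0 * rt g1) i0 0) ∈ maximalIdeal A := by
    rw [← Ideal.Quotient.eq]
    simp only [Matrix.sub_apply, Matrix.mul_apply, Fin.sum_univ_two, map_sub, map_add, map_mul, hq]
  have h2 : (r g1 * r g0 - r g0 * r g1) i0 0 =
      algebraMap 𝒪 A ((rt g1 * rt g0 - rt g0 * rt g1) i0 0) +
      ((r g1 * r g0 - r g0 * r g1) i0 0 -
        algebraMap 𝒪 A ((rt g1 * rt g0 - rt g0 * rt g1) i0 0)) := by ring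
  rw [h2]
  exact Rigid.isUnit_add_of_mem (hcomm.map _) h1

/-- Entrywise image of a rigid lift under a local algebra hom is a rigid lift. -/
theorem IsRigidLift.map {A B : Type} [CommRing A] [IsLocalRing A] [Algebra 𝒪 A]
    [CommRing B] [IsLocalRing B] [Algebra 𝒪 B] {r : Γℚ →* M₂ A}
    (hr : IsRigidLift rt g0 g1 i0 r) (q : A →ₐ[𝒪] B) (hq : IsLocalHom (q : A →+* B)) :
    IsRigidLift rt g0 g1 i0 (mapMat (q : A →+* B) r) where
  cont := hr.cont.map _ hq
  cong g i j := by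
    have h1 : mapMat (q : A →+* B) r g i j - algebraMap 𝒪 B (rt g i j) =
        (q : A →+* B) (r g i j - algebraMap 𝒪 A (rt g i j)) := by
      rw [mapMat_apply, map_sub]
      simp
    rw [h1]
    have := hr.cong g i j
    rw [mem_maximalIdeal, mem_nonunits_iff] at this ⊢
    exact fun h => this (hq.map_nonunit _ h)
  e00 := by rw [mapMat_apply, hr.e00, map_zero]
  e10 := by rw [mapMat_apply, hr.e10, map_one]
  eβ := by
    rw [mapMat_apply, hr.eβ]
    simp

end Basic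

section Main

variable (𝒪 : Type) [CommRing 𝒪] [IsLocalRing 𝒪]
  (𝒟 : ∀ ⦃A : Type⦄ [CommRing A] [IsLocalRing A] [Algebra 𝒪 A], GaloisRepAdic A → Prop)
  (rt : Γℚ → M₂ 𝒪) (g0 g1 : Γℚ) (i0 : Fin 2)
  (J : ℕ → Ideal (Pol 𝒪))

/-- Level hypothesis (a): each `J n` (`n ≥ 1`) is the kernel of a surjection onto a test algebra
killed by `𝔪 ^ n`, carrying a rigid lift of type `𝒟` given by the images of the variables. -/
def LevelA : Prop :=
  ∀ n, 1 ≤ n → ∃ (B : Type) (_ : CommRing B) (_ : IsLocalRing B) (_ : Algebra 𝒪 B)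
    (ψ : Pol 𝒪 →ₐ[𝒪] B) (r : Γℚ →* M₂ B) (hr : IsRigidLift rt g0 g1 i0 r),
    IsArtinianTestAlgebra 𝒪 B ∧ Function.Surjective ψ ∧ RingHom.ker ψ = J n ∧
    maximalIdeal B ^ n = ⊥ ∧ (∀ g i j, ψ (MvPolynomial.X (g, i, j)) = r g i j) ∧
    𝒟 (ofMat r hr.cont)

/-- Level hypothesis (b): `J n` is contained in the kernel of the evaluation map of every
rigid lift of type `𝒟` over a test algebra killed by `𝔪 ^ n`. -/
def LevelB : Prop :=
  ∀ n, 1 ≤ n → ∀ (B : Type) [CommRing B] [IsLocalRing B] [Algebra 𝒪 B],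
    IsArtinianTestAlgebra 𝒪 B → maximalIdeal B ^ n = ⊥ →
    ∀ (r : Γℚ →* M₂ B) (hr : IsRigidLift rt g0 g1 i0 r), 𝒟 (ofMat r hr.cont) →
    J n ≤ RingHom.ker (Universal.evalHom 𝒪 (fun g => r g))

variable {𝒪 𝒟 rt g0 g1 i0 J}
variable {R : Type} [CommRing R] [IsLocalRing R] [Algebra 𝒪 R]
  (ι : Pol 𝒪 →ₐ[𝒪] R)

theorem iota_eq_zero [IsHausdorff (maximalIdeal R) R]
    (hcomap : ∀ n, (maximalIdeal R ^ n).comap ι = J n)
    (p : Pol 𝒪) (hp : ∀ n, 1 ≤ n → p ∈ J n) : ι p = 0 := by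
  apply IsHausdorff.haus (I := maximalIdeal R) (M := R) inferInstance
  intro n
  rw [SModEq.zero, smul_eq_mul, Ideal.mul_top]
  rcases Nat.eq_zero_or_pos n with rfl | hn
  · simp
  · have := hp n hn
    rw [← hcomap n] at this
    exact this

theorem mem_J_of_level (hJa : LevelA 𝒪 𝒟 rt g0 g1 i0 J) (n : ℕ) (hn : 1 ≤ n) (p : Pol 𝒪)
    (hp : ∀ (B : Type) [CommRing B] [IsLocalRing B] [Algebra 𝒪 B] (ψ : Pol 𝒪 →ₐ[𝒪] B)
      (r : Γℚ →* M₂ B), IsRigidLift rt g0 g1 i0 r → maximalIdeal B ^ n = ⊥ →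
      (∀ g i j, ψ (MvPolynomial.X (g, i, j)) = r g i j) → ψ p = 0) : p ∈ J n := by
  obtain ⟨B, _, _, _, ψ, r, hr, hB, hψs, hψk, hpow, hψX, hD⟩ := hJa n hn
  rw [← hψk, RingHom.mem_ker]
  exact hp B ψ r hr hpow hψX

theorem iota_eq_zero_of_level [IsHausdorff (maximalIdeal R) R]
    (hJa : LevelA 𝒪 𝒟 rt g0 g1 i0 J)
    (hcomap : ∀ n, (maximalIdeal R ^ n).comap ι = J n) (p : Pol 𝒪)
    (hp : ∀ (B : Type) [CommRing B] [IsLocalRing B] [Algebra 𝒪 B] (ψ : Pol 𝒪 →ₐ[𝒪] B)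
      (r : Γℚ →* M₂ B), IsRigidLift rt g0 g1 i0 r →
      (∀ g i j, ψ (MvPolynomial.X (g, i, j)) = r g i j) → ψ p = 0) : ι p = 0 :=
  iota_eq_zero ι hcomap p fun n hn =>
    mem_J_of_level hJa n hn p fun B _ _ _ ψ r hr _ hψX => hp B ψ r hr hψX

/-- The universal matrices. -/
noncomputable def univMat [IsHausdorff (maximalIdeal R) R]
    (hJa : LevelA 𝒪 𝒟 rt g0 g1 i0 J)
    (hcomap : ∀ n, (maximalIdeal R ^ n).comap ι = J n) : Γℚ →* M₂ R where
  toFun g := Matrix.of fun i j => ι (MvPolynomial.X (g, i, j))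
  map_one' := by
    ext i j
    rw [Matrix.of_apply]
    have h0 : ι (MvPolynomial.X (1, i, j) - if i = j then 1 else 0) = 0 :=
      iota_eq_zero_of_level ι hJa hcomap _ (fun B _ _ _ ψ r hr hψX => by
        rw [map_sub, hψX, map_one r, Matrix.one_apply]
        split_ifs <;> simp)
    rw [map_sub, sub_eq_zero] at h0
    rw [h0, Matrix.one_apply]
    split_ifs <;> simp
  map_mul' g h := by
    ext i j
    rw [Matrix.of_apply, Matrix.mul_apply]
    simp only [Matrix.of_apply]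
    have h0 : ι (MvPolynomial.X (g * h, i, j) -
        ∑ k, MvPolynomial.X (g, i, k) * MvPolynomial.X (h, k, j)) = 0 :=
      iota_eq_zero_of_level ι hJa hcomap _ (fun B _ _ _ ψ r hr hψX => by
        rw [map_sub, map_sum, hψX, map_mul r, Matrix.mul_apply, sub_eq_zero]
        exact Finset.sum_congr rfl fun k _ => by rw [map_mul, hψX, hψX])
    rw [map_sub, sub_eq_zero, map_sum] at h0
    rw [h0]
    exact Finset.sum_congr rfl fun k _ => by rw [map_mul]

theorem univMat_apply [IsHausdorff (maximalIdeal R) R]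
    (hJa : LevelA 𝒪 𝒟 rt g0 g1 i0 J)
    (hcomap : ∀ n, (maximalIdeal R ^ n).comap ι = J n) (g : Γℚ) (i j : Fin 2) :
    univMat ι hJa hcomap g i j = ι (MvPolynomial.X (g, i, j)) := rfl

theorem univMat_isRigidLift [IsHausdorff (maximalIdeal R) R]
    (hJa : LevelA 𝒪 𝒟 rt g0 g1 i0 J)
    (hcomap : ∀ n, (maximalIdeal R ^ n).comap ι = J n) :
    IsRigidLift rt g0 g1 i0 (univMat ι hJa hcomap) where
  cont := by
    intro n
    rcases Nat.eq_zero_or_pos n with rfl | hn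
    · exact ⟨⊥, inferInstance, fun σ _ i j => by simp⟩
    · obtain ⟨B, _, _, _, ψ, r, hr, hB, hψs, hψk, hpow, hψX, hD⟩ := hJa n hn
      obtain ⟨L, hL, h⟩ := hr.cont n
      refine ⟨L, hL, fun σ hσ i j => ?_⟩
      have h1 := h σ hσ i j
      rw [hpow, Ideal.mem_bot, sub_eq_zero] at h1
      have h2 : MvPolynomial.X (σ, i, j) - (if i = j then (1 : Pol 𝒪) else 0) ∈ J n := by
        rw [← hψk, RingHom.mem_ker, map_sub, hψX, h1, Matrix.one_apply]
        split_ifs <;> simp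
      rw [← hcomap n, Ideal.mem_comap, map_sub] at h2
      rw [univMat_apply, Matrix.one_apply]
      convert h2 using 2
      split_ifs <;> simp
  cong g i j := by
    obtain ⟨B, _, _, _, ψ, r, hr, hB, hψs, hψk, hpow, hψX, hD⟩ := hJa 1 le_rfl
    have h1 := hr.cong g i j
    rw [pow_one] at hpow
    rw [hpow, Ideal.mem_bot] at h1
    have h2 : MvPolynomial.X (g, i, j) - MvPolynomial.C (rt g i j) ∈ J 1 := by
      rw [← hψk, RingHom.mem_ker, map_sub, hψX, ← MvPolynomial.algebraMap_eq, AlgHom.commutes]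
      exact h1
    rw [← hcomap 1, Ideal.mem_comap, map_sub, pow_one, ← MvPolynomial.algebraMap_eq,
      AlgHom.commutes] at h2
    exact h2
  e00 := by
    rw [univMat_apply]
    exact iota_eq_zero_of_level ι hJa hcomap _ (fun B _ _ _ ψ r hr hψX => by rw [hψX, hr.e00])
  e10 := by
    rw [univMat_apply]
    have := iota_eq_zero_of_level ι hJa hcomap (MvPolynomial.X (g0, 1, 0) - 1)
      (fun B _ _ _ ψ r hr hψX => by rw [map_sub, hψX, hr.e10, map_one, sub_self])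
    rwa [map_sub, map_one, sub_eq_zero] at this
  eβ := by
    rw [univMat_apply]
    have := iota_eq_zero_of_level ι hJa hcomap
      (MvPolynomial.X (g1, i0, 0) - MvPolynomial.C (rt g1 i0 0))
      (fun B _ _ _ ψ r hr hψX => by
        rw [map_sub, hψX, hr.eβ, ← MvPolynomial.algebraMap_eq, AlgHom.commutes, sub_self])
    rwa [map_sub, sub_eq_zero, ← MvPolynomial.algebraMap_eq, AlgHom.commutes] at this

theorem mem_maximalIdeal_of_isLocalHom {A B : Type} [CommRing A] [IsLocalRing A] [CommRing B]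
    [IsLocalRing B] (q : A →+* B) (hq : IsLocalHom q) (x : A) (hx : x ∈ maximalIdeal A) :
    q x ∈ maximalIdeal B := by
  rw [mem_maximalIdeal, mem_nonunits_iff] at hx ⊢
  exact fun h => hx (hq.map_nonunit _ h)

theorem isLocalHom_of_mem_maximalIdeal {A B : Type} [CommRing A] [IsLocalRing A] [CommRing B]
    [IsLocalRing B] (q : A →+* B) (hq : ∀ x ∈ maximalIdeal A, q x ∈ maximalIdeal B) :
    IsLocalHom q := by
  refine ⟨fun a ha => ?_⟩
  by_contra hna
  have := hq a ((mem_maximalIdeal a).mpr hna)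
  rw [mem_maximalIdeal, mem_nonunits_iff] at this
  exact this ha

theorem univMat_isOfType [IsNoetherianRing R] [IsAdicComplete (maximalIdeal R) R]
    (h𝒟 : IsDeformationCondition 𝒪 𝒟) (hloc : IsLocalHom (algebraMap 𝒪 R))
    (hresR : Function.Surjective (residue R ∘ algebraMap 𝒪 R))
    (hJa : LevelA 𝒪 𝒟 rt g0 g1 i0 J)
    (hcomap : ∀ n, (maximalIdeal R ^ n).comap ι = J n) :
    𝒟 (ofMat (univMat ι hJa hcomap) (univMat_isRigidLift ι hJa hcomap).cont) := by
  refine (h𝒟.iff_forall_surjective hloc hresR _).mpr ?_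
  intro B _ _ _ hB q hq hqs
  have hBart := hB.isArtinian
  obtain ⟨n, hn⟩ := exists_maximalIdeal_pow_eq_bot B
  have hN : maximalIdeal B ^ (n + 1) = ⊥ := by
    rw [eq_bot_iff, ← hn]
    exact Ideal.pow_le_pow_right (Nat.le_succ n)
  obtain ⟨B', _, _, _, ψ, r, hr, hB', hψs, hψk, hpow, hψX, hD⟩ := hJa (n + 1) (by omega)
  have hqm : ∀ x ∈ maximalIdeal R, (q : R →+* B) x ∈ maximalIdeal B :=
    mem_maximalIdeal_of_isLocalHom _ hq
  have hker : RingHom.ker ψ ≤ RingHom.ker (q.comp ι) := by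
    intro p hp
    rw [hψk, ← hcomap (n + 1), Ideal.mem_comap] at hp
    have := Universal.map_pow_mem (q : R →+* B) hqm (n + 1) hp
    rw [hN, Ideal.mem_bot] at this
    rw [RingHom.mem_ker]
    exact this
  let θ : B' →ₐ[𝒪] B := AlgHom.liftOfSurjective ψ hψs (q.comp ι) hker
  have hθ : ∀ p, θ (ψ p) = q (ι p) := fun p => AlgHom.liftOfSurjective_apply _ _ _ _ _
  have hθloc : IsLocalHom (θ : B' →+* B) := by
    refine ⟨fun a ha => ?_⟩
    by_contra hna
    have ham : a ∈ maximalIdeal B' := (mem_maximalIdeal a).mpr hna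
    have h1 : a ^ (n + 1) ∈ maximalIdeal B' ^ (n + 1) := Ideal.pow_mem_pow ham _
    rw [hpow, Ideal.mem_bot] at h1
    have h2 : ((θ : B' →+* B) a) ^ (n + 1) = 0 := by rw [← map_pow, h1, map_zero]
    exact (ha.pow (n + 1)).ne_zero h2
  have hD' := h𝒟.baseChangeAlong hB' hB θ hθloc hD
  have hc := (univMat_isRigidLift ι hJa hcomap).cont
  have e1 := baseChangeAlong_ofMat_isEquiv (θ : B' →+* B) hθloc r hr.cont
  have e2 := baseChangeAlong_ofMat_isEquiv (q : R →+* B) hq (univMat ι hJa hcomap) hc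
  have hmat : mapMat (θ : B' →+* B) r = mapMat (q : R →+* B) (univMat ι hJa hcomap) := by
    ext σ i j
    rw [mapMat_apply, mapMat_apply, univMat_apply, ← hψX]
    exact hθ _
  have e3 : (ofMat (mapMat (θ : B' →+* B) r) (hr.cont.map _ hθloc)).IsEquiv
      ((ofMat (univMat ι hJa hcomap) hc).baseChangeAlong (q : R →+* B) hq) := by
    rw [ofMat_congr hmat _ (hc.map _ hq)]
    exact eqvSymm e2
  exact h𝒟.of_isEquiv hB (eqvTrans e1 e3) hD'

theorem universal_property [Finite (ResidueField 𝒪)]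
    [IsNoetherianRing R] [IsAdicComplete (maximalIdeal R) R]
    (h𝒟 : IsDeformationCondition 𝒪 𝒟)
    (ρbar : ResidualGaloisRep (ResidueField 𝒪))
    (b : Module.Basis (Fin 2) (ResidueField 𝒪) ρbar.V)
    (hrt : ∀ σ, (rt σ).map (residue 𝒪) = LinearMap.toMatrix b b (ρbar.ρ σ))
    (hrt0 : rt g0 0 0 = 0) (hrt1 : rt g0 1 0 = 1)
    (hcomm : IsUnit ((rt g1 * rt g0 - rt g0 * rt g1) i0 0))
    (hresR : Function.Surjective (residue R ∘ algebraMap 𝒪 R))
    (hJa : LevelA 𝒪 𝒟 rt g0 g1 i0 J) (hJb : LevelB 𝒪 𝒟 rt g0 g1 i0 J)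
    (hcomap : ∀ n, (maximalIdeal R ^ n).comap ι = J n)
    (hdense : ∀ (n : ℕ) (x : R), ∃ p, x - ι p ∈ maximalIdeal R ^ n)
    (A : Type) [CommRing A] [IsLocalRing A] [IsNoetherianRing A]
    [IsAdicComplete (maximalIdeal A) A] [Algebra 𝒪 A] [IsLocalHom (algebraMap 𝒪 A)]
    (hresA : Function.Surjective (residue A ∘ algebraMap 𝒪 A))
    (ρA : GaloisRepAdic A) (hDA : 𝒟 ρA)
    (hresid : ρA.residual.IsEquiv (ρbar.baseChangeAlong (ResidueField.map (algebraMap 𝒪 A)))) :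
    ∃! φ : R →ₐ[𝒪] A, ∃ hφ : IsLocalHom (φ : R →+* A),
      ((ofMat (univMat ι hJa hcomap) (univMat_isRigidLift ι hJa hcomap).cont).baseChangeAlong
        (φ : R →+* A) hφ).IsEquiv ρA := by
  have hrigR := univMat_isRigidLift ι hJa hcomap
  have hc := hrigR.cont
  -- Step 1: an adapted basis
  obtain ⟨c, hcc⟩ := ResidualMat.exists_basis_congr_of_residual_isEquiv ρA ρbar b rt hrt hresid
  have hr₀ := isContMat_matOfBasis ρA c
  have hcong₀ : ∀ g i j, matOfBasis ρA c g i j - algebraMap 𝒪 A (rt g i j) ∈ maximalIdeal A :=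
    fun g i j => hcc g i j
  have hequiv₀ : ρA.IsEquiv (ofMat (matOfBasis ρA c) hr₀) := ⟨equivOfBasis ρA c⟩
  -- Step 2: rigidify
  have ha : matOfBasis ρA c g0 0 0 ∈ maximalIdeal A := by
    have := hcong₀ g0 0 0
    rwa [hrt0, map_zero, sub_zero] at this
  have hb : matOfBasis ρA c g0 1 0 - 1 ∈ maximalIdeal A := by
    have := hcong₀ g0 1 0
    rwa [hrt1, map_one] at this
  have hcomm₀ := isUnit_comm_of_cong hcomm (matOfBasis ρA c) hcong₀
  obtain ⟨N, N', hNN', hN1, e00, e10, eβ⟩ := Rigid.rigid_exists (matOfBasis ρA c) g0 g1 i0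
    (algebraMap 𝒪 A (rt g1 i0 0)) ha hb hcomm₀ (hcong₀ g1 i0 0)
  set rA := Rigid.conj N N' hNN' (matOfBasis ρA c) with hrA
  have hrigA : IsRigidLift rt g0 g1 i0 rA :=
    { cont := fun n => by
        obtain ⟨L, hL, h⟩ := hr₀ n
        refine ⟨L, hL, fun σ hσ i j => ?_⟩
        have := Rigid.conj_sub_one_mem (maximalIdeal A ^ n) N N' hNN' (matOfBasis ρA c) σ
          (fun i j => by rw [Matrix.sub_apply]; exact h σ hσ i j) i j
        rwa [Matrix.sub_apply] at this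
      cong := fun g i j => by
        have h1 := (Rigid.mapMatrix_mk_eq_iff (maximalIdeal A) _ _).mp
          (Rigid.conj_cong (maximalIdeal A) N N' hNN' hN1 (matOfBasis ρA c) g) i j
        have h2 : rA g i j - algebraMap 𝒪 A (rt g i j) =
            (rA g i j - matOfBasis ρA c g i j) +
            (matOfBasis ρA c g i j - algebraMap 𝒪 A (rt g i j)) := by ring
        rw [h2]
        exact add_mem h1 (hcong₀ g i j)
      e00 := e00
      e10 := e10
      eβ := eβ }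
  have hdetN' : IsUnit N'.det := Matrix.isUnit_det_of_left_inverse hNN'
  have hequivA : ρA.IsEquiv (ofMat rA hrigA.cont) :=
    eqvTrans hequiv₀ ((isEquiv_ofMat_iff _ _ hr₀ hrigA.cont).mpr ⟨N', hdetN', fun σ => by
      rw [hrA, Rigid.conj_apply, mul_assoc, hNN', mul_one]⟩)
  -- Step 3: the finite levels
  have key : ∀ n, 1 ≤ n → ∀ p ∈ J n,
      Universal.evalHom 𝒪 (fun g => rA g) p ∈ maximalIdeal A ^ n := by
    intro n hn p hp
    have hlocq : IsLocalRing (A ⧸ maximalIdeal A ^ n) := isLocalRing_quotient_pow A (by omega)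
    have hAn : IsArtinianTestAlgebra 𝒪 (A ⧸ maximalIdeal A ^ n) :=
      isArtinianTestAlgebra_quotient_pow 𝒪 A inferInstance hresA n
    have hpow : maximalIdeal (A ⧸ maximalIdeal A ^ n) ^ n = ⊥ := maximalIdeal_quotient_pow_pow A n
    let q : A →ₐ[𝒪] A ⧸ maximalIdeal A ^ n := Ideal.Quotient.mkₐ 𝒪 _
    have hq : IsLocalHom (q : A →+* A ⧸ maximalIdeal A ^ n) := isLocalHom_quotient_mk A _
    have hD1 : 𝒟 (ρA.baseChangeAlong (q : A →+* A ⧸ maximalIdeal A ^ n) hq) :=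
      (h𝒟.iff_forall_surjective inferInstance hresA ρA).mp hDA hAn q hq
        Ideal.Quotient.mk_surjective
    have e1 := eqvBaseChange (q : A →+* A ⧸ maximalIdeal A ^ n) hq hequivA
    have e2 := baseChangeAlong_ofMat_isEquiv (q : A →+* A ⧸ maximalIdeal A ^ n) hq rA hrigA.cont
    have hD2 := h𝒟.of_isEquiv hAn (eqvTrans e1 e2) hD1
    have hrig' := hrigA.map q hq
    have h3 := hJb n hn (A ⧸ maximalIdeal A ^ n) hAn hpow _ hrig' hD2 hp
    have hcomp : Universal.evalHom 𝒪 (fun g => mapMat (q : A →+* A ⧸ maximalIdeal A ^ n) rA g) =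
        q.comp (Universal.evalHom 𝒪 (fun g => rA g)) := by
      apply MvPolynomial.algHom_ext
      rintro ⟨g, i, j⟩
      rw [AlgHom.comp_apply, Universal.evalHom_X, Universal.evalHom_X]
      rfl
    rw [RingHom.mem_ker, hcomp, AlgHom.comp_apply] at h3
    exact Ideal.Quotient.eq_zero_iff_mem.mp h3
  have hker : ∀ (n : ℕ) (p : Pol 𝒪), ι p ∈ maximalIdeal R ^ n →
      Universal.evalHom 𝒪 (fun g => rA g) p ∈ maximalIdeal A ^ n := by
    intro n p hp
    rcases Nat.eq_zero_or_pos n with rfl | hn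
    · simp
    · exact key n hn p (by rw [← hcomap n]; exact hp)
  -- Step 4: the homomorphism
  obtain ⟨φ, hφX, hφι, hφpow⟩ := Universal.exists_hom_of_compatible ι hdense (fun g => rA g) hker
  have hφm : ∀ x ∈ maximalIdeal R, φ x ∈ maximalIdeal A := fun x hx => by
    have := hφpow 1 x (by simpa using hx)
    simpa using this
  have hφloc : IsLocalHom (φ : R →+* A) := isLocalHom_of_mem_maximalIdeal _ hφm
  have hmatφ : mapMat (φ : R →+* A) (univMat ι hJa hcomap) = rA := by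
    ext σ i j
    rw [mapMat_apply, univMat_apply]
    exact hφX σ i j
  have e3 := baseChangeAlong_ofMat_isEquiv (φ : R →+* A) hφloc (univMat ι hJa hcomap) hc
  have e4 : (ofMat (mapMat (φ : R →+* A) (univMat ι hJa hcomap)) (hc.map _ hφloc)).IsEquiv ρA := by
    rw [ofMat_congr hmatφ _ hrigA.cont]
    exact eqvSymm hequivA
  refine ⟨φ, ⟨hφloc, eqvTrans e3 e4⟩, ?_⟩
  -- Step 5: uniqueness
  rintro φ' ⟨hφ'loc, hequiv'⟩
  have hφ'm : ∀ x ∈ maximalIdeal R, φ' x ∈ maximalIdeal A :=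
    mem_maximalIdeal_of_isLocalHom (φ' : R →+* A) hφ'loc
  have e5 := baseChangeAlong_ofMat_isEquiv (φ' : R →+* A) hφ'loc (univMat ι hJa hcomap) hc
  have e6 := eqvTrans (eqvSymm e5) (eqvTrans hequiv' (eqvSymm e4))
  obtain ⟨M, hMdet, hM⟩ := (isEquiv_ofMat_iff _ _ _ _).mp e6
  exact Universal.hom_unique_of_rigid ι hdense hresR g0 g1 i0 (rt g1 i0 0)
    (univMat ι hJa hcomap) (fun g i j => univMat_apply ι hJa hcomap g i j) hrigR.e00 hrigR.e10
    hrigR.eβ (isUnit_comm_of_cong hcomm _ hrigR.cong) φ' φ hφ'm hφm M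
    ((Matrix.isUnit_iff_isUnit_det M).mpr hMdet) (fun g => hM g)

end Main

/-- **Assembly.** The universal deformation ring data from: a framing of `ρbar`
(`b`, `rt`, `g0`, `g1`, `i0`), a complete Noetherian local `𝒪`-algebra `R` with a dense map
`ι` from the polynomial ring on the matrix entries such that `comap ι (𝔪_R ^ n) = J n`, and the
two level hypotheses on the ideals `J n`. -/
theorem nonempty_deformationRingData
    (𝒪 : Type) [CommRing 𝒪] [IsDomain 𝒪] [IsDiscreteValuationRing 𝒪]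
    [IsAdicComplete (maximalIdeal 𝒪) 𝒪] [Finite (ResidueField 𝒪)]
    (ρbar : ResidualGaloisRep (ResidueField 𝒪))
    (𝒟 : ∀ ⦃A : Type⦄ [CommRing A] [IsLocalRing A] [Algebra 𝒪 A], GaloisRepAdic A → Prop)
    (habs : ρbar.IsAbsolutelyIrreducible)
    (h𝒟 : IsDeformationCondition 𝒪 𝒟)
    (b : Module.Basis (Fin 2) (ResidueField 𝒪) ρbar.V)
    (rt : Γℚ → M₂ 𝒪) (g0 g1 : Γℚ) (i0 : Fin 2)
    (hrt : ∀ σ, (rt σ).map (residue 𝒪) = LinearMap.toMatrix b b (ρbar.ρ σ))
    (hrt0 : rt g0 0 0 = 0) (hrt1 : rt g0 1 0 = 1)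
    (hcomm : IsUnit ((rt g1 * rt g0 - rt g0 * rt g1) i0 0))
    (R : Type) [CommRing R] [IsLocalRing R] [IsNoetherianRing R]
    [IsAdicComplete (maximalIdeal R) R] [Algebra 𝒪 R] [IsLocalHom (algebraMap 𝒪 R)]
    (hresR : Function.Surjective (residue R ∘ algebraMap 𝒪 R))
    (ι : Pol 𝒪 →ₐ[𝒪] R) (J : ℕ → Ideal (Pol 𝒪))
    (hcomap : ∀ n, (maximalIdeal R ^ n).comap ι = J n)
    (hdense : ∀ (n : ℕ) (x : R), ∃ p, x - ι p ∈ maximalIdeal R ^ n)
    (hJa : LevelA 𝒪 𝒟 rt g0 g1 i0 J) (hJb : LevelB 𝒪 𝒟 rt g0 g1 i0 J) :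
    Nonempty (DeformationRingData 𝒪 ρbar 𝒟) := by
  have hrigR := univMat_isRigidLift ι hJa hcomap
  exact ⟨{
    R := R
    residue_surjective := hresR
    absIrr := habs
    ρ := ofMat (univMat ι hJa hcomap) hrigR.cont
    isOfType := univMat_isOfType ι h𝒟 inferInstance hresR hJa hcomap
    residual_isEquiv :=
      ResidualMat.residual_isEquiv_of_congr _ ρbar (Pi.basisFun R (Fin 2)) b rt hrt
        (fun σ i j => by
          have := hrigR.cong σ i j
          have e := congrFun (congrFun (toMatrix_ofMat (univMat ι hJa hcomap) hrigR.cont σ) i) j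
          rw [e]
          exact this)
    universal := fun A _ _ _ _ _ _ hresA ρA hDA hresid =>
      universal_property ι h𝒟 ρbar b hrt hrt0 hrt1 hcomm hresR hJa hJb hcomap hdense A hresA ρA
        hDA hresid }⟩

end Fermat.Agent.S53.Assemble
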