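import Mathlib
import Fermat.Prelude.Thm_IsLocalRing_isAdicComplete_of_module_finite

set_option autoImplicit false

namespace Fermat.Agent.S53.CompleteLimit

open IsLocalRing

section Precomplete

variable {A : Type*} [CommRing A]

theorem smodEq_pow_iff (I : Ideal A) (n : ℕ) (x y : A) :
    x ≡ y [SMOD (I ^ n • ⊤ : Submodule A A)] ↔ x - y ∈ I ^ n := by
  rw [SModEq.sub_mem, smul_eq_mul, Ideal.mul_top]

theorem exists_limit_of_succ (I : Ideal A) [IsPrecomplete I A]
    (f : ℕ → A) (hf : ∀ n, f (n + 1) - f n ∈ I ^ n) : ∃ L : A, ∀ n, L - f n ∈ I ^ n := by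
  have hc : ∀ {m n : ℕ}, m ≤ n → f m ≡ f n [SMOD (I ^ m • ⊤ : Submodule A A)] := by
    intro m n hmn
    rw [smodEq_pow_iff]
    induction n, hmn using Nat.le_induction with
    | base => simp
    | succ n hmn ih =>
      have h1 : f m - f (n + 1) = (f m - f n) - (f (n + 1) - f n) := by ring
      rw [h1]
      exact sub_mem ih (Ideal.pow_le_pow_right hmn (hf n))
  obtain ⟨L, hL⟩ := IsPrecomplete.prec' (I := I) f hc
  refine ⟨L, fun n => ?_⟩
  have := hL n
  rw [smodEq_pow_iff] at this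
  have h2 : L - f n = -(f n - L) := by ring
  rw [h2]
  exact neg_mem this

theorem isPrecomplete_of_exists_limit (I : Ideal A)
    (h : ∀ f : ℕ → A, (∀ n, f (n + 1) - f n ∈ I ^ n) → ∃ L : A, ∀ n, L - f n ∈ I ^ n) :
    IsPrecomplete I A := by
  refine ⟨fun f hf => ?_⟩
  obtain ⟨L, hL⟩ := h f (fun n => by
    have := hf (Nat.le_succ n)
    rw [smodEq_pow_iff] at this
    have h2 : f (n + 1) - f n = -(f n - f (n + 1)) := by ring
    rw [h2]
    exact neg_mem this)
  refine ⟨L, fun n => ?_⟩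
  rw [smodEq_pow_iff]
  have h2 : f n - L = -(L - f n) := by ring
  rw [h2]
  exact neg_mem (hL n)

theorem isPrecomplete_sup (I K : Ideal A) [IsPrecomplete I A] [IsPrecomplete K A] :
    IsPrecomplete (I ⊔ K) A := by
  apply isPrecomplete_of_exists_limit
  intro f hf
  have hc : ∀ m n : ℕ, m ≤ n → f n - f m ∈ (I ⊔ K) ^ m := by
    intro m n hmn
    induction n, hmn using Nat.le_induction with
    | base => simp
    | succ n hmn ih =>
      have h1 : f (n + 1) - f m = (f n - f m) + (f (n + 1) - f n) := by ring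
      rw [h1]
      exact add_mem ih (Ideal.pow_le_pow_right hmn (hf n))
  have hstep : ∀ n : ℕ, ∃ a ∈ I ^ n, ∃ b ∈ K ^ n, f (2 * (n + 1)) - f (2 * n) = a + b := by
    intro n
    have h1 : f (2 * (n + 1)) - f (2 * n) ∈ (I ⊔ K) ^ (n + n) := by
      have := hc (2 * n) (2 * (n + 1)) (by omega)
      have h2n : 2 * n = n + n := two_mul n
      rw [h2n] at this ⊢
      exact this
    have h2 := Ideal.sup_pow_add_le_pow_sup_pow h1
    obtain ⟨a, ha, b, hb, hab⟩ := Submodule.mem_sup.mp h2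
    exact ⟨a, ha, b, hb, hab.symm⟩
  choose a ha b hb hab using hstep
  obtain ⟨La, hLa⟩ := exists_limit_of_succ I (fun n => ∑ i ∈ Finset.range n, a i) (fun n => by
    simp only [Finset.sum_range_succ, add_sub_cancel_left]
    exact ha n)
  obtain ⟨Lb, hLb⟩ := exists_limit_of_succ K (fun n => ∑ i ∈ Finset.range n, b i) (fun n => by
    simp only [Finset.sum_range_succ, add_sub_cancel_left]
    exact hb n)
  have hg : ∀ n : ℕ, f (2 * n) = f 0 + ∑ i ∈ Finset.range n, a i + ∑ i ∈ Finset.range n, b i := by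
    intro n
    induction n with
    | zero => simp
    | succ n ih =>
      have := hab n
      rw [Finset.sum_range_succ, Finset.sum_range_succ]
      linear_combination ih + this
  refine ⟨f 0 + La + Lb, fun n => ?_⟩
  have h1 : f 0 + La + Lb - f n = (La - ∑ i ∈ Finset.range n, a i) +
      (Lb - ∑ i ∈ Finset.range n, b i) + (f (2 * n) - f n) := by
    rw [hg n]; ring
  rw [h1]
  refine add_mem (add_mem ?_ ?_) (hc n (2 * n) (by omega))
  · exact Ideal.pow_right_mono le_sup_left n (hLa n)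
  · exact Ideal.pow_right_mono le_sup_right n (hLb n)

end Precomplete

section PowerSeries

variable {σ : Type*} {A : Type*} [CommRing A]

/-- A power series from its coefficient function. -/
def mkPS (d : (σ →₀ ℕ) → A) : MvPowerSeries σ A := d

theorem coeff_mkPS (d : (σ →₀ ℕ) → A) (x : σ →₀ ℕ) : MvPowerSeries.coeff x (mkPS d) = d x := rfl

theorem mem_span_C_pow_iff (a : A) (n : ℕ) (f : MvPowerSeries σ A) :
    f ∈ (Ideal.span {MvPowerSeries.C (σ := σ) a}) ^ n ↔
      ∀ x, MvPowerSeries.coeff x f ∈ (Ideal.span {a}) ^ n := by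
  rw [Ideal.span_singleton_pow, ← map_pow, Ideal.span_singleton_pow]
  constructor
  · intro h x
    obtain ⟨g, rfl⟩ := Ideal.mem_span_singleton'.mp h
    rw [mul_comm, MvPowerSeries.coeff_C_mul]
    exact Ideal.mem_span_singleton'.mpr ⟨_, mul_comm _ _⟩
  · intro h
    have h' : ∀ x, ∃ d, d * a ^ n = MvPowerSeries.coeff x f :=
      fun x => Ideal.mem_span_singleton'.mp (h x)
    choose d hd using h'
    refine Ideal.mem_span_singleton'.mpr ⟨mkPS d, ?_⟩
    ext x
    rw [mul_comm, MvPowerSeries.coeff_C_mul, ← hd x, mul_comm, coeff_mkPS]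

theorem isPrecomplete_span_C (a : A) [IsPrecomplete (Ideal.span {a}) A] :
    IsPrecomplete (Ideal.span {MvPowerSeries.C (σ := σ) a}) (MvPowerSeries σ A) := by
  apply isPrecomplete_of_exists_limit
  intro f hf
  have h1 : ∀ x, ∃ L : A, ∀ n, L - MvPowerSeries.coeff x (f n) ∈ (Ideal.span {a}) ^ n := by
    intro x
    apply exists_limit_of_succ
    intro n
    have := (mem_span_C_pow_iff a n _).mp (hf n) x
    rwa [map_sub] at this
  choose L hL using h1
  refine ⟨mkPS L, fun n => ?_⟩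
  rw [mem_span_C_pow_iff]
  intro x
  rw [map_sub, coeff_mkPS]
  exact hL x n

theorem mem_span_X_image_of_coeff [DecidableEq σ] (T : Finset σ) :
    ∀ f : MvPowerSeries σ A, (∀ m : σ →₀ ℕ, (∀ i ∈ T, m i = 0) → MvPowerSeries.coeff m f = 0) →
    f ∈ Ideal.span ((MvPowerSeries.X : σ → MvPowerSeries σ A) '' (T : Set σ)) := by
  induction T using Finset.induction_on with
  | empty =>
    intro f hf
    have : f = 0 := by
      ext m
      rw [hf m (by simp)]
      simp
    rw [this]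
    exact Submodule.zero_mem _
  | insert i T hi ih =>
    intro f hf
    let h : MvPowerSeries σ A := mkPS (fun m => MvPowerSeries.coeff (Finsupp.single i 1 + m) f)
    have hcoeff : ∀ m : σ →₀ ℕ, MvPowerSeries.coeff m (MvPowerSeries.X i * h) =
        if m i = 0 then 0 else MvPowerSeries.coeff m f := by
      intro m
      split_ifs with hm
      · exact (MvPowerSeries.X_dvd_iff.mp (dvd_mul_right _ _)) m hm
      · have hm' : Finsupp.single i 1 + (m - Finsupp.single i 1) = m := by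
          ext j
          by_cases hj : j = i
          · subst hj
            simp only [Finsupp.coe_add, Finsupp.coe_tsub, Pi.add_apply, Pi.sub_apply,
              Finsupp.single_eq_same]
            omega
          · simp [Finsupp.single_eq_of_ne hj]
        conv_lhs => rw [← hm', MvPowerSeries.X_def, MvPowerSeries.coeff_add_monomial_mul, one_mul]
        rw [coeff_mkPS, hm']
    have h1 : f - MvPowerSeries.X i * h ∈
        Ideal.span ((MvPowerSeries.X : σ → MvPowerSeries σ A) '' (T : Set σ)) := by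
      apply ih
      intro m hm
      rw [map_sub, hcoeff m]
      split_ifs with hmi
      · rw [sub_zero]
        apply hf
        intro j hj
        rcases Finset.mem_insert.mp hj with rfl | hj
        · exact hmi
        · exact hm j hj
      · rw [sub_self]
    have h2 : MvPowerSeries.X i * h ∈
        Ideal.span ((MvPowerSeries.X : σ → MvPowerSeries σ A) '' ((insert i T : Finset σ) : Set σ)) :=
      Ideal.mul_mem_right _ _ (Ideal.subset_span ⟨i, by simp, rfl⟩)
    have h3 : f = (f - MvPowerSeries.X i * h) + MvPowerSeries.X i * h := by ring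
    rw [h3]
    refine add_mem (Ideal.span_mono ?_ h1) h2
    apply Set.image_mono
    simp

theorem mem_span_range_X_of_constantCoeff_eq_zero [Finite σ] (f : MvPowerSeries σ A)
    (hf : MvPowerSeries.constantCoeff f = 0) :
    f ∈ Ideal.span (Set.range (MvPowerSeries.X : σ → MvPowerSeries σ A)) := by
  classical
  cases nonempty_fintype σ
  have := mem_span_X_image_of_coeff (Finset.univ : Finset σ) f (by
    intro m hm
    have hm0 : m = 0 := by
      ext j
      simpa using hm j (Finset.mem_univ j)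
    rw [hm0, MvPowerSeries.coeff_zero_eq_constantCoeff_apply, hf])
  simpa using this

theorem maximalIdeal_mvPowerSeries_eq [Finite σ] [IsLocalRing A] (π : A)
    (hπ : maximalIdeal A = Ideal.span {π}) :
    maximalIdeal (MvPowerSeries σ A) = Ideal.span {MvPowerSeries.C (σ := σ) π} ⊔
      Ideal.span (Set.range (MvPowerSeries.X : σ → MvPowerSeries σ A)) := by
  have hmem : ∀ f : MvPowerSeries σ A, f ∈ maximalIdeal (MvPowerSeries σ A) ↔
      MvPowerSeries.constantCoeff f ∈ maximalIdeal A := by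
    intro f
    rw [mem_maximalIdeal, mem_maximalIdeal, mem_nonunits_iff, mem_nonunits_iff,
      MvPowerSeries.isUnit_iff_constantCoeff]
  apply le_antisymm
  · intro f hf
    rw [hmem, hπ] at hf
    obtain ⟨c, hc⟩ := Ideal.mem_span_singleton'.mp hf
    have h1 : f = MvPowerSeries.C (σ := σ) c * MvPowerSeries.C (σ := σ) π +
        (f - MvPowerSeries.C (σ := σ) (MvPowerSeries.constantCoeff f)) := by
      rw [← map_mul, hc]; ring
    rw [h1]
    refine Submodule.add_mem_sup (Ideal.mul_mem_left _ _ (Ideal.subset_span rfl)) ?_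
    apply mem_span_range_X_of_constantCoeff_eq_zero
    simp
  · rw [sup_le_iff, Ideal.span_le, Ideal.span_le]
    constructor
    · intro f hf
      rw [Set.mem_singleton_iff] at hf
      rw [hf]
      show MvPowerSeries.C π ∈ maximalIdeal (MvPowerSeries σ A)
      rw [hmem, MvPowerSeries.constantCoeff_C, hπ]
      exact Ideal.subset_span rfl
    · rintro f ⟨i, rfl⟩
      show MvPowerSeries.X i ∈ maximalIdeal (MvPowerSeries σ A)
      rw [hmem, MvPowerSeries.constantCoeff_X]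
      exact zero_mem _

theorem isAdicComplete_mvPowerSeries [Finite σ] [IsLocalRing A] [IsNoetherianRing A]
    [IsAdicComplete (maximalIdeal A) A] (π : A) (hπ : maximalIdeal A = Ideal.span {π}) :
    IsAdicComplete (maximalIdeal (MvPowerSeries σ A)) (MvPowerSeries σ A) := by
  have h1 : IsPrecomplete (Ideal.span {π}) A := by
    rw [← hπ]; infer_instance
  have h2 : IsPrecomplete (Ideal.span {MvPowerSeries.C (σ := σ) π}) (MvPowerSeries σ A) :=
    isPrecomplete_span_C π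
  have h3 : IsPrecomplete (Ideal.span (Set.range (MvPowerSeries.X : σ → MvPowerSeries σ A)))
      (MvPowerSeries σ A) := inferInstance
  have h4 : IsPrecomplete (maximalIdeal (MvPowerSeries σ A)) (MvPowerSeries σ A) := by
    rw [maximalIdeal_mvPowerSeries_eq π hπ]
    exact isPrecomplete_sup _ _
  exact { }

end PowerSeries

section Approximation

variable {S : Type*} [CommRing S] (M : Ideal S) (K : ℕ → Ideal S)

theorem approx_core [IsPrecomplete M S]
    (hMK : ∀ n, M ^ n ≤ K n)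
    (hstep : ∀ n, K n ≤ K (n + 1) ⊔ M ^ n)
    (n : ℕ) (y : ℕ → S) (hy : ∀ j, y (j + 1) - y j ∈ K (n + j))
    (g0 : S) (hg0 : g0 - y 0 ∈ K n) :
    ∃ f : S, (∀ j, f - y j ∈ K (n + j)) ∧ f - g0 ∈ M ^ n := by
  have hex : ∀ (j : ℕ) (g : {g : S // g - y j ∈ K (n + j)}),
      ∃ g' : {g' : S // g' - y (j + 1) ∈ K (n + (j + 1))}, g'.1 - g.1 ∈ M ^ (n + j) := by
    intro j g
    have h1 : y (j + 1) - g.1 ∈ K (n + j) := by
      have : y (j + 1) - g.1 = (y (j + 1) - y j) - (g.1 - y j) := by ring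
      rw [this]
      exact sub_mem (hy j) g.2
    obtain ⟨a, ha, b, hb, hab⟩ := Submodule.mem_sup.mp (hstep (n + j) h1)
    refine ⟨⟨g.1 + b, ?_⟩, ?_⟩
    · have : g.1 + b - y (j + 1) = -a := by
        have : b = y (j + 1) - g.1 - a := by rw [← hab]; ring
        rw [this]; ring
      rw [this]
      exact neg_mem ha
    · simpa using hb
  choose next hnext using hex
  let G : (j : ℕ) → {g : S // g - y j ∈ K (n + j)} :=
    fun j => Nat.rec (motive := fun j => {g : S // g - y j ∈ K (n + j)}) ⟨g0, hg0⟩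
      (fun j g => next j g) j
  have hG0 : (G 0).1 = g0 := rfl
  have hGs : ∀ j, (G (j + 1)).1 - (G j).1 ∈ M ^ (n + j) := fun j => hnext j (G j)
  have hGle : ∀ i j : ℕ, i ≤ j → (G j).1 - (G i).1 ∈ M ^ (n + i) := by
    intro i j hij
    induction j, hij using Nat.le_induction with
    | base => simp
    | succ j hij ih =>
      have h1 : (G (j + 1)).1 - (G i).1 = ((G j).1 - (G i).1) + ((G (j + 1)).1 - (G j).1) := by ring
      rw [h1]
      exact add_mem ih (Ideal.pow_le_pow_right (by omega) (hGs j))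
  obtain ⟨f, hf⟩ := exists_limit_of_succ M (fun j => (G j).1)
    (fun j => Ideal.pow_le_pow_right (by omega) (hGs j))
  have hfG : ∀ j, f - (G j).1 ∈ M ^ (n + j) := by
    intro j
    have h1 : f - (G j).1 = (f - (G (n + j)).1) + ((G (n + j)).1 - (G j).1) := by ring
    rw [h1]
    exact add_mem (hf (n + j)) (hGle j (n + j) (by omega))
  refine ⟨f, fun j => ?_, ?_⟩
  · have h1 : f - y j = (f - (G j).1) + ((G j).1 - y j) := by ring
    rw [h1]
    exact add_mem (hMK _ (hfG j)) (G j).2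
  · have := hfG 0
    rwa [hG0, add_zero] at this

theorem exists_of_compatible [IsPrecomplete M S]
    (hMK : ∀ n, M ^ n ≤ K n)
    (hstep : ∀ n, K n ≤ K (n + 1) ⊔ M ^ n)
    (y : ℕ → S) (hy : ∀ j, y (j + 1) - y j ∈ K j) :
    ∃ f : S, ∀ j, f - y j ∈ K j := by
  obtain ⟨f, hf, -⟩ := approx_core M K hMK hstep 0 y (fun j => by simpa using hy j) (y 0)
    (by simp)
  exact ⟨f, fun j => by simpa using hf j⟩

theorem le_iInf_sup_pow [IsPrecomplete M S]
    (hMK : ∀ n, M ^ n ≤ K n)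
    (hanti : ∀ n, K (n + 1) ≤ K n)
    (hstep : ∀ n, K n ≤ K (n + 1) ⊔ M ^ n) (n : ℕ) :
    K n ≤ (⨅ i, K i) ⊔ M ^ n := by
  intro x hx
  obtain ⟨f, hf, hf0⟩ := approx_core M K hMK hstep n (fun _ => x) (fun j => by simp) 0
    (by simpa using hx)
  have hanti' : ∀ i j : ℕ, i ≤ j → K j ≤ K i := by
    intro i j hij
    induction j, hij using Nat.le_induction with
    | base => exact le_rfl
    | succ j hij ih => exact (hanti j).trans ih
  have h1 : x = (x - f) + f := by ring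
  rw [h1]
  refine Submodule.add_mem_sup ?_ (by simpa using hf0)
  rw [Ideal.mem_iInf]
  intro i
  have h2 : x - f = -(f - x) := by ring
  rw [h2]
  exact neg_mem (hanti' i (n + i) (by omega) (hf i))

end Approximation

section RingHomLift

variable {R T P : Type*} [CommRing R] [CommRing T] [CommRing P]

/-- Lift a ring hom `d : P →+* T` through an injective ring hom `j : R →+* T`
whose range contains the range of `d`. -/
noncomputable def liftThrough (j : R →+* T) (hj : Function.Injective j) (d : P →+* T)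
    (hd : ∀ p, ∃ r, j r = d p) : P →+* R where
  toFun p := Classical.choose (hd p)
  map_one' := hj (by rw [Classical.choose_spec (hd 1), map_one, map_one])
  map_mul' p q := hj (by
    rw [Classical.choose_spec (hd (p * q)), map_mul, map_mul, Classical.choose_spec (hd p),
      Classical.choose_spec (hd q)])
  map_zero' := hj (by rw [Classical.choose_spec (hd 0), map_zero, map_zero])
  map_add' p q := hj (by
    rw [Classical.choose_spec (hd (p + q)), map_add, map_add, Classical.choose_spec (hd p),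
      Classical.choose_spec (hd q)])

theorem liftThrough_spec (j : R →+* T) (hj : Function.Injective j) (d : P →+* T)
    (hd : ∀ p, ∃ r, j r = d p) (p : P) : j (liftThrough j hj d hd p) = d p :=
  Classical.choose_spec (hd p)

end RingHomLift

section Construction

variable (𝒪 : Type) [CommRing 𝒪] [IsLocalRing 𝒪]
variable {P : Type} [CommRing P] [Algebra 𝒪 P]

/-- The hypotheses of the construction, bundled. -/
structure Hyp (𝔪 : Ideal P) (J : ℕ → Ideal P) (s : Finset P) : Prop where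
  max : 𝔪.IsMaximal
  res : Function.Surjective ((Ideal.Quotient.mk 𝔪).comp (algebraMap 𝒪 P))
  anti : ∀ n, J (n + 1) ≤ J n
  pow : ∀ n, 𝔪 ^ n ≤ J n
  le : ∀ n, 1 ≤ n → J n ≤ 𝔪
  step : ∀ n, J n = J (n + 1) ⊔ 𝔪 ^ n
  sub : (s : Set P) ⊆ 𝔪
  gen : 𝔪 ≤ Ideal.span (s : Set P) ⊔ J 2

variable {𝒪}
variable {𝔪 : Ideal P} {J : ℕ → Ideal P} {s : Finset P}

/-- Evaluation of polynomials at the chosen generators. -/
noncomputable def ev (𝒪 : Type) [CommRing 𝒪] {P : Type} [CommRing P] [Algebra 𝒪 P]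
    (s : Finset P) : MvPolynomial s 𝒪 →ₐ[𝒪] P :=
  MvPolynomial.aeval (fun i : s => (i : P))

set_option linter.unusedSectionVars false

theorem ev_mem_pow (h : Hyp 𝒪 𝔪 J s) (n : ℕ) (p : MvPolynomial s 𝒪)
    (hp : p ∈ MvPolynomial.idealOfVars s 𝒪 ^ n) : ev 𝒪 s p ∈ 𝔪 ^ n := by
  have h1 : Ideal.map (ev 𝒪 s) (MvPolynomial.idealOfVars s 𝒪) ≤ 𝔪 := by
    rw [MvPolynomial.idealOfVars, Ideal.map_span, Ideal.span_le]
    rintro _ ⟨_, ⟨i, rfl⟩, rfl⟩
    simp only [ev, MvPolynomial.aeval_X]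
    exact h.sub i.2
  have h2 := Ideal.mem_map_of_mem (ev 𝒪 s) hp
  rw [Ideal.map_pow] at h2
  exact Ideal.pow_right_mono h1 n h2

/-- The truncated evaluation maps from the power series ring. -/
noncomputable def Phi (h : Hyp 𝒪 𝔪 J s) (n : ℕ) : MvPowerSeries s 𝒪 →+* P ⧸ J n :=
  (Ideal.Quotient.lift (MvPolynomial.idealOfVars s 𝒪 ^ n)
    ((Ideal.Quotient.mk (J n)).comp (ev 𝒪 s).toRingHom)
    (fun a ha => Ideal.Quotient.eq_zero_iff_mem.mpr (h.pow n (ev_mem_pow h n a ha)))).comp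
  (MvPowerSeries.truncTotalAlgHom s 𝒪 n).toRingHom

theorem Phi_apply (h : Hyp 𝒪 𝔪 J s) (n : ℕ) (f : MvPowerSeries s 𝒪) :
    Phi h n f = Ideal.Quotient.mk (J n) (ev 𝒪 s (MvPowerSeries.truncTotal n f)) := rfl

theorem Phi_coe (h : Hyp 𝒪 𝔪 J s) (n : ℕ) (p : MvPolynomial s 𝒪) :
    Phi h n (p : MvPowerSeries s 𝒪) = Ideal.Quotient.mk (J n) (ev 𝒪 s p) := by
  rw [Phi_apply, Ideal.Quotient.eq]
  have h1 : MvPowerSeries.truncTotal n (p : MvPowerSeries s 𝒪) - p ∈
      MvPolynomial.idealOfVars s 𝒪 ^ n := by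
    rw [MvPolynomial.mem_pow_idealOfVars_iff']
    intro x hx
    rw [MvPolynomial.coeff_sub, MvPowerSeries.coeff_truncTotal _ hx, MvPolynomial.coeff_coe,
      sub_self]
  have h2 := ev_mem_pow h n _ h1
  rw [map_sub] at h2
  exact h.pow n h2

theorem Phi_C (h : Hyp 𝒪 𝔪 J s) (n : ℕ) (a : 𝒪) :
    Phi h n (MvPowerSeries.C a) = Ideal.Quotient.mk (J n) (algebraMap 𝒪 P a) := by
  rw [← MvPolynomial.coe_C, Phi_coe, ev, MvPolynomial.aeval_C]

theorem Phi_X (h : Hyp 𝒪 𝔪 J s) (n : ℕ) (i : s) :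
    Phi h n (MvPowerSeries.X i) = Ideal.Quotient.mk (J n) (i : P) := by
  rw [← MvPolynomial.coe_X, Phi_coe, ev, MvPolynomial.aeval_X]

theorem Phi_compat (h : Hyp 𝒪 𝔪 J s) (n : ℕ) (f : MvPowerSeries s 𝒪) :
    Ideal.Quotient.factor (h.anti n) (Phi h (n + 1) f) = Phi h n f := by
  rw [Phi_apply, Phi_apply, Ideal.Quotient.factor_mk, Ideal.Quotient.eq, ← map_sub]
  exact h.pow n (ev_mem_pow h n _
    (MvPowerSeries.truncTotal_sub_truncTotal_mem_pow_idealOfVars (Nat.le_succ n) le_rfl f))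

theorem ker_Phi_anti (h : Hyp 𝒪 𝔪 J s) (n : ℕ) :
    RingHom.ker (Phi h (n + 1)) ≤ RingHom.ker (Phi h n) := by
  intro f hf
  rw [RingHom.mem_ker] at hf ⊢
  rw [← Phi_compat h n f, hf, map_zero]

theorem algebraMap_mem (h : Hyp 𝒪 𝔪 J s) (a : 𝒪) (ha : a ∈ maximalIdeal 𝒪) :
    algebraMap 𝒪 P a ∈ 𝔪 := by
  have := h.max
  let _ := Ideal.Quotient.field 𝔪
  have hker : (RingHom.ker ((Ideal.Quotient.mk 𝔪).comp (algebraMap 𝒪 P))).IsMaximal :=
    RingHom.ker_isMaximal_of_surjective _ h.res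
  have := IsLocalRing.eq_maximalIdeal hker
  rw [← this, RingHom.mem_ker] at ha
  exact Ideal.Quotient.eq_zero_iff_mem.mp ha

theorem gen_all (h : Hyp 𝒪 𝔪 J s) (n : ℕ) : 𝔪 ≤ Ideal.span (s : Set P) ⊔ J n := by
  have hJ2 : ∀ n, 2 ≤ n → J 2 ≤ J n ⊔ 𝔪 ^ 2 := by
    intro n hn
    induction n, hn using Nat.le_induction with
    | base => exact le_sup_left
    | succ n hn ih =>
      refine ih.trans ?_
      rw [h.step n, sup_assoc]
      exact sup_le_sup_left (sup_le (Ideal.pow_le_pow_right hn) le_rfl) _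
  have hanti : ∀ i j : ℕ, i ≤ j → J j ≤ J i := by
    intro i j hij
    induction j, hij using Nat.le_induction with
    | base => exact le_rfl
    | succ j hij ih => exact (h.anti j).trans ih
  have hJ2' : J 2 ≤ J n ⊔ 𝔪 ^ 2 := by
    rcases le_or_gt 2 n with hn | hn
    · exact hJ2 n hn
    · exact (hanti n 2 hn.le).trans le_sup_left
  set N := Ideal.span (s : Set P) ⊔ J n with hN
  have h1 : 𝔪 ≤ N ⊔ 𝔪 ^ 2 := by
    refine h.gen.trans ?_
    rw [hN, sup_assoc]
    exact sup_le_sup_left hJ2' _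
  have h2 : ∀ j : ℕ, 𝔪 ≤ N ⊔ 𝔪 ^ (j + 1) := by
    intro j
    induction j with
    | zero => simp
    | succ j ih =>
      refine ih.trans (sup_le le_sup_left ?_)
      calc 𝔪 ^ (j + 1) = 𝔪 ^ j * 𝔪 := pow_succ _ _
        _ ≤ 𝔪 ^ j * (N ⊔ 𝔪 ^ 2) := Ideal.mul_mono_right h1
        _ = 𝔪 ^ j * N ⊔ 𝔪 ^ j * 𝔪 ^ 2 := Ideal.mul_sup _ _ _
        _ ≤ N ⊔ 𝔪 ^ (j + 1 + 1) := by
          refine sup_le_sup Ideal.mul_le_right ?_
          rw [← pow_add]
  rcases Nat.eq_zero_or_pos n with hn | hn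
  · have : J n = ⊤ := by
      have := h.pow n
      rw [hn, pow_zero, Ideal.one_eq_top, top_le_iff] at this
      rw [hn]; exact this
    rw [hN, this]; simp
  · obtain ⟨j, hj⟩ : ∃ j, n = j + 1 := ⟨n - 1, by omega⟩
    refine (h2 j).trans (sup_le le_rfl ?_)
    rw [← hj]
    exact (h.pow n).trans le_sup_right

section WithPi

variable [IsNoetherianRing 𝒪] (π : 𝒪) (hπ : maximalIdeal 𝒪 = Ideal.span {π})

include hπ in
theorem map_maximalIdeal_Phi (h : Hyp 𝒪 𝔪 J s) (n : ℕ) :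
    Ideal.map (Phi h n) (maximalIdeal (MvPowerSeries s 𝒪)) =
      Ideal.map (Ideal.Quotient.mk (J n)) 𝔪 := by
  rw [maximalIdeal_mvPowerSeries_eq π hπ, Ideal.map_sup, Ideal.map_span, Ideal.map_span,
    Set.image_singleton, Phi_C]
  apply le_antisymm
  · rw [sup_le_iff, Ideal.span_le, Ideal.span_le]
    constructor
    · intro x hx
      rw [Set.mem_singleton_iff] at hx
      rw [hx]
      exact Ideal.mem_map_of_mem _ (algebraMap_mem h π (by rw [hπ]; exact Ideal.subset_span rfl))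
    · rintro _ ⟨_, ⟨i, rfl⟩, rfl⟩
      rw [Phi_X]
      exact Ideal.mem_map_of_mem _ (h.sub i.2)
  · refine (Ideal.map_mono (gen_all h n)).trans ?_
    rw [Ideal.map_sup, Ideal.map_span]
    refine sup_le ?_ ?_
    · refine le_sup_of_le_right (Ideal.span_mono ?_)
      rintro _ ⟨x, hx, rfl⟩
      exact ⟨MvPowerSeries.X ⟨x, hx⟩, ⟨⟨x, hx⟩, rfl⟩, Phi_X h n ⟨x, hx⟩⟩
    · rw [Ideal.map_quotient_self]
      exact bot_le

theorem map_mk_pow_eq_bot (h : Hyp 𝒪 𝔪 J s) (n : ℕ) :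
    (Ideal.map (Ideal.Quotient.mk (J n)) 𝔪) ^ n = ⊥ := by
  rw [← Ideal.map_pow, Ideal.map_eq_bot_iff_le_ker, Ideal.mk_ker]
  exact h.pow n

include hπ in
theorem pow_le_ker_Phi (h : Hyp 𝒪 𝔪 J s) (n : ℕ) :
    maximalIdeal (MvPowerSeries s 𝒪) ^ n ≤ RingHom.ker (Phi h n) := by
  rw [← Ideal.map_eq_bot_iff_le_ker, Ideal.map_pow, map_maximalIdeal_Phi π hπ h n]
  exact map_mk_pow_eq_bot h n

include hπ in
theorem Phi_surjective (h : Hyp 𝒪 𝔪 J s) (n : ℕ) : Function.Surjective (Phi h n) := by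
  set 𝔫 := Ideal.map (Phi h n) (maximalIdeal (MvPowerSeries s 𝒪)) with h𝔫
  have h𝔫' : 𝔫 = Ideal.map (Ideal.Quotient.mk (J n)) 𝔪 := map_maximalIdeal_Phi π hπ h n
  have hbase : ∀ y : P ⧸ J n, ∃ f, y - Phi h n f ∈ 𝔫 := by
    intro y
    obtain ⟨x, rfl⟩ := Ideal.Quotient.mk_surjective y
    obtain ⟨a, ha⟩ := h.res (Ideal.Quotient.mk 𝔪 x)
    refine ⟨MvPowerSeries.C a, ?_⟩
    rw [Phi_C, ← map_sub, h𝔫']
    apply Ideal.mem_map_of_mem
    rw [RingHom.comp_apply, Ideal.Quotient.eq] at ha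
    have h2 : x - algebraMap 𝒪 P a = -(algebraMap 𝒪 P a - x) := by ring
    rw [h2]
    exact neg_mem ha
  have hsub : ∀ j : ℕ, ∀ z ∈ 𝔫 ^ j, ∃ g, z - Phi h n g ∈ 𝔫 ^ (j + 1) := by
    intro j z hz
    have hz' : z ∈ Ideal.span (Phi h n '' (maximalIdeal (MvPowerSeries s 𝒪) ^ j :
        Ideal (MvPowerSeries s 𝒪))) := by
      have : 𝔫 ^ j = Ideal.map (Phi h n) (maximalIdeal (MvPowerSeries s 𝒪) ^ j) := by
        rw [Ideal.map_pow]
      rw [this] at hz
      exact hz
    have key : z ∈ 𝔫 ^ j ∧ ∃ g, z - Phi h n g ∈ 𝔫 ^ (j + 1) := by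
      refine Submodule.span_induction (p := fun z _ => z ∈ 𝔫 ^ j ∧ ∃ g, z - Phi h n g ∈ 𝔫 ^ (j + 1))
        ?_ ?_ ?_ ?_ hz'
      · rintro _ ⟨g, hg, rfl⟩
        refine ⟨?_, g, by simp⟩
        rw [h𝔫, ← Ideal.map_pow]
        exact Ideal.mem_map_of_mem _ hg
      · exact ⟨zero_mem _, 0, by simp⟩
      · rintro x y _ _ ⟨hx, gx, hgx⟩ ⟨hy, gy, hgy⟩
        refine ⟨add_mem hx hy, gx + gy, ?_⟩
        have : x + y - Phi h n (gx + gy) = (x - Phi h n gx) + (y - Phi h n gy) := by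
          rw [map_add]; ring
        rw [this]
        exact add_mem hgx hgy
      · rintro r x _ ⟨hx, gx, hgx⟩
        obtain ⟨f, hf⟩ := hbase r
        refine ⟨Ideal.mul_mem_left _ _ hx, f * gx, ?_⟩
        have : r • x - Phi h n (f * gx) = Phi h n f * (x - Phi h n gx) + (r - Phi h n f) * x := by
          rw [map_mul, smul_eq_mul]; ring
        rw [this]
        refine add_mem (Ideal.mul_mem_left _ _ hgx) ?_
        rw [pow_succ']
        exact Ideal.mul_mem_mul hf hx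
    exact key.2
  have hall : ∀ j : ℕ, ∀ y : P ⧸ J n, ∃ f, y - Phi h n f ∈ 𝔫 ^ j := by
    intro j
    induction j with
    | zero => intro y; exact ⟨0, by simp⟩
    | succ j ih =>
      intro y
      obtain ⟨f, hf⟩ := ih y
      obtain ⟨g, hg⟩ := hsub j _ hf
      refine ⟨f + g, ?_⟩
      have : y - Phi h n (f + g) = y - Phi h n f - Phi h n g := by rw [map_add]; ring
      rw [this]
      exact hg
  intro y
  obtain ⟨f, hf⟩ := hall n y
  rw [h𝔫', map_mk_pow_eq_bot h n, Ideal.mem_bot, sub_eq_zero] at hf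
  exact ⟨f, hf.symm⟩

include hπ in
theorem ker_Phi_step (h : Hyp 𝒪 𝔪 J s) (n : ℕ) :
    RingHom.ker (Phi h n) ≤ RingHom.ker (Phi h (n + 1)) ⊔
      maximalIdeal (MvPowerSeries s 𝒪) ^ n := by
  intro f hf
  rw [RingHom.mem_ker] at hf
  have h1 : Phi h (n + 1) f ∈ Ideal.map (Phi h (n + 1))
      (maximalIdeal (MvPowerSeries s 𝒪) ^ n) := by
    rw [Ideal.map_pow, map_maximalIdeal_Phi π hπ h (n + 1), ← Ideal.map_pow]
    have h2 : Phi h (n + 1) f ∈ RingHom.ker (Ideal.Quotient.factor (h.anti n)) := by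
      rw [RingHom.mem_ker, Phi_compat, hf]
    rw [Ideal.Quotient.factor_ker] at h2
    rw [h.step n, Ideal.map_sup, Ideal.map_quotient_self, bot_sup_eq] at h2
    exact h2
  obtain ⟨g, hg, hgf⟩ := (Ideal.mem_map_iff_of_surjective _ (Phi_surjective π hπ h (n + 1))).mp h1
  have h3 : f = (f - g) + g := by ring
  rw [h3]
  refine Submodule.add_mem_sup ?_ hg
  rw [RingHom.mem_ker, map_sub, hgf, sub_self]

/-- All the truncated evaluation maps together. -/
noncomputable def PhiAll (h : Hyp 𝒪 𝔪 J s) : MvPowerSeries s 𝒪 →+* (∀ n, P ⧸ J n) :=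
  RingHom.pi (fun n => Phi h n)

theorem mem_ker_PhiAll (h : Hyp 𝒪 𝔪 J s) (f : MvPowerSeries s 𝒪) :
    f ∈ RingHom.ker (PhiAll h) ↔ ∀ n, Phi h n f = 0 := by
  rw [RingHom.mem_ker]
  exact ⟨fun hf n => congrFun hf n, fun hf => funext hf⟩

theorem ker_PhiAll_eq (h : Hyp 𝒪 𝔪 J s) :
    RingHom.ker (PhiAll h) = ⨅ n, RingHom.ker (Phi h n) := by
  ext f
  rw [mem_ker_PhiAll, Ideal.mem_iInf]
  simp only [RingHom.mem_ker]

variable [IsAdicComplete (maximalIdeal 𝒪) 𝒪]

include hπ in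
theorem exists_lift (h : Hyp 𝒪 𝔪 J s) (p : P) :
    ∃ f : MvPowerSeries s 𝒪, ∀ n, Phi h n f = Ideal.Quotient.mk (J n) p := by
  have := isAdicComplete_mvPowerSeries (σ := s) π hπ
  choose y hy using fun n => Phi_surjective π hπ h n (Ideal.Quotient.mk (J n) p)
  obtain ⟨f, hf⟩ := exists_of_compatible (maximalIdeal (MvPowerSeries s 𝒪))
    (fun n => RingHom.ker (Phi h n)) (pow_le_ker_Phi π hπ h) (ker_Phi_step π hπ h) y (fun j => by
      rw [RingHom.mem_ker, map_sub, hy j, ← Phi_compat h j, hy (j + 1), Ideal.Quotient.factor_mk,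
        sub_self])
  refine ⟨f, fun n => ?_⟩
  have := hf n
  rw [RingHom.mem_ker, map_sub, hy n, sub_eq_zero] at this
  exact this

include hπ in
theorem ker_Phi_eq (h : Hyp 𝒪 𝔪 J s) (n : ℕ) :
    RingHom.ker (Phi h n) = RingHom.ker (PhiAll h) ⊔ maximalIdeal (MvPowerSeries s 𝒪) ^ n := by
  have := isAdicComplete_mvPowerSeries (σ := s) π hπ
  apply le_antisymm
  · rw [ker_PhiAll_eq]
    exact le_iInf_sup_pow _ _ (pow_le_ker_Phi π hπ h) (ker_Phi_anti h) (ker_Phi_step π hπ h) n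
  · refine sup_le ?_ (pow_le_ker_Phi π hπ h n)
    rw [ker_PhiAll_eq]
    exact iInf_le _ n

/-- The limit ring. -/
abbrev Rlim (h : Hyp 𝒪 𝔪 J s) : Type := MvPowerSeries s 𝒪 ⧸ RingHom.ker (PhiAll h)

theorem ker_PhiAll_ne_top (h : Hyp 𝒪 𝔪 J s) : RingHom.ker (PhiAll h) ≠ ⊤ := by
  intro htop
  have h1 : (1 : MvPowerSeries s 𝒪) ∈ RingHom.ker (PhiAll h) := by rw [htop]; trivial
  rw [mem_ker_PhiAll] at h1
  have h2 := h1 1
  rw [map_one] at h2
  have h3 : (1 : P) ∈ J 1 := by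
    rw [← Ideal.Quotient.eq_zero_iff_mem, map_one]; exact h2
  exact h.max.ne_top ((Ideal.eq_top_iff_one _).mpr (h.le 1 le_rfl h3))

instance instNontrivialRlim (h : Hyp 𝒪 𝔪 J s) : Nontrivial (Rlim h) :=
  Ideal.Quotient.nontrivial_iff.mpr (ker_PhiAll_ne_top h)

instance instIsLocalRingRlim (h : Hyp 𝒪 𝔪 J s) : IsLocalRing (Rlim h) :=
  IsLocalRing.of_surjective' (Ideal.Quotient.mk (RingHom.ker (PhiAll h)))
    Ideal.Quotient.mk_surjective

theorem maximalIdeal_Rlim (h : Hyp 𝒪 𝔪 J s) :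
    maximalIdeal (Rlim h) = Ideal.map (Ideal.Quotient.mk (RingHom.ker (PhiAll h)))
      (maximalIdeal (MvPowerSeries s 𝒪)) :=
  (IsLocalRing.map_maximalIdeal_of_surjective _ Ideal.Quotient.mk_surjective).symm

include hπ in
theorem isAdicComplete_Rlim (h : Hyp 𝒪 𝔪 J s) :
    IsAdicComplete (maximalIdeal (Rlim h)) (Rlim h) := by
  have := isAdicComplete_mvPowerSeries (σ := s) π hπ
  have : IsLocalHom (algebraMap (MvPowerSeries s 𝒪) (Rlim h)) :=
    IsLocalHom.of_surjective (Ideal.Quotient.mk (RingHom.ker (PhiAll h)))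
      Ideal.Quotient.mk_surjective
  exact IsLocalRing.isAdicComplete_of_module_finite (𝒪 := MvPowerSeries s 𝒪) (T := Rlim h)

/-- The injective map from the limit ring to the product of the finite levels. -/
noncomputable def jmap (h : Hyp 𝒪 𝔪 J s) : Rlim h →+* (∀ n, P ⧸ J n) :=
  RingHom.kerLift (PhiAll h)

theorem jmap_injective (h : Hyp 𝒪 𝔪 J s) : Function.Injective (jmap h) :=
  RingHom.kerLift_injective (PhiAll h)

theorem jmap_mk (h : Hyp 𝒪 𝔪 J s) (f : MvPowerSeries s 𝒪) (n : ℕ) :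
    jmap h (Ideal.Quotient.mk _ f) n = Phi h n f := rfl

/-- The diagonal map. -/
noncomputable def dmap (J : ℕ → Ideal P) : P →+* (∀ n, P ⧸ J n) :=
  RingHom.pi (fun n => Ideal.Quotient.mk (J n))

include hπ in
theorem exists_jmap_eq (h : Hyp 𝒪 𝔪 J s) (p : P) : ∃ r, jmap h r = dmap J p := by
  obtain ⟨f, hf⟩ := exists_lift π hπ h p
  exact ⟨Ideal.Quotient.mk _ f, funext fun n => by rw [jmap_mk, hf]; rfl⟩

/-- The canonical map from `P` to the limit ring. -/
noncomputable def iota₀ (h : Hyp 𝒪 𝔪 J s) : P →+* Rlim h :=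
  liftThrough (jmap h) (jmap_injective h) (dmap J) (exists_jmap_eq π hπ h)

theorem iota₀_eq_mk_iff (h : Hyp 𝒪 𝔪 J s) (p : P) (f : MvPowerSeries s 𝒪) :
    iota₀ π hπ h p = Ideal.Quotient.mk _ f ↔ ∀ n, Phi h n f = Ideal.Quotient.mk (J n) p := by
  constructor
  · intro hp n
    have := liftThrough_spec (jmap h) (jmap_injective h) (dmap J) (exists_jmap_eq π hπ h) p
    rw [← jmap_mk, ← hp]
    exact congrFun this n
  · intro hf
    apply jmap_injective h
    rw [iota₀, liftThrough_spec]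
    exact funext fun n => by rw [jmap_mk, hf]; rfl

theorem algebraMap_Rlim (h : Hyp 𝒪 𝔪 J s) (a : 𝒪) :
    algebraMap 𝒪 (Rlim h) a = Ideal.Quotient.mk _ (MvPowerSeries.C a) := by
  rw [← Ideal.Quotient.mk_algebraMap, MvPowerSeries.algebraMap_apply]
  rfl

/-- The canonical algebra map from `P` to the limit ring. -/
noncomputable def iota (h : Hyp 𝒪 𝔪 J s) : P →ₐ[𝒪] Rlim h :=
  { iota₀ π hπ h with
    commutes' := fun a => by
      show iota₀ π hπ h (algebraMap 𝒪 P a) = algebraMap 𝒪 (Rlim h) a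
      rw [algebraMap_Rlim, iota₀_eq_mk_iff]
      intro n
      rw [Phi_C] }

theorem iota_eq_mk_iff (h : Hyp 𝒪 𝔪 J s) (p : P) (f : MvPowerSeries s 𝒪) :
    iota π hπ h p = Ideal.Quotient.mk _ f ↔ ∀ n, Phi h n f = Ideal.Quotient.mk (J n) p :=
  iota₀_eq_mk_iff π hπ h p f

theorem isLocalHom_algebraMap_Rlim (h : Hyp 𝒪 𝔪 J s) : IsLocalHom (algebraMap 𝒪 (Rlim h)) := by
  have hloc : IsLocalHom (Ideal.Quotient.mk (RingHom.ker (PhiAll h))) :=
    IsLocalHom.of_surjective _ Ideal.Quotient.mk_surjective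
  refine ⟨fun a ha => ?_⟩
  rw [algebraMap_Rlim] at ha
  have h1 := hloc.map_nonunit _ ha
  rw [MvPowerSeries.isUnit_iff_constantCoeff, MvPowerSeries.constantCoeff_C] at h1
  exact h1

theorem residue_surjective_Rlim (h : Hyp 𝒪 𝔪 J s) :
    Function.Surjective (IsLocalRing.residue (Rlim h) ∘ algebraMap 𝒪 (Rlim h)) := by
  intro y
  obtain ⟨x, rfl⟩ := IsLocalRing.residue_surjective y
  obtain ⟨f, rfl⟩ := Ideal.Quotient.mk_surjective x
  refine ⟨MvPowerSeries.constantCoeff f, ?_⟩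
  rw [Function.comp_apply, algebraMap_Rlim, ← sub_eq_zero, ← map_sub, ← map_sub,
    IsLocalRing.residue_eq_zero_iff, maximalIdeal_Rlim]
  apply Ideal.mem_map_of_mem
  rw [mem_maximalIdeal, mem_nonunits_iff, MvPowerSeries.isUnit_iff_constantCoeff, map_sub,
    MvPowerSeries.constantCoeff_C, sub_self]
  exact not_isUnit_zero

include hπ in
theorem comap_iota (h : Hyp 𝒪 𝔪 J s) (n : ℕ) :
    (maximalIdeal (Rlim h) ^ n).comap (iota π hπ h) = J n := by
  ext p
  obtain ⟨f, hf⟩ := Ideal.Quotient.mk_surjective (iota π hπ h p)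
  have hf' := (iota_eq_mk_iff π hπ h p f).mp hf.symm
  rw [Ideal.mem_comap, maximalIdeal_Rlim, ← Ideal.map_pow, ← hf, Ideal.mem_quotient_iff_mem_sup,
    sup_comm, ← ker_Phi_eq π hπ h n, RingHom.mem_ker, hf' n, Ideal.Quotient.eq_zero_iff_mem]

include hπ in
theorem dense_iota (h : Hyp 𝒪 𝔪 J s) (n : ℕ) (x : Rlim h) :
    ∃ p : P, x - iota π hπ h p ∈ maximalIdeal (Rlim h) ^ n := by
  obtain ⟨f, rfl⟩ := Ideal.Quotient.mk_surjective x
  obtain ⟨p, hp⟩ := Ideal.Quotient.mk_surjective (Phi h n f)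
  refine ⟨p, ?_⟩
  obtain ⟨f', hf'⟩ := Ideal.Quotient.mk_surjective (iota π hπ h p)
  have hf'' := (iota_eq_mk_iff π hπ h p f').mp hf'.symm
  rw [← hf', ← map_sub, maximalIdeal_Rlim, ← Ideal.map_pow, Ideal.mem_quotient_iff_mem_sup,
    sup_comm, ← ker_Phi_eq π hπ h n, RingHom.mem_ker, map_sub, hf'' n, hp, sub_self]

end WithPi

end Construction

/-- **Complete Noetherian limit.** Given a decreasing chain of ideals `J n` of an `𝒪`-algebra `P`
with `𝔪 ^ n ≤ J n ≤ 𝔪`, `J n = J (n+1) ⊔ 𝔪 ^ n`, residue field of `𝔪` that of `𝒪`, and `𝔪 / J 2`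
finitely generated, there is a complete Noetherian local `𝒪`-algebra `R` with a map
`ι : P → R` inducing isomorphisms `P ⧸ J n ≃ R ⧸ 𝔪_R ^ n`. -/
theorem exists_complete_noetherian_limit
    (𝒪 : Type) [CommRing 𝒪] [IsDomain 𝒪] [IsDiscreteValuationRing 𝒪]
    [IsAdicComplete (IsLocalRing.maximalIdeal 𝒪) 𝒪]
    (P : Type) [CommRing P] [Algebra 𝒪 P] (𝔪 : Ideal P) (J : ℕ → Ideal P)
    (h𝔪 : 𝔪.IsMaximal)
    (hres : Function.Surjective ((Ideal.Quotient.mk 𝔪).comp (algebraMap 𝒪 P)))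
    (hanti : ∀ n, J (n + 1) ≤ J n) (hpow : ∀ n, 𝔪 ^ n ≤ J n) (hle : ∀ n, 1 ≤ n → J n ≤ 𝔪)
    (hstep : ∀ n, J n = J (n + 1) ⊔ 𝔪 ^ n)
    (hfg : ∃ s : Finset P, (s : Set P) ⊆ 𝔪 ∧ 𝔪 ≤ Ideal.span (s : Set P) ⊔ J 2) :
    ∃ (R : Type) (_ : CommRing R) (_ : IsLocalRing R) (_ : IsNoetherianRing R)
      (_ : IsAdicComplete (IsLocalRing.maximalIdeal R) R) (_ : Algebra 𝒪 R) (ι : P →ₐ[𝒪] R),
      IsLocalHom (algebraMap 𝒪 R) ∧
      Function.Surjective (IsLocalRing.residue R ∘ algebraMap 𝒪 R) ∧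
      (∀ n, (IsLocalRing.maximalIdeal R ^ n).comap ι = J n) ∧
      (∀ n (x : R), ∃ p : P, x - ι p ∈ IsLocalRing.maximalIdeal R ^ n) := by
  obtain ⟨s, hs, hgen⟩ := hfg
  obtain ⟨π, hπirr⟩ := IsDiscreteValuationRing.exists_irreducible 𝒪
  have hπ : maximalIdeal 𝒪 = Ideal.span {π} := hπirr.maximalIdeal_eq
  have h : Hyp 𝒪 𝔪 J s := ⟨h𝔪, hres, hanti, hpow, hle, hstep, hs, hgen⟩
  exact ⟨Rlim h, inferInstance, inferInstance, inferInstance, isAdicComplete_Rlim π hπ h,
    inferInstance, iota π hπ h, isLocalHom_algebraMap_Rlim h, residue_surjective_Rlim h,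
    comap_iota π hπ h, dense_iota π hπ h⟩


end Fermat.Agent.S53.CompleteLimit
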