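import Mathlib
import Fermat.Prelude.Def_GaloisRep_Residual

set_option autoImplicit false

namespace Fermat.Agent.S53.Frame

open scoped TensorProduct

section Framing

variable {k : Type*} [Field k] {V : Type*} [AddCommGroup V] [Module k V]
variable {Γ : Type*} [Monoid Γ]

theorem tmul_one_ne_zero (K : Type*) [Field K] [Algebra k K] {v : V} (hv : v ≠ 0) :
    (1 : K) ⊗ₜ[k] v ≠ 0 := by
  intro h
  apply hv
  let b := Module.Free.chooseBasis k V
  apply b.repr.injective
  ext i
  have := congrArg (fun x => (b.baseChange K).repr x i) h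
  simp only [Module.Basis.baseChange_repr_tmul, map_zero, Finsupp.zero_apply] at this
  simpa using this

theorem no_stable_line (ρ : Γ →* Module.End k V) (h2 : Module.finrank k V = 2)
    (K : Type*) [Field K] [Algebra k K]
    (habs : ∀ W : Submodule K (K ⊗[k] V),
      (∀ σ, ∀ x ∈ W, (ρ σ).baseChange K x ∈ W) → W = ⊥ ∨ W = ⊤)
    (w : K ⊗[k] V) (hw : w ≠ 0) (hst : ∀ σ, ∃ c : K, (ρ σ).baseChange K w = c • w) : False := by
  have hfin : Module.Finite k V := Module.finite_of_finrank_eq_succ h2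
  rcases habs (K ∙ w) (by
    intro σ x hx
    obtain ⟨a, rfl⟩ := Submodule.mem_span_singleton.mp hx
    obtain ⟨c, hc⟩ := hst σ
    rw [map_smul, hc]
    exact Submodule.smul_mem _ _ (Submodule.smul_mem _ _ (Submodule.mem_span_singleton_self w)))
    with h | h
  · exact hw ((Submodule.span_singleton_eq_bot).mp h)
  · have h1 : Module.finrank K (K ∙ w) = 1 := finrank_span_singleton hw
    have h3 : Module.finrank K (K ⊗[k] V) = 2 := by rw [Module.finrank_baseChange, h2]
    rw [h, finrank_top, h3] at h1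
    omega

theorem exists_framing_aux (ρ : Γ →* Module.End k V) (h2 : Module.finrank k V = 2)
    (K : Type*) [Field K] [Algebra k K] [IsAlgClosed K]
    (habs : ∀ W : Submodule K (K ⊗[k] V),
      (∀ σ, ∀ x ∈ W, (ρ σ).baseChange K x ∈ W) → W = ⊥ ∨ W = ⊤) :
    ∃ (b : Module.Basis (Fin 2) k V) (g₀ g₁ : Γ),
      ρ g₀ (b 0) = b 1 ∧ ρ g₁ (ρ g₀ (b 0)) ≠ ρ g₀ (ρ g₁ (b 0)) := by
  have hfin : Module.Finite k V := Module.finite_of_finrank_eq_succ h2
  have hnt : Nontrivial V := Module.nontrivial_of_finrank_eq_succ h2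
  obtain ⟨v, hv⟩ := exists_ne (0 : V)
  -- step 1: some g₀ moves the line of v
  have h1 : ∃ g₀, ∀ c : k, c • v ≠ ρ g₀ v := by
    by_contra hcon
    push Not at hcon
    refine no_stable_line ρ h2 K habs ((1 : K) ⊗ₜ[k] v) (tmul_one_ne_zero K hv) (fun σ => ?_)
    obtain ⟨c, hc⟩ := hcon σ
    refine ⟨algebraMap k K c, ?_⟩
    rw [LinearMap.baseChange_tmul, ← hc, TensorProduct.tmul_smul, algebraMap_smul]
  obtain ⟨g₀, hg₀⟩ := h1
  have hli : LinearIndependent k ![v, ρ g₀ v] := by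
    rw [LinearIndependent.pair_iff' hv]
    intro a
    simpa using hg₀ a
  let b : Module.Basis (Fin 2) k V :=
    basisOfLinearIndependentOfCardEqFinrank hli (by simp [h2])
  have hb0 : b 0 = v := by simp [b]
  have hb1 : b 1 = ρ g₀ v := by simp [b]
  refine ⟨b, g₀, ?_⟩
  by_contra hcon
  push Not at hcon
  have hcomm : ∀ g, ρ g (ρ g₀ v) = ρ g₀ (ρ g v) := by
    intro g
    have := hcon g (by rw [hb0, hb1])
    rwa [hb0] at this
  -- every ρ g is p + r ρ g₀
  have hform : ∀ g, ρ g = b.repr (ρ g v) 0 • (1 : Module.End k V) + b.repr (ρ g v) 1 • ρ g₀ := by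
    intro g
    have hv' : ρ g v = b.repr (ρ g v) 0 • v + b.repr (ρ g v) 1 • ρ g₀ v := by
      conv_lhs => rw [← b.sum_repr (ρ g v)]
      rw [Fin.sum_univ_two, hb0, hb1]
    apply b.ext
    intro i
    fin_cases i
    · simp only [Fin.zero_eta, hb0, LinearMap.add_apply, LinearMap.smul_apply,
        Module.End.one_apply]
      exact hv'
    · simp only [Fin.mk_one, hb1, LinearMap.add_apply, LinearMap.smul_apply,
        Module.End.one_apply]
      rw [hcomm g]
      conv_lhs => rw [hv']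
      rw [map_add, map_smul, map_smul]
  obtain ⟨μ, hμ⟩ := Module.End.exists_eigenvalue ((ρ g₀).baseChange K)
  obtain ⟨w, hw⟩ := hμ.exists_hasEigenvector
  refine no_stable_line ρ h2 K habs w hw.2 (fun σ => ?_)
  refine ⟨algebraMap k K (b.repr (ρ σ v) 0) + algebraMap k K (b.repr (ρ σ v) 1) * μ, ?_⟩
  conv_lhs => rw [hform σ]
  rw [LinearMap.baseChange_add, LinearMap.baseChange_smul, LinearMap.baseChange_smul,
    LinearMap.baseChange_one, LinearMap.add_apply, LinearMap.smul_apply, LinearMap.smul_apply,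
    Module.End.one_apply, hw.apply_eq_smul, add_smul, mul_smul, algebraMap_smul, algebraMap_smul]

end Framing


/-- Framing data for an absolutely irreducible residual representation: a basis in which
`ρbar g₀` has first column `e₂`, and `g₁`, `i` with `[ρbar g₁, ρbar g₀]_{i,0} ≠ 0`. -/
theorem exists_framing {k : Type} [Field k] (ρbar : ResidualGaloisRep k)
    (habs : ρbar.IsAbsolutelyIrreducible) :
    ∃ (b : Module.Basis (Fin 2) k ρbar.V)
      (g₀ g₁ : AlgebraicClosure ℚ ≃ₐ[ℚ] AlgebraicClosure ℚ) (i : Fin 2),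
      (LinearMap.toMatrix b b (ρbar.ρ g₀)) 0 0 = 0 ∧
      (LinearMap.toMatrix b b (ρbar.ρ g₀)) 1 0 = 1 ∧
      (LinearMap.toMatrix b b (ρbar.ρ g₁) * LinearMap.toMatrix b b (ρbar.ρ g₀)
        - LinearMap.toMatrix b b (ρbar.ρ g₀) * LinearMap.toMatrix b b (ρbar.ρ g₁)) i 0 ≠ 0 := by
  obtain ⟨b, g₀, g₁, h0, h1⟩ := exists_framing_aux ρbar.ρ ρbar.finrank_eq (AlgebraicClosure k)
    (fun W hW => habs W hW)
  refine ⟨b, g₀, g₁, ?_⟩
  have e00 : (LinearMap.toMatrix b b (ρbar.ρ g₀)) 0 0 = 0 := by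
    rw [LinearMap.toMatrix_apply, h0]; simp
  have e10 : (LinearMap.toMatrix b b (ρbar.ρ g₀)) 1 0 = 1 := by
    rw [LinearMap.toMatrix_apply, h0]; simp
  by_contra hcon
  push Not at hcon
  apply h1
  have key : ∀ i, b.repr (ρbar.ρ g₁ (ρbar.ρ g₀ (b 0)) - ρbar.ρ g₀ (ρbar.ρ g₁ (b 0))) i = 0 := by
    intro i
    have := hcon i e00 e10
    rw [← LinearMap.toMatrix_mul, ← LinearMap.toMatrix_mul, ← map_sub,
      LinearMap.toMatrix_apply] at this
    simpa using this
  have : ρbar.ρ g₁ (ρbar.ρ g₀ (b 0)) - ρbar.ρ g₀ (ρbar.ρ g₁ (b 0)) = 0 := by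
    apply b.repr.injective
    ext i
    simpa using key i
  exact sub_eq_zero.mp this

end Fermat.Agent.S53.Frame
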