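import Mathlib
import Fermat.Prelude.Def_GaloisRep_DeformationCondition

/-!
# S53, chunks C: admissible ideals of a polynomial ring (abstract form)

Abstract setting (no Galois groups, no matrices):

* `𝒪` a local ring, `ι` an index type, `c : ι → 𝒪` a "centre";
* `𝒬` a predicate on points `x : ι → A` of local `𝒪`-algebras `A`
  (think: "`x` is the family of matrix entries of a rigid lift of type `𝒟`");
* `IsPointCondition 𝒪 c 𝒬`: `𝒬` is stable under maps of test algebras, descends along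
  injective maps, glues along fibre products, and good points reduce to `c`.

`m0 𝒪 c` is the maximal ideal of `MvPolynomial ι 𝒪` at the residual point and
`IsAdm 𝒪 c 𝒬 n K` says: `m0 ^ n ≤ K ≤ m0`, the quotient is finite and the tautological
point `i ↦ X i mod K` satisfies `𝒬`.

Main results: `isAdm_of_ker` (kernels of evaluation maps at good points are admissible),
`IsAdm.inf`, `IsAdm.sup_pow`, `IsAdm.mono`.
-/

set_option autoImplicit false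
set_option linter.style.haveILetI false
set_option linter.unusedSectionVars false

namespace Fermat.Agent.S53.Admissible

open IsLocalRing MvPolynomial

noncomputable section

/-! ## Generalities on test algebras -/

section TestAlgebra

/-- A ring hom out of an Artinian local ring into a nontrivial ring is local. -/
theorem isLocalHom_of_isArtinianRing {A B : Type*} [CommRing A] [IsLocalRing A]
    [IsArtinianRing A] [CommRing B] [Nontrivial B] (φ : A →+* B) : IsLocalHom φ := by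
  constructor
  intro a ha
  by_contra hna
  have hmem : a ∈ maximalIdeal A := hna
  have hnil : IsNilpotent a := Ring.KrullDimLE.isNilpotent_iff_mem_maximalIdeal.mpr hmem
  exact (hnil.map φ).not_isUnit ha

variable {𝒪 : Type} [CommRing 𝒪] [IsLocalRing 𝒪]

/-- An `𝒪`-algebra hom between Artinian test algebras is automatically local. -/
theorem isLocalHom_of_testAlgebra {A B : Type} [CommRing A] [IsLocalRing A] [Algebra 𝒪 A]
    [CommRing B] [IsLocalRing B] [Algebra 𝒪 B]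
    (hA : GaloisRep.IsArtinianTestAlgebra 𝒪 A) (φ : A →ₐ[𝒪] B) :
    IsLocalHom (φ : A →+* B) :=
  haveI := hA.isArtinian
  isLocalHom_of_isArtinianRing _

/-- The maximal ideal of an Artinian local ring is nilpotent. -/
theorem exists_maximalIdeal_pow_eq_bot (A : Type*) [CommRing A] [IsLocalRing A]
    [IsArtinianRing A] : ∃ n : ℕ, maximalIdeal A ^ n = ⊥ := by
  obtain ⟨n, hn⟩ := IsArtinianRing.isNilpotent_jacobson_bot (R := A)
  refine ⟨n, ?_⟩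
  rwa [IsLocalRing.jacobson_eq_maximalIdeal ⊥ bot_ne_top, Ideal.zero_eq_bot] at hn

/-- An Artinian test algebra over a local ring with finite residue field is a finite ring. -/
theorem finite_of_testAlgebra [Finite (ResidueField 𝒪)] {A : Type} [CommRing A] [IsLocalRing A]
    [Algebra 𝒪 A] (hA : GaloisRep.IsArtinianTestAlgebra 𝒪 A) : Finite A := by
  haveI := hA.isArtinian
  haveI := hA.isLocalHom
  have hsurj : Function.Surjective (ResidueField.map (algebraMap 𝒪 A)) := by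
    intro y
    obtain ⟨a, ha⟩ := hA.residue_surjective y
    exact ⟨residue 𝒪 a, by rw [ResidueField.map_residue]; exact ha⟩
  haveI : Finite (A ⧸ maximalIdeal A) :=
    Finite.of_surjective (ResidueField.map (algebraMap 𝒪 A)) hsurj
  obtain ⟨n, hn⟩ := exists_maximalIdeal_pow_eq_bot A
  have hfg : (maximalIdeal A).FG := IsNoetherian.noetherian _
  have hfin := Ideal.finite_quotient_pow hfg n
  rw [hn] at hfin
  exact Finite.of_equiv _ (RingEquiv.quotientBot A).toEquiv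

end TestAlgebra

/-! ## The abstract setting -/

section Setting

variable (𝒪 : Type) [CommRing 𝒪] [IsLocalRing 𝒪]
variable {ι : Type} (c : ι → 𝒪)

/-- Evaluation at the residual point `i ↦ c i mod 𝔪`. -/
def resEval : MvPolynomial ι 𝒪 →+* ResidueField 𝒪 :=
  eval₂Hom (residue 𝒪) (fun i => residue 𝒪 (c i))

/-- The maximal ideal of the polynomial ring at the residual point. -/
def m0 : Ideal (MvPolynomial ι 𝒪) := RingHom.ker (resEval 𝒪 c)

variable {𝒪} in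
theorem mem_m0 {p : MvPolynomial ι 𝒪} : p ∈ m0 𝒪 c ↔ resEval 𝒪 c p = 0 := RingHom.mem_ker

@[simp] theorem resEval_C (a : 𝒪) : resEval 𝒪 c (C a) = residue 𝒪 a := by
  simp [resEval]

@[simp] theorem resEval_X (i : ι) : resEval 𝒪 c (X i) = residue 𝒪 (c i) := by
  simp [resEval]

theorem resEval_surjective : Function.Surjective (resEval 𝒪 c) := by
  intro y
  obtain ⟨a, rfl⟩ := residue_surjective y
  exact ⟨C a, resEval_C 𝒪 c a⟩

instance m0_isMaximal : (m0 𝒪 c).IsMaximal :=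
  RingHom.ker_isMaximal_of_surjective _ (resEval_surjective 𝒪 c)

theorem m0_ne_top : m0 𝒪 c ≠ ⊤ := (m0_isMaximal 𝒪 c).ne_top

theorem C_mem_m0_iff (a : 𝒪) : C a ∈ m0 𝒪 c ↔ a ∈ maximalIdeal 𝒪 := by
  rw [mem_m0, resEval_C, residue_eq_zero_iff]

theorem X_sub_C_mem_m0 (i : ι) : X i - C (c i) ∈ m0 𝒪 c := by
  rw [mem_m0, map_sub, resEval_C, resEval_X, sub_self]

theorem exists_sub_C_mem_m0 (p : MvPolynomial ι 𝒪) : ∃ a : 𝒪, p - C a ∈ m0 𝒪 c := by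
  obtain ⟨a, ha⟩ := residue_surjective (resEval 𝒪 c p)
  exact ⟨a, by rw [mem_m0, map_sub, resEval_C, ha, sub_self]⟩

theorem map_C_le_m0 : (maximalIdeal 𝒪).map (C : 𝒪 →+* MvPolynomial ι 𝒪) ≤ m0 𝒪 c :=
  Ideal.map_le_iff_le_comap.mpr fun _ ha => (C_mem_m0_iff 𝒪 c _).mpr ha

theorem finite_quot_m0 [Finite (ResidueField 𝒪)] : Finite (MvPolynomial ι 𝒪 ⧸ m0 𝒪 c) :=
  Finite.of_injective (RingHom.kerLift (resEval 𝒪 c)) (RingHom.kerLift_injective _)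

/-- For a point `x` of a local `𝒪`-algebra reducing to `c`, the evaluation map pulls the
maximal ideal back to `m0`. -/
theorem comap_aeval_maximalIdeal {A : Type*} [CommRing A] [IsLocalRing A] [Algebra 𝒪 A]
    [IsLocalHom (algebraMap 𝒪 A)] (x : ι → A)
    (hx : ∀ i, x i - algebraMap 𝒪 A (c i) ∈ maximalIdeal A) :
    (maximalIdeal A).comap (aeval x : MvPolynomial ι 𝒪 →ₐ[𝒪] A) = m0 𝒪 c := by
  have hcomp : (residue A).comp ((aeval x : MvPolynomial ι 𝒪 →ₐ[𝒪] A) : MvPolynomial ι 𝒪 →+* A)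
      = (ResidueField.map (algebraMap 𝒪 A)).comp (resEval 𝒪 c) := by
    apply MvPolynomial.ringHom_ext
    · intro a
      simp [ResidueField.map_residue]
    · intro i
      have h := (residue_eq_zero_iff _).mpr (hx i)
      rw [map_sub, sub_eq_zero] at h
      simp [ResidueField.map_residue, h]
  symm
  apply (m0_isMaximal 𝒪 c).eq_of_le
  · rw [Ne, Ideal.eq_top_iff_one, Ideal.mem_comap, map_one]
    exact fun h => (Ideal.ne_top_iff_one _).mp (maximalIdeal.isMaximal A).ne_top h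
  · intro p hp
    rw [Ideal.mem_comap, ← residue_eq_zero_iff]
    have := congrArg (fun f => f p) hcomp
    simp only [RingHom.comp_apply] at this
    rw [RingHom.coe_coe] at this
    rw [this, (mem_m0 c).mp hp, map_zero]

/-! ### Quotients `MvPolynomial ι 𝒪 ⧸ K` with `m0 ^ n ≤ K ≤ m0` -/

variable {𝒪 c}

theorem map_m0_isMaximal {K : Ideal (MvPolynomial ι 𝒪)} (h2 : K ≤ m0 𝒪 c) :
    ((m0 𝒪 c).map (Ideal.Quotient.mk K)).IsMaximal := by
  rcases Ideal.map_eq_top_or_isMaximal_of_surjective (Ideal.Quotient.mk K)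
    Ideal.Quotient.mk_surjective (m0_isMaximal 𝒪 c) with h | h
  · exfalso
    have h' := congrArg (Ideal.comap (Ideal.Quotient.mk K)) h
    rw [Ideal.comap_map_of_surjective _ Ideal.Quotient.mk_surjective, Ideal.comap_top,
      ← RingHom.ker_eq_comap_bot, Ideal.mk_ker, sup_eq_left.mpr h2] at h'
    exact m0_ne_top 𝒪 c h'
  · exact h

theorem isLocalRing_quot {n : ℕ} {K : Ideal (MvPolynomial ι 𝒪)} (h1 : m0 𝒪 c ^ n ≤ K)
    (h2 : K ≤ m0 𝒪 c) : IsLocalRing (MvPolynomial ι 𝒪 ⧸ K) := by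
  apply IsLocalRing.of_unique_max_ideal
  refine ⟨(m0 𝒪 c).map (Ideal.Quotient.mk K), map_m0_isMaximal h2, ?_⟩
  intro M hM
  have hcm : (M.comap (Ideal.Quotient.mk K)).IsMaximal :=
    Ideal.comap_isMaximal_of_surjective _ Ideal.Quotient.mk_surjective
  have hK : K ≤ M.comap (Ideal.Quotient.mk K) := by
    intro p hp
    rw [Ideal.mem_comap, Ideal.Quotient.eq_zero_iff_mem.mpr hp]
    exact M.zero_mem
  have hle : m0 𝒪 c ≤ M.comap (Ideal.Quotient.mk K) :=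
    Ideal.IsPrime.le_of_pow_le (hP := hcm.isPrime) (h1.trans hK)
  have heq : m0 𝒪 c = M.comap (Ideal.Quotient.mk K) :=
    (m0_isMaximal 𝒪 c).eq_of_le hcm.ne_top hle
  rw [heq, Ideal.map_comap_of_surjective _ Ideal.Quotient.mk_surjective]

theorem maximalIdeal_quot {K : Ideal (MvPolynomial ι 𝒪)} (h2 : K ≤ m0 𝒪 c)
    [IsLocalRing (MvPolynomial ι 𝒪 ⧸ K)] :
    maximalIdeal (MvPolynomial ι 𝒪 ⧸ K) = (m0 𝒪 c).map (Ideal.Quotient.mk K) :=
  (IsLocalRing.eq_maximalIdeal (map_m0_isMaximal h2)).symm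

theorem mk_mem_maximalIdeal_iff {K : Ideal (MvPolynomial ι 𝒪)} (h2 : K ≤ m0 𝒪 c)
    [IsLocalRing (MvPolynomial ι 𝒪 ⧸ K)] (p : MvPolynomial ι 𝒪) :
    Ideal.Quotient.mk K p ∈ maximalIdeal (MvPolynomial ι 𝒪 ⧸ K) ↔ p ∈ m0 𝒪 c := by
  rw [maximalIdeal_quot h2, ← Ideal.mem_comap,
    Ideal.comap_map_of_surjective _ Ideal.Quotient.mk_surjective,
    ← RingHom.ker_eq_comap_bot, Ideal.mk_ker, sup_eq_left.mpr h2]

theorem maximalIdeal_quot_pow {n : ℕ} {K : Ideal (MvPolynomial ι 𝒪)} (h1 : m0 𝒪 c ^ n ≤ K)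
    (h2 : K ≤ m0 𝒪 c) [IsLocalRing (MvPolynomial ι 𝒪 ⧸ K)] :
    maximalIdeal (MvPolynomial ι 𝒪 ⧸ K) ^ n = ⊥ := by
  rw [maximalIdeal_quot h2, ← Ideal.map_pow, eq_bot_iff]
  exact (Ideal.map_mono h1).trans (le_of_eq (Ideal.map_quotient_self K))

theorem isArtinianTestAlgebra_quot {K : Ideal (MvPolynomial ι 𝒪)} (h2 : K ≤ m0 𝒪 c)
    [Finite (MvPolynomial ι 𝒪 ⧸ K)] [IsLocalRing (MvPolynomial ι 𝒪 ⧸ K)] :
    GaloisRep.IsArtinianTestAlgebra 𝒪 (MvPolynomial ι 𝒪 ⧸ K) where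
  isLocalHom := by
    constructor
    intro a ha
    by_contra hna
    have h1 : C a ∈ m0 𝒪 c := (C_mem_m0_iff 𝒪 c a).mpr hna
    have h3 : Ideal.Quotient.mk K (C a) ∈ maximalIdeal (MvPolynomial ι 𝒪 ⧸ K) :=
      (mk_mem_maximalIdeal_iff h2 _).mpr h1
    exact h3 ha
  residue_surjective := by
    intro y
    obtain ⟨q, rfl⟩ := residue_surjective y
    obtain ⟨p, rfl⟩ := Ideal.Quotient.mk_surjective q
    obtain ⟨a, ha⟩ := exists_sub_C_mem_m0 𝒪 c p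
    refine ⟨a, ?_⟩
    have h3 : Ideal.Quotient.mk K (p - C a) ∈ maximalIdeal (MvPolynomial ι 𝒪 ⧸ K) :=
      (mk_mem_maximalIdeal_iff h2 _).mpr ha
    rw [← residue_eq_zero_iff, map_sub, map_sub, sub_eq_zero] at h3
    exact h3.symm
  isArtinian := inferInstance

/-! ### Point conditions and admissible ideals -/

variable (𝒪 c)
variable (𝒬 : ∀ ⦃A : Type⦄ [CommRing A] [IsLocalRing A] [Algebra 𝒪 A], (ι → A) → Prop)

/-- The axioms on a predicate `𝒬` on points of Artinian test algebras. -/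
structure IsPointCondition : Prop where
  center : ∀ ⦃A : Type⦄ [CommRing A] [IsLocalRing A] [Algebra 𝒪 A],
    GaloisRep.IsArtinianTestAlgebra 𝒪 A → ∀ ⦃x : ι → A⦄, 𝒬 x →
      ∀ i, x i - algebraMap 𝒪 A (c i) ∈ maximalIdeal A
  map : ∀ ⦃A B : Type⦄ [CommRing A] [IsLocalRing A] [Algebra 𝒪 A]
    [CommRing B] [IsLocalRing B] [Algebra 𝒪 B],
    GaloisRep.IsArtinianTestAlgebra 𝒪 A → GaloisRep.IsArtinianTestAlgebra 𝒪 B →
    ∀ (φ : A →ₐ[𝒪] B) ⦃x : ι → A⦄, 𝒬 x → 𝒬 (fun i => φ (x i))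
  of_map_injective : ∀ ⦃A B : Type⦄ [CommRing A] [IsLocalRing A] [Algebra 𝒪 A]
    [CommRing B] [IsLocalRing B] [Algebra 𝒪 B],
    GaloisRep.IsArtinianTestAlgebra 𝒪 A → GaloisRep.IsArtinianTestAlgebra 𝒪 B →
    ∀ (φ : A →ₐ[𝒪] B), Function.Injective φ → ∀ ⦃x : ι → A⦄, 𝒬 (fun i => φ (x i)) → 𝒬 x
  of_fibreProduct : ∀ ⦃A B C P : Type⦄ [CommRing A] [IsLocalRing A] [Algebra 𝒪 A]
    [CommRing B] [IsLocalRing B] [Algebra 𝒪 B] [CommRing C] [IsLocalRing C] [Algebra 𝒪 C]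
    [CommRing P] [IsLocalRing P] [Algebra 𝒪 P],
    GaloisRep.IsArtinianTestAlgebra 𝒪 A → GaloisRep.IsArtinianTestAlgebra 𝒪 B →
    GaloisRep.IsArtinianTestAlgebra 𝒪 C → GaloisRep.IsArtinianTestAlgebra 𝒪 P →
    ∀ (f : A →ₐ[𝒪] C) (g : B →ₐ[𝒪] C) (pA : P →ₐ[𝒪] A) (pB : P →ₐ[𝒪] B),
      f.comp pA = g.comp pB →
      Function.Injective (fun x => (pA x, pB x)) →
      (∀ a b, f a = g b → ∃ x, pA x = a ∧ pB x = b) →
      ∀ ⦃x : ι → P⦄, 𝒬 (fun i => pA (x i)) → 𝒬 (fun i => pB (x i)) → 𝒬 x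

variable {𝒪} in
/-- The tautological point of a quotient of the polynomial ring. -/
def taut (K : Ideal (MvPolynomial ι 𝒪)) : ι → MvPolynomial ι 𝒪 ⧸ K :=
  fun i => Ideal.Quotient.mk K (X i)

/-- Admissible ideals of level `n`. -/
def IsAdm (n : ℕ) (K : Ideal (MvPolynomial ι 𝒪)) : Prop :=
  m0 𝒪 c ^ n ≤ K ∧ K ≤ m0 𝒪 c ∧ Finite (MvPolynomial ι 𝒪 ⧸ K) ∧
    ∀ [IsLocalRing (MvPolynomial ι 𝒪 ⧸ K)], 𝒬 (taut K)

variable {𝒪 c 𝒬}

theorem IsAdm.pow_le {n : ℕ} {K : Ideal (MvPolynomial ι 𝒪)} (hK : IsAdm 𝒪 c 𝒬 n K) :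
    m0 𝒪 c ^ n ≤ K := hK.1

theorem IsAdm.le {n : ℕ} {K : Ideal (MvPolynomial ι 𝒪)} (hK : IsAdm 𝒪 c 𝒬 n K) :
    K ≤ m0 𝒪 c := hK.2.1

theorem IsAdm.finite {n : ℕ} {K : Ideal (MvPolynomial ι 𝒪)} (hK : IsAdm 𝒪 c 𝒬 n K) :
    Finite (MvPolynomial ι 𝒪 ⧸ K) := hK.2.2.1

theorem IsAdm.isLocalRing {n : ℕ} {K : Ideal (MvPolynomial ι 𝒪)} (hK : IsAdm 𝒪 c 𝒬 n K) :
    IsLocalRing (MvPolynomial ι 𝒪 ⧸ K) := isLocalRing_quot hK.1 hK.2.1

theorem IsAdm.taut {n : ℕ} {K : Ideal (MvPolynomial ι 𝒪)} (hK : IsAdm 𝒪 c 𝒬 n K)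
    [IsLocalRing (MvPolynomial ι 𝒪 ⧸ K)] : 𝒬 (taut K) := hK.2.2.2

theorem IsAdm.testAlgebra {n : ℕ} {K : Ideal (MvPolynomial ι 𝒪)} (hK : IsAdm 𝒪 c 𝒬 n K)
    [IsLocalRing (MvPolynomial ι 𝒪 ⧸ K)] :
    GaloisRep.IsArtinianTestAlgebra 𝒪 (MvPolynomial ι 𝒪 ⧸ K) :=
  haveI := hK.finite
  isArtinianTestAlgebra_quot hK.le

theorem IsAdm.pos {n : ℕ} {K : Ideal (MvPolynomial ι 𝒪)} (hK : IsAdm 𝒪 c 𝒬 n K) : 1 ≤ n := by
  rcases Nat.eq_zero_or_pos n with h | h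
  · exfalso
    have h1 := hK.1
    rw [h, pow_zero, Ideal.one_eq_top] at h1
    exact m0_ne_top 𝒪 c (top_le_iff.mp (h1.trans hK.2.1))
  · exact h

theorem IsAdm.mono {n m : ℕ} {K : Ideal (MvPolynomial ι 𝒪)} (hK : IsAdm 𝒪 c 𝒬 n K)
    (hnm : n ≤ m) : IsAdm 𝒪 c 𝒬 m K :=
  ⟨(Ideal.pow_le_pow_right hnm).trans hK.1, hK.2.1, hK.2.2.1, hK.2.2.2⟩

/-- (C2) The kernel of the evaluation map at a good point of a finite test algebra of
level `n` is admissible of level `n`. -/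
theorem isAdm_of_ker (h𝒬 : IsPointCondition 𝒪 c 𝒬) {n : ℕ} {A : Type} [CommRing A]
    [IsLocalRing A] [Algebra 𝒪 A] [Finite A] (hA : GaloisRep.IsArtinianTestAlgebra 𝒪 A)
    (hn : maximalIdeal A ^ n = ⊥) {x : ι → A} (hx : 𝒬 x) {K : Ideal (MvPolynomial ι 𝒪)}
    (hK : ∀ p, p ∈ K ↔ aeval x p = 0) : IsAdm 𝒪 c 𝒬 n K := by
  have hc := h𝒬.center hA hx
  haveI := hA.isLocalHom
  have hcomap := comap_aeval_maximalIdeal 𝒪 c x hc
  have h2 : K ≤ m0 𝒪 c := by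
    intro p hp
    rw [← hcomap, Ideal.mem_comap, (hK p).mp hp]
    exact Ideal.zero_mem _
  have h1 : m0 𝒪 c ^ n ≤ K := by
    intro p hp
    rw [hK]
    have hmap : (m0 𝒪 c).map (aeval x : MvPolynomial ι 𝒪 →ₐ[𝒪] A) ≤ maximalIdeal A :=
      Ideal.map_le_iff_le_comap.mpr hcomap.ge
    have h3 : aeval x p ∈ (m0 𝒪 c ^ n).map (aeval x : MvPolynomial ι 𝒪 →ₐ[𝒪] A) :=
      Ideal.mem_map_of_mem _ hp
    rw [Ideal.map_pow] at h3
    have h4 := Ideal.pow_right_mono hmap n h3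
    rw [hn] at h4
    exact h4
  let ψ : MvPolynomial ι 𝒪 ⧸ K →ₐ[𝒪] A :=
    Ideal.Quotient.liftₐ K (aeval x) (fun a ha => (hK a).mp ha)
  have hψ : Function.Injective ψ := by
    rw [injective_iff_map_eq_zero]
    intro q hq
    obtain ⟨p, rfl⟩ := Ideal.Quotient.mk_surjective q
    have : aeval x p = 0 := hq
    exact Ideal.Quotient.eq_zero_iff_mem.mpr ((hK p).mpr this)
  haveI : Finite (MvPolynomial ι 𝒪 ⧸ K) := Finite.of_injective ψ hψ
  refine ⟨h1, h2, inferInstance, ?_⟩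
  intro _
  have hQ : GaloisRep.IsArtinianTestAlgebra 𝒪 (MvPolynomial ι 𝒪 ⧸ K) :=
    isArtinianTestAlgebra_quot h2
  refine h𝒬.of_map_injective hQ hA ψ hψ ?_
  have hfun : (fun i => ψ (taut K i)) = x := by
    funext i
    show aeval x (X i) = x i
    simp
  rw [hfun]
  exact hx

/-- (C3a) Admissible ideals of level `n` are closed under intersection. -/
theorem IsAdm.inf (h𝒬 : IsPointCondition 𝒪 c 𝒬) {n : ℕ} {I J : Ideal (MvPolynomial ι 𝒪)}
    (hI : IsAdm 𝒪 c 𝒬 n I) (hJ : IsAdm 𝒪 c 𝒬 n J) : IsAdm 𝒪 c 𝒬 n (I ⊓ J) := by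
  have h1 : m0 𝒪 c ^ n ≤ I ⊓ J := le_inf hI.1 hJ.1
  have h2 : I ⊓ J ≤ m0 𝒪 c := inf_le_left.trans hI.2.1
  have h1' : m0 𝒪 c ^ n ≤ I ⊔ J := hI.1.trans le_sup_left
  have h2' : I ⊔ J ≤ m0 𝒪 c := sup_le hI.2.1 hJ.2.1
  haveI := hI.finite
  haveI := hJ.finite
  haveI : Finite (MvPolynomial ι 𝒪 ⧸ (I ⊔ J)) :=
    Finite.of_surjective (Ideal.Quotient.factor (le_sup_left : I ≤ I ⊔ J))
      (Ideal.Quotient.factor_surjective _)
  have hinj : Function.Injective (fun x : MvPolynomial ι 𝒪 ⧸ (I ⊓ J) =>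
      (Ideal.Quotient.factor (inf_le_left : I ⊓ J ≤ I) x,
        Ideal.Quotient.factor (inf_le_right : I ⊓ J ≤ J) x)) := by
    intro a b hab
    obtain ⟨p, rfl⟩ := Ideal.Quotient.mk_surjective a
    obtain ⟨q, rfl⟩ := Ideal.Quotient.mk_surjective b
    simp only [Ideal.Quotient.factor_mk, Prod.mk.injEq] at hab
    rw [Ideal.Quotient.eq]
    exact Ideal.mem_inf.mpr ⟨Ideal.Quotient.eq.mp hab.1, Ideal.Quotient.eq.mp hab.2⟩
  haveI : Finite (MvPolynomial ι 𝒪 ⧸ (I ⊓ J)) := Finite.of_injective _ hinj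
  refine ⟨h1, h2, inferInstance, ?_⟩
  intro _
  haveI : IsLocalRing (MvPolynomial ι 𝒪 ⧸ I) := hI.isLocalRing
  haveI : IsLocalRing (MvPolynomial ι 𝒪 ⧸ J) := hJ.isLocalRing
  haveI : IsLocalRing (MvPolynomial ι 𝒪 ⧸ (I ⊔ J)) := isLocalRing_quot h1' h2'
  have hA := hI.testAlgebra
  have hB := hJ.testAlgebra
  have hC : GaloisRep.IsArtinianTestAlgebra 𝒪 (MvPolynomial ι 𝒪 ⧸ (I ⊔ J)) :=
    isArtinianTestAlgebra_quot h2'
  have hP : GaloisRep.IsArtinianTestAlgebra 𝒪 (MvPolynomial ι 𝒪 ⧸ (I ⊓ J)) :=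
    isArtinianTestAlgebra_quot h2
  refine h𝒬.of_fibreProduct hA hB hC hP
    (Ideal.Quotient.factorₐ 𝒪 (le_sup_left : I ≤ I ⊔ J))
    (Ideal.Quotient.factorₐ 𝒪 (le_sup_right : J ≤ I ⊔ J))
    (Ideal.Quotient.factorₐ 𝒪 (inf_le_left : I ⊓ J ≤ I))
    (Ideal.Quotient.factorₐ 𝒪 (inf_le_right : I ⊓ J ≤ J)) ?_ hinj ?_ hI.taut hJ.taut
  · rw [Ideal.Quotient.factorₐ_comp, Ideal.Quotient.factorₐ_comp]
  · intro a b hab
    obtain ⟨p, rfl⟩ := Ideal.Quotient.mk_surjective a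
    obtain ⟨q, rfl⟩ := Ideal.Quotient.mk_surjective b
    have hab' : Ideal.Quotient.mk (I ⊔ J) p = Ideal.Quotient.mk (I ⊔ J) q := hab
    rw [Ideal.Quotient.eq, Submodule.mem_sup] at hab'
    obtain ⟨u, hu, v, hv, huv⟩ := hab'
    refine ⟨Ideal.Quotient.mk (I ⊓ J) (p - u), ?_, ?_⟩
    · show Ideal.Quotient.mk I (p - u) = Ideal.Quotient.mk I p
      rw [Ideal.Quotient.eq]
      have : p - u - p = -u := by ring
      rw [this]
      exact I.neg_mem hu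
    · show Ideal.Quotient.mk J (p - u) = Ideal.Quotient.mk J q
      rw [Ideal.Quotient.eq]
      have : p - u - q = v := by linear_combination -huv
      rw [this]
      exact hv

/-- (C3b) If `K` is admissible then `K ⊔ m0 ^ m` is admissible of level `m` (`m ≥ 1`). -/
theorem IsAdm.sup_pow (h𝒬 : IsPointCondition 𝒪 c 𝒬) {n m : ℕ} {K : Ideal (MvPolynomial ι 𝒪)}
    (hK : IsAdm 𝒪 c 𝒬 n K) (hm : 1 ≤ m) : IsAdm 𝒪 c 𝒬 m (K ⊔ m0 𝒪 c ^ m) := by
  have h2 : K ⊔ m0 𝒪 c ^ m ≤ m0 𝒪 c :=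
    sup_le hK.2.1 (Ideal.pow_le_self (Nat.one_le_iff_ne_zero.mp hm))
  haveI := hK.finite
  haveI : Finite (MvPolynomial ι 𝒪 ⧸ (K ⊔ m0 𝒪 c ^ m)) :=
    Finite.of_surjective (Ideal.Quotient.factor (le_sup_left : K ≤ K ⊔ m0 𝒪 c ^ m))
      (Ideal.Quotient.factor_surjective _)
  refine ⟨le_sup_right, h2, inferInstance, ?_⟩
  intro _
  haveI : IsLocalRing (MvPolynomial ι 𝒪 ⧸ K) := hK.isLocalRing
  have hA := hK.testAlgebra
  have hB : GaloisRep.IsArtinianTestAlgebra 𝒪 (MvPolynomial ι 𝒪 ⧸ (K ⊔ m0 𝒪 c ^ m)) :=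
    isArtinianTestAlgebra_quot h2
  exact h𝒬.map hA hB (Ideal.Quotient.factorₐ 𝒪 (le_sup_left : K ≤ K ⊔ m0 𝒪 c ^ m)) hK.taut

end Setting

end

end Fermat.Agent.S53.Admissible
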