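import Mathlib
import Fermat.Agent.S53.Admissible

/-!
# S53, chunk D: the tangent bound (abstract form)

Setting of `Fermat.Agent.S53.Admissible`.  If the set `TanSet` of good points over the dual
numbers `k[ε]` is finite, then

* `exists_finset_gens`: there is ONE finite set `G ⊆ m0` with `m0 ≤ span G ⊔ K` for every
  admissible ideal `K` (of any level);
* `exists_card_bound`: hence `Nat.card (MvPolynomial ι 𝒪 ⧸ K) ≤ B n` for every admissible ideal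
  of level `n`, for a function `B` not depending on `K`.
-/

set_option autoImplicit false
set_option linter.style.haveILetI false
set_option linter.unusedSectionVars false

namespace Fermat.Agent.S53.Admissible

open IsLocalRing MvPolynomial

noncomputable section

/-! ## Separation of points by dual numbers -/

/-- An augmented algebra `Q = k ⊕ V` with `V ^ 2 = 0`: every nonzero element is detected by a
ring hom to the dual numbers which is the standard inclusion on `k`. -/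
theorem exists_ringHom_dualNumber_ne_zero {k : Type*} [Field k] {Q : Type*} [CommRing Q]
    (s : k →+* Q) (e : Q →+* k) (hes : ∀ a, e (s a) = a)
    (hsq : ∀ v w : Q, e v = 0 → e w = 0 → v * w = 0) {q : Q} (hq : q ≠ 0) :
    ∃ f : Q →+* DualNumber k, f q ≠ 0 ∧ ∀ a, f (s a) = TrivSqZeroExt.inl a := by
  by_cases h0 : e q = 0
  · letI : Algebra k Q := s.toAlgebra
    have hsmul : ∀ (a : k) (v : Q), a • v = s a * v := fun a v => rfl
    have h1 : q ∉ Submodule.span k {(1 : Q)} := by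
      intro hmem
      obtain ⟨a, ha⟩ := Submodule.mem_span_singleton.mp hmem
      rw [hsmul, mul_one] at ha
      have ha0 : a = 0 := by rw [← hes a, ha, h0]
      rw [ha0, map_zero] at ha
      exact hq ha.symm
    obtain ⟨Λ, hΛq, hΛ1⟩ := Submodule.exists_dual_map_eq_bot_of_notMem h1 inferInstance
    have hΛ1' : Λ 1 = 0 := by
      have : Λ 1 ∈ (Submodule.span k {(1 : Q)}).map Λ :=
        Submodule.mem_map_of_mem (Submodule.mem_span_singleton_self 1)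
      rwa [hΛ1, Submodule.mem_bot] at this
    have hΛsmul : ∀ (a : k) (v : Q), Λ (s a * v) = a * Λ v := by
      intro a v
      rw [← hsmul, map_smul, smul_eq_mul]
    have hΛs : ∀ a : k, Λ (s a) = 0 := by
      intro a
      have := hΛsmul a 1
      rwa [mul_one, hΛ1', mul_zero] at this
    have hmul : ∀ a b : Q, Λ (a * b) = e a * Λ b + e b * Λ a := by
      intro a b
      have hv : e (a - s (e a)) = 0 := by rw [map_sub, hes, sub_self]
      have hw : e (b - s (e b)) = 0 := by rw [map_sub, hes, sub_self]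
      have hvw := hsq _ _ hv hw
      have hab : a * b = s (e a) * b + s (e b) * a - s (e a * e b) := by
        rw [map_mul]; linear_combination hvw
      rw [hab, map_sub, map_add, hΛsmul, hΛsmul, hΛs, sub_zero]
    refine ⟨{ toFun := fun a => TrivSqZeroExt.inl (e a) + TrivSqZeroExt.inr (Λ a)
              map_one' := ?_, map_mul' := ?_, map_zero' := ?_, map_add' := ?_ }, ?_, ?_⟩
    · rw [map_one, hΛ1', TrivSqZeroExt.inr_zero, add_zero]; rfl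
    · intro a b
      apply TrivSqZeroExt.ext
      · simp
      · simp [hmul]; ring
    · simp
    · intro a b
      apply TrivSqZeroExt.ext <;> simp
    · intro h
      have := congrArg TrivSqZeroExt.snd h
      simp at this
      exact hΛq this
    · intro a
      show TrivSqZeroExt.inl (e (s a)) + TrivSqZeroExt.inr (Λ (s a)) = _
      rw [hes, hΛs, TrivSqZeroExt.inr_zero, add_zero]
  · refine ⟨(TrivSqZeroExt.inlHom k k).comp e, ?_, ?_⟩
    · intro h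
      have := congrArg TrivSqZeroExt.fst h
      simp at this
      exact h0 this
    · intro a
      simp [hes]

/-! ## The dual numbers as a test algebra -/

section Eps

variable (𝒪 : Type) [CommRing 𝒪] [IsLocalRing 𝒪]

/-- The ring hom `𝒪 → k → k[ε]`. -/
def epsMap : 𝒪 →+* DualNumber (ResidueField 𝒪) :=
  (TrivSqZeroExt.inlHom (ResidueField 𝒪) (ResidueField 𝒪)).comp (residue 𝒪)

/-- The `𝒪`-algebra structure on `k[ε]` used in `GaloisRep.TangentFinite`. -/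
@[reducible] def algEps : Algebra 𝒪 (DualNumber (ResidueField 𝒪)) :=
  ((algebraMap (ResidueField 𝒪) (DualNumber (ResidueField 𝒪))).comp
      (algebraMap 𝒪 (ResidueField 𝒪))).toAlgebra

theorem algEps_algebraMap (a : 𝒪) :
    @algebraMap 𝒪 (DualNumber (ResidueField 𝒪)) _ _ (algEps 𝒪) a = epsMap 𝒪 a := rfl

theorem epsMap_apply (a : 𝒪) : epsMap 𝒪 a = TrivSqZeroExt.inl (residue 𝒪 a) := rfl

theorem finite_dualNumber [Finite (ResidueField 𝒪)] : Finite (DualNumber (ResidueField 𝒪)) := by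
  show Finite (ResidueField 𝒪 × ResidueField 𝒪)
  infer_instance

theorem isArtinianTestAlgebra_eps [Finite (ResidueField 𝒪)] :
    @GaloisRep.IsArtinianTestAlgebra 𝒪 _ (DualNumber (ResidueField 𝒪)) _ _ (algEps 𝒪) := by
  letI := algEps 𝒪
  refine ⟨⟨fun a ha => ?_⟩, ?_, ?_⟩
  · have ha' : IsUnit (TrivSqZeroExt.inl (residue 𝒪 a) : DualNumber (ResidueField 𝒪)) := ha
    rw [TrivSqZeroExt.isUnit_inl_iff] at ha'
    by_contra hna
    have h0 : residue 𝒪 a = 0 := (residue_eq_zero_iff a).mpr hna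
    rw [h0] at ha'
    exact not_isUnit_zero ha'
  · intro y
    obtain ⟨z, rfl⟩ := residue_surjective y
    obtain ⟨a, ha⟩ := residue_surjective (TrivSqZeroExt.fst z)
    refine ⟨a, ?_⟩
    show residue _ (TrivSqZeroExt.inl (residue 𝒪 a)) = residue _ z
    rw [← sub_eq_zero, ← map_sub, residue_eq_zero_iff]
    show ¬ IsUnit _
    rw [TrivSqZeroExt.isUnit_iff_isUnit_fst]
    simp [ha]
  · haveI := finite_dualNumber 𝒪
    infer_instance

end Eps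

/-! ## The tangent ideal -/

section Tangent

variable (𝒪 : Type) [CommRing 𝒪] [IsLocalRing 𝒪]
variable {ι : Type} (c : ι → 𝒪)
variable (𝒬 : ∀ ⦃A : Type⦄ [CommRing A] [IsLocalRing A] [Algebra 𝒪 A], (ι → A) → Prop)

/-- The set of good points over the dual numbers. -/
def TanSet : Set (ι → DualNumber (ResidueField 𝒪)) :=
  {x | @𝒬 (DualNumber (ResidueField 𝒪)) _ _ (algEps 𝒪) x}

/-- The intersection of the kernels of all tangent points. -/
def KT : Ideal (MvPolynomial ι 𝒪) :=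
  ⨅ x ∈ TanSet 𝒪 𝒬, RingHom.ker (eval₂Hom (epsMap 𝒪) x)

variable {𝒪 𝒬} in
theorem mem_KT {p : MvPolynomial ι 𝒪} :
    p ∈ KT 𝒪 𝒬 ↔ ∀ x ∈ TanSet 𝒪 𝒬, eval₂Hom (epsMap 𝒪) x p = 0 := by
  simp only [KT, Ideal.mem_iInf, RingHom.mem_ker]

theorem finite_quot_KT [Finite (ResidueField 𝒪)] (hT : (TanSet 𝒪 𝒬).Finite) :
    Finite (MvPolynomial ι 𝒪 ⧸ KT 𝒪 𝒬) := by
  haveI : Finite (TanSet 𝒪 𝒬) := hT.to_subtype
  haveI := finite_dualNumber 𝒪
  let Φ : MvPolynomial ι 𝒪 →+* (TanSet 𝒪 𝒬 → DualNumber (ResidueField 𝒪)) :=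
    RingHom.pi (fun x => eval₂Hom (epsMap 𝒪) x.1)
  have hΦ : ∀ a ∈ KT 𝒪 𝒬, Φ a = 0 := by
    intro a ha
    funext x
    exact mem_KT.mp ha x.1 x.2
  have hinj : Function.Injective (Ideal.Quotient.lift (KT 𝒪 𝒬) Φ hΦ) := by
    rw [injective_iff_map_eq_zero]
    intro q hq
    obtain ⟨p, rfl⟩ := Ideal.Quotient.mk_surjective q
    rw [Ideal.Quotient.lift_mk] at hq
    rw [Ideal.Quotient.eq_zero_iff_mem, mem_KT]
    intro x hx
    exact congrFun hq ⟨x, hx⟩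
  exact Finite.of_injective _ hinj

/-- Key claim: the tangent ideal is contained in `K + m0 ^ 2 + 𝔪_𝒪` for every admissible `K`. -/
theorem KT_le [Finite (ResidueField 𝒪)] (h𝒬 : IsPointCondition 𝒪 c 𝒬) {n : ℕ}
    {K : Ideal (MvPolynomial ι 𝒪)} (hK : IsAdm 𝒪 c 𝒬 n K) :
    KT 𝒪 𝒬 ≤ K ⊔ m0 𝒪 c ^ 2 ⊔ (maximalIdeal 𝒪).map (C : 𝒪 →+* MvPolynomial ι 𝒪) := by
  intro p hp
  by_contra hpK
  have hK₂ : K ⊔ m0 𝒪 c ^ 2 ⊔ (maximalIdeal 𝒪).map (C : 𝒪 →+* MvPolynomial ι 𝒪) ≤ m0 𝒪 c :=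
    sup_le (sup_le hK.le (Ideal.pow_le_self two_ne_zero)) (map_C_le_m0 𝒪 c)
  have hKK₂ : K ≤ K ⊔ m0 𝒪 c ^ 2 ⊔ (maximalIdeal 𝒪).map (C : 𝒪 →+* MvPolynomial ι 𝒪) :=
    le_sup_left.trans le_sup_left
  have hmK₂ : m0 𝒪 c ^ 2 ≤
      K ⊔ m0 𝒪 c ^ 2 ⊔ (maximalIdeal 𝒪).map (C : 𝒪 →+* MvPolynomial ι 𝒪) :=
    le_sup_right.trans le_sup_left
  have hCK₂ : (maximalIdeal 𝒪).map (C : 𝒪 →+* MvPolynomial ι 𝒪) ≤
      K ⊔ m0 𝒪 c ^ 2 ⊔ (maximalIdeal 𝒪).map (C : 𝒪 →+* MvPolynomial ι 𝒪) := le_sup_right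
  generalize K ⊔ m0 𝒪 c ^ 2 ⊔ (maximalIdeal 𝒪).map (C : 𝒪 →+* MvPolynomial ι 𝒪) = K₂
    at hpK hK₂ hKK₂ hmK₂ hCK₂
  let sk : ResidueField 𝒪 →+* MvPolynomial ι 𝒪 ⧸ K₂ :=
    Ideal.Quotient.lift (maximalIdeal 𝒪) ((Ideal.Quotient.mk K₂).comp C)
      (fun a ha => Ideal.Quotient.eq_zero_iff_mem.mpr (hCK₂ (Ideal.mem_map_of_mem C ha)))
  let e : MvPolynomial ι 𝒪 ⧸ K₂ →+* ResidueField 𝒪 :=
    Ideal.Quotient.lift K₂ (resEval 𝒪 c) (fun p hp => (mem_m0 c).mp (hK₂ hp))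
  have hsk : ∀ a : 𝒪, sk (residue 𝒪 a) = Ideal.Quotient.mk K₂ (C a) := fun a => rfl
  have he : ∀ p : MvPolynomial ι 𝒪, e (Ideal.Quotient.mk K₂ p) = resEval 𝒪 c p := fun p => rfl
  have hes : ∀ a, e (sk a) = a := by
    intro a
    obtain ⟨a, rfl⟩ := residue_surjective a
    rw [hsk, he, resEval_C]
  have hsq : ∀ v w, e v = 0 → e w = 0 → v * w = 0 := by
    intro v w hv hw
    obtain ⟨pv, rfl⟩ := Ideal.Quotient.mk_surjective v
    obtain ⟨pw, rfl⟩ := Ideal.Quotient.mk_surjective w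
    rw [he] at hv hw
    rw [← map_mul, Ideal.Quotient.eq_zero_iff_mem]
    exact hmK₂ (by rw [pow_two]; exact Ideal.mul_mem_mul ((mem_m0 c).mpr hv) ((mem_m0 c).mpr hw))
  have hq : Ideal.Quotient.mk K₂ p ≠ 0 := by rwa [Ne, Ideal.Quotient.eq_zero_iff_mem]
  obtain ⟨f, hfq, hfs⟩ := exists_ringHom_dualNumber_ne_zero sk e hes hsq hq
  let x : ι → DualNumber (ResidueField 𝒪) := fun i => f (Ideal.Quotient.mk K₂ (X i))
  have hF : eval₂Hom (epsMap 𝒪) x = f.comp (Ideal.Quotient.mk K₂) := by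
    apply MvPolynomial.ringHom_ext
    · intro a
      rw [eval₂Hom_C, RingHom.comp_apply, ← hsk, hfs]
      rfl
    · intro i
      rw [eval₂Hom_X']
      rfl
  have hx : x ∈ TanSet 𝒪 𝒬 := by
    letI := algEps 𝒪
    haveI : IsLocalRing (MvPolynomial ι 𝒪 ⧸ K) := hK.isLocalRing
    have hA := hK.testAlgebra
    have hB := isArtinianTestAlgebra_eps 𝒪
    have hkill : ∀ a ∈ K, eval₂Hom (epsMap 𝒪) x a = 0 := by
      intro a ha
      rw [hF, RingHom.comp_apply, Ideal.Quotient.eq_zero_iff_mem.mpr (hKK₂ ha), map_zero]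
    let ψ : MvPolynomial ι 𝒪 ⧸ K →ₐ[𝒪] DualNumber (ResidueField 𝒪) :=
      { toRingHom := Ideal.Quotient.lift K (eval₂Hom (epsMap 𝒪) x) hkill
        commutes' := by
          intro a
          show Ideal.Quotient.lift K (eval₂Hom (epsMap 𝒪) x) hkill (Ideal.Quotient.mk K (C a))
            = epsMap 𝒪 a
          rw [Ideal.Quotient.lift_mk, eval₂Hom_C] }
    have h := h𝒬.map hA hB ψ hK.taut
    have hfun : (fun i => ψ (taut K i)) = x := by
      funext i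
      show Ideal.Quotient.lift K (eval₂Hom (epsMap 𝒪) x) hkill (Ideal.Quotient.mk K (X i)) = x i
      rw [Ideal.Quotient.lift_mk, eval₂Hom_X']
    rw [hfun] at h
    exact h
  have h0 := mem_KT.mp hp x hx
  rw [hF] at h0
  exact hfq h0

end Tangent

/-! ## Uniform generators and the cardinality bound -/

/-- If `𝔪 ≤ S ⊔ K ⊔ 𝔪 ^ 2` and `𝔪 ^ n ≤ K` then `𝔪 ≤ S ⊔ K`. -/
theorem le_sup_of_le_sup_sq {R : Type*} [CommRing R] {𝔪 S K : Ideal R} {n : ℕ}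
    (hn : 𝔪 ^ n ≤ K) (key : 𝔪 ≤ S ⊔ K ⊔ 𝔪 ^ 2) : 𝔪 ≤ S ⊔ K := by
  have iter : ∀ j : ℕ, 𝔪 ≤ S ⊔ K ⊔ 𝔪 ^ (j + 2) := by
    intro j
    induction j with
    | zero => exact key
    | succ j ih =>
      have h5 : 𝔪 ^ 2 ≤ S ⊔ K ⊔ 𝔪 ^ (j + 1 + 2) := by
        calc 𝔪 ^ 2 = 𝔪 * 𝔪 := pow_two _
          _ ≤ 𝔪 * (S ⊔ K ⊔ 𝔪 ^ (j + 2)) := Ideal.mul_mono_right ih
          _ = 𝔪 * S ⊔ 𝔪 * K ⊔ 𝔪 * 𝔪 ^ (j + 2) := by rw [Ideal.mul_sup, Ideal.mul_sup]
          _ ≤ S ⊔ K ⊔ 𝔪 ^ (j + 1 + 2) :=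
            sup_le_sup (sup_le_sup Ideal.mul_le_right Ideal.mul_le_right)
              (by rw [← pow_succ', show j + 2 + 1 = j + 1 + 2 by omega])
      exact key.trans (sup_le le_sup_left h5)
  exact (iter n).trans
    (sup_le le_rfl (((Ideal.pow_le_pow_right (by omega)).trans hn).trans le_sup_right))

section Bound

variable (𝒪 : Type) [CommRing 𝒪] [IsLocalRing 𝒪]
variable {ι : Type} (c : ι → 𝒪)
variable (𝒬 : ∀ ⦃A : Type⦄ [CommRing A] [IsLocalRing A] [Algebra 𝒪 A], (ι → A) → Prop)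

/-- (D1a) One finite set of elements of `m0` generates `m0` modulo every admissible ideal. -/
theorem exists_finset_gens [IsNoetherianRing 𝒪] [Finite (ResidueField 𝒪)]
    (h𝒬 : IsPointCondition 𝒪 c 𝒬) (hT : (TanSet 𝒪 𝒬).Finite) :
    ∃ G : Finset (MvPolynomial ι 𝒪),
      (↑G : Set (MvPolynomial ι 𝒪)) ⊆ (m0 𝒪 c : Set (MvPolynomial ι 𝒪)) ∧
      ∀ (n : ℕ) (K : Ideal (MvPolynomial ι 𝒪)), IsAdm 𝒪 c 𝒬 n K →
        m0 𝒪 c ≤ Ideal.span (↑G : Set (MvPolynomial ι 𝒪)) ⊔ K := by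
  classical
  haveI : Finite (MvPolynomial ι 𝒪 ⧸ KT 𝒪 𝒬) := finite_quot_KT 𝒪 𝒬 hT
  letI : Fintype (MvPolynomial ι 𝒪 ⧸ KT 𝒪 𝒬) := Fintype.ofFinite _
  have hrep : ∀ y : MvPolynomial ι 𝒪 ⧸ KT 𝒪 𝒬, ∃ p : MvPolynomial ι 𝒪,
      (∃ p' ∈ m0 𝒪 c, Ideal.Quotient.mk (KT 𝒪 𝒬) p' = y) →
        (p ∈ m0 𝒪 c ∧ Ideal.Quotient.mk (KT 𝒪 𝒬) p = y) := by
    intro y
    by_cases h : ∃ p' ∈ m0 𝒪 c, Ideal.Quotient.mk (KT 𝒪 𝒬) p' = y
    · obtain ⟨p', h1, h2⟩ := h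
      exact ⟨p', fun _ => ⟨h1, h2⟩⟩
    · exact ⟨0, fun h' => absurd h' h⟩
  choose g hg using hrep
  obtain ⟨T, hT'⟩ := (isNoetherianRing_iff_ideal_fg 𝒪).mp inferInstance (maximalIdeal 𝒪)
  let s : Finset (MvPolynomial ι 𝒪) :=
    (Finset.univ.filter (fun y : MvPolynomial ι 𝒪 ⧸ KT 𝒪 𝒬 =>
      ∃ p' ∈ m0 𝒪 c, Ideal.Quotient.mk (KT 𝒪 𝒬) p' = y)).image g
  refine ⟨s ∪ T.image C, ?_, ?_⟩
  · intro t ht
    rcases Finset.mem_union.mp (Finset.mem_coe.mp ht) with ht | ht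
    · obtain ⟨y, hy, rfl⟩ := Finset.mem_image.mp ht
      exact (hg y (Finset.mem_filter.mp hy).2).1
    · obtain ⟨a, ha, rfl⟩ := Finset.mem_image.mp ht
      exact (C_mem_m0_iff 𝒪 c a).mpr (hT' ▸ Ideal.subset_span (Finset.mem_coe.mpr ha))
  · intro n K hK
    have hspanC : (maximalIdeal 𝒪).map (C : 𝒪 →+* MvPolynomial ι 𝒪) ≤
        Ideal.span (↑(s ∪ T.image C) : Set (MvPolynomial ι 𝒪)) := by
      rw [← hT', Ideal.map_span]
      apply Ideal.span_mono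
      rintro y ⟨a, ha, rfl⟩
      exact Finset.mem_coe.mpr
        (Finset.mem_union_right _ (Finset.mem_image_of_mem C (Finset.mem_coe.mp ha)))
    refine le_sup_of_le_sup_sq hK.pow_le ?_
    intro p hp
    have hy : ∃ p' ∈ m0 𝒪 c,
        Ideal.Quotient.mk (KT 𝒪 𝒬) p' = Ideal.Quotient.mk (KT 𝒪 𝒬) p := ⟨p, hp, rfl⟩
    have hgm := hg _ hy
    have ht : g (Ideal.Quotient.mk (KT 𝒪 𝒬) p) ∈
        Ideal.span (↑(s ∪ T.image C) : Set (MvPolynomial ι 𝒪)) := by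
      apply Ideal.subset_span
      exact Finset.mem_coe.mpr (Finset.mem_union_left _
        (Finset.mem_image_of_mem g (Finset.mem_filter.mpr ⟨Finset.mem_univ _, hy⟩)))
    have hdiff : p - g (Ideal.Quotient.mk (KT 𝒪 𝒬) p) ∈ KT 𝒪 𝒬 :=
      Ideal.Quotient.eq.mp hgm.2.symm
    have h2 := KT_le 𝒪 c 𝒬 h𝒬 hK hdiff
    have hle : K ⊔ m0 𝒪 c ^ 2 ⊔ (maximalIdeal 𝒪).map (C : 𝒪 →+* MvPolynomial ι 𝒪) ≤
        Ideal.span (↑(s ∪ T.image C) : Set (MvPolynomial ι 𝒪)) ⊔ K ⊔ m0 𝒪 c ^ 2 :=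
      sup_le (sup_le (le_sup_right.trans le_sup_left) le_sup_right)
        (hspanC.trans (le_sup_left.trans le_sup_left))
    have hsplit : p = g (Ideal.Quotient.mk (KT 𝒪 𝒬) p) +
        (p - g (Ideal.Quotient.mk (KT 𝒪 𝒬) p)) := by ring
    rw [hsplit]
    exact Ideal.add_mem _ ((le_sup_left.trans le_sup_left :
      Ideal.span (↑(s ∪ T.image C) : Set (MvPolynomial ι 𝒪)) ≤ _) ht) (hle h2)

/-- (D1b) Quotients by ideals `K ⊇ m0 ^ n` modulo which a fixed finite set generates `m0`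
have uniformly bounded cardinality. -/
theorem exists_card_bound [IsNoetherianRing 𝒪] [Finite (ResidueField 𝒪)]
    (G : Finset (MvPolynomial ι 𝒪))
    (hG : (↑G : Set (MvPolynomial ι 𝒪)) ⊆ (m0 𝒪 c : Set (MvPolynomial ι 𝒪))) :
    ∃ B : ℕ → ℕ, ∀ (n : ℕ) (K : Ideal (MvPolynomial ι 𝒪)), m0 𝒪 c ^ n ≤ K →
      m0 𝒪 c ≤ Ideal.span (↑G : Set (MvPolynomial ι 𝒪)) ⊔ K →
      Finite (MvPolynomial ι 𝒪 ⧸ K) ∧ Nat.card (MvPolynomial ι 𝒪 ⧸ K) ≤ B n := by
  let Ψ : MvPolynomial G 𝒪 →+* MvPolynomial ι 𝒪 :=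
    eval₂Hom C (fun g : G => (g : MvPolynomial ι 𝒪))
  let 𝔞 : Ideal (MvPolynomial G 𝒪) := (m0 𝒪 c).comap Ψ
  haveI : Finite (MvPolynomial ι 𝒪 ⧸ m0 𝒪 c) := finite_quot_m0 𝒪 c
  haveI : Finite (MvPolynomial G 𝒪 ⧸ 𝔞) :=
    Finite.of_injective (Ideal.quotientMap (m0 𝒪 c) Ψ le_rfl)
      (Ideal.quotientMap_injective' le_rfl)
  have hfg : 𝔞.FG := IsNoetherian.noetherian 𝔞
  refine ⟨fun n => Nat.card (MvPolynomial G 𝒪 ⧸ 𝔞 ^ n), ?_⟩
  intro n K h1 hGK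
  haveI : Finite (MvPolynomial G 𝒪 ⧸ 𝔞 ^ n) := Ideal.finite_quotient_pow hfg n
  have happrox : ∀ j : ℕ, ∀ p : MvPolynomial ι 𝒪, ∃ q : MvPolynomial G 𝒪,
      p - Ψ q ∈ m0 𝒪 c ^ j ⊔ K := by
    intro j
    induction j with
    | zero =>
      intro p
      exact ⟨0, by rw [pow_zero, Ideal.one_eq_top, top_sup_eq]; exact Submodule.mem_top⟩
    | succ j ih =>
      have hspan : ∀ m ∈ Ideal.span (↑G : Set (MvPolynomial ι 𝒪)), ∃ q : MvPolynomial G 𝒪,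
          m - Ψ q ∈ m0 𝒪 c ^ (j + 1) ⊔ K := by
        intro m hm
        induction hm using Submodule.span_induction with
        | mem g hg =>
          refine ⟨X ⟨g, Finset.mem_coe.mp hg⟩, ?_⟩
          have : Ψ (X ⟨g, Finset.mem_coe.mp hg⟩) = g := by simp [Ψ]
          rw [this, sub_self]
          exact Ideal.zero_mem _
        | zero => exact ⟨0, by rw [map_zero, sub_self]; exact Ideal.zero_mem _⟩
        | add m₁ m₂ _ _ h₁ h₂ =>
          obtain ⟨q₁, hq₁⟩ := h₁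
          obtain ⟨q₂, hq₂⟩ := h₂
          refine ⟨q₁ + q₂, ?_⟩
          have : m₁ + m₂ - Ψ (q₁ + q₂) = (m₁ - Ψ q₁) + (m₂ - Ψ q₂) := by rw [map_add]; ring
          rw [this]
          exact Ideal.add_mem _ hq₁ hq₂
        | smul r m hm h =>
          obtain ⟨q, hq⟩ := h
          obtain ⟨qr, hqr⟩ := ih r
          refine ⟨qr * q, ?_⟩
          have hm0 : m ∈ m0 𝒪 c := (Ideal.span_le.mpr hG) hm
          have : r • m - Ψ (qr * q) = Ψ qr * (m - Ψ q) + (r - Ψ qr) * m := by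
            rw [map_mul, smul_eq_mul]; ring
          rw [this]
          refine Ideal.add_mem _ (Ideal.mul_mem_left _ _ hq) ?_
          have h3 : (r - Ψ qr) * m ∈ (m0 𝒪 c ^ j ⊔ K) * m0 𝒪 c := Ideal.mul_mem_mul hqr hm0
          have h4 : (m0 𝒪 c ^ j ⊔ K) * m0 𝒪 c ≤ m0 𝒪 c ^ (j + 1) ⊔ K := by
            rw [Ideal.sup_mul, pow_succ]
            exact sup_le_sup le_rfl Ideal.mul_le_left
          exact h4 h3
      intro p
      obtain ⟨a, ha⟩ := exists_sub_C_mem_m0 𝒪 c p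
      obtain ⟨m, hm, κ, hκ, hmκ⟩ := Submodule.mem_sup.mp (hGK ha)
      obtain ⟨q, hq⟩ := hspan m hm
      refine ⟨C a + q, ?_⟩
      have hΨC : Ψ (C a) = C a := by simp [Ψ]
      have : p - Ψ (C a + q) = (m - Ψ q) + κ := by
        rw [map_add, hΨC]; linear_combination -hmκ
      rw [this]
      exact Ideal.add_mem _ hq ((le_sup_right : K ≤ m0 𝒪 c ^ (j + 1) ⊔ K) hκ)
  let θ : MvPolynomial G 𝒪 →+* MvPolynomial ι 𝒪 ⧸ K := (Ideal.Quotient.mk K).comp Ψ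
  have hθsurj : Function.Surjective θ := by
    intro y
    obtain ⟨p, rfl⟩ := Ideal.Quotient.mk_surjective y
    obtain ⟨q, hq⟩ := happrox n p
    rw [sup_eq_right.mpr h1] at hq
    exact ⟨q, (Ideal.Quotient.eq.mpr hq).symm⟩
  have hθkill : ∀ a ∈ 𝔞 ^ n, θ a = 0 := by
    intro a ha
    have h3 : Ψ a ∈ (𝔞 ^ n).map Ψ := Ideal.mem_map_of_mem _ ha
    rw [Ideal.map_pow] at h3
    have h4 : 𝔞.map Ψ ≤ m0 𝒪 c := Ideal.map_comap_le
    exact Ideal.Quotient.eq_zero_iff_mem.mpr (h1 (Ideal.pow_right_mono h4 n h3))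
  have hsurj := Ideal.Quotient.lift_surjective_of_surjective (𝔞 ^ n) hθkill hθsurj
  exact ⟨Finite.of_surjective _ hsurj, Nat.card_le_card_of_surjective _ hsurj⟩

end Bound

end

end Fermat.Agent.S53.Admissible
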