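import Mathlib
import Fermat.Agent.S53.TangentBound

/-!
# S53, chunk D2: the least admissible ideals (abstract pro-representability)

Setting of `Fermat.Agent.S53.Admissible`: `𝒪` local Noetherian with finite residue field `k`,
`c : ι → 𝒪`, a point condition `𝒬` (`IsPointCondition 𝒪 c 𝒬`) such that the residual point
`cbar` is good and the set `TanSet` of good points over `k[ε]` is finite.

`Jmin 𝒪 c 𝒬 n` is the intersection of all admissible ideals of level `n`.  Results: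

* `isAdm_Jmin`: for `1 ≤ n` it is admissible (so it is the least admissible ideal);
* `Jmin_anti`, `pow_le_Jmin`, `Jmin_le_m0`, `Jmin_step`, `exists_fg_Jmin`,
  `surjective_mk_m0_comp_algebraMap`: exactly the hypotheses of
  `Fermat.Agent.S53.CompleteLimit.exists_complete_noetherian_limit`;
* `good_iff_Jmin_le_ker`: a point `x` of a test algebra `B` with `𝔪_B ^ n = 0` is good iff
  the evaluation map at `x` kills `Jmin n` (pro-representability at level `n`).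
-/

set_option autoImplicit false
set_option linter.style.haveILetI false
set_option linter.unusedSectionVars false

namespace Fermat.Agent.S53.Admissible

open IsLocalRing MvPolynomial

noncomputable section

section ProRep

variable (𝒪 : Type) [CommRing 𝒪] [IsLocalRing 𝒪]
variable {ι : Type} (c : ι → 𝒪)
variable (𝒬 : ∀ ⦃A : Type⦄ [CommRing A] [IsLocalRing A] [Algebra 𝒪 A], (ι → A) → Prop)

/-- The residual point. -/
def cbar : ι → ResidueField 𝒪 := fun i => residue 𝒪 (c i)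

/-- The intersection of all admissible ideals of level `n` (it is `⊤` for `n = 0`). -/
def Jmin (n : ℕ) : Ideal (MvPolynomial ι 𝒪) := sInf {K | IsAdm 𝒪 c 𝒬 n K}

theorem isArtinianTestAlgebra_residueField :
    GaloisRep.IsArtinianTestAlgebra 𝒪 (ResidueField 𝒪) where
  isLocalHom := show IsLocalHom (residue 𝒪) from inferInstance
  residue_surjective :=
    (residue_surjective (R := ResidueField 𝒪)).comp (residue_surjective (R := 𝒪))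
  isArtinian := inferInstance

theorem surjective_mk_m0_comp_algebraMap :
    Function.Surjective
      ((Ideal.Quotient.mk (m0 𝒪 c)).comp (algebraMap 𝒪 (MvPolynomial ι 𝒪))) := by
  intro y
  obtain ⟨p, rfl⟩ := Ideal.Quotient.mk_surjective y
  obtain ⟨a, ha⟩ := exists_sub_C_mem_m0 𝒪 c p
  refine ⟨a, ?_⟩
  show Ideal.Quotient.mk (m0 𝒪 c) (C a) = Ideal.Quotient.mk (m0 𝒪 c) p
  exact (Ideal.Quotient.eq.mpr ha).symm

variable {𝒪 c 𝒬}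

/-- A point obtained from an algebra hom killing an admissible ideal is good. -/
theorem IsAdm.good_of_le_ker (h𝒬 : IsPointCondition 𝒪 c 𝒬) {n : ℕ}
    {K : Ideal (MvPolynomial ι 𝒪)} (hK : IsAdm 𝒪 c 𝒬 n K) {B : Type} [CommRing B]
    [IsLocalRing B] [Algebra 𝒪 B] (hB : GaloisRep.IsArtinianTestAlgebra 𝒪 B)
    (φ : MvPolynomial ι 𝒪 →ₐ[𝒪] B) (hφ : ∀ p ∈ K, φ p = 0) : 𝒬 (fun i => φ (X i)) := by
  haveI : IsLocalRing (MvPolynomial ι 𝒪 ⧸ K) := hK.isLocalRing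
  exact h𝒬.map hK.testAlgebra hB (Ideal.Quotient.liftₐ K φ hφ) hK.taut

theorem isAdm_m0 [Finite (ResidueField 𝒪)] (h𝒬 : IsPointCondition 𝒪 c 𝒬)
    (hbar : 𝒬 (cbar 𝒪 c)) {n : ℕ} (hn : 1 ≤ n) : IsAdm 𝒪 c 𝒬 n (m0 𝒪 c) := by
  refine isAdm_of_ker h𝒬 (isArtinianTestAlgebra_residueField 𝒪) ?_ hbar ?_
  · rw [maximalIdeal_eq_bot, ← Ideal.zero_eq_bot, zero_pow (by omega)]
  · intro p
    rw [mem_m0]
    have : (aeval (cbar 𝒪 c) : MvPolynomial ι 𝒪 →ₐ[𝒪] ResidueField 𝒪) p = resEval 𝒪 c p := rfl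
    rw [this]

variable (𝒪 c 𝒬)

theorem Jmin_zero : Jmin 𝒪 c 𝒬 0 = ⊤ := by
  have : {K | IsAdm 𝒪 c 𝒬 0 K} = ∅ :=
    Set.eq_empty_iff_forall_notMem.mpr fun K hK => absurd (IsAdm.pos hK) (by norm_num)
  rw [Jmin, this, sInf_empty]

theorem pow_le_Jmin (n : ℕ) : m0 𝒪 c ^ n ≤ Jmin 𝒪 c 𝒬 n :=
  le_sInf fun _ hK => IsAdm.pow_le hK

theorem Jmin_anti (n : ℕ) : Jmin 𝒪 c 𝒬 (n + 1) ≤ Jmin 𝒪 c 𝒬 n :=
  le_sInf fun _ hK => sInf_le (IsAdm.mono hK (Nat.le_succ n))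

variable {𝒪 c 𝒬}

theorem Jmin_le_of_isAdm {n : ℕ} {K : Ideal (MvPolynomial ι 𝒪)} (hK : IsAdm 𝒪 c 𝒬 n K) :
    Jmin 𝒪 c 𝒬 n ≤ K := sInf_le hK

/-- (D2) The least admissible ideal of level `n ≥ 1` exists. -/
theorem isAdm_Jmin [IsNoetherianRing 𝒪] [Finite (ResidueField 𝒪)]
    (h𝒬 : IsPointCondition 𝒪 c 𝒬) (hbar : 𝒬 (cbar 𝒪 c)) (hT : (TanSet 𝒪 𝒬).Finite)
    {n : ℕ} (hn : 1 ≤ n) : IsAdm 𝒪 c 𝒬 n (Jmin 𝒪 c 𝒬 n) := by
  classical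
  obtain ⟨G, hG, hGK⟩ := exists_finset_gens 𝒪 c 𝒬 h𝒬 hT
  obtain ⟨B, hB⟩ := exists_card_bound 𝒪 c G hG
  have hbound : ∀ K, IsAdm 𝒪 c 𝒬 n K → Nat.card (MvPolynomial ι 𝒪 ⧸ K) ≤ B n :=
    fun K hK => (hB n K hK.pow_le (hGK n K hK)).2
  have hne : IsAdm 𝒪 c 𝒬 n (m0 𝒪 c) := isAdm_m0 h𝒬 hbar hn
  let P : ℕ → Prop := fun N => ∃ K, IsAdm 𝒪 c 𝒬 n K ∧ Nat.card (MvPolynomial ι 𝒪 ⧸ K) = N
  have hP0 : P (Nat.card (MvPolynomial ι 𝒪 ⧸ m0 𝒪 c)) := ⟨_, hne, rfl⟩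
  have hPspec : P (Nat.findGreatest P (B n)) := Nat.findGreatest_spec (hbound _ hne) hP0
  obtain ⟨K, hK, hKcard⟩ := hPspec
  have hmax : ∀ K', IsAdm 𝒪 c 𝒬 n K' →
      Nat.card (MvPolynomial ι 𝒪 ⧸ K') ≤ Nat.card (MvPolynomial ι 𝒪 ⧸ K) := by
    intro K' hK'
    rw [hKcard]
    exact Nat.le_findGreatest (hbound K' hK') ⟨K', hK', rfl⟩
  have hle : ∀ K', IsAdm 𝒪 c 𝒬 n K' → K ≤ K' := by
    intro K' hK'
    have hinf := hK.inf h𝒬 hK'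
    haveI := hinf.finite
    haveI := hK.finite
    have hsurj := Ideal.Quotient.factor_surjective (inf_le_left : K ⊓ K' ≤ K)
    have hbij := hsurj.bijective_of_nat_card_le (hmax _ hinf)
    intro p hp
    have h0 : Ideal.Quotient.mk (K ⊓ K') p = 0 := by
      apply hbij.1
      rw [Ideal.Quotient.factor_mk, map_zero, Ideal.Quotient.eq_zero_iff_mem.mpr hp]
    exact (Ideal.mem_inf.mp (Ideal.Quotient.eq_zero_iff_mem.mp h0)).2
  have hJ : Jmin 𝒪 c 𝒬 n = K := le_antisymm (sInf_le hK) (le_sInf hle)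
  rw [hJ]
  exact hK

theorem Jmin_le_m0 [IsNoetherianRing 𝒪] [Finite (ResidueField 𝒪)]
    (h𝒬 : IsPointCondition 𝒪 c 𝒬) (hbar : 𝒬 (cbar 𝒪 c)) {n : ℕ} (hn : 1 ≤ n) :
    Jmin 𝒪 c 𝒬 n ≤ m0 𝒪 c :=
  sInf_le (isAdm_m0 h𝒬 hbar hn)

theorem Jmin_step [IsNoetherianRing 𝒪] [Finite (ResidueField 𝒪)]
    (h𝒬 : IsPointCondition 𝒪 c 𝒬) (hbar : 𝒬 (cbar 𝒪 c)) (hT : (TanSet 𝒪 𝒬).Finite) (n : ℕ) :
    Jmin 𝒪 c 𝒬 n = Jmin 𝒪 c 𝒬 (n + 1) ⊔ m0 𝒪 c ^ n := by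
  rcases Nat.eq_zero_or_pos n with h | h
  · subst h
    rw [Jmin_zero, pow_zero, Ideal.one_eq_top, sup_top_eq]
  · apply le_antisymm
    · exact sInf_le ((isAdm_Jmin h𝒬 hbar hT (n := n + 1) (by omega)).sup_pow h𝒬 h)
    · exact sup_le (Jmin_anti 𝒪 c 𝒬 n) (pow_le_Jmin 𝒪 c 𝒬 n)

theorem exists_fg_Jmin [IsNoetherianRing 𝒪] [Finite (ResidueField 𝒪)]
    (h𝒬 : IsPointCondition 𝒪 c 𝒬) (hbar : 𝒬 (cbar 𝒪 c)) (hT : (TanSet 𝒪 𝒬).Finite) :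
    ∃ s : Finset (MvPolynomial ι 𝒪),
      (↑s : Set (MvPolynomial ι 𝒪)) ⊆ (m0 𝒪 c : Set (MvPolynomial ι 𝒪)) ∧
        m0 𝒪 c ≤ Ideal.span (↑s : Set (MvPolynomial ι 𝒪)) ⊔ Jmin 𝒪 c 𝒬 2 := by
  obtain ⟨G, hG, hGK⟩ := exists_finset_gens 𝒪 c 𝒬 h𝒬 hT
  exact ⟨G, hG, hGK 2 _ (isAdm_Jmin h𝒬 hbar hT (by norm_num))⟩

/-- Universality at level `n`: the evaluation map at a good point of a test algebra with
`𝔪 ^ n = 0` kills `Jmin n`. -/
theorem Jmin_le_ker [Finite (ResidueField 𝒪)] (h𝒬 : IsPointCondition 𝒪 c 𝒬) {n : ℕ}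
    {A : Type} [CommRing A] [IsLocalRing A] [Algebra 𝒪 A]
    (hA : GaloisRep.IsArtinianTestAlgebra 𝒪 A) (hn : maximalIdeal A ^ n = ⊥) {x : ι → A}
    (hx : 𝒬 x) : Jmin 𝒪 c 𝒬 n ≤ RingHom.ker (aeval x : MvPolynomial ι 𝒪 →ₐ[𝒪] A) := by
  haveI := finite_of_testAlgebra hA
  exact sInf_le (isAdm_of_ker h𝒬 hA hn hx (fun p => RingHom.mem_ker))

/-- Pro-representability at level `n`: good points of a test algebra with `𝔪 ^ n = 0` are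
exactly the points whose evaluation map kills `Jmin n`. -/
theorem good_iff_Jmin_le_ker [IsNoetherianRing 𝒪] [Finite (ResidueField 𝒪)]
    (h𝒬 : IsPointCondition 𝒪 c 𝒬) (hbar : 𝒬 (cbar 𝒪 c)) (hT : (TanSet 𝒪 𝒬).Finite)
    {n : ℕ} (hn1 : 1 ≤ n) {A : Type} [CommRing A] [IsLocalRing A] [Algebra 𝒪 A]
    (hA : GaloisRep.IsArtinianTestAlgebra 𝒪 A) (hn : maximalIdeal A ^ n = ⊥) (x : ι → A) :
    𝒬 x ↔ Jmin 𝒪 c 𝒬 n ≤ RingHom.ker (aeval x : MvPolynomial ι 𝒪 →ₐ[𝒪] A) := by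
  constructor
  · exact fun hx => Jmin_le_ker h𝒬 hA hn hx
  · intro h
    have h2 := (isAdm_Jmin h𝒬 hbar hT hn1).good_of_le_ker h𝒬 hA (aeval x)
      (fun p hp => RingHom.mem_ker.mp (h hp))
    have hfun : (fun i => (aeval x : MvPolynomial ι 𝒪 →ₐ[𝒪] A) (X i)) = x := by
      funext i
      simp
    rwa [hfun] at h2

end ProRep

end

end Fermat.Agent.S53.Admissible
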