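import Fermat.Prelude.Def_GaloisRep_DeformationRingData
import Fermat.Prelude.Def_GaloisRep_DeformationCondition

set_option autoImplicit false

namespace Fermat.Agent.S53.TangentBridge

open IsLocalRing

variable (𝒪 : Type) [CommRing 𝒪] [IsLocalRing 𝒪]

/-- The `𝒪`-algebra structure on the dual numbers used by `GaloisRep.TangentFinite`
(syntactically the same term as the `letI` instance there). -/
@[reducible] noncomputable def dualAlgebra : Algebra 𝒪 (DualNumber (ResidueField 𝒪)) :=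
  ((algebraMap (ResidueField 𝒪) (DualNumber (ResidueField 𝒪))).comp
      (algebraMap 𝒪 (ResidueField 𝒪))).toAlgebra

theorem algebraMap_dual (x : 𝒪) :
    @algebraMap 𝒪 (DualNumber (ResidueField 𝒪)) _ _ (dualAlgebra 𝒪) x =
      algebraMap (ResidueField 𝒪) (DualNumber (ResidueField 𝒪)) (residue 𝒪 x) := rfl

theorem algebraMap_dual_eq_inl (x : 𝒪) :
    @algebraMap 𝒪 (DualNumber (ResidueField 𝒪)) _ _ (dualAlgebra 𝒪) x =
      TrivSqZeroExt.inl (residue 𝒪 x) := rfl

theorem isLocalHom_dual :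
    IsLocalHom (@algebraMap 𝒪 (DualNumber (ResidueField 𝒪)) _ _ (dualAlgebra 𝒪)) := by
  refine ⟨fun x hx => ?_⟩
  rw [algebraMap_dual_eq_inl, TrivSqZeroExt.isUnit_iff_isUnit_fst, TrivSqZeroExt.fst_inl] at hx
  exact (isUnit_map_iff (residue 𝒪) x).mp hx

theorem residue_dual_eq (z : DualNumber (ResidueField 𝒪)) :
    residue (DualNumber (ResidueField 𝒪)) z =
      residue (DualNumber (ResidueField 𝒪)) (TrivSqZeroExt.inl z.fst) := by
  rw [← sub_eq_zero, ← map_sub, residue_eq_zero_iff, mem_maximalIdeal, mem_nonunits_iff,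
    TrivSqZeroExt.isUnit_iff_isUnit_fst]
  simp

theorem residue_surjective_dual :
    Function.Surjective (residue (DualNumber (ResidueField 𝒪)) ∘
      @algebraMap 𝒪 (DualNumber (ResidueField 𝒪)) _ _ (dualAlgebra 𝒪)) := by
  intro y
  obtain ⟨z, rfl⟩ := residue_surjective y
  obtain ⟨x, hx⟩ := residue_surjective z.fst
  refine ⟨x, ?_⟩
  rw [Function.comp_apply, algebraMap_dual_eq_inl, hx, ← residue_dual_eq]

/-- TB1: the residue-field map of the structure map `𝒪 → k[ε]` is the map used in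
`TangentFinite`. -/
theorem resMap_eq :
    @ResidueField.map 𝒪 (DualNumber (ResidueField 𝒪)) _ _ _ _
        (@algebraMap 𝒪 (DualNumber (ResidueField 𝒪)) _ _ (dualAlgebra 𝒪)) (isLocalHom_dual 𝒪) =
      (residue (DualNumber (ResidueField 𝒪))).comp
        (algebraMap (ResidueField 𝒪) (DualNumber (ResidueField 𝒪))) := by
  have := isLocalHom_dual 𝒪
  refine RingHom.ext fun x => ?_
  obtain ⟨y, rfl⟩ := residue_surjective x
  rw [ResidueField.map_residue]
  rfl

theorem isArtinianTestAlgebra_dual [Finite (ResidueField 𝒪)] :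
    @GaloisRep.IsArtinianTestAlgebra 𝒪 _ (DualNumber (ResidueField 𝒪)) _ _ (dualAlgebra 𝒪) := by
  have : Finite (DualNumber (ResidueField 𝒪)) :=
    inferInstanceAs (Finite (ResidueField 𝒪 × ResidueField 𝒪))
  exact @GaloisRep.IsArtinianTestAlgebra.mk 𝒪 _ (DualNumber (ResidueField 𝒪)) _ _ (dualAlgebra 𝒪)
    (isLocalHom_dual 𝒪) (residue_surjective_dual 𝒪) inferInstance

theorem card_le_of_finite_aux {Q : Type 1} (hQ : Finite Q) :
    ∃ N : ℕ, ∀ (ι : Type) (f : ι → Q), Function.Injective f → Finite ι ∧ Nat.card ι ≤ N :=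
  ⟨Nat.card Q, fun _ f hf =>
    ⟨Finite.of_injective f hf, Nat.card_le_card_of_injective f hf⟩⟩

/-- TB2: `TangentFinite` bounds the size of any family of pairwise non-equivalent
`𝒟`-deformations to the dual numbers, stated with the same residual condition as
`DeformationRingData.universal`. -/
theorem tangent_card_bound (ρbar : ResidualGaloisRep (ResidueField 𝒪))
    (𝒟 : ∀ ⦃A : Type⦄ [CommRing A] [IsLocalRing A] [Algebra 𝒪 A], GaloisRepAdic A → Prop)
    (hfin : GaloisRep.TangentFinite 𝒪 ρbar 𝒟) :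
    ∃ N : ℕ, ∀ (ι : Type) (ρ : ι → GaloisRepAdic (DualNumber (ResidueField 𝒪))),
      (∀ i, @𝒟 (DualNumber (ResidueField 𝒪)) _ _ (dualAlgebra 𝒪) (ρ i)) →
      (∀ i, (ρ i).residual.IsEquiv (ρbar.baseChangeAlong
        (@ResidueField.map 𝒪 (DualNumber (ResidueField 𝒪)) _ _ _ _
          (@algebraMap 𝒪 (DualNumber (ResidueField 𝒪)) _ _ (dualAlgebra 𝒪))
          (isLocalHom_dual 𝒪)))) →
      (∀ i j, (ρ i).IsEquiv (ρ j) → i = j) → Finite ι ∧ Nat.card ι ≤ N := by
  unfold GaloisRep.TangentFinite at hfin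
  obtain ⟨N, hN⟩ := card_le_of_finite_aux hfin
  refine ⟨N, fun ι ρ h𝒟 hres hinj => ?_⟩
  refine hN ι (fun i => Quotient.mk _ ⟨ρ i, h𝒟 i, ?_⟩) ?_
  · have h := hres i
    rw [resMap_eq] at h
    exact h
  · intro i j hij
    exact hinj i j (Quotient.exact hij)

/-- `Fin n` form of `tangent_card_bound`. -/
theorem tangent_card_bound_fin (ρbar : ResidualGaloisRep (ResidueField 𝒪))
    (𝒟 : ∀ ⦃A : Type⦄ [CommRing A] [IsLocalRing A] [Algebra 𝒪 A], GaloisRepAdic A → Prop)
    (hfin : GaloisRep.TangentFinite 𝒪 ρbar 𝒟) :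
    ∃ N : ℕ, ∀ (n : ℕ) (ρ : Fin n → GaloisRepAdic (DualNumber (ResidueField 𝒪))),
      (∀ i, @𝒟 (DualNumber (ResidueField 𝒪)) _ _ (dualAlgebra 𝒪) (ρ i)) →
      (∀ i, (ρ i).residual.IsEquiv (ρbar.baseChangeAlong
        (@ResidueField.map 𝒪 (DualNumber (ResidueField 𝒪)) _ _ _ _
          (@algebraMap 𝒪 (DualNumber (ResidueField 𝒪)) _ _ (dualAlgebra 𝒪))
          (isLocalHom_dual 𝒪)))) →
      (∀ i j, (ρ i).IsEquiv (ρ j) → i = j) → n ≤ N := by
  obtain ⟨N, hN⟩ := tangent_card_bound 𝒪 ρbar 𝒟 hfin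
  refine ⟨N, fun n ρ h𝒟 hres hinj => ?_⟩
  have := (hN (Fin n) ρ h𝒟 hres hinj).2
  rwa [Nat.card_fin] at this

end Fermat.Agent.S53.TangentBridge
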