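import Mathlib
import Fermat.Agent.S53.ProRep
import Fermat.Agent.S53.Assemble
import Fermat.Agent.S53.TangentBridge
import Fermat.Agent.S53.CompleteLimit
import Fermat.Agent.S53.Frame

/-!
# S53: bridge from the abstract pro-representability (`ProRep`) to the assembly (`Assemble`)

We instantiate the abstract point condition of `Fermat.Agent.S53.Admissible` with
`Good x := "x is the family of entries of a rigid lift of type 𝒟"`, check the axioms
(`isPointCondition`), the residual point (`good_cbar`) and the finiteness of the tangent set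
(`tanSet_finite`), and deduce the level hypotheses `Assemble.LevelA` / `Assemble.LevelB` for
`J := Jmin` (`exists_levels`).  Together with `CompleteLimit` and `Assemble` this gives
`nonempty_deformationRingData`, the full statement of S53.
-/

set_option autoImplicit false
set_option linter.style.haveILetI false
set_option linter.unusedSectionVars false

namespace Fermat.Agent.S53.PointBridge

open IsLocalRing GaloisRep MvPolynomial
open Fermat.Agent.S53.MatRep Fermat.Agent.S53.Assemble Fermat.Agent.S53.Admissible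

local notation "Γℚ" => (AlgebraicClosure ℚ ≃ₐ[ℚ] AlgebraicClosure ℚ)
local notation "M₂" => Matrix (Fin 2) (Fin 2)

noncomputable section

/-! ## Two small generalities -/

theorem mem_maximalIdeal_of_map_mem {A B : Type} [CommRing A] [IsLocalRing A] [CommRing B]
    [IsLocalRing B] (φ : A →+* B) {a : A} (h : φ a ∈ maximalIdeal B) : a ∈ maximalIdeal A := by
  rw [mem_maximalIdeal, mem_nonunits_iff] at h ⊢
  exact fun ha => h (ha.map φ)

/-- A family of entries whose images under two jointly injective ring homs are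
matrix-valued monoid homs is itself a matrix-valued monoid hom. -/
theorem exists_hom_of_joint_injective {P S₁ S₂ : Type} [CommRing P] [CommRing S₁] [CommRing S₂]
    (ψ₁ : P →+* S₁) (ψ₂ : P →+* S₂)
    (hinj : ∀ a b : P, ψ₁ a = ψ₁ b → ψ₂ a = ψ₂ b → a = b)
    (x : Γℚ × Fin 2 × Fin 2 → P) (r₁ : Γℚ →* M₂ S₁) (r₂ : Γℚ →* M₂ S₂)
    (h₁ : ∀ g i j, r₁ g i j = ψ₁ (x (g, i, j))) (h₂ : ∀ g i j, r₂ g i j = ψ₂ (x (g, i, j))) :
    ∃ r : Γℚ →* M₂ P, (∀ g i j, r g i j = x (g, i, j)) ∧ mapMat ψ₁ r = r₁ ∧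
      mapMat ψ₂ r = r₂ := by
  let T : Γℚ → M₂ P := fun g => Matrix.of fun i j => x (g, i, j)
  have hT₁ : ∀ g, (ψ₁.mapMatrix : M₂ P →+* M₂ S₁) (T g) = r₁ g := by
    intro g
    ext i j
    simp [T, h₁]
  have hT₂ : ∀ g, (ψ₂.mapMatrix : M₂ P →+* M₂ S₂) (T g) = r₂ g := by
    intro g
    ext i j
    simp [T, h₂]
  have matInj : ∀ M N : M₂ P, (ψ₁.mapMatrix : M₂ P →+* M₂ S₁) M = ψ₁.mapMatrix N →
      (ψ₂.mapMatrix : M₂ P →+* M₂ S₂) M = ψ₂.mapMatrix N → M = N := by
    intro M N e₁ e₂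
    ext i j
    apply hinj
    · have := congrFun (congrFun e₁ i) j
      simpa using this
    · have := congrFun (congrFun e₂ i) j
      simpa using this
  refine ⟨{ toFun := T, map_one' := ?_, map_mul' := ?_ }, ?_, ?_, ?_⟩
  · apply matInj
    · rw [hT₁, map_one, map_one]
    · rw [hT₂, map_one, map_one]
  · intro g h
    apply matInj
    · simp only [map_mul, hT₁]
    · simp only [map_mul, hT₂]
  · intro g i j
    rfl
  · ext g i j
    rw [mapMat_apply, h₁]
    rfl
  · ext g i j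
    rw [mapMat_apply, h₂]
    rfl

/-! ## The concrete point condition -/

section Point

variable (𝒪 : Type) [CommRing 𝒪] [IsLocalRing 𝒪]
  (𝒟 : ∀ ⦃A : Type⦄ [CommRing A] [IsLocalRing A] [Algebra 𝒪 A], GaloisRepAdic A → Prop)
  (rt : Γℚ → M₂ 𝒪) (g0 g1 : Γℚ) (i0 : Fin 2)

/-- The centre: the entries of the set-theoretic lift `rt`. -/
def cen : Γℚ × Fin 2 × Fin 2 → 𝒪 := fun x => rt x.1 x.2.1 x.2.2

/-- Good points: families of entries of rigid lifts of type `𝒟`. -/
def Good ⦃A : Type⦄ [CommRing A] [IsLocalRing A] [Algebra 𝒪 A]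
    (x : Γℚ × Fin 2 × Fin 2 → A) : Prop :=
  ∃ (r : Γℚ →* M₂ A) (hr : IsRigidLift rt g0 g1 i0 r),
    (∀ g i j, r g i j = x (g, i, j)) ∧ 𝒟 (ofMat r hr.cont)

theorem isPointCondition (h𝒟 : IsDeformationCondition 𝒪 𝒟) :
    IsPointCondition 𝒪 (cen 𝒪 rt) (Good 𝒪 𝒟 rt g0 g1 i0) where
  center := by
    intro A _ _ _ hA x hx i
    obtain ⟨r, hr, hent, -⟩ := hx
    obtain ⟨g, i, j⟩ := i
    rw [← hent]
    exact hr.cong g i j
  map := by
    intro A B _ _ _ _ _ _ hA hB φ x hx
    obtain ⟨r, hr, hent, hD⟩ := hx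
    have hφ : IsLocalHom (φ : A →+* B) := isLocalHom_of_testAlgebra hA φ
    refine ⟨mapMat (φ : A →+* B) r, hr.map φ hφ, ?_, ?_⟩
    · intro g i j
      rw [mapMat_apply, hent]
      rfl
    · exact h𝒟.of_isEquiv hB (baseChangeAlong_ofMat_isEquiv _ hφ r hr.cont)
        (h𝒟.baseChangeAlong hA hB φ hφ hD)
  of_map_injective := by
    intro A B _ _ _ _ _ _ hA hB φ hinj x hx
    obtain ⟨r', hr', hent', hD'⟩ := hx
    have hφ : IsLocalHom (φ : A →+* B) := isLocalHom_of_testAlgebra hA φ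
    obtain ⟨r, hent, hr1, -⟩ := exists_hom_of_joint_injective (φ : A →+* B) (φ : A →+* B)
      (fun a b h _ => hinj h) x r' r' hent' hent'
    subst hr1
    have hrig : IsRigidLift rt g0 g1 i0 r :=
      { cont := by
          haveI := hA.isArtinian
          haveI := hB.isArtinian
          rw [isContMat_iff_factors_of_isArtinianRing]
          exact factors_of_mapMat_injective (φ : A →+* B) hinj
            ((isContMat_iff_factors_of_isArtinianRing _).mp hr'.cont)
        cong := fun g i j => by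
          apply mem_maximalIdeal_of_map_mem (φ : A →+* B)
          have := hr'.cong g i j
          rw [mapMat_apply] at this
          rwa [map_sub, RingHom.coe_coe, AlgHom.commutes]
        e00 := hinj (by
          have := hr'.e00
          rw [mapMat_apply] at this
          rw [map_zero]
          exact this)
        e10 := hinj (by
          have := hr'.e10
          rw [mapMat_apply] at this
          rw [map_one]
          exact this)
        eβ := hinj (by
          have := hr'.eβ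
          rw [mapMat_apply] at this
          rw [AlgHom.commutes]
          exact this) }
    refine ⟨r, hrig, hent, ?_⟩
    exact h𝒟.of_baseChangeAlong_injective hA hB φ hφ hinj
      (h𝒟.of_isEquiv hB (isEquiv_symm (baseChangeAlong_ofMat_isEquiv _ hφ r hrig.cont)) hD')
  of_fibreProduct := by
    intro A B C P _ _ _ _ _ _ _ _ _ _ _ _ hA hB hC hP f g pA pB hcomp hinj hsurj x hxA hxB
    obtain ⟨rA, hrA, hentA, hDA⟩ := hxA
    obtain ⟨rB, hrB, hentB, hDB⟩ := hxB
    have hpA : IsLocalHom (pA : P →+* A) := isLocalHom_of_testAlgebra hP pA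
    have hpB : IsLocalHom (pB : P →+* B) := isLocalHom_of_testAlgebra hP pB
    have hinj' : ∀ a b : P, (pA : P →+* A) a = (pA : P →+* A) b →
        (pB : P →+* B) a = (pB : P →+* B) b → a = b :=
      fun a b h1 h2 => hinj (Prod.ext h1 h2)
    obtain ⟨r, hent, hr1, hr2⟩ := exists_hom_of_joint_injective (pA : P →+* A) (pB : P →+* B)
      hinj' x rA rB hentA hentB
    subst hr1
    subst hr2
    have hrig : IsRigidLift rt g0 g1 i0 r :=
      { cont := by
          haveI := hA.isArtinian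
          haveI := hB.isArtinian
          haveI := hP.isArtinian
          rw [isContMat_iff_factors_of_isArtinianRing]
          obtain ⟨L, hL, h⟩ := factors_both
            ((isContMat_iff_factors_of_isArtinianRing _).mp hrA.cont)
            ((isContMat_iff_factors_of_isArtinianRing _).mp hrB.cont)
          refine ⟨L, hL, fun σ hσ => ?_⟩
          obtain ⟨h1, h2⟩ := h σ hσ
          ext i j
          apply hinj'
          · have := congrFun (congrFun h1 i) j
            rw [mapMat_apply] at this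
            rw [this, Matrix.one_apply, Matrix.one_apply]
            split_ifs <;> simp
          · have := congrFun (congrFun h2 i) j
            rw [mapMat_apply] at this
            rw [this, Matrix.one_apply, Matrix.one_apply]
            split_ifs <;> simp
        cong := fun g i j => by
          apply mem_maximalIdeal_of_map_mem (pA : P →+* A)
          have := hrA.cong g i j
          rw [mapMat_apply] at this
          rwa [map_sub, RingHom.coe_coe, AlgHom.commutes]
        e00 := hinj' _ _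
          (by
            have := hrA.e00
            rw [mapMat_apply] at this
            rw [map_zero]
            exact this)
          (by
            have := hrB.e00
            rw [mapMat_apply] at this
            rw [map_zero]
            exact this)
        e10 := hinj' _ _
          (by
            have := hrA.e10
            rw [mapMat_apply] at this
            rw [map_one]
            exact this)
          (by
            have := hrB.e10
            rw [mapMat_apply] at this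
            rw [map_one]
            exact this)
        eβ := hinj' _ _
          (by
            have := hrA.eβ
            rw [mapMat_apply] at this
            rw [RingHom.coe_coe, AlgHom.commutes]
            exact this)
          (by
            have := hrB.eβ
            rw [mapMat_apply] at this
            rw [RingHom.coe_coe, AlgHom.commutes]
            exact this) }
    refine ⟨r, hrig, hent, ?_⟩
    exact h𝒟.of_fibreProduct hA hB hC hP f g pA pB hpA hpB hcomp hinj hsurj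
      (h𝒟.of_isEquiv hA (isEquiv_symm (baseChangeAlong_ofMat_isEquiv _ hpA r hrig.cont)) hDA)
      (h𝒟.of_isEquiv hB (isEquiv_symm (baseChangeAlong_ofMat_isEquiv _ hpB r hrig.cont)) hDB)

/-- The residual point is good. -/
theorem good_cbar (h𝒟 : IsDeformationCondition 𝒪 𝒟)
    (ρbar : ResidualGaloisRep (ResidueField 𝒪))
    (hbar : 𝒟 (GaloisRepAdic.ofResidualGaloisRep ρbar))
    (b : Module.Basis (Fin 2) (ResidueField 𝒪) ρbar.V)
    (hrt : ∀ σ, (rt σ).map (residue 𝒪) = LinearMap.toMatrix b b (ρbar.ρ σ))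
    (hrt0 : rt g0 0 0 = 0) (hrt1 : rt g0 1 0 = 1) :
    Good 𝒪 𝒟 rt g0 g1 i0 (cbar 𝒪 (cen 𝒪 rt)) := by
  have hent : ∀ g i j, matOfBasisRes ρbar b g i j = residue 𝒪 (rt g i j) := by
    intro g i j
    rw [matOfBasisRes_eq_toMatrix, ← hrt g]
    rfl
  have hcont : IsContMat (matOfBasisRes ρbar b) :=
    isContMat_of_factors (factors_matOfBasisRes ρbar b)
  refine ⟨matOfBasisRes ρbar b, ⟨hcont, ?_, ?_, ?_, ?_⟩, ?_, ?_⟩
  · intro g i j
    rw [hent]
    show residue 𝒪 (rt g i j) - residue 𝒪 (rt g i j) ∈ _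
    rw [sub_self]
    exact Ideal.zero_mem _
  · rw [hent, hrt0, map_zero]
  · rw [hent, hrt1, map_one]
  · rw [hent]
    rfl
  · intro g i j
    exact hent g i j
  · exact h𝒟.of_isEquiv (isArtinianTestAlgebra_residueField 𝒪)
      (ofResidualGaloisRep_isEquiv_ofMat ρbar b) hbar

/-- `TangentFinite` gives finitely many good points over the dual numbers. -/
theorem tanSet_finite (ρbar : ResidualGaloisRep (ResidueField 𝒪))
    (hfin : TangentFinite 𝒪 ρbar 𝒟)
    (b : Module.Basis (Fin 2) (ResidueField 𝒪) ρbar.V)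
    (hrt : ∀ σ, (rt σ).map (residue 𝒪) = LinearMap.toMatrix b b (ρbar.ρ σ))
    (hcomm : IsUnit ((rt g1 * rt g0 - rt g0 * rt g1) i0 0)) :
    (TanSet 𝒪 (Good 𝒪 𝒟 rt g0 g1 i0)).Finite := by
  obtain ⟨N, hN⟩ := TangentBridge.tangent_card_bound 𝒪 ρbar 𝒟 hfin
  letI : Algebra 𝒪 (DualNumber (ResidueField 𝒪)) := TangentBridge.dualAlgebra 𝒪
  haveI : IsLocalHom (algebraMap 𝒪 (DualNumber (ResidueField 𝒪))) :=
    TangentBridge.isLocalHom_dual 𝒪
  have hdata : ∀ x : TanSet 𝒪 (Good 𝒪 𝒟 rt g0 g1 i0),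
      ∃ (r : Γℚ →* M₂ (DualNumber (ResidueField 𝒪))) (hr : IsRigidLift rt g0 g1 i0 r),
        (∀ g i j, r g i j = x.1 (g, i, j)) ∧ 𝒟 (ofMat r hr.cont) := fun x => x.2
  choose r hr hent hD using hdata
  have key := hN (TanSet 𝒪 (Good 𝒪 𝒟 rt g0 g1 i0)) (fun x => ofMat (r x) (hr x).cont) hD ?_ ?_
  · exact Set.finite_coe_iff.mp key.1
  · intro x
    refine residual_ofMat_isEquiv _ ρbar b _ _ ?_
    ext σ i j
    rw [mapMat_apply, mapMat_apply, matOfBasisRes_eq_toMatrix, ← hrt σ, Matrix.map_apply,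
      ResidueField.map_residue, ← sub_eq_zero, ← map_sub, residue_eq_zero_iff]
    exact (hr x).cong σ i j
  · intro x y hxy
    obtain ⟨M, hMdet, hM⟩ := (isEquiv_ofMat_iff _ _ _ _).mp hxy
    have hu := isUnit_comm_of_cong hcomm (r y) (hr y).cong
    have hrr : r x = r y := by
      refine Rigid.rigid_unique _ _ g0 g1 i0 (hr x).e00 (hr x).e10 (hr y).e00 (hr y).e10 ?_ ?_ hu M
        ((Matrix.isUnit_iff_isUnit_det M).mpr hMdet) hM
      · rw [(hr x).eβ, (hr y).eβ]
      · intro i j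
        have := sub_mem ((hr x).cong g1 i j) ((hr y).cong g1 i j)
        simpa using this
    apply Subtype.ext
    funext ⟨g, i, j⟩
    rw [← hent x, ← hent y, hrr]

/-- The least admissible ideals satisfy the hypotheses of `CompleteLimit` and the level
hypotheses of `Assemble`. -/
theorem exists_levels [IsNoetherianRing 𝒪] [Finite (ResidueField 𝒪)]
    (h𝒟 : IsDeformationCondition 𝒪 𝒟)
    (ρbar : ResidualGaloisRep (ResidueField 𝒪))
    (hbar : 𝒟 (GaloisRepAdic.ofResidualGaloisRep ρbar))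
    (hfin : TangentFinite 𝒪 ρbar 𝒟)
    (b : Module.Basis (Fin 2) (ResidueField 𝒪) ρbar.V)
    (hrt : ∀ σ, (rt σ).map (residue 𝒪) = LinearMap.toMatrix b b (ρbar.ρ σ))
    (hrt0 : rt g0 0 0 = 0) (hrt1 : rt g0 1 0 = 1)
    (hcomm : IsUnit ((rt g1 * rt g0 - rt g0 * rt g1) i0 0)) :
    ∃ J : ℕ → Ideal (MvPolynomial (Γℚ × Fin 2 × Fin 2) 𝒪),
      (∀ n, J (n + 1) ≤ J n) ∧ (∀ n, m0 𝒪 (cen 𝒪 rt) ^ n ≤ J n) ∧
      (∀ n, 1 ≤ n → J n ≤ m0 𝒪 (cen 𝒪 rt)) ∧
      (∀ n, J n = J (n + 1) ⊔ m0 𝒪 (cen 𝒪 rt) ^ n) ∧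
      (∃ s : Finset (MvPolynomial (Γℚ × Fin 2 × Fin 2) 𝒪),
        (↑s : Set (MvPolynomial (Γℚ × Fin 2 × Fin 2) 𝒪)) ⊆
          (m0 𝒪 (cen 𝒪 rt) : Set (MvPolynomial (Γℚ × Fin 2 × Fin 2) 𝒪)) ∧
        m0 𝒪 (cen 𝒪 rt) ≤
          Ideal.span (↑s : Set (MvPolynomial (Γℚ × Fin 2 × Fin 2) 𝒪)) ⊔ J 2) ∧
      LevelA 𝒪 𝒟 rt g0 g1 i0 J ∧ LevelB 𝒪 𝒟 rt g0 g1 i0 J := by
  have h𝒬 := isPointCondition 𝒪 𝒟 rt g0 g1 i0 h𝒟
  have hb := good_cbar 𝒪 𝒟 rt g0 g1 i0 h𝒟 ρbar hbar b hrt hrt0 hrt1
  have hT := tanSet_finite 𝒪 𝒟 rt g0 g1 i0 ρbar hfin b hrt hcomm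
  refine ⟨Jmin 𝒪 (cen 𝒪 rt) (Good 𝒪 𝒟 rt g0 g1 i0), Jmin_anti _ _ _, pow_le_Jmin _ _ _,
    fun n hn => Jmin_le_m0 h𝒬 hb hn, Jmin_step h𝒬 hb hT, exists_fg_Jmin h𝒬 hb hT, ?_, ?_⟩
  · intro n hn
    have hadm := isAdm_Jmin h𝒬 hb hT hn
    have hloc := hadm.isLocalRing
    haveI := hloc
    obtain ⟨r, hr, hent, hD⟩ := hadm.taut
    exact ⟨_, inferInstance, hloc, inferInstance, Ideal.Quotient.mkₐ 𝒪 _, r, hr,
      hadm.testAlgebra, Ideal.Quotient.mkₐ_surjective 𝒪 _, Ideal.Quotient.mkₐ_ker 𝒪 _,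
      maximalIdeal_quot_pow hadm.pow_le hadm.le, fun g i j => (hent g i j).symm, hD⟩
  · intro n hn B _ _ _ hB hBn r hr hD
    exact Jmin_le_ker h𝒬 hB hBn (x := fun y => r y.1 y.2.1 y.2.2) ⟨r, hr, fun _ _ _ => rfl, hD⟩

end Point

/-! ## The theorem -/

theorem nonempty_deformationRingData
    (𝒪 : Type) [CommRing 𝒪] [IsDomain 𝒪] [IsDiscreteValuationRing 𝒪]
    [IsAdicComplete (IsLocalRing.maximalIdeal 𝒪) 𝒪] [Finite (IsLocalRing.ResidueField 𝒪)]
    (ρbar : ResidualGaloisRep (IsLocalRing.ResidueField 𝒪))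
    (𝒟 : ∀ ⦃A : Type⦄ [CommRing A] [IsLocalRing A] [Algebra 𝒪 A], GaloisRepAdic A → Prop)
    (habs : ρbar.IsAbsolutelyIrreducible)
    (h𝒟 : GaloisRep.IsDeformationCondition 𝒪 𝒟)
    (hbar : 𝒟 (GaloisRepAdic.ofResidualGaloisRep ρbar))
    (hfin : GaloisRep.TangentFinite 𝒪 ρbar 𝒟) :
    Nonempty (GaloisRep.DeformationRingData 𝒪 ρbar 𝒟) := by
  classical
  obtain ⟨b, g0, g1, i0, h00, h10, hne⟩ := Frame.exists_framing ρbar habs
  have hlift : ∀ a : ResidueField 𝒪, ∃ c : 𝒪, residue 𝒪 c = a ∧ (a = 0 → c = 0) ∧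
      (a = 1 → c = 1) := by
    intro a
    by_cases h0 : a = 0
    · exact ⟨0, by rw [h0, map_zero], fun _ => rfl,
        fun h1 => absurd (h0.symm.trans h1) zero_ne_one⟩
    · by_cases h1 : a = 1
      · exact ⟨1, by rw [h1, map_one], fun h => absurd h h0, fun _ => rfl⟩
      · obtain ⟨c, hc⟩ := residue_surjective a
        exact ⟨c, hc, fun h => absurd h h0, fun h => absurd h h1⟩
  choose lift hlift1 hlift0 hlift1' using hlift
  let rt : Γℚ → M₂ 𝒪 := fun σ => Matrix.of fun i j => lift (LinearMap.toMatrix b b (ρbar.ρ σ) i j)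
  have hrt : ∀ σ, (rt σ).map (residue 𝒪) = LinearMap.toMatrix b b (ρbar.ρ σ) := by
    intro σ
    ext i j
    simp [rt, hlift1]
  have hrt0 : rt g0 0 0 = 0 := hlift0 _ h00
  have hrt1 : rt g0 1 0 = 1 := hlift1' _ h10
  have hcomm : IsUnit ((rt g1 * rt g0 - rt g0 * rt g1) i0 0) := by
    by_contra hnu
    have hmem : (rt g1 * rt g0 - rt g0 * rt g1) i0 0 ∈ maximalIdeal 𝒪 := hnu
    rw [← residue_eq_zero_iff] at hmem
    apply hne
    rw [← hrt g1, ← hrt g0, ← hmem]
    simp [Matrix.mul_apply, Fin.sum_univ_two]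
  obtain ⟨J, hanti, hpow, hle, hstep, hfg, hJa, hJb⟩ :=
    exists_levels 𝒪 𝒟 rt g0 g1 i0 h𝒟 ρbar hbar hfin b hrt hrt0 hrt1 hcomm
  obtain ⟨R, _, _, _, _, _, ι, hloc, hres, hcomap, hdense⟩ :=
    CompleteLimit.exists_complete_noetherian_limit 𝒪 (MvPolynomial (Γℚ × Fin 2 × Fin 2) 𝒪)
      (m0 𝒪 (cen 𝒪 rt)) J (m0_isMaximal 𝒪 _) (surjective_mk_m0_comp_algebraMap 𝒪 _)
      hanti hpow hle hstep hfg
  haveI := hloc
  exact Assemble.nonempty_deformationRingData 𝒪 ρbar 𝒟 habs h𝒟 b rt g0 g1 i0 hrt hrt0 hrt1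
    hcomm R hres ι J hcomap hdense hJa hJb

end

end Fermat.Agent.S53.PointBridge
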