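import Mathlib
import Fermat.Prelude.Def_GaloisRep_Adic
import Fermat.Prelude.Def_GaloisRep_DeformationCondition
import Fermat.Agent.S53.MatRep

/-!
Shared definitions for S53 (owner: helper53).  Convention: `Γℚ` is the absolute Galois group,
matrices act on columns, matrix representations are monoid homs `Γℚ →* Matrix (Fin 2) (Fin 2) A`.
-/

set_option autoImplicit false

namespace Fermat.Agent.S53

open IsLocalRing MvPolynomial
open Fermat.Agent.S53.MatRep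

/-- Framing data of the residual representation: a basis `b` of `ρbar.V`, a set-theoretic lift
`rt` to `𝒪` of the matrices of `ρbar` in `b`, elements `g0 g1` and an index `i0` such that
`rt g0` has first column `e₂` and the commutator `[rt g1, rt g0]` has a unit `(i0, 0)` entry. -/
structure Frame (𝒪 : Type) [CommRing 𝒪] [IsLocalRing 𝒪]
    (ρbar : ResidualGaloisRep (ResidueField 𝒪)) where
  b : Module.Basis (Fin 2) (ResidueField 𝒪) ρbar.V
  rt : (AlgebraicClosure ℚ ≃ₐ[ℚ] AlgebraicClosure ℚ) → Matrix (Fin 2) (Fin 2) 𝒪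
  g0 : AlgebraicClosure ℚ ≃ₐ[ℚ] AlgebraicClosure ℚ
  g1 : AlgebraicClosure ℚ ≃ₐ[ℚ] AlgebraicClosure ℚ
  i0 : Fin 2
  hrt : ∀ g i j, residue 𝒪 (rt g i j) = LinearMap.toMatrix b b (ρbar.ρ g) i j
  h00 : rt g0 0 0 = 0
  h10 : rt g0 1 0 = 1
  hcomm : IsUnit ((rt g1 * rt g0 - rt g0 * rt g1) i0 0)

variable {𝒪 : Type} [CommRing 𝒪] [IsLocalRing 𝒪] {ρbar : ResidualGaloisRep (ResidueField 𝒪)}

/-- A rigid lift of the framed residual representation to a local `𝒪`-algebra `A`: a continuous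
matrix representation congruent to `rt` modulo the maximal ideal and in slice form. -/
structure IsRigidLift (F : Frame 𝒪 ρbar) {A : Type} [CommRing A] [IsLocalRing A] [Algebra 𝒪 A]
    (r : (AlgebraicClosure ℚ ≃ₐ[ℚ] AlgebraicClosure ℚ) →* Matrix (Fin 2) (Fin 2) A) : Prop where
  cont : IsContMat r
  lift : ∀ g i j, r g i j - algebraMap 𝒪 A (F.rt g i j) ∈ maximalIdeal A
  h00 : r F.g0 0 0 = 0
  h10 : r F.g0 1 0 = 1
  h1 : r F.g1 F.i0 0 = algebraMap 𝒪 A (F.rt F.g1 F.i0 0)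

/-- The polynomial ring on the matrix entries `X (g, i, j)`. -/
abbrev Pol (𝒪 : Type) [CommRing 𝒪] : Type :=
  MvPolynomial ((AlgebraicClosure ℚ ≃ₐ[ℚ] AlgebraicClosure ℚ) × Fin 2 × Fin 2) 𝒪

/-- Evaluation `Pol 𝒪 → k` at the residual matrices. -/
noncomputable def evk (F : Frame 𝒪 ρbar) : Pol 𝒪 →ₐ[𝒪] ResidueField 𝒪 :=
  MvPolynomial.aeval (fun x => residue 𝒪 (F.rt x.1 x.2.1 x.2.2))

/-- The maximal ideal of `Pol 𝒪` cut out by the residual representation. -/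
noncomputable def m0 (F : Frame 𝒪 ρbar) : Ideal (Pol 𝒪) := RingHom.ker (evk F)

/-- Admissible ideals of level `n`: finite quotients of `Pol 𝒪` between `m0 ^ n` and `m0`
over which the tautological matrices `X (g, i, j)` form a rigid lift of type `𝒟`. -/
structure Admissible (F : Frame 𝒪 ρbar)
    (𝒟 : ∀ ⦃A : Type⦄ [CommRing A] [IsLocalRing A] [Algebra 𝒪 A], GaloisRepAdic A → Prop)
    (n : ℕ) (K : Ideal (Pol 𝒪)) : Prop where
  pow_le : m0 F ^ n ≤ K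
  le : K ≤ m0 F
  finite : Finite (Pol 𝒪 ⧸ K)
  mul : ∀ g h i j, (X (g * h, i, j) - ∑ l, X (g, i, l) * X (h, l, j) : Pol 𝒪) ∈ K
  one : ∀ i j, (X (1, i, j) - C ((1 : Matrix (Fin 2) (Fin 2) 𝒪) i j) : Pol 𝒪) ∈ K
  cont : ∃ L : IntermediateField ℚ (AlgebraicClosure ℚ), FiniteDimensional ℚ L ∧
    ∀ σ : AlgebraicClosure ℚ ≃ₐ[ℚ] AlgebraicClosure ℚ, (∀ x ∈ L, σ x = x) →
      ∀ i j, (X (σ, i, j) - C ((1 : Matrix (Fin 2) (Fin 2) 𝒪) i j) : Pol 𝒪) ∈ K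
  h00 : (X (F.g0, 0, 0) : Pol 𝒪) ∈ K
  h10 : (X (F.g0, 1, 0) - 1 : Pol 𝒪) ∈ K
  h1 : (X (F.g1, F.i0, 0) - C (F.rt F.g1 F.i0 0) : Pol 𝒪) ∈ K
  type : ∀ (_ : IsLocalRing (Pol 𝒪 ⧸ K))
    (r : (AlgebraicClosure ℚ ≃ₐ[ℚ] AlgebraicClosure ℚ) →* Matrix (Fin 2) (Fin 2) (Pol 𝒪 ⧸ K))
    (hr : IsContMat r), (∀ g i j, r g i j = Ideal.Quotient.mk K (X (g, i, j))) → 𝒟 (ofMat r hr)

end Fermat.Agent.S53
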