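import Mathlib
import Fermat.Prelude.Def_GaloisRep_DeformationCondition

set_option autoImplicit false

namespace Fermat.Agent.S53.TestAlg

open IsLocalRing

section General

variable (𝒪 : Type) [CommRing 𝒪] [IsLocalRing 𝒪]

/-- (T1) A finite local `𝒪`-algebra with local structure map and residue field hit by `𝒪`
is an Artinian test algebra. -/
theorem of_finite (A : Type) [CommRing A] [IsLocalRing A] [Algebra 𝒪 A] [Finite A]
    (h1 : IsLocalHom (algebraMap 𝒪 A))
    (h2 : Function.Surjective (IsLocalRing.residue A ∘ algebraMap 𝒪 A)) :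
    GaloisRep.IsArtinianTestAlgebra 𝒪 A :=
  ⟨h1, h2, inferInstance⟩

/-- The residue field of a local `𝒪`-algebra whose residue field is hit by `𝒪` is finite
as soon as the residue field of `𝒪` is finite. -/
theorem finite_residueField [Finite (ResidueField 𝒪)]
    (A : Type) [CommRing A] [IsLocalRing A] [Algebra 𝒪 A]
    (h1 : IsLocalHom (algebraMap 𝒪 A))
    (h2 : Function.Surjective (IsLocalRing.residue A ∘ algebraMap 𝒪 A)) :
    Finite (ResidueField A) := by
  haveI := h1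
  have hs : Function.Surjective (ResidueField.map (algebraMap 𝒪 A)) := by
    intro y
    obtain ⟨a, ha⟩ := h2 y
    exact ⟨IsLocalRing.residue 𝒪 a, by simpa using ha⟩
  exact Finite.of_surjective _ hs

/-- In an Artinian local ring some power of the maximal ideal vanishes. -/
theorem exists_pow_eq_bot (A : Type) [CommRing A] [IsLocalRing A] [IsArtinianRing A] :
    ∃ n : ℕ, maximalIdeal A ^ n = ⊥ := by
  obtain ⟨n, hn⟩ := IsArtinianRing.isNilpotent_jacobson_bot (R := A)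
  refine ⟨n, ?_⟩
  rwa [jacobson_eq_maximalIdeal _ bot_ne_top] at hn

/-- (T2) An Artinian test algebra over `𝒪` with finite residue field is a finite ring. -/
theorem finite_of_isArtinianTestAlgebra [Finite (ResidueField 𝒪)]
    (A : Type) [CommRing A] [IsLocalRing A] [Algebra 𝒪 A]
    (h : GaloisRep.IsArtinianTestAlgebra 𝒪 A) : Finite A := by
  haveI := h.isArtinian
  haveI := finite_residueField 𝒪 A h.isLocalHom h.residue_surjective
  obtain ⟨n, hn⟩ := exists_pow_eq_bot A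
  have : Finite (A ⧸ (⊥ : Ideal A)) :=
    (IsLocalRing.finite_quotient_iff (R := A)).mpr ⟨n, hn.le⟩
  exact Finite.of_equiv _ (RingEquiv.quotientBot A).toEquiv

end General

section Quot

variable (𝒪 : Type) [CommRing 𝒪] [IsLocalRing 𝒪]
variable (A : Type) [CommRing A] [IsLocalRing A] [Algebra 𝒪 A]

theorem pow_ne_top {n : ℕ} (hn : n ≠ 0) : maximalIdeal A ^ n ≠ ⊤ := by
  intro h
  have h1 : maximalIdeal A ^ n ≤ maximalIdeal A := Ideal.pow_le_self hn
  rw [h] at h1
  exact (maximalIdeal.isMaximal A).ne_top (top_le_iff.mp h1)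

/-- The quotient of a local ring by a proper ideal is local. -/
theorem isLocalRing_quot {I : Ideal A} (hI : I ≠ ⊤) : IsLocalRing (A ⧸ I) := by
  haveI : Nontrivial (A ⧸ I) := Ideal.Quotient.nontrivial_iff.mpr hI
  exact IsLocalRing.of_surjective' (Ideal.Quotient.mk I) Ideal.Quotient.mk_surjective

theorem isLocalRing_quot_pow {n : ℕ} (hn : n ≠ 0) : IsLocalRing (A ⧸ maximalIdeal A ^ n) :=
  isLocalRing_quot A (pow_ne_top A hn)

variable {A}

theorem isLocalHom_mk (I : Ideal A) [IsLocalRing (A ⧸ I)] :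
    IsLocalHom (Ideal.Quotient.mk I) :=
  IsLocalHom.of_surjective _ Ideal.Quotient.mk_surjective

theorem isLocalHom_mkₐ (I : Ideal A) [IsLocalRing (A ⧸ I)] :
    IsLocalHom ((Ideal.Quotient.mkₐ 𝒪 I : A →ₐ[𝒪] A ⧸ I) : A →+* A ⧸ I) :=
  IsLocalHom.of_surjective _ Ideal.Quotient.mk_surjective

theorem maximalIdeal_quot (I : Ideal A) [IsLocalRing (A ⧸ I)] :
    maximalIdeal (A ⧸ I) = (maximalIdeal A).map (Ideal.Quotient.mk I) := by
  haveI := isLocalHom_mk I
  ext x
  obtain ⟨x, rfl⟩ := Ideal.Quotient.mk_surjective x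
  constructor
  · intro hx
    refine Ideal.mem_map_of_mem _ ?_
    rw [mem_maximalIdeal, mem_nonunits_iff] at hx ⊢
    exact fun h => hx (h.map _)
  · intro hx
    exact (map_maximalIdeal_le (Ideal.Quotient.mk I)) hx

theorem maximalIdeal_quot_pow_eq_bot {I : Ideal A} [IsLocalRing (A ⧸ I)] {n : ℕ}
    (h : maximalIdeal A ^ n ≤ I) : maximalIdeal (A ⧸ I) ^ n = ⊥ := by
  rw [maximalIdeal_quot, ← Ideal.map_pow, Ideal.map_eq_bot_iff_le_ker, Ideal.mk_ker]
  exact h

theorem isLocalHom_algebraMap_quot (I : Ideal A) [IsLocalRing (A ⧸ I)]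
    (h1 : IsLocalHom (algebraMap 𝒪 A)) : IsLocalHom (algebraMap 𝒪 (A ⧸ I)) := by
  haveI := isLocalHom_mk I
  haveI := h1
  have : algebraMap 𝒪 (A ⧸ I) = (Ideal.Quotient.mk I).comp (algebraMap 𝒪 A) := rfl
  rw [this]
  exact RingHom.isLocalHom_comp _ _

theorem residue_surjective_quot (I : Ideal A) [IsLocalRing (A ⧸ I)]
    (h2 : Function.Surjective (IsLocalRing.residue A ∘ algebraMap 𝒪 A)) :
    Function.Surjective (IsLocalRing.residue (A ⧸ I) ∘ algebraMap 𝒪 (A ⧸ I)) := by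
  haveI := isLocalHom_mk I
  intro y
  obtain ⟨y, rfl⟩ := IsLocalRing.residue_surjective y
  obtain ⟨a, rfl⟩ := Ideal.Quotient.mk_surjective y
  obtain ⟨c, hc⟩ := h2 (IsLocalRing.residue A a)
  refine ⟨c, ?_⟩
  have hc' : algebraMap 𝒪 A c - a ∈ maximalIdeal A := by
    rw [← residue_eq_zero_iff, map_sub, sub_eq_zero]
    exact hc
  show IsLocalRing.residue (A ⧸ I) (Ideal.Quotient.mk I (algebraMap 𝒪 A c)) = _
  rw [← sub_eq_zero, ← map_sub, ← map_sub, residue_eq_zero_iff]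
  exact map_maximalIdeal_le (Ideal.Quotient.mk I) (Ideal.mem_map_of_mem _ hc')

/-- (T3) Quotients of a Noetherian local `𝒪`-algebra by an ideal containing a power of the
maximal ideal are Artinian test algebras. -/
theorem isArtinianTestAlgebra_quot [IsNoetherianRing A] {I : Ideal A} [IsLocalRing (A ⧸ I)]
    {n : ℕ} (h : maximalIdeal A ^ n ≤ I)
    (h1 : IsLocalHom (algebraMap 𝒪 A))
    (h2 : Function.Surjective (IsLocalRing.residue A ∘ algebraMap 𝒪 A)) :
    GaloisRep.IsArtinianTestAlgebra 𝒪 (A ⧸ I) := by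
  refine ⟨isLocalHom_algebraMap_quot 𝒪 I h1, residue_surjective_quot 𝒪 I h2, ?_⟩
  rw [isArtinianRing_iff_isNilpotent_maximalIdeal]
  exact ⟨n, maximalIdeal_quot_pow_eq_bot h⟩

theorem isArtinianTestAlgebra_quot_pow [IsNoetherianRing A] (n : ℕ)
    [IsLocalRing (A ⧸ maximalIdeal A ^ n)]
    (h1 : IsLocalHom (algebraMap 𝒪 A))
    (h2 : Function.Surjective (IsLocalRing.residue A ∘ algebraMap 𝒪 A)) :
    GaloisRep.IsArtinianTestAlgebra 𝒪 (A ⧸ maximalIdeal A ^ n) :=
  isArtinianTestAlgebra_quot 𝒪 le_rfl h1 h2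

theorem finite_quot [IsNoetherianRing A] [Finite (ResidueField 𝒪)] {I : Ideal A}
    {n : ℕ} (h : maximalIdeal A ^ n ≤ I)
    (h1 : IsLocalHom (algebraMap 𝒪 A))
    (h2 : Function.Surjective (IsLocalRing.residue A ∘ algebraMap 𝒪 A)) :
    Finite (A ⧸ I) := by
  haveI := finite_residueField 𝒪 A h1 h2
  exact (IsLocalRing.finite_quotient_iff (R := A)).mpr ⟨n, h⟩

end Quot

section DualNumber

variable (𝒪 : Type) [CommRing 𝒪] [IsLocalRing 𝒪]

/-- The `𝒪`-algebra structure on `k[ε]` used in `GaloisRep.TangentFinite` (reducible, so that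
it is syntactically the `letI` instance there). -/
@[reducible] noncomputable def dualNumberAlgebra :
    Algebra 𝒪 (DualNumber (ResidueField 𝒪)) :=
  ((algebraMap (ResidueField 𝒪) (DualNumber (ResidueField 𝒪))).comp
    (algebraMap 𝒪 (ResidueField 𝒪))).toAlgebra

theorem dualNumber_fst_isUnit {K : Type} [Field K] {x : DualNumber K} (hx : IsUnit x) :
    x.fst ≠ 0 := by
  have := hx.map (TrivSqZeroExt.fstHom K K K)
  exact this.ne_zero

theorem dualNumber_mem_maximalIdeal_iff {K : Type} [Field K] (x : DualNumber K) :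
    x ∈ maximalIdeal (DualNumber K) ↔ x.fst = 0 := by
  rw [mem_maximalIdeal, mem_nonunits_iff]
  constructor
  · intro h
    by_contra h0
    exact h (TrivSqZeroExt.isUnit_iff_isUnit_fst.mpr (isUnit_iff_ne_zero.mpr h0))
  · intro h hu
    exact dualNumber_fst_isUnit hu h

/-- (T4) `k[ε]` with the algebra structure of `TangentFinite` is an Artinian test algebra. -/
theorem dualNumber_isArtinianTestAlgebra :
    letI : Algebra 𝒪 (DualNumber (ResidueField 𝒪)) := dualNumberAlgebra 𝒪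
    GaloisRep.IsArtinianTestAlgebra 𝒪 (DualNumber (ResidueField 𝒪)) := by
  letI : Algebra 𝒪 (DualNumber (ResidueField 𝒪)) := dualNumberAlgebra 𝒪
  refine ⟨⟨?_⟩, ?_, ?_⟩
  · intro a ha
    have h1 : (algebraMap 𝒪 (DualNumber (ResidueField 𝒪)) a).fst ≠ 0 := dualNumber_fst_isUnit ha
    have h2 : (algebraMap 𝒪 (DualNumber (ResidueField 𝒪)) a).fst = IsLocalRing.residue 𝒪 a := rfl
    rw [h2] at h1
    by_contra hna
    exact h1 ((residue_eq_zero_iff a).mpr hna)
  · intro y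
    obtain ⟨x, rfl⟩ := IsLocalRing.residue_surjective y
    obtain ⟨a, ha⟩ := IsLocalRing.residue_surjective (R := 𝒪) x.fst
    refine ⟨a, ?_⟩
    show IsLocalRing.residue _ (algebraMap 𝒪 (DualNumber (ResidueField 𝒪)) a) = _
    rw [← sub_eq_zero, ← map_sub, residue_eq_zero_iff, dualNumber_mem_maximalIdeal_iff]
    show IsLocalRing.residue 𝒪 a - x.fst = 0
    rw [ha, sub_self]
  · haveI : Module.Finite (ResidueField 𝒪) (DualNumber (ResidueField 𝒪)) :=
      inferInstanceAs (Module.Finite (ResidueField 𝒪) (ResidueField 𝒪 × ResidueField 𝒪))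
    exact IsArtinianRing.of_finite (ResidueField 𝒪) (DualNumber (ResidueField 𝒪))

end DualNumber

section PolQuot

variable {P : Type} [CommRing P]

/-- (T5a) If `m0` is a maximal ideal of `P` and `m0 ^ n ≤ K ≤ m0`, then `P ⧸ K` is local. -/
theorem isLocalRing_quot_of_pow_le (m0 : Ideal P) [hm : m0.IsMaximal] (K : Ideal P) (n : ℕ)
    (h1 : m0 ^ n ≤ K) (h2 : K ≤ m0) : IsLocalRing (P ⧸ K) := by
  haveI : Nontrivial (P ⧸ K) :=
    Ideal.Quotient.nontrivial_iff.mpr (fun h => hm.ne_top (top_le_iff.mp (h ▸ h2)))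
  have key : ∀ M : Ideal (P ⧸ K), M.IsMaximal → M = m0.map (Ideal.Quotient.mk K) := by
    intro M hM
    have hcm : (M.comap (Ideal.Quotient.mk K)).IsMaximal :=
      Ideal.comap_isMaximal_of_surjective _ Ideal.Quotient.mk_surjective
    have hK : K ≤ M.comap (Ideal.Quotient.mk K) := by
      intro x hx
      rw [Ideal.mem_comap, Ideal.Quotient.eq_zero_iff_mem.mpr hx]
      exact M.zero_mem
    have hle : m0 ≤ M.comap (Ideal.Quotient.mk K) :=
      hcm.isPrime.le_of_pow_le (n := n) (h1.trans hK)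
    have heq : m0 = M.comap (Ideal.Quotient.mk K) := hm.eq_of_le hcm.ne_top hle
    rw [heq, Ideal.map_comap_of_surjective _ Ideal.Quotient.mk_surjective]
  obtain ⟨M, hM⟩ := Ideal.exists_maximal (P ⧸ K)
  exact IsLocalRing.of_unique_max_ideal
    ⟨M, hM, fun M' hM' => (key M' hM').trans (key M hM).symm⟩

theorem maximalIdeal_quot_of_pow_le (m0 : Ideal P) [hm : m0.IsMaximal] (K : Ideal P) (n : ℕ)
    (h1 : m0 ^ n ≤ K) (_h2 : K ≤ m0) [IsLocalRing (P ⧸ K)] :
    maximalIdeal (P ⧸ K) = m0.map (Ideal.Quotient.mk K) := by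
  have hcm : ((maximalIdeal (P ⧸ K)).comap (Ideal.Quotient.mk K)).IsMaximal :=
    Ideal.comap_isMaximal_of_surjective _ Ideal.Quotient.mk_surjective
  have hK : K ≤ (maximalIdeal (P ⧸ K)).comap (Ideal.Quotient.mk K) := by
    intro x hx
    rw [Ideal.mem_comap, Ideal.Quotient.eq_zero_iff_mem.mpr hx]
    exact Ideal.zero_mem _
  have hle : m0 ≤ (maximalIdeal (P ⧸ K)).comap (Ideal.Quotient.mk K) :=
    hcm.isPrime.le_of_pow_le (n := n) (h1.trans hK)
  have heq : m0 = (maximalIdeal (P ⧸ K)).comap (Ideal.Quotient.mk K) :=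
    hm.eq_of_le hcm.ne_top hle
  rw [heq, Ideal.map_comap_of_surjective _ Ideal.Quotient.mk_surjective]

theorem maximalIdeal_quot_pow_eq_bot_of_pow_le (m0 : Ideal P) [hm : m0.IsMaximal] (K : Ideal P)
    (n : ℕ) (h1 : m0 ^ n ≤ K) (h2 : K ≤ m0) [IsLocalRing (P ⧸ K)] :
    maximalIdeal (P ⧸ K) ^ n = ⊥ := by
  rw [maximalIdeal_quot_of_pow_le m0 K n h1 h2, ← Ideal.map_pow, Ideal.map_eq_bot_iff_le_ker,
    Ideal.mk_ker]
  exact h1

theorem mk_mem_maximalIdeal_iff (m0 : Ideal P) [hm : m0.IsMaximal] (K : Ideal P) (n : ℕ)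
    (h1 : m0 ^ n ≤ K) (h2 : K ≤ m0) [IsLocalRing (P ⧸ K)] (x : P) :
    Ideal.Quotient.mk K x ∈ maximalIdeal (P ⧸ K) ↔ x ∈ m0 := by
  rw [maximalIdeal_quot_of_pow_le m0 K n h1 h2]
  constructor
  · intro hx
    rw [Ideal.mem_map_iff_of_surjective _ Ideal.Quotient.mk_surjective] at hx
    obtain ⟨y, hy, hxy⟩ := hx
    have : x - y ∈ K := by
      rw [← Ideal.Quotient.eq_zero_iff_mem, map_sub, hxy, sub_self]
    have : x - y ∈ m0 := h2 this
    simpa using m0.add_mem this hy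
  · intro hx
    exact Ideal.mem_map_of_mem _ hx

variable (𝒪 : Type) [CommRing 𝒪] [IsLocalRing 𝒪] [Algebra 𝒪 P]

/-- (T5b) structure map is local, residue field is hit by `𝒪`. -/
theorem isLocalHom_algebraMap_quot_of_pow_le (m0 : Ideal P) [hm : m0.IsMaximal] (K : Ideal P)
    (n : ℕ) (h1 : m0 ^ n ≤ K) (h2 : K ≤ m0) [IsLocalRing (P ⧸ K)]
    (hres : Function.Surjective ((Ideal.Quotient.mk m0).comp (algebraMap 𝒪 P))) :
    IsLocalHom (algebraMap 𝒪 (P ⧸ K)) := by
  constructor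
  intro a ha
  by_contra hna
  -- a is not a unit of 𝒪, so a ∈ maximalIdeal 𝒪; show its image lies in m0
  have hker : (RingHom.ker ((Ideal.Quotient.mk m0).comp (algebraMap 𝒪 P))).IsMaximal := by
    letI := Ideal.Quotient.field m0
    exact RingHom.ker_isMaximal_of_surjective _ hres
  have hmem : a ∈ RingHom.ker ((Ideal.Quotient.mk m0).comp (algebraMap 𝒪 P)) := by
    rw [IsLocalRing.eq_maximalIdeal hker]
    exact hna
  have ha0 : algebraMap 𝒪 P a ∈ m0 := by
    rw [RingHom.mem_ker, RingHom.comp_apply, Ideal.Quotient.eq_zero_iff_mem] at hmem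
    exact hmem
  have : Ideal.Quotient.mk K (algebraMap 𝒪 P a) ∈ maximalIdeal (P ⧸ K) :=
    (mk_mem_maximalIdeal_iff m0 K n h1 h2 _).mpr ha0
  exact this ha

theorem residue_surjective_quot_of_pow_le (m0 : Ideal P) [hm : m0.IsMaximal] (K : Ideal P)
    (n : ℕ) (h1 : m0 ^ n ≤ K) (h2 : K ≤ m0) [IsLocalRing (P ⧸ K)]
    (hres : Function.Surjective ((Ideal.Quotient.mk m0).comp (algebraMap 𝒪 P))) :
    Function.Surjective (IsLocalRing.residue (P ⧸ K) ∘ algebraMap 𝒪 (P ⧸ K)) := by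
  intro y
  obtain ⟨y, rfl⟩ := IsLocalRing.residue_surjective y
  obtain ⟨x, rfl⟩ := Ideal.Quotient.mk_surjective y
  obtain ⟨c, hc⟩ := hres (Ideal.Quotient.mk m0 x)
  refine ⟨c, ?_⟩
  have hc' : algebraMap 𝒪 P c - x ∈ m0 := by
    rw [← Ideal.Quotient.eq_zero_iff_mem, map_sub, sub_eq_zero]
    exact hc
  show IsLocalRing.residue (P ⧸ K) (Ideal.Quotient.mk K (algebraMap 𝒪 P c)) = _
  rw [← sub_eq_zero, ← map_sub, ← map_sub, residue_eq_zero_iff]
  exact (mk_mem_maximalIdeal_iff m0 K n h1 h2 _).mpr hc'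

/-- (T5) `P ⧸ K` is an Artinian test algebra as soon as it is finite. -/
theorem isArtinianTestAlgebra_quot_of_pow_le (m0 : Ideal P) [hm : m0.IsMaximal] (K : Ideal P)
    (n : ℕ) (h1 : m0 ^ n ≤ K) (h2 : K ≤ m0) [IsLocalRing (P ⧸ K)] [Finite (P ⧸ K)]
    (hres : Function.Surjective ((Ideal.Quotient.mk m0).comp (algebraMap 𝒪 P))) :
    GaloisRep.IsArtinianTestAlgebra 𝒪 (P ⧸ K) :=
  ⟨isLocalHom_algebraMap_quot_of_pow_le 𝒪 m0 K n h1 h2 hres,
    residue_surjective_quot_of_pow_le 𝒪 m0 K n h1 h2 hres, inferInstance⟩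

end PolQuot

end Fermat.Agent.S53.TestAlg
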