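import Mathlib
import Fermat.Agent.S53.Defs
import Fermat.Agent.S53.TestAlg
import Fermat.Agent.S53.Universal

/-! Basic toolkit for admissible ideals (owner: helper53). -/

set_option autoImplicit false

namespace Fermat.Agent.S53.Adm

open IsLocalRing MvPolynomial GaloisRep
open Fermat.Agent.S53 Fermat.Agent.S53.MatRep Fermat.Agent.S53.Universal

variable {𝒪 : Type} [CommRing 𝒪] [IsLocalRing 𝒪] {ρbar : ResidualGaloisRep (ResidueField 𝒪)}
  {𝒟 : ∀ ⦃A : Type⦄ [CommRing A] [IsLocalRing A] [Algebra 𝒪 A], GaloisRepAdic A → Prop}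

theorem evk_C (F : Frame 𝒪 ρbar) (c : 𝒪) : evk F (C c) = residue 𝒪 c := by
  simp [evk]

theorem evk_X (F : Frame 𝒪 ρbar) (g : AlgebraicClosure ℚ ≃ₐ[ℚ] AlgebraicClosure ℚ)
    (i j : Fin 2) : evk F (X (g, i, j)) = residue 𝒪 (F.rt g i j) := by
  simp [evk]

theorem evk_surjective (F : Frame 𝒪 ρbar) : Function.Surjective (evk F) := by
  intro y
  obtain ⟨c, rfl⟩ := IsLocalRing.residue_surjective y
  exact ⟨C c, evk_C F c⟩

theorem m0_isMaximal (F : Frame 𝒪 ρbar) : (m0 F).IsMaximal :=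
  RingHom.ker_isMaximal_of_surjective (evk F : Pol 𝒪 →+* ResidueField 𝒪) (evk_surjective F)

theorem mem_m0_iff (F : Frame 𝒪 ρbar) (p : Pol 𝒪) : p ∈ m0 F ↔ evk F p = 0 := Iff.rfl

theorem m0_res (F : Frame 𝒪 ρbar) :
    Function.Surjective ((Ideal.Quotient.mk (m0 F)).comp (algebraMap 𝒪 (Pol 𝒪))) := by
  intro y
  obtain ⟨p, rfl⟩ := Ideal.Quotient.mk_surjective y
  obtain ⟨c, hc⟩ := IsLocalRing.residue_surjective (evk F p)
  refine ⟨c, ?_⟩
  rw [RingHom.comp_apply, Ideal.Quotient.eq, mem_m0_iff, map_sub, MvPolynomial.algebraMap_eq,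
    evk_C, hc, sub_self]

/-- `X (g, i, j) - C (rt g i j) ∈ m0`. -/
theorem X_sub_C_mem_m0 (F : Frame 𝒪 ρbar) (g : AlgebraicClosure ℚ ≃ₐ[ℚ] AlgebraicClosure ℚ)
    (i j : Fin 2) : (X (g, i, j) - C (F.rt g i j) : Pol 𝒪) ∈ m0 F := by
  rw [mem_m0_iff, map_sub, evk_X, evk_C, sub_self]

/-- `C c ∈ m0 ↔ c ∈ maximalIdeal 𝒪`. -/
theorem C_mem_m0_iff (F : Frame 𝒪 ρbar) (c : 𝒪) : (C c : Pol 𝒪) ∈ m0 F ↔ c ∈ maximalIdeal 𝒪 := by
  rw [mem_m0_iff, evk_C, IsLocalRing.residue_eq_zero_iff]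

/-- The residue of the evaluation map of a lift of `rt` factors through `evk`. -/
theorem residue_evalHom (F : Frame 𝒪 ρbar) {A : Type} [CommRing A] [IsLocalRing A]
    [Algebra 𝒪 A] (hloc : IsLocalHom (algebraMap 𝒪 A))
    (r : (AlgebraicClosure ℚ ≃ₐ[ℚ] AlgebraicClosure ℚ) → Matrix (Fin 2) (Fin 2) A)
    (hr : ∀ g i j, r g i j - algebraMap 𝒪 A (F.rt g i j) ∈ maximalIdeal A) (p : Pol 𝒪) :
    residue A (evalHom 𝒪 r p) = IsLocalRing.ResidueField.map (algebraMap 𝒪 A) (evk F p) := by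
  have key : (residue A).comp (evalHom 𝒪 r : Pol 𝒪 →+* A) =
      (IsLocalRing.ResidueField.map (algebraMap 𝒪 A)).comp (evk F : Pol 𝒪 →+* ResidueField 𝒪) := by
    apply MvPolynomial.ringHom_ext
    · intro c
      simp only [RingHom.comp_apply, RingHom.coe_coe, ← MvPolynomial.algebraMap_eq,
        AlgHom.commutes]
      rw [IsLocalRing.ResidueField.algebraMap_eq, IsLocalRing.ResidueField.map_residue]
    · rintro ⟨g, i, j⟩
      simp only [RingHom.comp_apply, RingHom.coe_coe, evalHom_X, evk_X]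
      rw [IsLocalRing.ResidueField.map_residue, ← sub_eq_zero, ← map_sub,
        IsLocalRing.residue_eq_zero_iff]
      exact hr g i j
  exact congrArg (fun f : Pol 𝒪 →+* ResidueField A => f p) key

/-- The evaluation map of a lift of `rt` sends `m0` into the maximal ideal. -/
theorem evalHom_mem_maximalIdeal (F : Frame 𝒪 ρbar) {A : Type} [CommRing A] [IsLocalRing A]
    [Algebra 𝒪 A] (hloc : IsLocalHom (algebraMap 𝒪 A))
    (r : (AlgebraicClosure ℚ ≃ₐ[ℚ] AlgebraicClosure ℚ) → Matrix (Fin 2) (Fin 2) A)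
    (hr : ∀ g i j, r g i j - algebraMap 𝒪 A (F.rt g i j) ∈ maximalIdeal A)
    {p : Pol 𝒪} (hp : p ∈ m0 F) : evalHom 𝒪 r p ∈ maximalIdeal A := by
  rw [← IsLocalRing.residue_eq_zero_iff, residue_evalHom F hloc r hr p, (mem_m0_iff F p).1 hp,
    map_zero]

/-- The comap of the maximal ideal along the evaluation map of a lift of `rt` is `m0`. -/
theorem comap_evalHom_maximalIdeal (F : Frame 𝒪 ρbar) {A : Type} [CommRing A] [IsLocalRing A]
    [Algebra 𝒪 A] (hloc : IsLocalHom (algebraMap 𝒪 A))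
    (r : (AlgebraicClosure ℚ ≃ₐ[ℚ] AlgebraicClosure ℚ) → Matrix (Fin 2) (Fin 2) A)
    (hr : ∀ g i j, r g i j - algebraMap 𝒪 A (F.rt g i j) ∈ maximalIdeal A) :
    (maximalIdeal A).comap (evalHom 𝒪 r : Pol 𝒪 →+* A) = m0 F := by
  ext p
  rw [Ideal.mem_comap, RingHom.coe_coe, ← IsLocalRing.residue_eq_zero_iff,
    residue_evalHom F hloc r hr p, mem_m0_iff]
  exact (map_eq_zero_iff _ (RingHom.injective _))

section Quot

variable {F : Frame 𝒪 ρbar} {n : ℕ} {K : Ideal (Pol 𝒪)}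

theorem isLocalRing_quot (h : Admissible F 𝒟 n K) : IsLocalRing (Pol 𝒪 ⧸ K) :=
  haveI := m0_isMaximal F
  TestAlg.isLocalRing_quot_of_pow_le (m0 F) K n h.pow_le h.le

theorem maximalIdeal_quot_pow (h : Admissible F 𝒟 n K) [IsLocalRing (Pol 𝒪 ⧸ K)] :
    maximalIdeal (Pol 𝒪 ⧸ K) ^ n = ⊥ :=
  haveI := m0_isMaximal F
  TestAlg.maximalIdeal_quot_pow_eq_bot_of_pow_le (m0 F) K n h.pow_le h.le

theorem mk_mem_maximalIdeal_iff (h : Admissible F 𝒟 n K) [IsLocalRing (Pol 𝒪 ⧸ K)]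
    (p : Pol 𝒪) : Ideal.Quotient.mk K p ∈ maximalIdeal (Pol 𝒪 ⧸ K) ↔ p ∈ m0 F :=
  haveI := m0_isMaximal F
  TestAlg.mk_mem_maximalIdeal_iff (m0 F) K n h.pow_le h.le p

theorem isArtinianTestAlgebra_quot (h : Admissible F 𝒟 n K) [IsLocalRing (Pol 𝒪 ⧸ K)] :
    IsArtinianTestAlgebra 𝒪 (Pol 𝒪 ⧸ K) :=
  haveI := m0_isMaximal F
  haveI := h.finite
  TestAlg.isArtinianTestAlgebra_quot_of_pow_le 𝒪 (m0 F) K n h.pow_le h.le (m0_res F)

/-- The tautological matrix representation over an admissible quotient. -/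
noncomputable def taut (h : Admissible F 𝒟 n K) :
    (AlgebraicClosure ℚ ≃ₐ[ℚ] AlgebraicClosure ℚ) →* Matrix (Fin 2) (Fin 2) (Pol 𝒪 ⧸ K) where
  toFun g := Matrix.of fun i j => Ideal.Quotient.mk K (X (g, i, j))
  map_one' := by
    ext i j
    rw [Matrix.of_apply, (Ideal.Quotient.eq).2 (h.one i j), Matrix.one_apply, Matrix.one_apply]
    split_ifs <;> simp
  map_mul' g g' := by
    ext i j
    rw [Matrix.of_apply, (Ideal.Quotient.eq).2 (h.mul g g' i j), Matrix.mul_apply, map_sum]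
    simp only [Matrix.of_apply, map_mul]

@[simp] theorem taut_apply (h : Admissible F 𝒟 n K)
    (g : AlgebraicClosure ℚ ≃ₐ[ℚ] AlgebraicClosure ℚ) (i j : Fin 2) :
    taut h g i j = Ideal.Quotient.mk K (X (g, i, j)) := rfl

omit [IsLocalRing 𝒪] in
theorem algebraMap_quot_eq (K : Ideal (Pol 𝒪)) (c : 𝒪) :
    algebraMap 𝒪 (Pol 𝒪 ⧸ K) c = Ideal.Quotient.mk K (C c) := rfl

theorem taut_isRigidLift (h : Admissible F 𝒟 n K) [IsLocalRing (Pol 𝒪 ⧸ K)] :
    IsRigidLift F (taut h) where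
  cont := by
    obtain ⟨L, hL, hσ⟩ := h.cont
    refine isContMat_of_factors ⟨L, hL, fun σ hfix => ?_⟩
    ext i j
    rw [taut_apply, (Ideal.Quotient.eq).2 (hσ σ hfix i j), Matrix.one_apply, Matrix.one_apply]
    split_ifs <;> simp
  lift g i j := by
    rw [taut_apply, algebraMap_quot_eq, ← map_sub, mk_mem_maximalIdeal_iff h]
    exact X_sub_C_mem_m0 F g i j
  h00 := by
    rw [taut_apply]
    exact Ideal.Quotient.eq_zero_iff_mem.2 h.h00
  h10 := by
    rw [taut_apply, ← sub_eq_zero, ← (Ideal.Quotient.mk K).map_one, ← map_sub]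
    exact Ideal.Quotient.eq_zero_iff_mem.2 h.h10
  h1 := by
    rw [taut_apply, algebraMap_quot_eq]
    exact (Ideal.Quotient.eq).2 h.h1

theorem taut_D (h : Admissible F 𝒟 n K) [IsLocalRing (Pol 𝒪 ⧸ K)]
    (hr : IsContMat (taut h)) : 𝒟 (ofMat (taut h) hr) :=
  h.type _ (taut h) hr (fun _ _ _ => rfl)

/-- The evaluation map of the tautological representation is the quotient map. -/
theorem evalHom_taut (h : Admissible F 𝒟 n K) (p : Pol 𝒪) :
    evalHom 𝒪 (fun g => taut h g) p = Ideal.Quotient.mk K p := by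
  have key : evalHom 𝒪 (fun g => taut h g) = Ideal.Quotient.mkₐ 𝒪 K := by
    apply MvPolynomial.algHom_ext
    rintro ⟨g, i, j⟩
    rw [evalHom_X, taut_apply]
    rfl
  rw [key]
  rfl

end Quot

theorem adm_succ (F : Frame 𝒪 ρbar) (n : ℕ) (K : Ideal (Pol 𝒪)) (h : Admissible F 𝒟 n K) :
    Admissible F 𝒟 (n + 1) K :=
  { h with pow_le := (Ideal.pow_le_pow_right (Nat.le_succ n)).trans h.pow_le }

end Fermat.Agent.S53.Adm
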