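import Mathlib

set_option autoImplicit false

namespace Fermat.Agent.S53.TangentAlg

open IsLocalRing

section

variable {𝒪 : Type} [CommRing 𝒪] [IsLocalRing 𝒪]
variable {A : Type} [CommRing A] [IsLocalRing A] [Algebra 𝒪 A]

/-- The identification of residue fields. -/
noncomputable def resEquiv (hloc : IsLocalHom (algebraMap 𝒪 A))
    (hsurj : Function.Surjective (residue A ∘ algebraMap 𝒪 A)) :
    ResidueField 𝒪 ≃+* ResidueField A :=
  haveI := hloc
  RingEquiv.ofBijective (ResidueField.map (algebraMap 𝒪 A)) ⟨RingHom.injective _, by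
    intro y
    obtain ⟨o, ho⟩ := hsurj y
    exact ⟨residue 𝒪 o, by rw [ResidueField.map_residue]; exact ho⟩⟩

/-- The residue map of `A` with values in the residue field of `𝒪`. -/
noncomputable def resA (hloc : IsLocalHom (algebraMap 𝒪 A))
    (hsurj : Function.Surjective (residue A ∘ algebraMap 𝒪 A)) : A →+* ResidueField 𝒪 :=
  (resEquiv hloc hsurj).symm.toRingHom.comp (residue A)

theorem resA_algebraMap (hloc : IsLocalHom (algebraMap 𝒪 A))
    (hsurj : Function.Surjective (residue A ∘ algebraMap 𝒪 A)) (o : 𝒪) :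
    resA hloc hsurj (algebraMap 𝒪 A o) = residue 𝒪 o := by
  haveI := hloc
  unfold resA
  rw [RingHom.comp_apply, RingEquiv.toRingHom_eq_coe, RingEquiv.coe_toRingHom,
    RingEquiv.symm_apply_eq]
  show residue A (algebraMap 𝒪 A o) = ResidueField.map (algebraMap 𝒪 A) (residue 𝒪 o)
  rw [ResidueField.map_residue]

theorem resA_eq_zero_iff (hloc : IsLocalHom (algebraMap 𝒪 A))
    (hsurj : Function.Surjective (residue A ∘ algebraMap 𝒪 A)) (a : A) :
    resA hloc hsurj a = 0 ↔ a ∈ maximalIdeal A := by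
  unfold resA
  rw [RingHom.comp_apply, RingEquiv.toRingHom_eq_coe, RingEquiv.coe_toRingHom,
    map_eq_zero_iff _ (RingEquiv.injective _), residue_eq_zero_iff]

theorem exists_sub_mem (hsurj : Function.Surjective (residue A ∘ algebraMap 𝒪 A)) (a : A) :
    ∃ o : 𝒪, a - algebraMap 𝒪 A o ∈ maximalIdeal A := by
  obtain ⟨o, ho⟩ := hsurj (residue A a)
  refine ⟨o, ?_⟩
  rw [← residue_eq_zero_iff, map_sub, sub_eq_zero]
  exact ho.symm

/-- The `𝒪`-algebra structure on the dual numbers over the residue field (as in `TangentFinite`). -/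
@[reducible] noncomputable def dualAlg (𝒪 : Type) [CommRing 𝒪] [IsLocalRing 𝒪] :
    Algebra 𝒪 (DualNumber (ResidueField 𝒪)) :=
  ((algebraMap (ResidueField 𝒪) (DualNumber (ResidueField 𝒪))).comp
      (algebraMap 𝒪 (ResidueField 𝒪))).toAlgebra

theorem leibniz (hloc : IsLocalHom (algebraMap 𝒪 A))
    (hsurj : Function.Surjective (residue A ∘ algebraMap 𝒪 A))
    (μ : A →ₗ[𝒪] ResidueField 𝒪) (h1 : μ 1 = 0)
    (h2 : ∀ x ∈ maximalIdeal A, ∀ y ∈ maximalIdeal A, μ (x * y) = 0) (a b : A) :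
    μ (a * b) = resA hloc hsurj a * μ b + resA hloc hsurj b * μ a := by
  obtain ⟨o₁, hx⟩ := exists_sub_mem hsurj a
  obtain ⟨o₂, hy⟩ := exists_sub_mem hsurj b
  have hμalg : ∀ o : 𝒪, μ (algebraMap 𝒪 A o) = 0 := by
    intro o
    rw [Algebra.algebraMap_eq_smul_one, map_smul, h1, smul_zero]
  have hra : resA hloc hsurj a = residue 𝒪 o₁ := by
    have : resA hloc hsurj (a - algebraMap 𝒪 A o₁) = 0 := (resA_eq_zero_iff hloc hsurj _).mpr hx
    rw [map_sub, resA_algebraMap, sub_eq_zero] at this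
    exact this
  have hrb : resA hloc hsurj b = residue 𝒪 o₂ := by
    have : resA hloc hsurj (b - algebraMap 𝒪 A o₂) = 0 := (resA_eq_zero_iff hloc hsurj _).mpr hy
    rw [map_sub, resA_algebraMap, sub_eq_zero] at this
    exact this
  have key : a * b = algebraMap 𝒪 A (o₁ * o₂) + o₁ • (b - algebraMap 𝒪 A o₂)
      + o₂ • (a - algebraMap 𝒪 A o₁) + (a - algebraMap 𝒪 A o₁) * (b - algebraMap 𝒪 A o₂) := by
    rw [Algebra.smul_def, Algebra.smul_def, map_mul]; ring
  rw [key, map_add, map_add, map_add, hμalg, h2 _ hx _ hy, map_smul, map_smul, map_sub, map_sub,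
    hμalg, hμalg, hra, hrb, Algebra.smul_def, Algebra.smul_def, ResidueField.algebraMap_eq]
  ring

/-- An `𝒪`-linear functional killing `1` and `𝔪²` gives an algebra hom to the dual numbers. -/
noncomputable def homOfFunctional (hloc : IsLocalHom (algebraMap 𝒪 A))
    (hsurj : Function.Surjective (residue A ∘ algebraMap 𝒪 A))
    (μ : A →ₗ[𝒪] ResidueField 𝒪) (h1 : μ 1 = 0)
    (h2 : ∀ x ∈ maximalIdeal A, ∀ y ∈ maximalIdeal A, μ (x * y) = 0) :
    letI := dualAlg 𝒪
    A →ₐ[𝒪] DualNumber (ResidueField 𝒪) :=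
  letI := dualAlg 𝒪
  { toFun := fun a => TrivSqZeroExt.inl (resA hloc hsurj a) + TrivSqZeroExt.inr (μ a)
    map_one' := by rw [map_one, h1, TrivSqZeroExt.inr_zero, add_zero, TrivSqZeroExt.inl_one]
    map_mul' := by
      intro a b
      apply TrivSqZeroExt.ext
      · simp
      · simp only [TrivSqZeroExt.snd_add, TrivSqZeroExt.snd_inl, TrivSqZeroExt.snd_inr, zero_add,
          TrivSqZeroExt.snd_mul, TrivSqZeroExt.fst_add, TrivSqZeroExt.fst_inl,
          TrivSqZeroExt.fst_inr, add_zero, smul_eq_mul, MulOpposite.smul_eq_mul_unop,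
          MulOpposite.unop_op]
        rw [leibniz hloc hsurj μ h1 h2 a b]
        ring
    map_zero' := by simp
    map_add' := by
      intro a b
      rw [map_add, map_add, TrivSqZeroExt.inl_add, TrivSqZeroExt.inr_add]
      abel
    commutes' := by
      intro o
      rw [RingHom.algebraMap_toAlgebra]
      show TrivSqZeroExt.inl (resA hloc hsurj (algebraMap 𝒪 A o)) +
        TrivSqZeroExt.inr (μ (algebraMap 𝒪 A o)) = _
      rw [resA_algebraMap, Algebra.algebraMap_eq_smul_one, map_smul, h1, smul_zero,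
        TrivSqZeroExt.inr_zero, add_zero, RingHom.comp_apply, TrivSqZeroExt.algebraMap_eq_inl,
        ResidueField.algebraMap_eq] }

theorem homOfFunctional_snd (hloc : IsLocalHom (algebraMap 𝒪 A))
    (hsurj : Function.Surjective (residue A ∘ algebraMap 𝒪 A))
    (μ : A →ₗ[𝒪] ResidueField 𝒪) (h1 : μ 1 = 0)
    (h2 : ∀ x ∈ maximalIdeal A, ∀ y ∈ maximalIdeal A, μ (x * y) = 0) (a : A) :
    (homOfFunctional hloc hsurj μ h1 h2 a).snd = μ a := by
  show (TrivSqZeroExt.inl (resA hloc hsurj a) + TrivSqZeroExt.inr (μ a)).snd = μ a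
  simp

theorem exists_functional (hloc : IsLocalHom (algebraMap 𝒪 A)) (x : A)
    (hxM : x ∈ maximalIdeal A)
    (hx : x ∉ maximalIdeal A ^ 2 ⊔ (maximalIdeal 𝒪).map (algebraMap 𝒪 A)) :
    ∃ μ : A →ₗ[𝒪] ResidueField 𝒪, μ 1 = 0 ∧
      (∀ y ∈ maximalIdeal A, ∀ z ∈ maximalIdeal A, μ (y * z) = 0) ∧ μ x ≠ 0 := by
  have hmapM : (maximalIdeal 𝒪).map (algebraMap 𝒪 A) ≤ maximalIdeal A := by
    rw [Ideal.map_le_iff_le_comap]
    intro o ho
    exact map_nonunit (algebraMap 𝒪 A) o ho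
  have h𝔟M : maximalIdeal A ^ 2 ⊔ (maximalIdeal 𝒪).map (algebraMap 𝒪 A) ≤ maximalIdeal A :=
    sup_le (Ideal.pow_le_self two_ne_zero) hmapM
  let S : Submodule 𝒪 A :=
    (maximalIdeal A ^ 2 ⊔ (maximalIdeal 𝒪).map (algebraMap 𝒪 A)).restrictScalars 𝒪 ⊔
      Submodule.span 𝒪 {1}
  have hxS : x ∉ S := by
    intro hmem
    obtain ⟨b, hb, c, hc, hbc⟩ := Submodule.mem_sup.mp hmem
    obtain ⟨o, rfl⟩ := Submodule.mem_span_singleton.mp hc
    have hb' : b ∈ maximalIdeal A ^ 2 ⊔ (maximalIdeal 𝒪).map (algebraMap 𝒪 A) := hb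
    have ho1 : algebraMap 𝒪 A o ∈ maximalIdeal A := by
      have : o • (1 : A) = x - b := by rw [← hbc]; ring
      rw [Algebra.algebraMap_eq_smul_one, this]
      exact sub_mem hxM (h𝔟M hb')
    have ho : o ∈ maximalIdeal 𝒪 := by
      by_contra hno
      have hu : IsUnit o := by rwa [mem_maximalIdeal, mem_nonunits_iff, not_not] at hno
      exact (mem_nonunits_iff.mp ((mem_maximalIdeal _).mp ho1)) (hu.map _)
    apply hx
    rw [← hbc, ← Algebra.algebraMap_eq_smul_one]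
    exact add_mem hb' (Ideal.mem_sup_right (Ideal.mem_map_of_mem _ ho))
  have hV : Module.IsTorsionBySet 𝒪 (A ⧸ S) (maximalIdeal 𝒪 : Set 𝒪) := by
    rintro v ⟨ϖ, hϖ⟩
    obtain ⟨a, rfl⟩ := S.mkQ_surjective v
    show ϖ • S.mkQ a = 0
    rw [← map_smul, Submodule.mkQ_apply, Submodule.Quotient.mk_eq_zero]
    refine Submodule.mem_sup_left ?_
    show ϖ • a ∈ maximalIdeal A ^ 2 ⊔ (maximalIdeal 𝒪).map (algebraMap 𝒪 A)
    rw [Algebra.smul_def]
    exact Ideal.mem_sup_right (Ideal.mul_mem_right _ _ (Ideal.mem_map_of_mem _ hϖ))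
  letI : Module (ResidueField 𝒪) (A ⧸ S) := hV.module
  have hne : S.mkQ x ≠ 0 := by
    rw [Submodule.mkQ_apply, Ne, Submodule.Quotient.mk_eq_zero]; exact hxS
  obtain ⟨f, hf⟩ := Module.Projective.exists_dual_ne_zero (ResidueField 𝒪) hne
  refine ⟨{ toFun := fun a => f (S.mkQ a)
            map_add' := fun a b => by rw [map_add, map_add]
            map_smul' := fun o a => ?_ }, ?_, ?_, hf⟩
  · rw [map_smul, RingHom.id_apply]
    have h1 : o • S.mkQ a = (residue 𝒪 o) • S.mkQ a := rfl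
    rw [h1, map_smul, smul_eq_mul, Algebra.smul_def, ResidueField.algebraMap_eq]
  · show f (S.mkQ 1) = 0
    have : S.mkQ 1 = 0 := by
      rw [Submodule.mkQ_apply, Submodule.Quotient.mk_eq_zero]
      exact Submodule.mem_sup_right (Submodule.mem_span_singleton_self 1)
    rw [this, map_zero]
  · intro y hy z hz
    show f (S.mkQ (y * z)) = 0
    have : S.mkQ (y * z) = 0 := by
      rw [Submodule.mkQ_apply, Submodule.Quotient.mk_eq_zero]
      refine Submodule.mem_sup_left ?_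
      show y * z ∈ maximalIdeal A ^ 2 ⊔ (maximalIdeal 𝒪).map (algebraMap 𝒪 A)
      exact Ideal.mem_sup_left (by rw [pow_two]; exact Ideal.mul_mem_mul hy hz)
    rw [this, map_zero]

/-- Separation: an element of `𝔪_A` outside `𝔪_A² + 𝔪_𝒪 A` is detected by an algebra hom to
the dual numbers. -/
theorem exists_algHom_ne (hloc : IsLocalHom (algebraMap 𝒪 A))
    (hsurj : Function.Surjective (residue A ∘ algebraMap 𝒪 A)) (x : A)
    (hxM : x ∈ maximalIdeal A)
    (hx : x ∉ maximalIdeal A ^ 2 ⊔ (maximalIdeal 𝒪).map (algebraMap 𝒪 A)) :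
    letI := dualAlg 𝒪
    ∃ h : A →ₐ[𝒪] DualNumber (ResidueField 𝒪), h x ≠ 0 := by
  obtain ⟨μ, h1, h2, h3⟩ := exists_functional hloc x hxM hx
  refine ⟨homOfFunctional hloc hsurj μ h1 h2, fun h0 => h3 ?_⟩
  rw [← homOfFunctional_snd hloc hsurj μ h1 h2 x, h0, TrivSqZeroExt.snd_zero]

end

section Bound

variable (𝒪 : Type) [CommRing 𝒪] [IsLocalRing 𝒪] [IsNoetherianRing 𝒪]
  [Finite (ResidueField 𝒪)]

instance finite_dualNumber : Finite (DualNumber (ResidueField 𝒪)) :=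
  inferInstanceAs (Finite (ResidueField 𝒪 × ResidueField 𝒪))

/-- augmentation of the polynomial ring -/
noncomputable def aug (σ : Type) : MvPolynomial σ 𝒪 →+* ResidueField 𝒪 :=
  (residue 𝒪).comp MvPolynomial.constantCoeff

theorem aug_surjective (σ : Type) : Function.Surjective (aug 𝒪 σ) := by
  intro y
  obtain ⟨o, rfl⟩ := residue_surjective y
  exact ⟨MvPolynomial.C o, by simp [aug]⟩

instance finite_quot_aug_pow (σ : Type) [Finite σ] (n : ℕ) :
    Finite (MvPolynomial σ 𝒪 ⧸ (RingHom.ker (aug 𝒪 σ)) ^ n) := by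
  haveI : Finite (MvPolynomial σ 𝒪 ⧸ RingHom.ker (aug 𝒪 σ)) :=
    Finite.of_equiv _ (RingHom.quotientKerEquivOfSurjective (aug_surjective 𝒪 σ)).symm.toEquiv
  exact Ideal.finite_quotient_pow (IsNoetherian.noetherian _) n

/-- **Tangent bound (pure algebra).**  A finite local `𝒪`-algebra `A` with residue field `k`,
`𝔪_A ^ n = 0` and at most `N` algebra homs to `k[ε]` has cardinality bounded by a constant
depending only on `𝒪, N, n`. -/
theorem exists_card_bound (N n : ℕ) :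
    ∃ B : ℕ, ∀ (A : Type) [CommRing A] [IsLocalRing A] [Algebra 𝒪 A] [Finite A],
      IsLocalHom (algebraMap 𝒪 A) → Function.Surjective (residue A ∘ algebraMap 𝒪 A) →
      maximalIdeal A ^ n = ⊥ →
      (letI := dualAlg 𝒪; Nat.card (A →ₐ[𝒪] DualNumber (ResidueField 𝒪)) ≤ N) →
      Nat.card A ≤ B := by
  refine ⟨Nat.card (MvPolynomial (Fin N → DualNumber (ResidueField 𝒪)) 𝒪 ⧸
      (RingHom.ker (aug 𝒪 (Fin N → DualNumber (ResidueField 𝒪)))) ^ n), ?_⟩
  intro A _ _ _ _ hloc hsurj hn hcard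
  letI := dualAlg 𝒪
  haveI : Finite (A →ₐ[𝒪] DualNumber (ResidueField 𝒪)) := DFunLike.finite _
  obtain ⟨j, hj⟩ : ∃ j : (A →ₐ[𝒪] DualNumber (ResidueField 𝒪)) → Fin N,
      Function.Injective j := by
    have e := Finite.equivFin (A →ₐ[𝒪] DualNumber (ResidueField 𝒪))
    exact ⟨fun h => Fin.castLE hcard (e h), (Fin.castLE_injective hcard).comp e.injective⟩
  classical
  let xs : (Fin N → DualNumber (ResidueField 𝒪)) → A := fun w =>
    if h : ∃ x ∈ maximalIdeal A, ∀ h' : A →ₐ[𝒪] DualNumber (ResidueField 𝒪), h' x = w (j h')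
    then h.choose else 0
  have hxsM : ∀ w, xs w ∈ maximalIdeal A := by
    intro w
    by_cases h : ∃ x ∈ maximalIdeal A,
        ∀ h' : A →ₐ[𝒪] DualNumber (ResidueField 𝒪), h' x = w (j h')
    · simp only [xs, dif_pos h]; exact h.choose_spec.1
    · simp only [xs, dif_neg h]; exact zero_mem _
  have hgen : ∀ x ∈ maximalIdeal A, ∃ w,
      x - xs w ∈ maximalIdeal A ^ 2 ⊔ (maximalIdeal 𝒪).map (algebraMap 𝒪 A) := by
    intro x hx
    let w : Fin N → DualNumber (ResidueField 𝒪) := fun i =>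
      if h : ∃ h' : A →ₐ[𝒪] DualNumber (ResidueField 𝒪), j h' = i then h.choose x else 0
    have hw : ∀ h' : A →ₐ[𝒪] DualNumber (ResidueField 𝒪), h' x = w (j h') := by
      intro h'
      have hex : ∃ h'' : A →ₐ[𝒪] DualNumber (ResidueField 𝒪), j h'' = j h' := ⟨h', rfl⟩
      simp only [w, dif_pos hex]
      rw [hj hex.choose_spec]
    have hex : ∃ x ∈ maximalIdeal A,
        ∀ h' : A →ₐ[𝒪] DualNumber (ResidueField 𝒪), h' x = w (j h') := ⟨x, hx, hw⟩
    refine ⟨w, ?_⟩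
    by_contra hcon
    have hxw : xs w = hex.choose := dif_pos hex
    obtain ⟨h, hh⟩ := exists_algHom_ne hloc hsurj (x - xs w) (sub_mem hx (hxsM w)) hcon
    apply hh
    rw [map_sub, hw h, hxw, hex.choose_spec.2 h, sub_self]
  let Φ : MvPolynomial (Fin N → DualNumber (ResidueField 𝒪)) 𝒪 →ₐ[𝒪] A := MvPolynomial.aeval xs
  have hΦC : ∀ o, Φ (MvPolynomial.C o) = algebraMap 𝒪 A o := fun o => by simp [Φ]
  have hΦX : ∀ w, Φ (MvPolynomial.X w) = xs w := fun w => by simp [Φ]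
  have hΦaug : ∀ p, resA hloc hsurj (Φ p) = aug 𝒪 _ p := by
    intro p
    have : (resA hloc hsurj).comp (Φ : MvPolynomial (Fin N → DualNumber (ResidueField 𝒪)) 𝒪 →+* A) = aug 𝒪 _ := by
      apply MvPolynomial.ringHom_ext
      · intro o
        rw [RingHom.comp_apply, RingHom.coe_coe, hΦC, resA_algebraMap]
        simp [aug]
      · intro w
        rw [RingHom.comp_apply, RingHom.coe_coe, hΦX,
          (resA_eq_zero_iff hloc hsurj _).mpr (hxsM w)]
        simp [aug]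
    exact RingHom.congr_fun this p
  set 𝔫 := RingHom.ker (aug 𝒪 (Fin N → DualNumber (ResidueField 𝒪))) with h𝔫
  have hI_le : 𝔫.map Φ ≤ maximalIdeal A := by
    rw [Ideal.map_le_iff_le_comap]
    intro p hp
    rw [Ideal.mem_comap, ← resA_eq_zero_iff hloc hsurj, hΦaug]
    exact hp
  have hX𝔫 : ∀ w, (MvPolynomial.X w : MvPolynomial _ 𝒪) ∈ 𝔫 := by
    intro w; rw [h𝔫, RingHom.mem_ker]; simp [aug]
  have hC𝔫 : ∀ o ∈ maximalIdeal 𝒪, (MvPolynomial.C o : MvPolynomial _ 𝒪) ∈ 𝔫 := by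
    intro o ho; rw [h𝔫, RingHom.mem_ker]; simpa [aug] using ho
  have hM_le : maximalIdeal A ≤ 𝔫.map Φ := by
    have hfg : (maximalIdeal A).FG := IsNoetherian.noetherian _
    apply Submodule.le_of_le_smul_of_le_jacobson_bot hfg (I := maximalIdeal A)
      (jacobson_eq_maximalIdeal ⊥ bot_ne_top).ge
    intro x hx
    obtain ⟨w, hw⟩ := hgen x hx
    have hxeq : x = xs w + (x - xs w) := by ring
    rw [hxeq]
    refine Submodule.add_mem _ (Submodule.mem_sup_left ?_) ?_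
    · rw [← hΦX]; exact Ideal.mem_map_of_mem _ (hX𝔫 w)
    · obtain ⟨b1, hb1, b2, hb2, hb⟩ := Submodule.mem_sup.mp hw
      rw [← hb]
      refine Submodule.add_mem _ (Submodule.mem_sup_right ?_) (Submodule.mem_sup_left ?_)
      · rwa [smul_eq_mul, ← pow_two]
      · have hle : (maximalIdeal 𝒪).map (algebraMap 𝒪 A) ≤ 𝔫.map Φ := by
          rw [Ideal.map_le_iff_le_comap]
          intro o ho
          rw [Ideal.mem_comap, ← hΦC]
          exact Ideal.mem_map_of_mem _ (hC𝔫 o ho)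
        exact hle hb2
  have hIM : 𝔫.map Φ = maximalIdeal A := le_antisymm hI_le hM_le
  have hmapj : ∀ j : ℕ, (𝔫 ^ j).map Φ = maximalIdeal A ^ j := fun j => by
    rw [Ideal.map_pow, hIM]
  have hG : ∀ j : ℕ, ∀ y ∈ (𝔫 ^ j).map Φ, y ∈ maximalIdeal A ^ j ∧
      ∃ p ∈ 𝔫 ^ j, y - Φ p ∈ maximalIdeal A ^ (j + 1) := by
    intro j y hy
    refine Submodule.span_induction (p := fun y _ => y ∈ maximalIdeal A ^ j ∧
      ∃ p ∈ 𝔫 ^ j, y - Φ p ∈ maximalIdeal A ^ (j + 1)) ?_ ?_ ?_ ?_ hy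
    · rintro _ ⟨q, hq, rfl⟩
      exact ⟨hmapj j ▸ Ideal.mem_map_of_mem _ hq, q, hq, by simp⟩
    · exact ⟨zero_mem _, 0, zero_mem _, by simp⟩
    · rintro y z _ _ ⟨hy1, p, hp, hyp⟩ ⟨hz1, q, hq, hzq⟩
      refine ⟨add_mem hy1 hz1, p + q, add_mem hp hq, ?_⟩
      have := add_mem hyp hzq
      rw [map_add]
      convert this using 1
      ring
    · rintro a y _ ⟨hy1, p, hp, hyp⟩
      obtain ⟨o, ho⟩ := exists_sub_mem hsurj a
      refine ⟨Ideal.mul_mem_left _ _ hy1, MvPolynomial.C o * p, Ideal.mul_mem_left _ _ hp, ?_⟩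
      have hrw : a • y - Φ (MvPolynomial.C o * p) =
          algebraMap 𝒪 A o * (y - Φ p) + (a - algebraMap 𝒪 A o) * y := by
        rw [map_mul, hΦC, smul_eq_mul]; ring
      rw [hrw]
      refine add_mem (Ideal.mul_mem_left _ _ hyp) ?_
      rw [pow_succ']
      exact Ideal.mul_mem_mul ho hy1
  have hsurjΦ : ∀ j : ℕ, ∀ a : A, ∃ p, a - Φ p ∈ maximalIdeal A ^ j := by
    intro j
    induction j with
    | zero => intro a; exact ⟨0, by simp⟩
    | succ j ih =>
      intro a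
      obtain ⟨p, hp⟩ := ih a
      obtain ⟨-, q, -, hq⟩ := hG j (a - Φ p) (hmapj j ▸ hp)
      refine ⟨p + q, ?_⟩
      rw [map_add]
      convert hq using 1
      ring
  have hΦsurj : Function.Surjective Φ := by
    intro a
    obtain ⟨p, hp⟩ := hsurjΦ n a
    rw [hn, Ideal.mem_bot, sub_eq_zero] at hp
    exact ⟨p, hp.symm⟩
  have hker : ∀ p ∈ 𝔫 ^ n, (Φ : MvPolynomial (Fin N → DualNumber (ResidueField 𝒪)) 𝒪 →+* A) p = 0 := by
    intro p hp
    have : Φ p ∈ (𝔫 ^ n).map Φ := Ideal.mem_map_of_mem _ hp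
    rw [hmapj, hn] at this
    exact this
  exact Nat.card_le_card_of_surjective (Ideal.Quotient.lift (𝔫 ^ n)
    (Φ : MvPolynomial (Fin N → DualNumber (ResidueField 𝒪)) 𝒪 →+* A) hker)
    (Ideal.Quotient.lift_surjective_of_surjective _ _ hΦsurj)

end Bound

end Fermat.Agent.S53.TangentAlg
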