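import Mathlib
import Fermat.Prelude.Def_GaloisRep_DeformationRingData
import Fermat.Prelude.Def_GaloisRep_DeformationCondition
import Fermat.Agent.S53.MatRep
import Fermat.Agent.S53.Rigid
import Fermat.Agent.S53.TangentBridge
import Fermat.Agent.S53.TangentAlg

set_option autoImplicit false

namespace Fermat.Agent.S53.TangentGlue

open IsLocalRing Fermat.Agent.S53.MatRep

local notation "Γℚ" => (AlgebraicClosure ℚ ≃ₐ[ℚ] AlgebraicClosure ℚ)

section

variable {𝒪 : Type} [CommRing 𝒪] [IsLocalRing 𝒪]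
variable {A : Type} [CommRing A] [IsLocalRing A] [Algebra 𝒪 A]

/-- congruence of entries mod `𝔪_A` gives congruence of the commutator entry. -/
theorem comm_entry_sub_mem (X C : Matrix (Fin 2) (Fin 2) A) (X' C' : Matrix (Fin 2) (Fin 2) 𝒪)
    (hX : ∀ i j, X i j - algebraMap 𝒪 A (X' i j) ∈ maximalIdeal A)
    (hC : ∀ i j, C i j - algebraMap 𝒪 A (C' i j) ∈ maximalIdeal A) (i0 : Fin 2) :
    (X * C - C * X) i0 0 - algebraMap 𝒪 A ((X' * C' - C' * X') i0 0) ∈ maximalIdeal A := by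
  have hX' : ∀ i j, residue A (X i j) = residue A (algebraMap 𝒪 A (X' i j)) := fun i j => by
    rw [← sub_eq_zero, ← map_sub, residue_eq_zero_iff]; exact hX i j
  have hC' : ∀ i j, residue A (C i j) = residue A (algebraMap 𝒪 A (C' i j)) := fun i j => by
    rw [← sub_eq_zero, ← map_sub, residue_eq_zero_iff]; exact hC i j
  rw [← residue_eq_zero_iff, map_sub, sub_eq_zero]
  simp only [Matrix.sub_apply, Matrix.mul_apply, Fin.sum_univ_two, map_sub, map_add, map_mul,
    hX', hC']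

/-- the commutator entry of a lift is a unit if it is one over `𝒪`. -/
theorem isUnit_comm_entry
    (X C : Matrix (Fin 2) (Fin 2) A) (X' C' : Matrix (Fin 2) (Fin 2) 𝒪)
    (hX : ∀ i j, X i j - algebraMap 𝒪 A (X' i j) ∈ maximalIdeal A)
    (hC : ∀ i j, C i j - algebraMap 𝒪 A (C' i j) ∈ maximalIdeal A) (i0 : Fin 2)
    (hu : IsUnit ((X' * C' - C' * X') i0 0)) : IsUnit ((X * C - C * X) i0 0) := by
  have h1 := comm_entry_sub_mem X C X' C' hX hC i0
  have h2 : IsUnit (algebraMap 𝒪 A ((X' * C' - C' * X') i0 0)) := hu.map _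
  by_contra hnu
  have h3 : (X * C - C * X) i0 0 ∈ maximalIdeal A := hnu
  have h4 : algebraMap 𝒪 A ((X' * C' - C' * X') i0 0) ∈ maximalIdeal A := by
    have := sub_mem h3 h1
    rwa [sub_sub_cancel] at this
  exact h4 h2

end

section Main

variable (𝒪 : Type) [CommRing 𝒪] [IsLocalRing 𝒪] [IsNoetherianRing 𝒪]
  [Finite (ResidueField 𝒪)]

/-- **Tangent bound for rigid lifts.**  Uniform bound on the cardinality of a finite local
`𝒪`-algebra `A` with `𝔪_A ^ n = 0` that is generated by the entries of a rigid `𝒟`-lift. -/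
theorem exists_card_bound_of_rigid
    (ρbar : ResidualGaloisRep (ResidueField 𝒪))
    (𝒟 : ∀ ⦃A : Type⦄ [CommRing A] [IsLocalRing A] [Algebra 𝒪 A], GaloisRepAdic A → Prop)
    (h𝒟 : GaloisRep.IsDeformationCondition 𝒪 𝒟)
    (hfin : GaloisRep.TangentFinite 𝒪 ρbar 𝒟)
    (b0 : Module.Basis (Fin 2) (ResidueField 𝒪) ρbar.V)
    (rt : Γℚ → Matrix (Fin 2) (Fin 2) 𝒪)
    (hrt : ∀ σ i j, residue 𝒪 (rt σ i j) = matOfBasisRes ρbar b0 σ i j)
    (g0 g1 : Γℚ) (i0 : Fin 2)
    (hcomm : IsUnit ((rt g1 * rt g0 - rt g0 * rt g1) i0 0))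
    (n : ℕ) :
    ∃ B : ℕ, ∀ (A : Type) [CommRing A] [IsLocalRing A] [Algebra 𝒪 A] [Finite A]
      (_hloc : IsLocalHom (algebraMap 𝒪 A))
      (_hres : Function.Surjective (residue A ∘ algebraMap 𝒪 A))
      (r : Γℚ →* Matrix (Fin 2) (Fin 2) A) (hr : IsContMat r),
      maximalIdeal A ^ n = ⊥ →
      𝒟 (ofMat r hr) →
      (∀ σ i j, r σ i j - algebraMap 𝒪 A (rt σ i j) ∈ maximalIdeal A) →
      r g0 0 0 = 0 → r g0 1 0 = 1 → r g1 i0 0 = algebraMap 𝒪 A (rt g1 i0 0) →
      Algebra.adjoin 𝒪 (Set.range fun x : Γℚ × Fin 2 × Fin 2 => r x.1 x.2.1 x.2.2) = ⊤ →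
      Nat.card A ≤ B := by
  obtain ⟨N, hN⟩ := TangentBridge.tangent_card_bound 𝒪 ρbar 𝒟 hfin
  obtain ⟨B, hB⟩ := TangentAlg.exists_card_bound 𝒪 N n
  refine ⟨B, ?_⟩
  intro A _ _ _ _ hloc hres r hr hn h𝒟r hlift h00 h10 hβ hgen
  refine hB A hloc hres hn ?_
  letI : Algebra 𝒪 (DualNumber (ResidueField 𝒪)) := TangentBridge.dualAlgebra 𝒪
  have htestA : GaloisRep.IsArtinianTestAlgebra 𝒪 A := ⟨hloc, hres, inferInstance⟩
  have htestD : GaloisRep.IsArtinianTestAlgebra 𝒪 (DualNumber (ResidueField 𝒪)) :=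
    TangentBridge.isArtinianTestAlgebra_dual 𝒪
  have hlocD : IsLocalHom (algebraMap 𝒪 (DualNumber (ResidueField 𝒪))) :=
    TangentBridge.isLocalHom_dual 𝒪
  -- every algebra hom `A → k[ε]` is local
  have hlocal : ∀ h : A →ₐ[𝒪] DualNumber (ResidueField 𝒪),
      IsLocalHom (h : A →+* DualNumber (ResidueField 𝒪)) := by
    intro h
    refine ⟨fun a ha => ?_⟩
    by_contra hna
    have h1 : a ∈ maximalIdeal A := hna
    have h2 : a ^ n ∈ maximalIdeal A ^ n := Ideal.pow_mem_pow h1 n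
    rw [hn, Ideal.mem_bot] at h2
    have h3 : ((h : A →+* DualNumber (ResidueField 𝒪)) a) ^ n = 0 := by
      rw [← map_pow, h2, map_zero]
    exact (ha.pow n).ne_zero h3
  have hmapm : ∀ (h : A →ₐ[𝒪] DualNumber (ResidueField 𝒪)) (a : A), a ∈ maximalIdeal A →
      h a ∈ maximalIdeal (DualNumber (ResidueField 𝒪)) := by
    intro h a ha hu
    exact ha ((hlocal h).map_nonunit a hu)
  -- the deformations attached to the homs
  let ρ : (A →ₐ[𝒪] DualNumber (ResidueField 𝒪)) → GaloisRepAdic (DualNumber (ResidueField 𝒪)) :=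
    fun h => ofMat (mapMat (h : A →+* DualNumber (ResidueField 𝒪)) r) (hr.map _ (hlocal h))
  have hcong : ∀ (h : A →ₐ[𝒪] DualNumber (ResidueField 𝒪)) (σ : Γℚ) (i j : Fin 2),
      h (r σ i j) - algebraMap 𝒪 (DualNumber (ResidueField 𝒪)) (rt σ i j) ∈
        maximalIdeal (DualNumber (ResidueField 𝒪)) := by
    intro h σ i j
    have := hmapm h _ (hlift σ i j)
    rwa [map_sub, AlgHom.commutes] at this
  have key := hN (A →ₐ[𝒪] DualNumber (ResidueField 𝒪)) ρ ?_ ?_ ?_
  · exact key.2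
  · -- 𝒟
    intro h
    have h1 := h𝒟.baseChangeAlong htestA htestD h (hlocal h) h𝒟r
    exact h𝒟.of_isEquiv htestD (baseChangeAlong_ofMat_isEquiv _ (hlocal h) r hr) h1
  · -- residual
    intro h
    refine residual_ofMat_isEquiv _ ρbar b0 _ _ ?_
    ext σ i j
    rw [mapMat_apply, mapMat_apply, mapMat_apply, ← hrt σ i j]
    haveI := hlocD
    rw [ResidueField.map_residue, ← sub_eq_zero, ← map_sub, residue_eq_zero_iff]
    exact hcong h σ i j
  · -- injectivity
    intro h h' hEq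
    obtain ⟨M, hMdet, hM⟩ := (isEquiv_ofMat_iff _ _ _ _).mp hEq
    have hu : IsUnit ((mapMat (h' : A →+* DualNumber (ResidueField 𝒪)) r g1 *
        mapMat (h' : A →+* DualNumber (ResidueField 𝒪)) r g0 -
        mapMat (h' : A →+* DualNumber (ResidueField 𝒪)) r g0 *
        mapMat (h' : A →+* DualNumber (ResidueField 𝒪)) r g1) i0 0) :=
      isUnit_comm_entry _ _ (rt g1) (rt g0) (fun i j => hcong h' g1 i j)
        (fun i j => hcong h' g0 i j) i0 hcomm
    have hrr : mapMat (h : A →+* DualNumber (ResidueField 𝒪)) r =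
        mapMat (h' : A →+* DualNumber (ResidueField 𝒪)) r := by
      refine Rigid.rigid_unique _ _ g0 g1 i0 ?_ ?_ ?_ ?_ ?_ ?_ hu M
        ((Matrix.isUnit_iff_isUnit_det M).mpr hMdet) hM
      · rw [mapMat_apply, h00, map_zero]
      · rw [mapMat_apply, h10, map_one]
      · rw [mapMat_apply, h00, map_zero]
      · rw [mapMat_apply, h10, map_one]
      · rw [mapMat_apply, mapMat_apply, hβ]
        simp only [RingHom.coe_coe, AlgHom.commutes]
      · intro i j
        rw [mapMat_apply, mapMat_apply]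
        have := sub_mem (hcong h g1 i j) (hcong h' g1 i j)
        simpa using this
    refine AlgHom.ext_of_adjoin_eq_top hgen ?_
    rintro _ ⟨⟨σ, i, j⟩, rfl⟩
    have := congrFun (congrFun (congrArg (fun f : Γℚ →* Matrix (Fin 2) (Fin 2)
      (DualNumber (ResidueField 𝒪)) => f σ) hrr) i) j
    simpa using this

end Main

end Fermat.Agent.S53.TangentGlue
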