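import Mathlib
import Fermat.Agent.S53.AdmBasic
import Fermat.Agent.S53.TangentGlue

/-! Chunk D: the tangent bound on admissible quotients
(`TangentGlue.exists_card_bound_of_rigid` applied to `Pol 𝒪 ⧸ K` with `Adm.taut`). -/

set_option autoImplicit false

namespace Fermat.Agent.S53.Adm

open IsLocalRing MvPolynomial GaloisRep
open Fermat.Agent.S53 Fermat.Agent.S53.MatRep Fermat.Agent.S53.Universal

variable {𝒪 : Type} [CommRing 𝒪] [IsLocalRing 𝒪] {ρbar : ResidualGaloisRep (ResidueField 𝒪)}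
  {𝒟 : ∀ ⦃A : Type⦄ [CommRing A] [IsLocalRing A] [Algebra 𝒪 A], GaloisRepAdic A → Prop}

/-- The entries of the tautological representation generate an admissible quotient as an
`𝒪`-algebra. -/
theorem adjoin_range_taut {F : Frame 𝒪 ρbar} {n : ℕ} {K : Ideal (Pol 𝒪)}
    (h : Admissible F 𝒟 n K) :
    Algebra.adjoin 𝒪 (Set.range fun x : (AlgebraicClosure ℚ ≃ₐ[ℚ] AlgebraicClosure ℚ) ×
      Fin 2 × Fin 2 => taut h x.1 x.2.1 x.2.2) = ⊤ := by
  have hrange : (Set.range fun x : (AlgebraicClosure ℚ ≃ₐ[ℚ] AlgebraicClosure ℚ) ×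
      Fin 2 × Fin 2 => taut h x.1 x.2.1 x.2.2) =
      (Ideal.Quotient.mkₐ 𝒪 K) '' (Set.range (X : _ → Pol 𝒪)) := by
    rw [← Set.range_comp]
    rfl
  rw [hrange, ← AlgHom.map_adjoin, MvPolynomial.adjoin_range_X, Algebra.map_top,
    AlgHom.range_eq_top]
  exact Ideal.Quotient.mkₐ_surjective 𝒪 K

/-- (D) The tangent bound: admissible quotients of a given level have bounded cardinality. -/
theorem adm_bound [IsNoetherianRing 𝒪] [Finite (ResidueField 𝒪)]
    (h𝒟 : IsDeformationCondition 𝒪 𝒟)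
    (hfin : TangentFinite 𝒪 ρbar 𝒟) (F : Frame 𝒪 ρbar) (n : ℕ) :
    ∃ B : ℕ, ∀ K, Admissible F 𝒟 n K → Nat.card (Pol 𝒪 ⧸ K) ≤ B := by
  obtain ⟨B, hB⟩ := TangentGlue.exists_card_bound_of_rigid 𝒪 ρbar 𝒟 h𝒟 hfin F.b F.rt
    (fun σ i j => F.hrt σ i j) F.g0 F.g1 F.i0 F.hcomm n
  refine ⟨B, fun K h => ?_⟩
  have : IsLocalRing (Pol 𝒪 ⧸ K) := isLocalRing_quot h
  have : Finite (Pol 𝒪 ⧸ K) := h.finite
  have htest := isArtinianTestAlgebra_quot h
  have hrig := taut_isRigidLift h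
  exact hB (Pol 𝒪 ⧸ K) htest.isLocalHom htest.residue_surjective (taut h) hrig.cont
    (maximalIdeal_quot_pow h) (taut_D h hrig.cont) hrig.lift hrig.h00 hrig.h10 hrig.h1
    (adjoin_range_taut h)

end Fermat.Agent.S53.Adm
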