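import Mathlib
import Fermat.Agent.S53.AdmBasic

/-! Chunk C3: admissible ideals are closed under intersection and truncation. -/

set_option autoImplicit false

namespace Fermat.Agent.S53.Adm

open IsLocalRing MvPolynomial GaloisRep
open Fermat.Agent.S53 Fermat.Agent.S53.MatRep Fermat.Agent.S53.Universal

variable {𝒪 : Type} [CommRing 𝒪] [IsLocalRing 𝒪] {ρbar : ResidualGaloisRep (ResidueField 𝒪)}
  {𝒟 : ∀ ⦃A : Type⦄ [CommRing A] [IsLocalRing A] [Algebra 𝒪 A], GaloisRepAdic A → Prop}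

/-- (C3a) Admissible ideals of a given level are closed under intersection
(`h𝒟.of_fibreProduct` on the square `Pol/(K₁ ⊓ K₂) → Pol/K₁, Pol/K₂ → Pol/(K₁ ⊔ K₂)`). -/
theorem adm_inf [Finite (ResidueField 𝒪)] (h𝒟 : IsDeformationCondition 𝒪 𝒟) (F : Frame 𝒪 ρbar)
    (n : ℕ) (K₁ K₂ : Ideal (Pol 𝒪)) (h₁ : Admissible F 𝒟 n K₁) (h₂ : Admissible F 𝒟 n K₂) :
    Admissible F 𝒟 n (K₁ ⊓ K₂) := by
  sorry

end Fermat.Agent.S53.Adm
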