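import Mathlib
import Fermat.Agent.S53.AdmBasic

/-! Chunk C2: kernels of evaluation maps of rigid lifts are admissible. -/

set_option autoImplicit false

namespace Fermat.Agent.S53.Adm

open IsLocalRing MvPolynomial GaloisRep
open Fermat.Agent.S53 Fermat.Agent.S53.MatRep Fermat.Agent.S53.Universal

variable {𝒪 : Type} [CommRing 𝒪] [IsLocalRing 𝒪] {ρbar : ResidualGaloisRep (ResidueField 𝒪)}
  {𝒟 : ∀ ⦃A : Type⦄ [CommRing A] [IsLocalRing A] [Algebra 𝒪 A], GaloisRepAdic A → Prop}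

/-- (C2) The kernel of the evaluation map of a rigid lift of type `𝒟` over an Artinian test
algebra with `𝔪 ^ n = 0` is admissible of level `n`. -/
theorem adm_ker [Finite (ResidueField 𝒪)] (h𝒟 : IsDeformationCondition 𝒪 𝒟) (F : Frame 𝒪 ρbar)
    (n : ℕ) (A : Type) [CommRing A] [IsLocalRing A] [Algebra 𝒪 A]
    (hA : IsArtinianTestAlgebra 𝒪 A) (hpow : maximalIdeal A ^ n = ⊥)
    (r : (AlgebraicClosure ℚ ≃ₐ[ℚ] AlgebraicClosure ℚ) →* Matrix (Fin 2) (Fin 2) A)
    (hr : IsRigidLift F r) (hD : 𝒟 (ofMat r hr.cont)) :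
    Admissible F 𝒟 n (RingHom.ker (evalHom 𝒪 (fun g => r g) : Pol 𝒪 →+* A)) := by
  have hcomap := comap_evalHom_maximalIdeal F hA.isLocalHom (fun g => r g) hr.lift
  have hmem : ∀ p : Pol 𝒪,
      p ∈ RingHom.ker (evalHom 𝒪 (fun g => r g) : Pol 𝒪 →+* A) ↔
        evalHom 𝒪 (fun g => r g) p = 0 := fun p => by
    rw [RingHom.mem_ker]; rfl
  have hle : RingHom.ker (evalHom 𝒪 (fun g => r g) : Pol 𝒪 →+* A) ≤ m0 F := by
    intro p hp
    rw [← hcomap, Ideal.mem_comap]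
    rw [RingHom.mem_ker] at hp
    rw [hp]
    exact zero_mem _
  have hpow_le : m0 F ^ n ≤ RingHom.ker (evalHom 𝒪 (fun g => r g) : Pol 𝒪 →+* A) := by
    intro p hp
    rw [RingHom.mem_ker]
    have h1 : m0 F ^ n ≤ (maximalIdeal A ^ n).comap (evalHom 𝒪 (fun g => r g) : Pol 𝒪 →+* A) := by
      rw [← hcomap]
      exact Ideal.le_comap_pow _ n
    have h2 := h1 hp
    rwa [Ideal.mem_comap, hpow, Ideal.mem_bot] at h2
  have hfinA : Finite A := TestAlg.finite_of_isArtinianTestAlgebra 𝒪 A hA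
  have hfin : Finite (Pol 𝒪 ⧸ RingHom.ker (evalHom 𝒪 (fun g => r g) : Pol 𝒪 →+* A)) :=
    Finite.of_injective _ (RingHom.kerLift_injective (evalHom 𝒪 (fun g => r g) : Pol 𝒪 →+* A))
  have hmax : (m0 F).IsMaximal := m0_isMaximal F
  refine
    { pow_le := hpow_le
      le := hle
      finite := hfin
      mul := ?_
      one := ?_
      cont := ?_
      h00 := ?_
      h10 := ?_
      h1 := ?_
      type := ?_ }
  · intro g h i j
    rw [hmem, map_sub, map_sum, evalHom_X, sub_eq_zero, map_mul r g h, Matrix.mul_apply]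
    refine Finset.sum_congr rfl fun l _ => ?_
    rw [map_mul, evalHom_X, evalHom_X]
  · intro i j
    rw [hmem, map_sub, evalHom_X, sub_eq_zero, map_one r, MvPolynomial.algHom_C]
    by_cases hij : i = j
    · subst hij; simp
    · simp [Matrix.one_apply_ne hij]
  · obtain ⟨L, hL, h⟩ := factors_of_isContMat_of_pow_eq_bot hr.cont hpow
    refine ⟨L, hL, fun σ hσ i j => ?_⟩
    rw [hmem, map_sub, evalHom_X, sub_eq_zero, h σ hσ, MvPolynomial.algHom_C]
    by_cases hij : i = j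
    · subst hij; simp
    · simp [Matrix.one_apply_ne hij]
  · rw [hmem, evalHom_X]; exact hr.h00
  · rw [hmem, map_sub, evalHom_X, map_one, sub_eq_zero]; exact hr.h10
  · rw [hmem, map_sub, evalHom_X, MvPolynomial.algHom_C, sub_eq_zero]; exact hr.h1
  · intro hloc r' hr' hr'X
    -- the injective local algebra hom `Pol ⧸ K → A`
    let φ : (Pol 𝒪 ⧸ RingHom.ker (evalHom 𝒪 (fun g => r g) : Pol 𝒪 →+* A)) →ₐ[𝒪] A :=
      Ideal.Quotient.liftₐ _ (evalHom 𝒪 (fun g => r g)) (fun p hp => (hmem p).mp hp)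
    have hφmk : ∀ p : Pol 𝒪, φ (Ideal.Quotient.mk _ p) = evalHom 𝒪 (fun g => r g) p :=
      fun p => Ideal.Quotient.liftₐ_apply _ _ _ _
    have hφinj : Function.Injective φ := by
      rw [injective_iff_map_eq_zero]
      intro x hx
      obtain ⟨p, rfl⟩ := Ideal.Quotient.mk_surjective x
      rw [hφmk] at hx
      exact Ideal.Quotient.eq_zero_iff_mem.mpr ((hmem p).mpr hx)
    have hφloc : IsLocalHom (φ : (Pol 𝒪 ⧸ RingHom.ker
        (evalHom 𝒪 (fun g => r g) : Pol 𝒪 →+* A)) →+* A) := by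
      refine ⟨fun x hx => ?_⟩
      obtain ⟨p, rfl⟩ := Ideal.Quotient.mk_surjective x
      by_contra hnu
      have h1 : Ideal.Quotient.mk _ p ∈ maximalIdeal (Pol 𝒪 ⧸ RingHom.ker
          (evalHom 𝒪 (fun g => r g) : Pol 𝒪 →+* A)) := hnu
      rw [TestAlg.mk_mem_maximalIdeal_iff (m0 F) _ n hpow_le hle, ← hcomap, Ideal.mem_comap] at h1
      have h2 : φ (Ideal.Quotient.mk _ p) ∈ maximalIdeal A := by rw [hφmk]; exact h1
      exact h2 hx
    have hPK : IsArtinianTestAlgebra 𝒪 (Pol 𝒪 ⧸ RingHom.ker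
        (evalHom 𝒪 (fun g => r g) : Pol 𝒪 →+* A)) :=
      TestAlg.isArtinianTestAlgebra_quot_of_pow_le 𝒪 (m0 F) _ n hpow_le hle (m0_res F)
    have hmap : mapMat (φ : (Pol 𝒪 ⧸ RingHom.ker
        (evalHom 𝒪 (fun g => r g) : Pol 𝒪 →+* A)) →+* A) r' = r := by
      refine MonoidHom.ext fun σ => ?_
      ext i j
      rw [mapMat_apply, hr'X]
      exact (hφmk _).trans (evalHom_X _ _ _ _)
    have hD' : 𝒟 (ofMat (mapMat (φ : (Pol 𝒪 ⧸ RingHom.ker
        (evalHom 𝒪 (fun g => r g) : Pol 𝒪 →+* A)) →+* A) r') (hr'.map _ hφloc)) := by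
      rw [ofMat_congr hmap (hr'.map _ hφloc) hr.cont]
      exact hD
    exact h𝒟.of_baseChangeAlong_injective hPK hA φ hφloc hφinj
      (h𝒟.of_isEquiv hA (isEquiv_symm (baseChangeAlong_ofMat_isEquiv _ hφloc r' hr')) hD')

end Fermat.Agent.S53.Adm
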