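import Mathlib
import Fermat.Agent.S53.AdmKer
import Fermat.Agent.S53.TestAlgBase

/-! Chunk C1: the ideal `m0` is admissible of level one (via `hbar` and `adm_ker` over `k`). -/

set_option autoImplicit false

namespace Fermat.Agent.S53.Adm

open IsLocalRing MvPolynomial GaloisRep
open Fermat.Agent.S53 Fermat.Agent.S53.MatRep Fermat.Agent.S53.Universal

variable {𝒪 : Type} [CommRing 𝒪] [IsLocalRing 𝒪] {ρbar : ResidualGaloisRep (ResidueField 𝒪)}
  {𝒟 : ∀ ⦃A : Type⦄ [CommRing A] [IsLocalRing A] [Algebra 𝒪 A], GaloisRepAdic A → Prop}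

/-- Some ideal is admissible of level one (the kernel for the residual representation). -/
theorem adm_one [Finite (ResidueField 𝒪)] (h𝒟 : IsDeformationCondition 𝒪 𝒟)
    (hbar : 𝒟 (GaloisRepAdic.ofResidualGaloisRep ρbar)) (F : Frame 𝒪 ρbar) :
    ∃ K, Admissible F 𝒟 1 K := by
  have hk : IsArtinianTestAlgebra 𝒪 (ResidueField 𝒪) :=
    TestAlgBase.isArtinianTestAlgebra_residueField 𝒪
  have hcont : IsContMat (matOfBasisRes ρbar F.b) :=
    isContMat_of_factors (factors_matOfBasisRes ρbar F.b)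
  have hentry : ∀ g i j, matOfBasisRes ρbar F.b g i j =
      algebraMap 𝒪 (ResidueField 𝒪) (F.rt g i j) := by
    intro g i j
    rw [matOfBasisRes_eq_toMatrix, ← F.hrt g i j, IsLocalRing.ResidueField.algebraMap_eq]
  have hrig : IsRigidLift F (matOfBasisRes ρbar F.b) :=
    { cont := hcont
      lift := fun g i j => by rw [hentry, sub_self]; exact zero_mem _
      h00 := by rw [hentry, F.h00, map_zero]
      h10 := by rw [hentry, F.h10, map_one]
      h1 := hentry _ _ _ }
  have hD : 𝒟 (ofMat (matOfBasisRes ρbar F.b) hrig.cont) :=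
    h𝒟.of_isEquiv hk (ofResidualGaloisRep_isEquiv_ofMat ρbar F.b) hbar
  have hpow : maximalIdeal (ResidueField 𝒪) ^ 1 = ⊥ := by
    rw [pow_one]; exact IsLocalRing.maximalIdeal_eq_bot
  exact ⟨_, adm_ker h𝒟 F 1 (ResidueField 𝒪) hk hpow (matOfBasisRes ρbar F.b) hrig hD⟩

end Fermat.Agent.S53.Adm
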