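import Mathlib
import Fermat.Agent.S53.AdmBasic

/-! Chunk C3b: enlarging an admissible ideal. -/

set_option autoImplicit false

namespace Fermat.Agent.S53.Adm

open IsLocalRing MvPolynomial GaloisRep
open Fermat.Agent.S53 Fermat.Agent.S53.MatRep Fermat.Agent.S53.Universal

variable {𝒪 : Type} [CommRing 𝒪] [IsLocalRing 𝒪] {ρbar : ResidualGaloisRep (ResidueField 𝒪)}
  {𝒟 : ∀ ⦃A : Type⦄ [CommRing A] [IsLocalRing A] [Algebra 𝒪 A], GaloisRepAdic A → Prop}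

/-- Enlarging an admissible ideal inside `m0` keeps it admissible (`h𝒟.baseChangeAlong`). -/
theorem adm_mono [Finite (ResidueField 𝒪)] (h𝒟 : IsDeformationCondition 𝒪 𝒟)
    (F : Frame 𝒪 ρbar) (n m : ℕ) (K K' : Ideal (Pol 𝒪)) (h : Admissible F 𝒟 n K)
    (hKK' : K ≤ K') (hK' : K' ≤ m0 F) (hm : m0 F ^ m ≤ K') : Admissible F 𝒟 m K' := by
  have hmax : (m0 F).IsMaximal := m0_isMaximal F
  have hfinK : Finite (Pol 𝒪 ⧸ K) := h.finite
  have hfin : Finite (Pol 𝒪 ⧸ K') :=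
    Finite.of_surjective (Ideal.Quotient.factor hKK') (Ideal.Quotient.factor_surjective hKK')
  refine
    { pow_le := hm
      le := hK'
      finite := hfin
      mul := fun g g' i j => hKK' (h.mul g g' i j)
      one := fun i j => hKK' (h.one i j)
      cont := ?_
      h00 := hKK' h.h00
      h10 := hKK' h.h10
      h1 := hKK' h.h1
      type := ?_ }
  · obtain ⟨L, hL, hLK⟩ := h.cont
    exact ⟨L, hL, fun σ hσ i j => hKK' (hLK σ hσ i j)⟩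
  · intro hloc' r' hr' hr'X
    have hlocK : IsLocalRing (Pol 𝒪 ⧸ K) := isLocalRing_quot h
    have hPK : IsArtinianTestAlgebra 𝒪 (Pol 𝒪 ⧸ K) := isArtinianTestAlgebra_quot h
    have hPK' : IsArtinianTestAlgebra 𝒪 (Pol 𝒪 ⧸ K') :=
      TestAlg.isArtinianTestAlgebra_quot_of_pow_le 𝒪 (m0 F) K' m hm hK' (m0_res F)
    let φ : (Pol 𝒪 ⧸ K) →ₐ[𝒪] (Pol 𝒪 ⧸ K') := Ideal.Quotient.factorₐ 𝒪 hKK'
    have hφmk : ∀ p : Pol 𝒪, φ (Ideal.Quotient.mk K p) = Ideal.Quotient.mk K' p := fun p => rfl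
    have hφloc : IsLocalHom (φ : (Pol 𝒪 ⧸ K) →+* (Pol 𝒪 ⧸ K')) :=
      IsLocalHom.of_surjective _ (Ideal.Quotient.factor_surjective hKK')
    have hcont : IsContMat (taut h) := (taut_isRigidLift h).cont
    have hmap : mapMat (φ : (Pol 𝒪 ⧸ K) →+* (Pol 𝒪 ⧸ K')) (taut h) = r' := by
      refine MonoidHom.ext fun σ => ?_
      ext i j
      rw [mapMat_apply, hr'X, taut_apply]
      exact hφmk _
    have hD1 : 𝒟 ((ofMat (taut h) hcont).baseChangeAlong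
        (φ : (Pol 𝒪 ⧸ K) →+* (Pol 𝒪 ⧸ K')) hφloc) :=
      h𝒟.baseChangeAlong hPK hPK' φ hφloc (taut_D h hcont)
    have hD2 : 𝒟 (ofMat (mapMat (φ : (Pol 𝒪 ⧸ K) →+* (Pol 𝒪 ⧸ K')) (taut h))
        (hcont.map _ hφloc)) :=
      h𝒟.of_isEquiv hPK' (baseChangeAlong_ofMat_isEquiv _ hφloc (taut h) hcont) hD1
    rw [ofMat_congr hmap (hcont.map _ hφloc) hr'] at hD2
    exact hD2

/-- (C3b) Truncation: from level `n + 1` to level `n`. -/
theorem adm_sup_pow [Finite (ResidueField 𝒪)] (h𝒟 : IsDeformationCondition 𝒪 𝒟)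
    (F : Frame 𝒪 ρbar) (n : ℕ) (K : Ideal (Pol 𝒪)) (hn : 1 ≤ n)
    (h : Admissible F 𝒟 (n + 1) K) : Admissible F 𝒟 n (K ⊔ m0 F ^ n) :=
  adm_mono h𝒟 F (n + 1) n K (K ⊔ m0 F ^ n) h le_sup_left
    (sup_le h.le (Ideal.pow_le_self (by omega))) le_sup_right

end Fermat.Agent.S53.Adm
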