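import Mathlib
import Fermat.Agent.S53.Defs
import Fermat.Agent.S53.AdmBasic
import Fermat.Agent.S53.AdmKer
import Fermat.Agent.S53.Assemble

/-!
Bridge between the captain's skeleton (`Frame`, `IsRigidLift F`, `Admissible F 𝒟 n K`) and the
level hypotheses `Assemble.LevelA` / `Assemble.LevelB` of `Assemble.lean` (owner: helper173).
-/

set_option autoImplicit false

namespace Fermat.Agent.S53.Bridge173

open IsLocalRing MvPolynomial GaloisRep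
open Fermat.Agent.S53 Fermat.Agent.S53.MatRep

variable {𝒪 : Type} [CommRing 𝒪] [IsLocalRing 𝒪] {ρbar : ResidualGaloisRep (ResidueField 𝒪)}
  {𝒟 : ∀ ⦃A : Type⦄ [CommRing A] [IsLocalRing A] [Algebra 𝒪 A], GaloisRepAdic A → Prop}

theorem toAssemble (F : Frame 𝒪 ρbar) {A : Type} [CommRing A] [IsLocalRing A] [Algebra 𝒪 A]
    {r : (AlgebraicClosure ℚ ≃ₐ[ℚ] AlgebraicClosure ℚ) →* Matrix (Fin 2) (Fin 2) A}
    (h : IsRigidLift F r) : Assemble.IsRigidLift F.rt F.g0 F.g1 F.i0 r :=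
  ⟨h.cont, h.lift, h.h00, h.h10, h.h1⟩

theorem ofAssemble (F : Frame 𝒪 ρbar) {A : Type} [CommRing A] [IsLocalRing A] [Algebra 𝒪 A]
    {r : (AlgebraicClosure ℚ ≃ₐ[ℚ] AlgebraicClosure ℚ) →* Matrix (Fin 2) (Fin 2) A}
    (h : Assemble.IsRigidLift F.rt F.g0 F.g1 F.i0 r) : IsRigidLift F r :=
  ⟨h.cont, h.cong, h.e00, h.e10, h.eβ⟩

/-- Level hypothesis (a) of `Assemble` from admissibility of the `J n`. -/
theorem levelA (F : Frame 𝒪 ρbar) (J : ℕ → Ideal (Pol 𝒪))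
    (hadm : ∀ n, 1 ≤ n → Admissible F 𝒟 n (J n)) :
    Assemble.LevelA 𝒪 𝒟 F.rt F.g0 F.g1 F.i0 J := by
  intro n hn
  have h := hadm n hn
  have : IsLocalRing (Pol 𝒪 ⧸ J n) := Adm.isLocalRing_quot h
  have hrig := Adm.taut_isRigidLift h
  exact ⟨Pol 𝒪 ⧸ J n, inferInstance, inferInstance, inferInstance, Ideal.Quotient.mkₐ 𝒪 (J n),
    Adm.taut h, toAssemble F hrig, Adm.isArtinianTestAlgebra_quot h,
    Ideal.Quotient.mkₐ_surjective 𝒪 (J n), Ideal.Quotient.mkₐ_ker 𝒪 (J n),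
    Adm.maximalIdeal_quot_pow h, fun g i j => rfl, Adm.taut_D h hrig.cont⟩

/-- Level hypothesis (b) of `Assemble` from leastness of the `J n` among admissible ideals. -/
theorem levelB [Finite (ResidueField 𝒪)] (h𝒟 : IsDeformationCondition 𝒪 𝒟) (F : Frame 𝒪 ρbar)
    (J : ℕ → Ideal (Pol 𝒪))
    (hleast : ∀ n, 1 ≤ n → ∀ K, Admissible F 𝒟 n K → J n ≤ K) :
    Assemble.LevelB 𝒪 𝒟 F.rt F.g0 F.g1 F.i0 J := by
  intro n hn B _ _ _ hB hpow r hr hD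
  exact hleast n hn _ (Adm.adm_ker h𝒟 F n B hB hpow r (ofAssemble F hr) hD)

theorem hrt_matrix (F : Frame 𝒪 ρbar) (σ : AlgebraicClosure ℚ ≃ₐ[ℚ] AlgebraicClosure ℚ) :
    (F.rt σ).map (residue 𝒪) = LinearMap.toMatrix F.b F.b (ρbar.ρ σ) := by
  ext i j
  rw [Matrix.map_apply]
  exact F.hrt σ i j

section Univ

variable {R : Type} [CommRing R] [IsLocalRing R] [IsHausdorff (maximalIdeal R) R] [Algebra 𝒪 R]

theorem eq_univMat (F : Frame 𝒪 ρbar) (J : ℕ → Ideal (Pol 𝒪))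
    (hJa : Assemble.LevelA 𝒪 𝒟 F.rt F.g0 F.g1 F.i0 J)
    (ι : Pol 𝒪 →ₐ[𝒪] R)
    (hcomap : ∀ n, (maximalIdeal R ^ n).comap ι = J n)
    (rR : (AlgebraicClosure ℚ ≃ₐ[ℚ] AlgebraicClosure ℚ) →* Matrix (Fin 2) (Fin 2) R)
    (hrR : ∀ g i j, rR g i j = ι (X (g, i, j))) :
    rR = Assemble.univMat ι hJa hcomap := by
  ext g i j
  rw [hrR, Assemble.univMat_apply]

end Univ

section Skeleton

variable {R : Type} [CommRing R] [IsLocalRing R] [IsNoetherianRing R]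
  [IsAdicComplete (maximalIdeal R) R] [Algebra 𝒪 R]

/-- (F1+F2), skeleton signature of `FUniv.exists_univ_rep`. -/
theorem exists_univ_rep (F : Frame 𝒪 ρbar) (J : ℕ → Ideal (Pol 𝒪))
    (hadm : ∀ n, 1 ≤ n → Admissible F 𝒟 n (J n))
    (ι : Pol 𝒪 →ₐ[𝒪] R)
    (hcomap : ∀ n, (maximalIdeal R ^ n).comap ι = J n) :
    ∃ rR : (AlgebraicClosure ℚ ≃ₐ[ℚ] AlgebraicClosure ℚ) →* Matrix (Fin 2) (Fin 2) R,
      (∀ g i j, rR g i j = ι (X (g, i, j))) ∧ IsRigidLift F rR :=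
  ⟨Assemble.univMat ι (levelA F J hadm) hcomap, fun _ _ _ => rfl,
    ofAssemble F (Assemble.univMat_isRigidLift ι (levelA F J hadm) hcomap)⟩

/-- (F3/F4), skeleton signature of `FUniv.D_univ_rep`. -/
theorem D_univ_rep (h𝒟 : IsDeformationCondition 𝒪 𝒟)
    (F : Frame 𝒪 ρbar) (J : ℕ → Ideal (Pol 𝒪))
    (hadm : ∀ n, 1 ≤ n → Admissible F 𝒟 n (J n))
    (hloc : IsLocalHom (algebraMap 𝒪 R))
    (hres : Function.Surjective (residue R ∘ algebraMap 𝒪 R))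
    (ι : Pol 𝒪 →ₐ[𝒪] R)
    (hcomap : ∀ n, (maximalIdeal R ^ n).comap ι = J n)
    (rR : (AlgebraicClosure ℚ ≃ₐ[ℚ] AlgebraicClosure ℚ) →* Matrix (Fin 2) (Fin 2) R)
    (hrR : ∀ g i j, rR g i j = ι (X (g, i, j))) (hrig : IsRigidLift F rR) :
    𝒟 (ofMat rR hrig.cont) := by
  have hJa := levelA F J hadm
  have hc := (Assemble.univMat_isRigidLift ι hJa hcomap).cont
  rw [ofMat_congr (eq_univMat F J hJa ι hcomap rR hrR) hrig.cont hc]
  exact Assemble.univMat_isOfType ι h𝒟 hloc hres hJa hcomap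

/-- (G), skeleton signature of `GUniv.universal_property`. -/
theorem universal_property [Finite (ResidueField 𝒪)] (h𝒟 : IsDeformationCondition 𝒪 𝒟)
    (F : Frame 𝒪 ρbar) (J : ℕ → Ideal (Pol 𝒪))
    (hadm : ∀ n, 1 ≤ n → Admissible F 𝒟 n (J n) ∧ ∀ K, Admissible F 𝒟 n K → J n ≤ K)
    (hres : Function.Surjective (residue R ∘ algebraMap 𝒪 R))
    (ι : Pol 𝒪 →ₐ[𝒪] R)
    (hcomap : ∀ n, (maximalIdeal R ^ n).comap ι = J n)
    (hdense : ∀ n (x : R), ∃ p : Pol 𝒪, x - ι p ∈ maximalIdeal R ^ n)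
    (rR : (AlgebraicClosure ℚ ≃ₐ[ℚ] AlgebraicClosure ℚ) →* Matrix (Fin 2) (Fin 2) R)
    (hrR : ∀ g i j, rR g i j = ι (X (g, i, j))) (hrig : IsRigidLift F rR)
    (A : Type) [CommRing A] [IsLocalRing A] [IsNoetherianRing A]
    [IsAdicComplete (maximalIdeal A) A] [Algebra 𝒪 A] [IsLocalHom (algebraMap 𝒪 A)]
    (hresA : Function.Surjective (residue A ∘ algebraMap 𝒪 A))
    (ρA : GaloisRepAdic A) (hD : 𝒟 ρA)
    (hresid : ρA.residual.IsEquiv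
      (ρbar.baseChangeAlong (ResidueField.map (algebraMap 𝒪 A)))) :
    ∃! φ : R →ₐ[𝒪] A, ∃ hφ : IsLocalHom (φ : R →+* A),
      ((ofMat rR hrig.cont).baseChangeAlong (φ : R →+* A) hφ).IsEquiv ρA := by
  have hJa := levelA F J (fun n hn => (hadm n hn).1)
  have hJb := levelB h𝒟 F J (fun n hn => (hadm n hn).2)
  have hc := (Assemble.univMat_isRigidLift ι hJa hcomap).cont
  rw [ofMat_congr (eq_univMat F J hJa ι hcomap rR hrR) hrig.cont hc]
  exact Assemble.universal_property ι h𝒟 ρbar F.b (hrt_matrix F) F.h00 F.h10 F.hcomm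
    hres hJa hJb hcomap hdense A hresA ρA hD hresid

end Skeleton

end Fermat.Agent.S53.Bridge173
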