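import Mathlib
import Fermat.Agent.S53.MatRep

set_option autoImplicit false

namespace Fermat.Agent.S53.UnivRep

open IsLocalRing MvPolynomial Fermat.Agent.S53.MatRep

local notation "Γℚ" => (AlgebraicClosure ℚ ≃ₐ[ℚ] AlgebraicClosure ℚ)

section Hausdorff

variable {R : Type*} [CommRing R]

/-- In an `I`-adically Hausdorff ring, an element of all powers of `I` is zero. -/
theorem eq_zero_of_forall_mem_pow (I : Ideal R) [IsHausdorff I R] {x : R}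
    (h : ∀ n, x ∈ I ^ n) : x = 0 := by
  refine IsHausdorff.haus ‹_› x fun n => ?_
  rw [SModEq.zero, smul_eq_mul, Ideal.mul_top]
  exact h n

end Hausdorff

section Quot

variable {𝒪 : Type*} [CommRing 𝒪] {P R : Type*} [CommRing P] [CommRing R]
  [Algebra 𝒪 P] [Algebra 𝒪 R]

/-- The map `P ⧸ K → R ⧸ I` induced by `ι : P → R` when `K ≤ ι⁻¹ I`. -/
noncomputable def quotHom (ι : P →ₐ[𝒪] R) (I : Ideal R) (K : Ideal P) (hK : K ≤ I.comap ι) :
    P ⧸ K →ₐ[𝒪] R ⧸ I :=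
  Ideal.quotientMapₐ I ι hK

@[simp] theorem quotHom_mk (ι : P →ₐ[𝒪] R) (I : Ideal R) (K : Ideal P) (hK : K ≤ I.comap ι)
    (p : P) : quotHom ι I K hK (Ideal.Quotient.mk K p) = Ideal.Quotient.mk I (ι p) := rfl

theorem quotHom_injective (ι : P →ₐ[𝒪] R) (I : Ideal R) (K : Ideal P) (hK : I.comap ι = K) :
    Function.Injective (quotHom ι I K hK.ge) := by
  intro x y hxy
  obtain ⟨p, rfl⟩ := Ideal.Quotient.mk_surjective x
  obtain ⟨q, rfl⟩ := Ideal.Quotient.mk_surjective y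
  rw [quotHom_mk, quotHom_mk, Ideal.Quotient.eq, ← map_sub] at hxy
  rw [Ideal.Quotient.eq, ← hK]
  exact hxy

theorem quotHom_surjective (ι : P →ₐ[𝒪] R) (I : Ideal R) (K : Ideal P) (hK : K ≤ I.comap ι)
    (hdense : ∀ x : R, ∃ p : P, x - ι p ∈ I) : Function.Surjective (quotHom ι I K hK) := by
  intro y
  obtain ⟨x, rfl⟩ := Ideal.Quotient.mk_surjective y
  obtain ⟨p, hp⟩ := hdense x
  refine ⟨Ideal.Quotient.mk K p, ?_⟩
  rw [quotHom_mk, Ideal.Quotient.eq]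
  have : ι p - x = -(x - ι p) := by ring
  rw [this]
  exact I.neg_mem hp

/-- `P ⧸ K ≃ R ⧸ I` when `K = ι⁻¹ I` and `ι` has dense image modulo `I`. -/
noncomputable def quotEquiv (ι : P →ₐ[𝒪] R) (I : Ideal R) (K : Ideal P) (hK : I.comap ι = K)
    (hdense : ∀ x : R, ∃ p : P, x - ι p ∈ I) : (P ⧸ K) ≃ₐ[𝒪] (R ⧸ I) :=
  AlgEquiv.ofBijective (quotHom ι I K hK.ge)
    ⟨quotHom_injective ι I K hK, quotHom_surjective ι I K hK.ge hdense⟩

@[simp] theorem quotEquiv_mk (ι : P →ₐ[𝒪] R) (I : Ideal R) (K : Ideal P) (hK : I.comap ι = K)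
    (hdense : ∀ x : R, ∃ p : P, x - ι p ∈ I) (p : P) :
    quotEquiv ι I K hK hdense (Ideal.Quotient.mk K p) = Ideal.Quotient.mk I (ι p) := rfl

/-- If `p` lies in `J n = ι⁻¹ (I ^ n)` for all `n ≥ 1` and `R` is `I`-adically Hausdorff,
then `ι p = 0`. -/
theorem map_eq_zero_of_forall_mem (ι : P →ₐ[𝒪] R) (I : Ideal R) [IsHausdorff I R]
    (J : ℕ → Ideal P) (hcomap : ∀ n, (I ^ n).comap ι = J n) {p : P}
    (hp : ∀ n, 1 ≤ n → p ∈ J n) : ι p = 0 := by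
  refine eq_zero_of_forall_mem_pow I fun n => ?_
  rcases Nat.eq_zero_or_pos n with rfl | hn
  · simp
  · have := hp n hn
    rw [← hcomap n] at this
    exact this

end Quot

section Univ

variable {𝒪 : Type} [CommRing 𝒪] {Γ : Type} [Monoid Γ] {R : Type} [CommRing R] [Algebra 𝒪 R]

/-- The matrix of images of the variables `X (g, i, j)`. -/
noncomputable def univFun (ι : MvPolynomial (Γ × Fin 2 × Fin 2) 𝒪 →ₐ[𝒪] R) (g : Γ) :
    Matrix (Fin 2) (Fin 2) R :=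
  Matrix.of fun i j => ι (X (g, i, j))

omit [Monoid Γ] in
@[simp] theorem univFun_apply (ι : MvPolynomial (Γ × Fin 2 × Fin 2) 𝒪 →ₐ[𝒪] R) (g : Γ)
    (i j : Fin 2) : univFun ι g i j = ι (X (g, i, j)) := rfl

omit [Monoid Γ] in
theorem map_C_one_apply (ι : MvPolynomial (Γ × Fin 2 × Fin 2) 𝒪 →ₐ[𝒪] R) (i j : Fin 2) :
    ι (C ((1 : Matrix (Fin 2) (Fin 2) 𝒪) i j)) = (1 : Matrix (Fin 2) (Fin 2) R) i j := by
  rw [← MvPolynomial.algebraMap_eq, AlgHom.commutes, Matrix.one_apply, Matrix.one_apply]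
  split_ifs <;> simp

/-- (F1) The universal matrix-valued hom `g ↦ (ι (X (g,i,j)))` over a Hausdorff ring `R`,
given that the tautological family is multiplicative modulo every `J n = ι⁻¹ (I ^ n)`. -/
noncomputable def univMat (ι : MvPolynomial (Γ × Fin 2 × Fin 2) 𝒪 →ₐ[𝒪] R) (I : Ideal R)
    [IsHausdorff I R] (J : ℕ → Ideal (MvPolynomial (Γ × Fin 2 × Fin 2) 𝒪))
    (hcomap : ∀ n, (I ^ n).comap ι = J n)
    (hone : ∀ n, 1 ≤ n → ∀ i j,
      (X ((1 : Γ), i, j) - C ((1 : Matrix (Fin 2) (Fin 2) 𝒪) i j) :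
        MvPolynomial (Γ × Fin 2 × Fin 2) 𝒪) ∈ J n)
    (hmul : ∀ n, 1 ≤ n → ∀ (g h : Γ) i j,
      (X (g * h, i, j) - ∑ k, X (g, i, k) * X (h, k, j) :
        MvPolynomial (Γ × Fin 2 × Fin 2) 𝒪) ∈ J n) :
    Γ →* Matrix (Fin 2) (Fin 2) R where
  toFun := univFun ι
  map_one' := by
    ext i j
    have h := map_eq_zero_of_forall_mem ι I J hcomap (fun n hn => hone n hn i j)
    rw [map_sub, sub_eq_zero, map_C_one_apply] at h
    rw [univFun_apply, h]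
  map_mul' g h := by
    ext i j
    have h' := map_eq_zero_of_forall_mem ι I J hcomap (fun n hn => hmul n hn g h i j)
    rw [map_sub, sub_eq_zero, map_sum] at h'
    rw [univFun_apply, h', Matrix.mul_apply]
    simp only [map_mul, univFun_apply]

@[simp] theorem univMat_apply (ι : MvPolynomial (Γ × Fin 2 × Fin 2) 𝒪 →ₐ[𝒪] R) (I : Ideal R)
    [IsHausdorff I R] (J : ℕ → Ideal (MvPolynomial (Γ × Fin 2 × Fin 2) 𝒪))
    (hcomap : ∀ n, (I ^ n).comap ι = J n)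
    (hone : ∀ n, 1 ≤ n → ∀ i j,
      (X ((1 : Γ), i, j) - C ((1 : Matrix (Fin 2) (Fin 2) 𝒪) i j) :
        MvPolynomial (Γ × Fin 2 × Fin 2) 𝒪) ∈ J n)
    (hmul : ∀ n, 1 ≤ n → ∀ (g h : Γ) i j,
      (X (g * h, i, j) - ∑ k, X (g, i, k) * X (h, k, j) :
        MvPolynomial (Γ × Fin 2 × Fin 2) 𝒪) ∈ J n) (g : Γ) (i j : Fin 2) :
    univMat ι I J hcomap hone hmul g i j = ι (X (g, i, j)) := rfl

/-- relation `one` from a monoid hom to the quotient given by the variables. -/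
theorem hone_of_hom (K : Ideal (MvPolynomial (Γ × Fin 2 × Fin 2) 𝒪))
    (r : Γ →* Matrix (Fin 2) (Fin 2) (MvPolynomial (Γ × Fin 2 × Fin 2) 𝒪 ⧸ K))
    (hr : ∀ g i j, r g i j = Ideal.Quotient.mk K (X (g, i, j))) (i j : Fin 2) :
    (X ((1 : Γ), i, j) - C ((1 : Matrix (Fin 2) (Fin 2) 𝒪) i j) :
      MvPolynomial (Γ × Fin 2 × Fin 2) 𝒪) ∈ K := by
  rw [← Ideal.Quotient.eq_zero_iff_mem, map_sub, ← hr, map_one, sub_eq_zero,
    Matrix.one_apply, Matrix.one_apply]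
  split_ifs <;> simp

/-- relation `mul` from a monoid hom to the quotient given by the variables. -/
theorem hmul_of_hom (K : Ideal (MvPolynomial (Γ × Fin 2 × Fin 2) 𝒪))
    (r : Γ →* Matrix (Fin 2) (Fin 2) (MvPolynomial (Γ × Fin 2 × Fin 2) 𝒪 ⧸ K))
    (hr : ∀ g i j, r g i j = Ideal.Quotient.mk K (X (g, i, j))) (g h : Γ) (i j : Fin 2) :
    (X (g * h, i, j) - ∑ k, X (g, i, k) * X (h, k, j) :
      MvPolynomial (Γ × Fin 2 × Fin 2) 𝒪) ∈ K := by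
  rw [← Ideal.Quotient.eq_zero_iff_mem, map_sub, ← hr, map_mul, sub_eq_zero, Matrix.mul_apply,
    map_sum]
  simp only [map_mul, hr]

omit [Monoid Γ] in
/-- (F3) an entry of the universal matrix equals a constant if the corresponding relation
holds modulo every `J n`. -/
theorem univMat_eq_algebraMap (ι : MvPolynomial (Γ × Fin 2 × Fin 2) 𝒪 →ₐ[𝒪] R) (I : Ideal R)
    [IsHausdorff I R] (J : ℕ → Ideal (MvPolynomial (Γ × Fin 2 × Fin 2) 𝒪))
    (hcomap : ∀ n, (I ^ n).comap ι = J n) (g : Γ) (i j : Fin 2) (β : 𝒪)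
    (hβ : ∀ n, 1 ≤ n → (X (g, i, j) - C β : MvPolynomial (Γ × Fin 2 × Fin 2) 𝒪) ∈ J n) :
    ι (X (g, i, j)) = algebraMap 𝒪 R β := by
  have h := map_eq_zero_of_forall_mem ι I J hcomap hβ
  rwa [map_sub, sub_eq_zero, ← MvPolynomial.algebraMap_eq, AlgHom.commutes] at h

omit [Monoid Γ] in
/-- (F3) congruence of an entry of the universal matrix modulo `I`, from level one. -/
theorem univMat_sub_algebraMap_mem (ι : MvPolynomial (Γ × Fin 2 × Fin 2) 𝒪 →ₐ[𝒪] R)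
    (I : Ideal R) (J : ℕ → Ideal (MvPolynomial (Γ × Fin 2 × Fin 2) 𝒪))
    (hcomap : ∀ n, (I ^ n).comap ι = J n) (g : Γ) (i j : Fin 2) (β : 𝒪)
    (hβ : (X (g, i, j) - C β : MvPolynomial (Γ × Fin 2 × Fin 2) 𝒪) ∈ J 1) :
    ι (X (g, i, j)) - algebraMap 𝒪 R β ∈ I := by
  rw [← hcomap 1, pow_one, Ideal.mem_comap, map_sub, ← MvPolynomial.algebraMap_eq,
    AlgHom.commutes] at hβ
  exact hβ

end Univ

section Galois

variable {𝒪 : Type} [CommRing 𝒪] {R : Type} [CommRing R] [IsLocalRing R] [Algebra 𝒪 R]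

/-- continuity relation from a hom to the quotient which is trivial on an open subgroup. -/
theorem hcont_of_hom (K : Ideal (MvPolynomial (Γℚ × Fin 2 × Fin 2) 𝒪))
    (r : Γℚ →* Matrix (Fin 2) (Fin 2) (MvPolynomial (Γℚ × Fin 2 × Fin 2) 𝒪 ⧸ K))
    (hr : ∀ g i j, r g i j = Ideal.Quotient.mk K (X (g, i, j)))
    (hcont : ∃ L : IntermediateField ℚ (AlgebraicClosure ℚ), FiniteDimensional ℚ L ∧
      ∀ σ : Γℚ, (∀ x ∈ L, σ x = x) → r σ = 1) :
    ∃ L : IntermediateField ℚ (AlgebraicClosure ℚ), FiniteDimensional ℚ L ∧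
      ∀ σ : Γℚ, (∀ x ∈ L, σ x = x) → ∀ i j,
        (X (σ, i, j) - C ((1 : Matrix (Fin 2) (Fin 2) 𝒪) i j) :
          MvPolynomial (Γℚ × Fin 2 × Fin 2) 𝒪) ∈ K := by
  obtain ⟨L, hL, h⟩ := hcont
  refine ⟨L, hL, fun σ hσ i j => ?_⟩
  rw [← Ideal.Quotient.eq_zero_iff_mem, map_sub, ← hr, h σ hσ, sub_eq_zero,
    Matrix.one_apply, Matrix.one_apply]
  split_ifs <;> simp

/-- (F2) the universal matrix-valued hom is adically continuous. -/
theorem isContMat_univMat [IsHausdorff (maximalIdeal R) R]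
    (ι : MvPolynomial (Γℚ × Fin 2 × Fin 2) 𝒪 →ₐ[𝒪] R)
    (J : ℕ → Ideal (MvPolynomial (Γℚ × Fin 2 × Fin 2) 𝒪))
    (hcomap : ∀ n, (maximalIdeal R ^ n).comap ι = J n)
    (hone : ∀ n, 1 ≤ n → ∀ i j,
      (X ((1 : Γℚ), i, j) - C ((1 : Matrix (Fin 2) (Fin 2) 𝒪) i j) :
        MvPolynomial (Γℚ × Fin 2 × Fin 2) 𝒪) ∈ J n)
    (hmul : ∀ n, 1 ≤ n → ∀ (g h : Γℚ) i j,
      (X (g * h, i, j) - ∑ k, X (g, i, k) * X (h, k, j) :
        MvPolynomial (Γℚ × Fin 2 × Fin 2) 𝒪) ∈ J n)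
    (hcont : ∀ n, 1 ≤ n → ∃ L : IntermediateField ℚ (AlgebraicClosure ℚ),
      FiniteDimensional ℚ L ∧ ∀ σ : Γℚ, (∀ x ∈ L, σ x = x) → ∀ i j,
        (X (σ, i, j) - C ((1 : Matrix (Fin 2) (Fin 2) 𝒪) i j) :
          MvPolynomial (Γℚ × Fin 2 × Fin 2) 𝒪) ∈ J n) :
    IsContMat (univMat ι (maximalIdeal R) J hcomap hone hmul) := by
  intro n
  rcases Nat.eq_zero_or_pos n with rfl | hn
  · exact ⟨⊥, inferInstance, fun σ _ i j => by simp⟩
  · obtain ⟨L, hL, h⟩ := hcont n hn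
    refine ⟨L, hL, fun σ hσ i j => ?_⟩
    have h1 := h σ hσ i j
    rw [← hcomap n, Ideal.mem_comap, map_sub, map_C_one_apply] at h1
    exact h1

/-- (F3) reduction of the universal matrices modulo `𝔪_R ^ n` is the image of the
tautological hom over `Pol ⧸ J n` under the comparison map `Pol ⧸ J n → R ⧸ 𝔪_R ^ n`. -/
theorem mapMat_mk_univMat [IsHausdorff (maximalIdeal R) R]
    (ι : MvPolynomial (Γℚ × Fin 2 × Fin 2) 𝒪 →ₐ[𝒪] R)
    (J : ℕ → Ideal (MvPolynomial (Γℚ × Fin 2 × Fin 2) 𝒪))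
    (hcomap : ∀ n, (maximalIdeal R ^ n).comap ι = J n)
    (hone : ∀ n, 1 ≤ n → ∀ i j,
      (X ((1 : Γℚ), i, j) - C ((1 : Matrix (Fin 2) (Fin 2) 𝒪) i j) :
        MvPolynomial (Γℚ × Fin 2 × Fin 2) 𝒪) ∈ J n)
    (hmul : ∀ n, 1 ≤ n → ∀ (g h : Γℚ) i j,
      (X (g * h, i, j) - ∑ k, X (g, i, k) * X (h, k, j) :
        MvPolynomial (Γℚ × Fin 2 × Fin 2) 𝒪) ∈ J n)
    (n : ℕ) (r : Γℚ →* Matrix (Fin 2) (Fin 2) (MvPolynomial (Γℚ × Fin 2 × Fin 2) 𝒪 ⧸ J n))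
    (hr : ∀ g i j, r g i j = Ideal.Quotient.mk (J n) (X (g, i, j))) :
    mapMat (Ideal.Quotient.mk (maximalIdeal R ^ n))
        (univMat ι (maximalIdeal R) J hcomap hone hmul) =
      mapMat ((quotHom ι (maximalIdeal R ^ n) (J n) (hcomap n).ge : _ →ₐ[𝒪] _) : _ →+* _) r := by
  ext σ i j
  rw [mapMat_apply, mapMat_apply, univMat_apply, hr]
  rfl

end Galois

end Fermat.Agent.S53.UnivRep
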