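import Mathlib
import Fermat.Agent.S53.Defs
import Fermat.Agent.S53.Universal
import Fermat.Agent.S53.UnivRep
import Fermat.Agent.S53.AdmBasic

/-! Chunk F: the universal matrix representation over the limit ring. -/

set_option autoImplicit false

namespace Fermat.Agent.S53.FUniv

open IsLocalRing MvPolynomial GaloisRep
open Fermat.Agent.S53 Fermat.Agent.S53.MatRep

variable {𝒪 : Type} [CommRing 𝒪] [IsLocalRing 𝒪] {ρbar : ResidualGaloisRep (ResidueField 𝒪)}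
  {𝒟 : ∀ ⦃A : Type⦄ [CommRing A] [IsLocalRing A] [Algebra 𝒪 A], GaloisRepAdic A → Prop}
  {R : Type} [CommRing R] [IsLocalRing R] [IsNoetherianRing R]
  [IsAdicComplete (maximalIdeal R) R] [Algebra 𝒪 R]

/-- (F1+F2) The matrices `ι (X (g, i, j))` form a rigid lift over `R`. -/
theorem exists_univ_rep (F : Frame 𝒪 ρbar) (J : ℕ → Ideal (Pol 𝒪))
    (hadm : ∀ n, 1 ≤ n → Admissible F 𝒟 n (J n))
    (hloc : IsLocalHom (algebraMap 𝒪 R))
    (hres : Function.Surjective (residue R ∘ algebraMap 𝒪 R))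
    (ι : Pol 𝒪 →ₐ[𝒪] R)
    (hcomap : ∀ n, (maximalIdeal R ^ n).comap ι = J n)
    (hdense : ∀ n (x : R), ∃ p : Pol 𝒪, x - ι p ∈ maximalIdeal R ^ n) :
    ∃ rR : (AlgebraicClosure ℚ ≃ₐ[ℚ] AlgebraicClosure ℚ) →* Matrix (Fin 2) (Fin 2) R,
      (∀ g i j, rR g i j = ι (X (g, i, j))) ∧ IsRigidLift F rR := by
  sorry

end Fermat.Agent.S53.FUniv
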