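import Mathlib
import Fermat.Prelude.Def_GaloisRep_DeformationCondition
import Fermat.Agent.S53.MatRep
import Fermat.Agent.S53.TestAlgBase

set_option autoImplicit false
set_option linter.unusedSectionVars false

namespace Fermat.Agent.S53.Levels

open IsLocalRing Fermat.Agent.S53.MatRep Fermat.Agent.S53.TestAlgBase

local notation "Γℚ" => (AlgebraicClosure ℚ ≃ₐ[ℚ] AlgebraicClosure ℚ)

section Comp

variable {A B C : Type} [CommRing A] [IsLocalRing A] [CommRing B] [IsLocalRing B]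
  [CommRing C] [IsLocalRing C]

theorem isEquiv_refl (ρ : GaloisRepAdic A) : ρ.IsEquiv ρ := ⟨GaloisRepAdic.Equiv.refl ρ⟩

theorem isEquiv_symm {ρ ρ' : GaloisRepAdic A} (h : ρ.IsEquiv ρ') : ρ'.IsEquiv ρ :=
  h.elim fun e => ⟨e.symm⟩

theorem isEquiv_trans {ρ ρ' ρ'' : GaloisRepAdic A} (h : ρ.IsEquiv ρ') (h' : ρ'.IsEquiv ρ'') :
    ρ.IsEquiv ρ'' :=
  h.elim fun e => h'.elim fun e' => ⟨e.trans e'⟩

theorem isEquiv_baseChangeAlong (φ : A →+* B) (hφ : IsLocalHom φ) {ρ ρ' : GaloisRepAdic A}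
    (h : ρ.IsEquiv ρ') : (ρ.baseChangeAlong φ hφ).IsEquiv (ρ'.baseChangeAlong φ hφ) :=
  h.elim fun e => ⟨e.baseChangeAlong φ hφ⟩

theorem baseChangeAlong_congr {φ φ' : A →+* B} (h : φ = φ') (hφ : IsLocalHom φ)
    (hφ' : IsLocalHom φ') (ρ : GaloisRepAdic A) :
    (ρ.baseChangeAlong φ hφ).IsEquiv (ρ.baseChangeAlong φ' hφ') := by
  subst h
  exact isEquiv_refl _

/-- (L0) transitivity of base change, up to equivalence. -/
theorem baseChangeAlong_comp (φ : A →+* B) (hφ : IsLocalHom φ) (ψ : B →+* C) (hψ : IsLocalHom ψ)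
    (hψφ : IsLocalHom (ψ.comp φ)) (ρ : GaloisRepAdic A) :
    ((ρ.baseChangeAlong φ hφ).baseChangeAlong ψ hψ).IsEquiv
      (ρ.baseChangeAlong (ψ.comp φ) hψφ) := by
  obtain ⟨b⟩ := nonempty_basis ρ
  refine isEquiv_of_matOfBasis_eq _ _
    (baseChangeBasis ψ hψ _ (baseChangeBasis φ hφ ρ b)) (baseChangeBasis (ψ.comp φ) hψφ ρ b) ?_
  rw [matOfBasis_baseChangeAlong, matOfBasis_baseChangeAlong, matOfBasis_baseChangeAlong,
    mapMat_comp]

theorem baseChangeAlong_comp' (φ : A →+* B) (hφ : IsLocalHom φ) (ψ : B →+* C) (hψ : IsLocalHom ψ)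
    (χ : A →+* C) (hχ : IsLocalHom χ) (h : ψ.comp φ = χ) (ρ : GaloisRepAdic A) :
    ((ρ.baseChangeAlong φ hφ).baseChangeAlong ψ hψ).IsEquiv (ρ.baseChangeAlong χ hχ) := by
  subst h
  exact baseChangeAlong_comp φ hφ ψ hψ hχ ρ

end Comp

section Levels

variable (𝒪 : Type) [CommRing 𝒪] [IsLocalRing 𝒪]
variable {𝒟 : ∀ ⦃A : Type⦄ [CommRing A] [IsLocalRing A] [Algebra 𝒪 A], GaloisRepAdic A → Prop}

/-- a ring hom out of a quotient of a local ring whose composite with `mk` is local is local. -/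
theorem isLocalHom_of_comp_mk {A B : Type} [CommRing A] [IsLocalRing A] [CommRing B]
    (I : Ideal A) (ψ : A ⧸ I →+* B) (h : IsLocalHom (ψ.comp (Ideal.Quotient.mk I))) :
    IsLocalHom ψ := by
  refine ⟨fun x hx => ?_⟩
  obtain ⟨a, rfl⟩ := Ideal.Quotient.mk_surjective x
  have ha : IsUnit a := h.map_nonunit a hx
  exact ha.map _

/-- (L2) `𝒟 ρ` over a complete noetherian local `A` implies `𝒟` of every reduction mod `𝔪ⁿ`. -/
theorem to_level [Finite (ResidueField 𝒪)] (h𝒟 : GaloisRep.IsDeformationCondition 𝒪 𝒟)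
    (A : Type) [CommRing A] [IsLocalRing A] [IsNoetherianRing A]
    [IsAdicComplete (maximalIdeal A) A] [Algebra 𝒪 A]
    (hloc : IsLocalHom (algebraMap 𝒪 A))
    (hres : Function.Surjective (IsLocalRing.residue A ∘ algebraMap 𝒪 A))
    (ρ : GaloisRepAdic A) (hρ : 𝒟 ρ) (n : ℕ) [IsLocalRing (A ⧸ maximalIdeal A ^ n)]
    (hq : IsLocalHom (Ideal.Quotient.mk (maximalIdeal A ^ n))) :
    𝒟 (ρ.baseChangeAlong (Ideal.Quotient.mk (maximalIdeal A ^ n)) hq) :=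
  (h𝒟.iff_forall_surjective hloc hres ρ).mp hρ
    (isArtinianTestAlgebra_quotient_pow 𝒪 A hloc hres n)
    (Ideal.Quotient.mkₐ 𝒪 (maximalIdeal A ^ n)) hq Ideal.Quotient.mk_surjective

/-- (L1) `𝒟 ρ` over a complete noetherian local `A` follows from `𝒟` of all reductions mod `𝔪ⁿ`. -/
theorem of_levels [Finite (ResidueField 𝒪)] (h𝒟 : GaloisRep.IsDeformationCondition 𝒪 𝒟)
    (A : Type) [CommRing A] [IsLocalRing A] [IsNoetherianRing A]
    [IsAdicComplete (maximalIdeal A) A] [Algebra 𝒪 A]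
    (hloc : IsLocalHom (algebraMap 𝒪 A))
    (hres : Function.Surjective (IsLocalRing.residue A ∘ algebraMap 𝒪 A))
    (ρ : GaloisRepAdic A)
    (h : ∀ (n : ℕ) [IsLocalRing (A ⧸ maximalIdeal A ^ n)]
      (hq : IsLocalHom (Ideal.Quotient.mk (maximalIdeal A ^ n))),
      𝒟 (ρ.baseChangeAlong (Ideal.Quotient.mk (maximalIdeal A ^ n)) hq)) :
    𝒟 ρ := by
  refine (h𝒟.iff_forall_surjective hloc hres ρ).mpr ?_
  intro B _ _ _ hB q hq _
  have hBart := hB.isArtinian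
  obtain ⟨n, hn⟩ := exists_maximalIdeal_pow_eq_bot B
  have hN : maximalIdeal B ^ (n + 1) = ⊥ := by
    rw [eq_bot_iff, ← hn]
    exact Ideal.pow_le_pow_right (Nat.le_succ n)
  have hloc' := isLocalRing_quotient_pow A (Nat.succ_ne_zero n)
  have hmk := isLocalHom_quotient_mk A (maximalIdeal A ^ (n + 1))
  have hker : ∀ a ∈ maximalIdeal A ^ (n + 1), q a = 0 := fun a ha =>
    maximalIdeal_pow_le_ker (q : A →+* B) hN ha
  let qbar : A ⧸ maximalIdeal A ^ (n + 1) →ₐ[𝒪] B :=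
    Ideal.Quotient.liftₐ (maximalIdeal A ^ (n + 1)) q hker
  have hcomp : (qbar : A ⧸ maximalIdeal A ^ (n + 1) →+* B).comp
      (Ideal.Quotient.mk (maximalIdeal A ^ (n + 1))) = (q : A →+* B) := by
    ext a
    rfl
  have hqbar : IsLocalHom (qbar : A ⧸ maximalIdeal A ^ (n + 1) →+* B) :=
    isLocalHom_of_comp_mk _ _ (by rw [hcomp]; exact hq)
  have h1 := h (n + 1) hmk
  have h2 := h𝒟.baseChangeAlong (isArtinianTestAlgebra_quotient_pow 𝒪 A hloc hres (n + 1)) hB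
    qbar hqbar h1
  exact h𝒟.of_isEquiv hB
    (baseChangeAlong_comp' _ hmk _ hqbar (q : A →+* B) hq hcomp ρ) h2

/-- (L3) matrix form of (L2). -/
theorem ofMat_to_level [Finite (ResidueField 𝒪)] (h𝒟 : GaloisRep.IsDeformationCondition 𝒪 𝒟)
    (A : Type) [CommRing A] [IsLocalRing A] [IsNoetherianRing A]
    [IsAdicComplete (maximalIdeal A) A] [Algebra 𝒪 A]
    (hloc : IsLocalHom (algebraMap 𝒪 A))
    (hres : Function.Surjective (IsLocalRing.residue A ∘ algebraMap 𝒪 A))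
    (r : Γℚ →* Matrix (Fin 2) (Fin 2) A) (hr : IsContMat r) (hρ : 𝒟 (ofMat r hr)) (n : ℕ)
    [IsLocalRing (A ⧸ maximalIdeal A ^ n)]
    (hr' : IsContMat (mapMat (Ideal.Quotient.mk (maximalIdeal A ^ n)) r)) :
    𝒟 (ofMat (mapMat (Ideal.Quotient.mk (maximalIdeal A ^ n)) r) hr') := by
  have hq := isLocalHom_quotient_mk A (maximalIdeal A ^ n)
  exact h𝒟.of_isEquiv (isArtinianTestAlgebra_quotient_pow 𝒪 A hloc hres n)
    (baseChangeAlong_ofMat_isEquiv _ hq r hr)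
    (to_level 𝒪 h𝒟 A hloc hres (ofMat r hr) hρ n hq)

/-- (L3) matrix form of (L1). -/
theorem ofMat_of_levels [Finite (ResidueField 𝒪)] (h𝒟 : GaloisRep.IsDeformationCondition 𝒪 𝒟)
    (A : Type) [CommRing A] [IsLocalRing A] [IsNoetherianRing A]
    [IsAdicComplete (maximalIdeal A) A] [Algebra 𝒪 A]
    (hloc : IsLocalHom (algebraMap 𝒪 A))
    (hres : Function.Surjective (IsLocalRing.residue A ∘ algebraMap 𝒪 A))
    (r : Γℚ →* Matrix (Fin 2) (Fin 2) A) (hr : IsContMat r)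
    (h : ∀ (n : ℕ) [IsLocalRing (A ⧸ maximalIdeal A ^ n)]
      (hr' : IsContMat (mapMat (Ideal.Quotient.mk (maximalIdeal A ^ n)) r)),
      𝒟 (ofMat (mapMat (Ideal.Quotient.mk (maximalIdeal A ^ n)) r) hr')) :
    𝒟 (ofMat r hr) := by
  refine of_levels 𝒪 h𝒟 A hloc hres (ofMat r hr) ?_
  intro n _ hq
  exact h𝒟.of_isEquiv (isArtinianTestAlgebra_quotient_pow 𝒪 A hloc hres n)
    (isEquiv_symm (baseChangeAlong_ofMat_isEquiv _ hq r hr)) (h n (hr.map _ hq))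

end Levels

end Fermat.Agent.S53.Levels
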