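import Mathlib
import Fermat.Prelude.Def_GaloisRep_DeformationCondition

set_option autoImplicit false

namespace Fermat.Agent.S53.FibreSq

open IsLocalRing GaloisRep

section Basic

variable {𝒪 : Type} [CommRing 𝒪]
variable {A : Type} [CommRing A] [IsLocalRing A] [Algebra 𝒪 A]

/-- The residue field of a test algebra is finite when that of `𝒪` is. -/
theorem finite_residueField [IsLocalRing 𝒪] [Finite (ResidueField 𝒪)]
    (hA : IsArtinianTestAlgebra 𝒪 A) : Finite (ResidueField A) := by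
  have := hA.isLocalHom
  have hsurj : Function.Surjective (ResidueField.map (algebraMap 𝒪 A)) := by
    intro y
    obtain ⟨c, hc⟩ := hA.residue_surjective y
    exact ⟨residue 𝒪 c, by rw [ResidueField.map_residue]; exact hc⟩
  exact Finite.of_surjective _ hsurj

/-- TA1: a test algebra over `𝒪` with finite residue field is a finite ring. -/
theorem finite_of_isArtinianTestAlgebra [IsLocalRing 𝒪] [Finite (ResidueField 𝒪)]
    (hA : IsArtinianTestAlgebra 𝒪 A) : Finite A := by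
  have := hA.isArtinian
  have := finite_residueField hA
  have h : Finite (A ⧸ (⊥ : Ideal A)) := by
    rw [IsLocalRing.finite_quotient_iff]
    obtain ⟨n, hn⟩ := IsArtinianRing.isNilpotent_jacobson_bot (R := A)
    refine ⟨n, ?_⟩
    rw [jacobson_eq_maximalIdeal _ bot_ne_top] at hn
    rw [hn]; exact le_of_eq rfl
  exact Finite.of_equiv _ (RingEquiv.quotientBot A).toEquiv

/-- The maximal ideal of a test algebra is nilpotent. -/
theorem exists_maximalIdeal_pow_eq_bot (hA : IsArtinianTestAlgebra 𝒪 A) :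
    ∃ n : ℕ, maximalIdeal A ^ n = ⊥ := by
  have := hA.isArtinian
  obtain ⟨n, hn⟩ := IsArtinianRing.isNilpotent_jacobson_bot (R := A)
  rw [jacobson_eq_maximalIdeal _ bot_ne_top] at hn
  exact ⟨n, hn⟩

/-- For every element of a test algebra there is a scalar with the same residue. -/
theorem exists_algebraMap_sub_mem (hres : Function.Surjective (residue A ∘ algebraMap 𝒪 A))
    (a : A) : ∃ c : 𝒪, a - algebraMap 𝒪 A c ∈ maximalIdeal A := by
  obtain ⟨c, hc⟩ := hres (residue A a)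
  refine ⟨c, ?_⟩
  have hc' : residue A (algebraMap 𝒪 A c) = residue A a := hc
  rw [← residue_eq_zero_iff, map_sub, hc', sub_self]

end Basic

section Quot

variable {𝒪 : Type} [CommRing 𝒪]
variable {A : Type} [CommRing A] [IsLocalRing A] [Algebra 𝒪 A]

theorem isLocalRing_quotient {I : Ideal A} (hI : I ≠ ⊤) : IsLocalRing (A ⧸ I) := by
  have : Nontrivial (A ⧸ I) := Ideal.Quotient.nontrivial_iff.mpr hI
  exact IsLocalRing.of_surjective' (Ideal.Quotient.mk I) Ideal.Quotient.mk_surjective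

theorem isLocalHom_mk (I : Ideal A) [IsLocalRing (A ⧸ I)] :
    IsLocalHom (Ideal.Quotient.mk I) :=
  IsLocalHom.of_surjective (Ideal.Quotient.mk I) Ideal.Quotient.mk_surjective

theorem isLocalHom_mkₐ (I : Ideal A) [IsLocalRing (A ⧸ I)] :
    IsLocalHom ((Ideal.Quotient.mkₐ 𝒪 I : A →ₐ[𝒪] A ⧸ I) : A →+* A ⧸ I) :=
  isLocalHom_mk I

theorem isLocalHom_algebraMap_quotient (h1 : IsLocalHom (algebraMap 𝒪 A)) (I : Ideal A)
    [IsLocalRing (A ⧸ I)] : IsLocalHom (algebraMap 𝒪 (A ⧸ I)) := by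
  have h2 := isLocalHom_mk I
  constructor
  intro c hc
  have hc' : IsUnit (Ideal.Quotient.mk I (algebraMap 𝒪 A c)) := hc
  exact isUnit_of_map_unit (algebraMap 𝒪 A) c (isUnit_of_map_unit (Ideal.Quotient.mk I) _ hc')

theorem residue_surjective_quotient
    (hres : Function.Surjective (residue A ∘ algebraMap 𝒪 A)) (I : Ideal A)
    [IsLocalRing (A ⧸ I)] :
    Function.Surjective (residue (A ⧸ I) ∘ algebraMap 𝒪 (A ⧸ I)) := by
  have h2 := isLocalHom_mk I
  intro y
  obtain ⟨x, rfl⟩ := residue_surjective y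
  obtain ⟨a, rfl⟩ := Ideal.Quotient.mk_surjective x
  obtain ⟨c, hc⟩ := exists_algebraMap_sub_mem hres a
  refine ⟨c, ?_⟩
  show residue (A ⧸ I) (Ideal.Quotient.mk I (algebraMap 𝒪 A c)) = _
  rw [eq_comm, ← sub_eq_zero, ← map_sub, ← map_sub, residue_eq_zero_iff]
  intro hu
  exact hc (isUnit_of_map_unit (Ideal.Quotient.mk I) _ hu)

/-- TA2: a local quotient of a test algebra is a test algebra. -/
theorem isArtinianTestAlgebra_quotient (hA : IsArtinianTestAlgebra 𝒪 A) (I : Ideal A)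
    [IsLocalRing (A ⧸ I)] : IsArtinianTestAlgebra 𝒪 (A ⧸ I) := by
  have h3 := hA.isArtinian
  exact ⟨isLocalHom_algebraMap_quotient hA.isLocalHom I,
    residue_surjective_quotient hA.residue_surjective I,
    Function.Surjective.isArtinianRing (Ideal.Quotient.mk_surjective (I := I))⟩

theorem maximalIdeal_pow_ne_top {n : ℕ} (hn : n ≠ 0) : maximalIdeal A ^ n ≠ ⊤ := by
  intro h
  have h1 : maximalIdeal A ^ n ≤ maximalIdeal A := Ideal.pow_le_self hn
  rw [h] at h1
  exact (maximalIdeal.isMaximal A).ne_top (top_le_iff.mp h1)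

/-- TA3: for a Noetherian local `𝒪`-algebra `A` (local structure map, residue field generated
by `𝒪`), the quotient `A ⧸ 𝔪 ^ n` is a test algebra. -/
theorem isArtinianTestAlgebra_quotient_pow [IsNoetherianRing A]
    (h1 : IsLocalHom (algebraMap 𝒪 A))
    (hres : Function.Surjective (residue A ∘ algebraMap 𝒪 A)) (n : ℕ)
    [IsLocalRing (A ⧸ maximalIdeal A ^ n)] :
    IsArtinianTestAlgebra 𝒪 (A ⧸ maximalIdeal A ^ n) := by
  refine ⟨isLocalHom_algebraMap_quotient h1 _, residue_surjective_quotient hres _, ?_⟩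
  rw [isArtinianRing_iff_isNilpotent_maximalIdeal]
  refine ⟨n, ?_⟩
  rw [← map_maximalIdeal_of_surjective (Ideal.Quotient.mk (maximalIdeal A ^ n))
    Ideal.Quotient.mk_surjective, ← Ideal.map_pow, Ideal.zero_eq_bot,
    Ideal.map_eq_bot_iff_le_ker, Ideal.mk_ker]

end Quot

section Inj

variable {𝒪 : Type} [CommRing 𝒪]
variable {A : Type} [CommRing A] [IsLocalRing A] [Algebra 𝒪 A]
variable {B : Type} [CommRing B] [Algebra 𝒪 B]

/-- Key lemma for TA4: units are detected by an injective algebra map into a test algebra. -/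
theorem isUnit_of_isUnit_map_of_injective (hA : IsArtinianTestAlgebra 𝒪 A) (ι : B →ₐ[𝒪] A)
    (hι : Function.Injective ι) {b : B} (hb : IsUnit (ι b)) : IsUnit b := by
  have h1 := hA.isLocalHom
  obtain ⟨c, hc⟩ := exists_algebraMap_sub_mem hA.residue_surjective (ι b)
  obtain ⟨N, hN⟩ := exists_maximalIdeal_pow_eq_bot hA
  have hcu : IsUnit (algebraMap 𝒪 A c) := by
    by_contra hnu
    have h2 : ι b ∈ maximalIdeal A := by
      have := (maximalIdeal A).add_mem hc hnu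
      rwa [sub_add_cancel] at this
    exact h2 hb
  have hcu' : IsUnit c := isUnit_of_map_unit (algebraMap 𝒪 A) c hcu
  have hnil : IsNilpotent (b - algebraMap 𝒪 B c) := by
    refine ⟨N, hι ?_⟩
    have h3 : (ι b - algebraMap 𝒪 A c) ^ N ∈ maximalIdeal A ^ N := Ideal.pow_mem_pow hc N
    rw [hN] at h3
    rw [map_pow, map_sub, AlgHom.commutes, map_zero]
    exact h3
  have := hnil.isUnit_add_left_of_commute (hcu'.map (algebraMap 𝒪 B)) (Commute.all _ _)
  rwa [add_sub_cancel] at this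

theorem nontrivial_of_algHom (ι : B →ₐ[𝒪] A) : Nontrivial B := by
  refine ⟨⟨0, 1, fun h => ?_⟩⟩
  have := congrArg ι h
  rw [map_zero, map_one] at this
  exact zero_ne_one this

/-- TA4 (local ring): the source of an injective algebra map into a test algebra is local. -/
theorem isLocalRing_of_injective (hA : IsArtinianTestAlgebra 𝒪 A) (ι : B →ₐ[𝒪] A)
    (hι : Function.Injective ι) : IsLocalRing B := by
  have := nontrivial_of_algHom ι
  refine IsLocalRing.of_isUnit_or_isUnit_one_sub_self fun b => ?_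
  rcases IsLocalRing.isUnit_or_isUnit_one_sub_self (ι b) with h | h
  · exact Or.inl (isUnit_of_isUnit_map_of_injective hA ι hι h)
  · refine Or.inr (isUnit_of_isUnit_map_of_injective hA ι hι ?_)
    rwa [map_sub, map_one]

/-- TA4 (local hom). -/
theorem isLocalHom_of_injective (hA : IsArtinianTestAlgebra 𝒪 A) (ι : B →ₐ[𝒪] A)
    (hι : Function.Injective ι) : IsLocalHom (ι : B →+* A) :=
  ⟨fun _ hb => isUnit_of_isUnit_map_of_injective hA ι hι hb⟩

/-- TA4 (test algebra): the source of an injective algebra map into a finite test algebra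
is a test algebra. -/
theorem isArtinianTestAlgebra_of_injective [Finite A] [IsLocalRing B]
    (hA : IsArtinianTestAlgebra 𝒪 A) (ι : B →ₐ[𝒪] A) (hι : Function.Injective ι) :
    IsArtinianTestAlgebra 𝒪 B := by
  have h1 := hA.isLocalHom
  have : Finite B := Finite.of_injective _ hι
  refine ⟨⟨fun c hc => ?_⟩, ?_, inferInstance⟩
  · have : IsUnit (ι (algebraMap 𝒪 B c)) := hc.map ι
    rw [AlgHom.commutes] at this
    exact isUnit_of_map_unit (algebraMap 𝒪 A) c this
  · intro y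
    obtain ⟨b, rfl⟩ := residue_surjective y
    obtain ⟨c, hc⟩ := exists_algebraMap_sub_mem hA.residue_surjective (ι b)
    refine ⟨c, ?_⟩
    show residue B (algebraMap 𝒪 B c) = _
    rw [eq_comm, ← sub_eq_zero, ← map_sub, residue_eq_zero_iff]
    intro hu
    have : IsUnit (ι (b - algebraMap 𝒪 B c)) := hu.map ι
    rw [map_sub, AlgHom.commutes] at this
    exact hc this

end Inj

section Fibre

variable {𝒪 : Type} [CommRing 𝒪]
variable {P : Type} [CommRing P] [Algebra 𝒪 P]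

/-- A unit modulo `I` and modulo `J` is a unit modulo `I ⊓ J`. -/
theorem isUnit_mk_inf {I J : Ideal P} {p : P} (hI : IsUnit (Ideal.Quotient.mk I p))
    (hJ : IsUnit (Ideal.Quotient.mk J p)) : IsUnit (Ideal.Quotient.mk (I ⊓ J) p) := by
  obtain ⟨y', hy'⟩ := hI.exists_right_inv
  obtain ⟨z', hz'⟩ := hJ.exists_right_inv
  obtain ⟨y, rfl⟩ := Ideal.Quotient.mk_surjective y'
  obtain ⟨z, rfl⟩ := Ideal.Quotient.mk_surjective z'
  rw [← map_mul, ← map_one (Ideal.Quotient.mk I), Ideal.Quotient.eq] at hy'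
  rw [← map_mul, ← map_one (Ideal.Quotient.mk J), Ideal.Quotient.eq] at hz'
  refine IsUnit.of_mul_eq_one (Ideal.Quotient.mk (I ⊓ J) (y + z - p * y * z)) ?_
  rw [← map_mul, ← map_one (Ideal.Quotient.mk (I ⊓ J)), Ideal.Quotient.eq]
  have h : p * (y + z - p * y * z) - 1 = -((p * y - 1) * (p * z - 1)) := by ring
  rw [h]
  exact neg_mem (Ideal.mul_le_inf (Ideal.mul_mem_mul hy' hz'))

theorem sup_ne_top_isLocalRing {I J : Ideal P} [IsLocalRing (P ⧸ I)] (hIJ : I ⊔ J ≠ ⊤) :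
    IsLocalRing (P ⧸ (I ⊔ J)) := by
  have : Nontrivial (P ⧸ (I ⊔ J)) := Ideal.Quotient.nontrivial_iff.mpr hIJ
  exact IsLocalRing.of_surjective' (Ideal.Quotient.factor (le_sup_left : I ≤ I ⊔ J))
    (Ideal.Quotient.factor_surjective le_sup_left)

/-- TA5 (local ring): if `P ⧸ I` and `P ⧸ J` are local and `I ⊔ J ≠ ⊤`, then `P ⧸ (I ⊓ J)`
is local. -/
theorem isLocalRing_quotient_inf {I J : Ideal P} [IsLocalRing (P ⧸ I)] [IsLocalRing (P ⧸ J)]
    (hIJ : I ⊔ J ≠ ⊤) : IsLocalRing (P ⧸ (I ⊓ J)) := by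
  have hC := sup_ne_top_isLocalRing (I := I) (J := J) hIJ
  have hne : I ⊓ J ≠ ⊤ := fun h => hIJ (top_le_iff.mp (by rw [← h]; exact inf_le_left.trans le_sup_left))
  have : Nontrivial (P ⧸ (I ⊓ J)) := Ideal.Quotient.nontrivial_iff.mpr hne
  have hfA : IsLocalHom (Ideal.Quotient.factor (le_sup_left : I ≤ I ⊔ J)) :=
    IsLocalHom.of_surjective _ (Ideal.Quotient.factor_surjective le_sup_left)
  have hfB : IsLocalHom (Ideal.Quotient.factor (le_sup_right : J ≤ I ⊔ J)) :=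
    IsLocalHom.of_surjective _ (Ideal.Quotient.factor_surjective le_sup_right)
  have key : ∀ p : P, IsUnit (Ideal.Quotient.mk (I ⊔ J) p) →
      IsUnit (Ideal.Quotient.mk (I ⊓ J) p) := by
    intro p hp
    refine isUnit_mk_inf ?_ ?_
    · refine isUnit_of_map_unit (Ideal.Quotient.factor (le_sup_left : I ≤ I ⊔ J)) _ ?_
      rwa [Ideal.Quotient.factor_mk]
    · refine isUnit_of_map_unit (Ideal.Quotient.factor (le_sup_right : J ≤ I ⊔ J)) _ ?_
      rwa [Ideal.Quotient.factor_mk]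
  refine IsLocalRing.of_isUnit_or_isUnit_one_sub_self fun x => ?_
  obtain ⟨p, rfl⟩ := Ideal.Quotient.mk_surjective x
  rcases IsLocalRing.isUnit_or_isUnit_one_sub_self (Ideal.Quotient.mk (I ⊔ J) p) with h | h
  · exact Or.inl (key p h)
  · refine Or.inr ?_
    rw [← map_one (Ideal.Quotient.mk (I ⊔ J)), ← map_sub] at h
    have := key _ h
    rwa [map_sub, map_one] at this

variable (𝒪)

/-- The four maps of the fibre square `P ⧸ (I ⊓ J) → P ⧸ I, P ⧸ J → P ⧸ (I ⊔ J)`. -/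
noncomputable abbrev pA (I J : Ideal P) : P ⧸ (I ⊓ J) →ₐ[𝒪] P ⧸ I :=
  Ideal.Quotient.factorₐ 𝒪 (inf_le_left : I ⊓ J ≤ I)

noncomputable abbrev pB (I J : Ideal P) : P ⧸ (I ⊓ J) →ₐ[𝒪] P ⧸ J :=
  Ideal.Quotient.factorₐ 𝒪 (inf_le_right : I ⊓ J ≤ J)

noncomputable abbrev fA (I J : Ideal P) : P ⧸ I →ₐ[𝒪] P ⧸ (I ⊔ J) :=
  Ideal.Quotient.factorₐ 𝒪 (le_sup_left : I ≤ I ⊔ J)

noncomputable abbrev fB (I J : Ideal P) : P ⧸ J →ₐ[𝒪] P ⧸ (I ⊔ J) :=
  Ideal.Quotient.factorₐ 𝒪 (le_sup_right : J ≤ I ⊔ J)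

theorem fA_comp_pA (I J : Ideal P) : (fA 𝒪 I J).comp (pA 𝒪 I J) = (fB 𝒪 I J).comp (pB 𝒪 I J) := by
  apply AlgHom.ext
  intro x
  obtain ⟨p, rfl⟩ := Ideal.Quotient.mk_surjective x
  simp only [AlgHom.comp_apply, Ideal.Quotient.factorₐ_apply_mk]

theorem injective_pA_pB (I J : Ideal P) :
    Function.Injective (fun x : P ⧸ (I ⊓ J) => (pA 𝒪 I J x, pB 𝒪 I J x)) := by
  intro x y hxy
  obtain ⟨p, rfl⟩ := Ideal.Quotient.mk_surjective x
  obtain ⟨q, rfl⟩ := Ideal.Quotient.mk_surjective y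
  simp only [Prod.mk.injEq, Ideal.Quotient.factorₐ_apply_mk] at hxy
  rw [Ideal.Quotient.eq] at hxy ⊢
  rw [Ideal.Quotient.eq] at hxy
  exact ⟨hxy.1, hxy.2⟩

theorem exists_glue (I J : Ideal P) (a : P ⧸ I) (b : P ⧸ J) (h : fA 𝒪 I J a = fB 𝒪 I J b) :
    ∃ x, pA 𝒪 I J x = a ∧ pB 𝒪 I J x = b := by
  obtain ⟨p, rfl⟩ := Ideal.Quotient.mk_surjective a
  obtain ⟨q, rfl⟩ := Ideal.Quotient.mk_surjective b
  simp only [Ideal.Quotient.factorₐ_apply_mk] at h
  rw [Ideal.Quotient.eq, Submodule.mem_sup] at h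
  obtain ⟨i, hi, j, hj, hij⟩ := h
  refine ⟨Ideal.Quotient.mk (I ⊓ J) (p - i), ?_, ?_⟩
  · simp only [Ideal.Quotient.factorₐ_apply_mk]
    rw [Ideal.Quotient.eq]
    simpa using I.neg_mem hi
  · simp only [Ideal.Quotient.factorₐ_apply_mk]
    rw [Ideal.Quotient.eq]
    have : p - i - q = j := by linear_combination -hij
    rw [this]; exact hj

variable {𝒪}

theorem isLocalHom_factorₐ {I J : Ideal P} (h : I ≤ J) [IsLocalRing (P ⧸ I)]
    [IsLocalRing (P ⧸ J)] :
    IsLocalHom ((Ideal.Quotient.factorₐ 𝒪 h : P ⧸ I →ₐ[𝒪] P ⧸ J) : P ⧸ I →+* P ⧸ J) :=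
  IsLocalHom.of_surjective _ (Ideal.Quotient.factor_surjective h)

/-- TA5 (test algebra): `P ⧸ (I ⊓ J)` is a test algebra if `P ⧸ I`, `P ⧸ J` are finite test
algebras. -/
theorem isArtinianTestAlgebra_quotient_inf {I J : Ideal P} [IsLocalRing (P ⧸ I)]
    [IsLocalRing (P ⧸ J)] [IsLocalRing (P ⧸ (I ⊓ J))] [Finite (P ⧸ I)] [Finite (P ⧸ J)]
    (hA : IsArtinianTestAlgebra 𝒪 (P ⧸ I)) :
    IsArtinianTestAlgebra 𝒪 (P ⧸ (I ⊓ J)) := by
  have h1 := hA.isLocalHom
  have hpA : IsLocalHom ((pA 𝒪 I J : P ⧸ (I ⊓ J) →ₐ[𝒪] P ⧸ I) : P ⧸ (I ⊓ J) →+* P ⧸ I) :=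
    isLocalHom_factorₐ _
  have hfin : Finite (P ⧸ (I ⊓ J)) :=
    Finite.of_injective _ (injective_pA_pB 𝒪 I J)
  refine ⟨⟨fun c hc => ?_⟩, ?_, inferInstance⟩
  · have : IsUnit (pA 𝒪 I J (algebraMap 𝒪 _ c)) := hc.map (pA 𝒪 I J)
    rw [AlgHom.commutes] at this
    exact isUnit_of_map_unit (algebraMap 𝒪 (P ⧸ I)) c this
  · intro y
    obtain ⟨b, rfl⟩ := residue_surjective y
    obtain ⟨c, hc⟩ := exists_algebraMap_sub_mem hA.residue_surjective (pA 𝒪 I J b)
    refine ⟨c, ?_⟩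
    show residue _ (algebraMap 𝒪 _ c) = _
    rw [eq_comm, ← sub_eq_zero, ← map_sub, residue_eq_zero_iff]
    intro hu
    have : IsUnit (pA 𝒪 I J (b - algebraMap 𝒪 _ c)) := hu.map (pA 𝒪 I J)
    rw [map_sub, AlgHom.commutes] at this
    exact hc this

/-- TA5 (packaged): the fibre-product axiom of a deformation condition, for two ideals of a
common ring. -/
theorem of_inf {𝒟 : ∀ ⦃A : Type⦄ [CommRing A] [IsLocalRing A] [Algebra 𝒪 A], GaloisRepAdic A → Prop}
    (h𝒟 : IsDeformationCondition 𝒪 𝒟) {I J : Ideal P} [IsLocalRing (P ⧸ I)]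
    [IsLocalRing (P ⧸ J)] [IsLocalRing (P ⧸ (I ⊓ J))] [IsLocalRing (P ⧸ (I ⊔ J))]
    [Finite (P ⧸ I)] [Finite (P ⧸ J)]
    (hA : IsArtinianTestAlgebra 𝒪 (P ⧸ I)) (hB : IsArtinianTestAlgebra 𝒪 (P ⧸ J))
    (ρ : GaloisRepAdic (P ⧸ (I ⊓ J)))
    (h1 : 𝒟 (ρ.baseChangeAlong ((pA 𝒪 I J : P ⧸ (I ⊓ J) →ₐ[𝒪] P ⧸ I) : P ⧸ (I ⊓ J) →+* P ⧸ I)
      (isLocalHom_factorₐ _)))
    (h2 : 𝒟 (ρ.baseChangeAlong ((pB 𝒪 I J : P ⧸ (I ⊓ J) →ₐ[𝒪] P ⧸ J) : P ⧸ (I ⊓ J) →+* P ⧸ J)
      (isLocalHom_factorₐ _))) : 𝒟 ρ := by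
  have hC : IsArtinianTestAlgebra 𝒪 (P ⧸ (I ⊔ J)) := by
    have e : IsLocalHom (Ideal.Quotient.factor (le_sup_left : I ≤ I ⊔ J)) :=
      IsLocalHom.of_surjective _ (Ideal.Quotient.factor_surjective le_sup_left)
    have h3 := hA.isLocalHom
    have h4 := hA.isArtinian
    refine ⟨⟨fun c hc => ?_⟩, ?_, ?_⟩
    · have hc' : IsUnit (Ideal.Quotient.factor (le_sup_left : I ≤ I ⊔ J)
          (algebraMap 𝒪 (P ⧸ I) c)) := hc
      exact isUnit_of_map_unit (algebraMap 𝒪 (P ⧸ I)) c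
        (isUnit_of_map_unit (Ideal.Quotient.factor (le_sup_left : I ≤ I ⊔ J)) _ hc')
    · intro y
      obtain ⟨x, rfl⟩ := residue_surjective y
      obtain ⟨a, rfl⟩ := Ideal.Quotient.factor_surjective (le_sup_left : I ≤ I ⊔ J) x
      obtain ⟨c, hc⟩ := exists_algebraMap_sub_mem hA.residue_surjective a
      refine ⟨c, ?_⟩
      show residue _ (Ideal.Quotient.factor (le_sup_left : I ≤ I ⊔ J)
        (algebraMap 𝒪 (P ⧸ I) c)) = _
      rw [eq_comm, ← sub_eq_zero, ← map_sub, ← map_sub, residue_eq_zero_iff]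
      intro hu
      exact hc (isUnit_of_map_unit (Ideal.Quotient.factor (le_sup_left : I ≤ I ⊔ J)) _ hu)
    · exact Function.Surjective.isArtinianRing
        (Ideal.Quotient.factor_surjective (le_sup_left : I ≤ I ⊔ J))
  exact h𝒟.of_fibreProduct hA hB hC (isArtinianTestAlgebra_quotient_inf hA)
    (fA 𝒪 I J) (fB 𝒪 I J) (pA 𝒪 I J) (pB 𝒪 I J) _ _ (fA_comp_pA 𝒪 I J) (injective_pA_pB 𝒪 I J)
    (exists_glue 𝒪 I J) h1 h2

end Fibre

section Special

variable (𝒪 : Type) [CommRing 𝒪] [IsLocalRing 𝒪]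

/-- TA6a: the residue field of `𝒪` is a test algebra. -/
theorem isArtinianTestAlgebra_residueField : IsArtinianTestAlgebra 𝒪 (ResidueField 𝒪) := by
  refine ⟨?_, ?_, inferInstance⟩
  · rw [ResidueField.algebraMap_eq]; infer_instance
  · intro y
    obtain ⟨x, rfl⟩ := residue_surjective y
    obtain ⟨c, rfl⟩ := residue_surjective x
    exact ⟨c, rfl⟩

/-- The `𝒪`-algebra structure on the dual numbers `k[ε]` over the residue field that is used
in `GaloisRep.TangentFinite` (a `letI` there). -/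
@[reducible] noncomputable def dualAlg : Algebra 𝒪 (DualNumber (ResidueField 𝒪)) :=
  ((algebraMap (ResidueField 𝒪) (DualNumber (ResidueField 𝒪))).comp
    (algebraMap 𝒪 (ResidueField 𝒪))).toAlgebra

theorem moduleFinite_dualNumber (k : Type) [Field k] : Module.Finite k (DualNumber k) :=
  inferInstanceAs (Module.Finite k (k × k))

theorem isArtinianRing_dualNumber (k : Type) [Field k] : IsArtinianRing (DualNumber k) := by
  have := moduleFinite_dualNumber k
  exact IsArtinianRing.of_finite k (DualNumber k)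

theorem finite_dualNumber (k : Type) [Field k] [Finite k] : Finite (DualNumber k) :=
  inferInstanceAs (Finite (k × k))

theorem algebraMap_dualAlg (c : 𝒪) :
    @algebraMap 𝒪 (DualNumber (ResidueField 𝒪)) _ _ (dualAlg 𝒪) c =
      TrivSqZeroExt.inl (residue 𝒪 c) := rfl

/-- TA6b: the dual numbers over the residue field, with the algebra structure of
`TangentFinite`, form a test algebra. -/
theorem isArtinianTestAlgebra_dualNumber :
    @IsArtinianTestAlgebra 𝒪 _ (DualNumber (ResidueField 𝒪)) _ _ (dualAlg 𝒪) := by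
  let _ := dualAlg 𝒪
  refine ⟨⟨fun c hc => ?_⟩, ?_, isArtinianRing_dualNumber _⟩
  · rw [algebraMap_dualAlg, TrivSqZeroExt.isUnit_iff_isUnit_fst, TrivSqZeroExt.fst_inl] at hc
    exact isUnit_of_map_unit (residue 𝒪) c hc
  · intro y
    obtain ⟨x, rfl⟩ := residue_surjective y
    obtain ⟨c, hc⟩ := residue_surjective (R := 𝒪) x.fst
    refine ⟨c, ?_⟩
    show residue _ (algebraMap 𝒪 (DualNumber (ResidueField 𝒪)) c) = _
    rw [algebraMap_dualAlg, eq_comm, ← sub_eq_zero, ← map_sub, residue_eq_zero_iff]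
    intro hu
    rw [TrivSqZeroExt.isUnit_iff_isUnit_fst, TrivSqZeroExt.fst_sub, TrivSqZeroExt.fst_inl, hc,
      sub_self] at hu
    exact not_isUnit_zero hu

end Special

end Fermat.Agent.S53.FibreSq
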