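import Mathlib
import Fermat.Agent.S53.Defs
import Fermat.Agent.S53.Frame

/-! Existence of a frame (owner: helper53). -/

set_option autoImplicit false

namespace Fermat.Agent.S53

open IsLocalRing

theorem exists_frame (𝒪 : Type) [CommRing 𝒪] [IsLocalRing 𝒪]
    (ρbar : ResidualGaloisRep (ResidueField 𝒪)) (habs : ρbar.IsAbsolutelyIrreducible) :
    Nonempty (Frame 𝒪 ρbar) := by
  sorry

end Fermat.Agent.S53
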