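import Mathlib
import Fermat.Agent.S53.Defs
import Fermat.Agent.S53.AdmKer
import Fermat.Agent.S53.Levels

/-! Chunk G2: the evaluation map of a rigid lift of type `𝒟` over a complete Noetherian local
`𝒪`-algebra `A` sends the least admissible ideal `J n` into `𝔪_A ^ n`
(reduce modulo `𝔪_A ^ n`, apply `Levels.ofMat_to_level` and `Adm.adm_ker`). -/

set_option autoImplicit false

namespace Fermat.Agent.S53.GUniv

open IsLocalRing MvPolynomial GaloisRep
open Fermat.Agent.S53 Fermat.Agent.S53.MatRep Fermat.Agent.S53.Universal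

variable {𝒪 : Type} [CommRing 𝒪] [IsLocalRing 𝒪] {ρbar : ResidualGaloisRep (ResidueField 𝒪)}
  {𝒟 : ∀ ⦃A : Type⦄ [CommRing A] [IsLocalRing A] [Algebra 𝒪 A], GaloisRepAdic A → Prop}

/-- (G2) If `J n` is contained in every admissible ideal of level `n`, then the evaluation map
of any rigid lift of type `𝒟` over a complete Noetherian local `𝒪`-algebra `A` sends `J n`
into `𝔪_A ^ n`. -/
theorem evalHom_mem_pow [Finite (ResidueField 𝒪)] (h𝒟 : IsDeformationCondition 𝒪 𝒟)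
    (F : Frame 𝒪 ρbar) (J : ℕ → Ideal (Pol 𝒪))
    (hleast : ∀ n, 1 ≤ n → ∀ K, Admissible F 𝒟 n K → J n ≤ K)
    (A : Type) [CommRing A] [IsLocalRing A] [IsNoetherianRing A]
    [IsAdicComplete (maximalIdeal A) A] [Algebra 𝒪 A] [IsLocalHom (algebraMap 𝒪 A)]
    (hresA : Function.Surjective (residue A ∘ algebraMap 𝒪 A))
    (rA : (AlgebraicClosure ℚ ≃ₐ[ℚ] AlgebraicClosure ℚ) →* Matrix (Fin 2) (Fin 2) A)
    (hrA : IsRigidLift F rA) (hD : 𝒟 (ofMat rA hrA.cont))
    (n : ℕ) (p : Pol 𝒪) (hp : p ∈ J n) :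
    evalHom 𝒪 (fun g => rA g) p ∈ maximalIdeal A ^ n := by
  sorry

end Fermat.Agent.S53.GUniv
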