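import Mathlib
import Fermat.Agent.S53.Defs

/-! Residual dictionary (owner: helper53). -/

set_option autoImplicit false

namespace Fermat.Agent.S53.Resid

open IsLocalRing Module
open scoped TensorProduct
open Fermat.Agent.S53 Fermat.Agent.S53.MatRep

variable {𝒪 : Type} [CommRing 𝒪] [IsLocalRing 𝒪] {ρbar : ResidualGaloisRep (ResidueField 𝒪)}
  {A : Type} [CommRing A] [IsLocalRing A] [Algebra 𝒪 A] [IsLocalHom (algebraMap 𝒪 A)]

/-- (R1) A continuous matrix representation congruent to `F.rt` has residual representation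
equivalent to the base change of `ρbar`. -/
theorem residual_isEquiv_of_lift (F : Frame 𝒪 ρbar)
    (r : (AlgebraicClosure ℚ ≃ₐ[ℚ] AlgebraicClosure ℚ) →* Matrix (Fin 2) (Fin 2) A)
    (hr : IsContMat r)
    (h : ∀ g i j, r g i j - algebraMap 𝒪 A (F.rt g i j) ∈ maximalIdeal A) :
    (ofMat r hr).residual.IsEquiv
      (ρbar.baseChangeAlong (ResidueField.map (algebraMap 𝒪 A))) := by
  sorry

/-- (R2) A `GaloisRepAdic` whose residual representation is equivalent to the base change of
`ρbar` is equivalent to a matrix representation congruent to `F.rt`. -/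
theorem exists_ofMat_of_residual (F : Frame 𝒪 ρbar) (ρ : GaloisRepAdic A)
    (h : ρ.residual.IsEquiv (ρbar.baseChangeAlong (ResidueField.map (algebraMap 𝒪 A)))) :
    ∃ (r : (AlgebraicClosure ℚ ≃ₐ[ℚ] AlgebraicClosure ℚ) →* Matrix (Fin 2) (Fin 2) A)
      (hr : IsContMat r), ρ.IsEquiv (ofMat r hr) ∧
        ∀ g i j, r g i j - algebraMap 𝒪 A (F.rt g i j) ∈ maximalIdeal A := by
  sorry

end Fermat.Agent.S53.Resid
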