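import Mathlib
import Fermat.Agent.S53.Defs
import Fermat.Agent.S53.Resid
import Fermat.Agent.S53.Rigid
import Fermat.Agent.S53.TangentGlue

/-! Chunk G1: every deformation over a complete local `𝒪`-algebra is equivalent to the matrix
representation of a rigid lift (`Resid.exists_ofMat_of_residual` + `Rigid.rigid_exists`). -/

set_option autoImplicit false

namespace Fermat.Agent.S53.GUniv

open IsLocalRing MvPolynomial GaloisRep
open Fermat.Agent.S53 Fermat.Agent.S53.MatRep

variable {𝒪 : Type} [CommRing 𝒪] [IsLocalRing 𝒪] {ρbar : ResidualGaloisRep (ResidueField 𝒪)}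
  {𝒟 : ∀ ⦃A : Type⦄ [CommRing A] [IsLocalRing A] [Algebra 𝒪 A], GaloisRepAdic A → Prop}

/-- (G1) A representation of type `𝒟` over a complete local `𝒪`-algebra whose residual
representation is `ρbar` is equivalent to `ofMat` of a rigid lift (again of type `𝒟`). -/
theorem exists_rigid_of_residual (h𝒟 : IsDeformationCondition 𝒪 𝒟) (F : Frame 𝒪 ρbar)
    (A : Type) [CommRing A] [IsLocalRing A] [IsNoetherianRing A]
    [IsAdicComplete (maximalIdeal A) A] [Algebra 𝒪 A] [IsLocalHom (algebraMap 𝒪 A)]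
    (ρA : GaloisRepAdic A) (hD : 𝒟 ρA)
    (hresid : ρA.residual.IsEquiv
      (ρbar.baseChangeAlong (ResidueField.map (algebraMap 𝒪 A)))) :
    ∃ (rA : (AlgebraicClosure ℚ ≃ₐ[ℚ] AlgebraicClosure ℚ) →* Matrix (Fin 2) (Fin 2) A)
      (hrA : IsRigidLift F rA), ρA.IsEquiv (ofMat rA hrA.cont) ∧ 𝒟 (ofMat rA hrA.cont) := by
  sorry

end Fermat.Agent.S53.GUniv
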