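import Mathlib
import Fermat.Agent.S53.Defs
import Fermat.Agent.S53.Universal
import Fermat.Agent.S53.Bridge173

/-! Chunk G: the universal property for complete Noetherian local algebras
(proof: `Bridge173.universal_property`, i.e. `Assemble.universal_property` with the level
hypotheses derived from `Adm.*` and `Adm.adm_ker`; `GRigid`/`GLevel` are not needed). -/

set_option autoImplicit false

namespace Fermat.Agent.S53.GUniv

open IsLocalRing MvPolynomial GaloisRep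
open Fermat.Agent.S53 Fermat.Agent.S53.MatRep

variable {𝒪 : Type} [CommRing 𝒪] [IsLocalRing 𝒪] {ρbar : ResidualGaloisRep (ResidueField 𝒪)}
  {𝒟 : ∀ ⦃A : Type⦄ [CommRing A] [IsLocalRing A] [Algebra 𝒪 A], GaloisRepAdic A → Prop}
  {R : Type} [CommRing R] [IsLocalRing R] [IsNoetherianRing R]
  [IsAdicComplete (maximalIdeal R) R] [Algebra 𝒪 R]

theorem universal_property [Finite (ResidueField 𝒪)] (h𝒟 : IsDeformationCondition 𝒪 𝒟)
    (F : Frame 𝒪 ρbar) (J : ℕ → Ideal (Pol 𝒪)) (_hJ0 : J 0 = ⊤)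
    (hadm : ∀ n, 1 ≤ n → Admissible F 𝒟 n (J n) ∧ ∀ K, Admissible F 𝒟 n K → J n ≤ K)
    (_hloc : IsLocalHom (algebraMap 𝒪 R))
    (hres : Function.Surjective (residue R ∘ algebraMap 𝒪 R))
    (ι : Pol 𝒪 →ₐ[𝒪] R)
    (hcomap : ∀ n, (maximalIdeal R ^ n).comap ι = J n)
    (hdense : ∀ n (x : R), ∃ p : Pol 𝒪, x - ι p ∈ maximalIdeal R ^ n)
    (rR : (AlgebraicClosure ℚ ≃ₐ[ℚ] AlgebraicClosure ℚ) →* Matrix (Fin 2) (Fin 2) R)
    (hrR : ∀ g i j, rR g i j = ι (X (g, i, j))) (hrig : IsRigidLift F rR)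
    (A : Type) [CommRing A] [IsLocalRing A] [IsNoetherianRing A]
    [IsAdicComplete (maximalIdeal A) A] [Algebra 𝒪 A] [IsLocalHom (algebraMap 𝒪 A)]
    (hresA : Function.Surjective (residue A ∘ algebraMap 𝒪 A))
    (ρA : GaloisRepAdic A) (hD : 𝒟 ρA)
    (hresid : ρA.residual.IsEquiv
      (ρbar.baseChangeAlong (ResidueField.map (algebraMap 𝒪 A)))) :
    ∃! φ : R →ₐ[𝒪] A, ∃ hφ : IsLocalHom (φ : R →+* A),
      ((ofMat rR hrig.cont).baseChangeAlong (φ : R →+* A) hφ).IsEquiv ρA :=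
  Bridge173.universal_property h𝒟 F J hadm hres ι hcomap hdense rR hrR hrig A hresA ρA hD hresid

end Fermat.Agent.S53.GUniv
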