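import Mathlib

set_option autoImplicit false

namespace Fermat.Agent.S53.LeastAdm

variable {P : Type} [CommRing P]

lemma eq_of_le_of_card_le {I K : Ideal P} (hIK : I ≤ K) [Finite (P ⧸ I)]
    (hcard : Nat.card (P ⧸ I) ≤ Nat.card (P ⧸ K)) : I = K := by
  have hsurj : Function.Surjective (Ideal.Quotient.factor hIK) :=
    Ideal.Quotient.factor_surjective hIK
  have : Finite (P ⧸ K) := Finite.of_surjective _ hsurj
  have hle : Nat.card (P ⧸ K) ≤ Nat.card (P ⧸ I) := Nat.card_le_card_of_surjective _ hsurj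
  have hbij : Function.Bijective (Ideal.Quotient.factor hIK) :=
    (Nat.bijective_iff_surjective_and_card _).2 ⟨hsurj, le_antisymm hcard hle⟩
  refine le_antisymm hIK fun x hx => ?_
  have h0 : Ideal.Quotient.factor hIK (Ideal.Quotient.mk I x) = 0 := by
    rw [Ideal.Quotient.factor_mk]
    exact Ideal.Quotient.eq_zero_iff_mem.2 hx
  have h1 : Ideal.Quotient.mk I x = 0 := hbij.1 (by rw [h0, map_zero])
  exact Ideal.Quotient.eq_zero_iff_mem.1 h1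

lemma exists_least (𝔪 : Ideal P) (Adm : ℕ → Ideal P → Prop)
    (h1 : ∀ n K, Adm n K → 𝔪 ^ n ≤ K ∧ K ≤ 𝔪 ∧ Finite (P ⧸ K))
    (h2 : ∀ n K₁ K₂, Adm n K₁ → Adm n K₂ → Adm n (K₁ ⊓ K₂))
    (h5 : ∀ n, ∃ B : ℕ, ∀ K, Adm n K → Nat.card (P ⧸ K) ≤ B)
    (n : ℕ) (hne : ∃ K, Adm n K) :
    ∃ K, Adm n K ∧ ∀ K', Adm n K' → K ≤ K' := by
  classical
  obtain ⟨B, hB⟩ := h5 n
  let s : Set ℕ := {c | ∃ K, Adm n K ∧ Nat.card (P ⧸ K) = c}
  have hs : s.Nonempty := by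
    obtain ⟨K, hK⟩ := hne
    exact ⟨_, K, hK, rfl⟩
  have hb : BddAbove s := ⟨B, by rintro c ⟨K, hK, rfl⟩; exact hB K hK⟩
  obtain ⟨K₀, hK₀, hc⟩ := Nat.sSup_mem hs hb
  refine ⟨K₀, hK₀, fun K' hK' => ?_⟩
  have hadm : Adm n (K' ⊓ K₀) := h2 n _ _ hK' hK₀
  have : Finite (P ⧸ (K' ⊓ K₀)) := (h1 n _ hadm).2.2
  have hle : Nat.card (P ⧸ (K' ⊓ K₀)) ≤ Nat.card (P ⧸ K₀) := by
    rw [hc]
    exact le_csSup hb ⟨_, hadm, rfl⟩
  have heq : K' ⊓ K₀ = K₀ := eq_of_le_of_card_le inf_le_right hle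
  exact heq ▸ inf_le_left

lemma exists_finset_of_finite_quotient (𝔪 J : Ideal P) [Finite (P ⧸ J)] :
    ∃ s : Finset P, (↑s : Set P) ⊆ (𝔪 : Set P) ∧ 𝔪 ≤ Ideal.span (↑s : Set P) ⊔ J := by
  classical
  have : Fintype (P ⧸ J) := Fintype.ofFinite _
  let g : P ⧸ J → P := fun q =>
    if h : ∃ x ∈ 𝔪, Ideal.Quotient.mk J x = q then h.choose else 0
  have hg : ∀ q, g q ∈ 𝔪 := by
    intro q
    by_cases h : ∃ x ∈ 𝔪, Ideal.Quotient.mk J x = q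
    · simp only [g, dif_pos h]; exact h.choose_spec.1
    · simp only [g, dif_neg h]; exact 𝔪.zero_mem
  have hg' : ∀ x ∈ 𝔪, Ideal.Quotient.mk J (g (Ideal.Quotient.mk J x)) = Ideal.Quotient.mk J x := by
    intro x hx
    have h : ∃ y ∈ 𝔪, Ideal.Quotient.mk J y = Ideal.Quotient.mk J x := ⟨x, hx, rfl⟩
    simp only [g, dif_pos h]; exact h.choose_spec.2
  refine ⟨Finset.univ.image g, ?_, ?_⟩
  · intro y hy
    rw [Finset.coe_image] at hy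
    obtain ⟨q, -, rfl⟩ := hy
    exact hg q
  · intro x hx
    have hmem : g (Ideal.Quotient.mk J x) ∈ Ideal.span (↑(Finset.univ.image g) : Set P) :=
      Ideal.subset_span (by
        rw [Finset.coe_image]
        exact ⟨_, Finset.mem_coe.2 (Finset.mem_univ _), rfl⟩)
    have hsub : x - g (Ideal.Quotient.mk J x) ∈ J := by
      rw [← Ideal.Quotient.eq]
      exact (hg' x hx).symm
    have : x = g (Ideal.Quotient.mk J x) + (x - g (Ideal.Quotient.mk J x)) := by ring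
    rw [this]
    exact Submodule.add_mem_sup hmem hsub

theorem exists_least_admissible (𝔪 : Ideal P) (Adm : ℕ → Ideal P → Prop)
    (h1 : ∀ n K, Adm n K → 𝔪 ^ n ≤ K ∧ K ≤ 𝔪 ∧ Finite (P ⧸ K))
    (h2 : ∀ n K₁ K₂, Adm n K₁ → Adm n K₂ → Adm n (K₁ ⊓ K₂))
    (h3 : ∀ n K, 1 ≤ n → Adm (n + 1) K → Adm n (K ⊔ 𝔪 ^ n))
    (h4 : ∀ n K, Adm n K → Adm (n + 1) K)
    (h5 : ∀ n, ∃ B : ℕ, ∀ K, Adm n K → Nat.card (P ⧸ K) ≤ B)
    (h6 : ∃ K, Adm 1 K) :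
    ∃ J : ℕ → Ideal P, J 0 = ⊤ ∧
      (∀ n, 1 ≤ n → Adm n (J n) ∧ ∀ K, Adm n K → J n ≤ K) ∧
      (∀ n, J (n + 1) ≤ J n) ∧ (∀ n, 𝔪 ^ n ≤ J n) ∧ (∀ n, 1 ≤ n → J n ≤ 𝔪) ∧
      (∀ n, J n = J (n + 1) ⊔ 𝔪 ^ n) ∧
      (∃ s : Finset P, (↑s : Set P) ⊆ (𝔪 : Set P) ∧ 𝔪 ≤ Ideal.span (↑s : Set P) ⊔ J 2) := by
  classical
  have hne : ∀ n, 1 ≤ n → ∃ K, Adm n K := by
    intro n hn
    induction n, hn using Nat.le_induction with
    | base => exact h6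
    | succ n _ ih => obtain ⟨K, hK⟩ := ih; exact ⟨K, h4 n K hK⟩
  have hex : ∀ n, 1 ≤ n → ∃ K, Adm n K ∧ ∀ K', Adm n K' → K ≤ K' :=
    fun n hn => exists_least 𝔪 Adm h1 h2 h5 n (hne n hn)
  choose J' hJ' using hex
  let J : ℕ → Ideal P := fun n => if h : 1 ≤ n then J' n h else ⊤
  have hJ0 : J 0 = ⊤ := by simp [J]
  have hJpos : ∀ n (h : 1 ≤ n), J n = J' n h := fun n h => by simp [J, h]
  have hJ : ∀ n, 1 ≤ n → Adm n (J n) ∧ ∀ K, Adm n K → J n ≤ K := by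
    intro n hn
    rw [hJpos n hn]
    exact hJ' n hn
  have hanti : ∀ n, J (n + 1) ≤ J n := by
    intro n
    rcases Nat.eq_zero_or_pos n with rfl | hn
    · rw [hJ0]; exact le_top
    · exact (hJ (n + 1) (Nat.le_add_left 1 n)).2 _ (h4 n _ (hJ n hn).1)
  have hpow : ∀ n, 𝔪 ^ n ≤ J n := by
    intro n
    rcases Nat.eq_zero_or_pos n with rfl | hn
    · rw [hJ0]; exact le_top
    · exact (h1 n _ (hJ n hn).1).1
  have hle : ∀ n, 1 ≤ n → J n ≤ 𝔪 := fun n hn => (h1 n _ (hJ n hn).1).2.1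
  have hstep : ∀ n, J n = J (n + 1) ⊔ 𝔪 ^ n := by
    intro n
    rcases Nat.eq_zero_or_pos n with rfl | hn
    · rw [hJ0, pow_zero, Ideal.one_eq_top, sup_top_eq]
    · refine le_antisymm ?_ (sup_le (hanti n) (hpow n))
      exact (hJ n hn).2 _ (h3 n _ hn (hJ (n + 1) (Nat.le_add_left 1 n)).1)
  refine ⟨J, hJ0, hJ, hanti, hpow, hle, hstep, ?_⟩
  have : Finite (P ⧸ J 2) := (h1 2 _ (hJ 2 (by norm_num)).1).2.2
  exact exists_finset_of_finite_quotient 𝔪 (J 2)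

end Fermat.Agent.S53.LeastAdm
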