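import Fermat.Statements.S53
import Fermat.Agent.S53.Defs
import Fermat.Agent.S53.FrameExists
import Fermat.Agent.S53.AdmBasic
import Fermat.Agent.S53.AdmKer
import Fermat.Agent.S53.AdmOne
import Fermat.Agent.S53.AdmInf
import Fermat.Agent.S53.AdmSup
import Fermat.Agent.S53.AdmBound
import Fermat.Agent.S53.LeastAdm
import Fermat.Agent.S53.CompleteLimit
import Fermat.Agent.S53.Assemble

/-! Top-level assembly of S53 (owner: helper53): frame, least admissible ideals, the complete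
Noetherian limit ring and `Assemble.nonempty_deformationRingData`. -/

set_option autoImplicit false

namespace Fermat.Agent.S53

open IsLocalRing GaloisRep MvPolynomial
open Fermat.Agent.S53.MatRep

variable {𝒪 : Type} [CommRing 𝒪] [IsLocalRing 𝒪] {ρbar : ResidualGaloisRep (ResidueField 𝒪)}
  {𝒟 : ∀ ⦃A : Type⦄ [CommRing A] [IsLocalRing A] [Algebra 𝒪 A], GaloisRepAdic A → Prop}

/-- Level hypothesis (a) of `Assemble` from admissibility of the ideals `J n`. -/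
theorem levelA_of_adm (F : Frame 𝒪 ρbar) (J : ℕ → Ideal (Pol 𝒪))
    (hadm : ∀ n, 1 ≤ n → Admissible F 𝒟 n (J n)) :
    Assemble.LevelA 𝒪 𝒟 F.rt F.g0 F.g1 F.i0 J := by
  intro n hn
  have h := hadm n hn
  haveI : IsLocalRing (Pol 𝒪 ⧸ J n) := Adm.isLocalRing_quot h
  have hrig := Adm.taut_isRigidLift h
  have hr : Assemble.IsRigidLift F.rt F.g0 F.g1 F.i0 (Adm.taut h) :=
    ⟨hrig.cont, hrig.lift, hrig.h00, hrig.h10, hrig.h1⟩
  exact ⟨Pol 𝒪 ⧸ J n, inferInstance, inferInstance, inferInstance,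
    Ideal.Quotient.mkₐ 𝒪 (J n), Adm.taut h, hr, Adm.isArtinianTestAlgebra_quot h,
    Ideal.Quotient.mkₐ_surjective 𝒪 (J n), Ideal.Quotient.mkₐ_ker 𝒪 (J n),
    Adm.maximalIdeal_quot_pow h, fun _ _ _ => rfl, Adm.taut_D h hr.cont⟩

/-- Level hypothesis (b) of `Assemble` from leastness of the ideals `J n`. -/
theorem levelB_of_least [Finite (ResidueField 𝒪)] (h𝒟 : IsDeformationCondition 𝒪 𝒟)
    (F : Frame 𝒪 ρbar) (J : ℕ → Ideal (Pol 𝒪))
    (hleast : ∀ n, 1 ≤ n → ∀ K, Admissible F 𝒟 n K → J n ≤ K) :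
    Assemble.LevelB 𝒪 𝒟 F.rt F.g0 F.g1 F.i0 J := by
  intro n hn B _ _ _ hB hpow r hr hD
  exact hleast n hn _
    (Adm.adm_ker h𝒟 F n B hB hpow r ⟨hr.cont, hr.cong, hr.e00, hr.e10, hr.eβ⟩ hD)

theorem main
    (𝒪 : Type) [CommRing 𝒪] [IsDomain 𝒪] [IsDiscreteValuationRing 𝒪]
    [IsAdicComplete (IsLocalRing.maximalIdeal 𝒪) 𝒪] [Finite (IsLocalRing.ResidueField 𝒪)]
    (ρbar : ResidualGaloisRep (IsLocalRing.ResidueField 𝒪))
    (𝒟 : ∀ ⦃A : Type⦄ [CommRing A] [IsLocalRing A] [Algebra 𝒪 A], GaloisRepAdic A → Prop)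
    (habs : ρbar.IsAbsolutelyIrreducible)
    (h𝒟 : GaloisRep.IsDeformationCondition 𝒪 𝒟)
    (hbar : 𝒟 (GaloisRepAdic.ofResidualGaloisRep ρbar))
    (hfin : GaloisRep.TangentFinite 𝒪 ρbar 𝒟) :
    Nonempty (GaloisRep.DeformationRingData 𝒪 ρbar 𝒟) := by
  obtain ⟨F⟩ := exists_frame 𝒪 ρbar habs
  obtain ⟨J, hJ0, hadm, hanti, hpow, hle, hstep, hfg⟩ :=
    LeastAdm.exists_least_admissible (m0 F) (Admissible F 𝒟)
      (fun n K h => ⟨h.pow_le, h.le, h.finite⟩)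
      (fun n K₁ K₂ h₁ h₂ => Adm.adm_inf h𝒟 F n K₁ K₂ h₁ h₂)
      (fun n K hn h => Adm.adm_sup_pow h𝒟 F n K hn h)
      (fun n K h => Adm.adm_succ F n K h)
      (fun n => Adm.adm_bound h𝒟 hfin F n)
      (Adm.adm_one h𝒟 hbar F)
  obtain ⟨R, _, _, _, _, _, ι, hloc, hres, hcomap, hdense⟩ :=
    CompleteLimit.exists_complete_noetherian_limit 𝒪 (Pol 𝒪) (m0 F) J (Adm.m0_isMaximal F)
      (Adm.m0_res F) hanti hpow hle hstep hfg
  haveI := hloc
  exact Assemble.nonempty_deformationRingData 𝒪 ρbar 𝒟 habs h𝒟 F.b F.rt F.g0 F.g1 F.i0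
    (fun σ => Matrix.ext fun i j => F.hrt σ i j) F.h00 F.h10 F.hcomm R hres ι J hcomap hdense
    (levelA_of_adm F J (fun n hn => (hadm n hn).1))
    (levelB_of_least h𝒟 F J (fun n hn => (hadm n hn).2))

end Fermat.Agent.S53
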