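import Mathlib.RingTheory.LocalRing.Quotient
import Mathlib.RingTheory.DualNumber
import Mathlib.RingTheory.Artinian.Ring
import Mathlib.RingTheory.HopkinsLevitzki
import Fermat.Prelude.Def_GaloisRep_DeformationCondition

set_option autoImplicit false
set_option linter.unusedSectionVars false
set_option linter.style.haveILetI false

namespace Fermat.Agent.S53.QuotTest

open IsLocalRing GaloisRep

variable {𝒪 : Type} [CommRing 𝒪] [IsLocalRing 𝒪]

section Basic

variable {A : Type} [CommRing A] [IsLocalRing A] [Algebra 𝒪 A]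

/-- If `𝒪 → A → A/𝔪` is surjective and `𝒪` has finite residue field, so does `A`. -/
theorem finite_residueField [Finite (ResidueField 𝒪)]
    (hres : Function.Surjective (residue A ∘ algebraMap 𝒪 A)) : Finite (ResidueField A) := by
  let f : 𝒪 →+* ResidueField A := (residue A).comp (algebraMap 𝒪 A)
  have hf : Function.Surjective f := hres
  have hker : RingHom.ker f = maximalIdeal 𝒪 :=
    IsLocalRing.eq_maximalIdeal (RingHom.ker_isMaximal_of_surjective f hf)
  let g : ResidueField 𝒪 →+* ResidueField A :=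
    Ideal.Quotient.lift (maximalIdeal 𝒪) f (fun a ha => by
      rw [← hker] at ha
      exact ha)
  have hg : Function.Surjective g := by
    intro x
    obtain ⟨a, rfl⟩ := hf x
    exact ⟨Ideal.Quotient.mk _ a, rfl⟩
  exact Finite.of_surjective g hg

/-- In an Artinian local ring the maximal ideal is nilpotent. -/
theorem exists_pow_maximalIdeal_eq_bot [IsArtinianRing A] : ∃ n : ℕ, maximalIdeal A ^ n = ⊥ := by
  obtain ⟨n, hn⟩ := IsArtinianRing.isNilpotent_jacobson_bot (R := A)
  rw [jacobson_eq_maximalIdeal _ bot_ne_top] at hn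
  exact ⟨n, hn⟩

theorem exists_pow_maximalIdeal_eq_bot_of_test (h : IsArtinianTestAlgebra 𝒪 A) :
    ∃ n : ℕ, maximalIdeal A ^ n = ⊥ :=
  haveI := h.isArtinian
  exists_pow_maximalIdeal_eq_bot

/-- (U1) An Artinian test algebra over a ring with finite residue field is a finite ring. -/
theorem finite_of_isArtinianTestAlgebra [Finite (ResidueField 𝒪)]
    (h : IsArtinianTestAlgebra 𝒪 A) : Finite A := by
  haveI := h.isArtinian
  haveI : Finite (ResidueField A) := finite_residueField h.residue_surjective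
  obtain ⟨n, hn⟩ := exists_pow_maximalIdeal_eq_bot (A := A)
  haveI : Finite (A ⧸ (⊥ : Ideal A)) := (finite_quotient_iff (I := (⊥ : Ideal A))).mpr ⟨n, hn.le⟩
  exact Finite.of_equiv _ (RingEquiv.quotientBot A).toEquiv

/-- A finite local algebra with local structure map and surjective residue map is a test
algebra. -/
theorem isArtinianTestAlgebra_of_finite [Finite A] (hloc : IsLocalHom (algebraMap 𝒪 A))
    (hres : Function.Surjective (residue A ∘ algebraMap 𝒪 A)) : IsArtinianTestAlgebra 𝒪 A :=
  ⟨hloc, hres, inferInstance⟩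

end Basic

section Quotient

variable {A : Type} [CommRing A] [IsLocalRing A] [Algebra 𝒪 A]

theorem nontrivial_quotient {I : Ideal A} (hI : I ≠ ⊤) : Nontrivial (A ⧸ I) :=
  Ideal.Quotient.nontrivial_iff.mpr hI

theorem pow_maximalIdeal_ne_top {n : ℕ} (hn : n ≠ 0) : maximalIdeal A ^ n ≠ ⊤ := by
  intro h
  have h1 : maximalIdeal A ^ n ≤ maximalIdeal A := Ideal.pow_le_self hn
  rw [h] at h1
  exact (maximalIdeal.isMaximal A).ne_top (top_le_iff.mp h1)

/-- The quotient of a local ring by a proper ideal is local. -/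
theorem isLocalRing_quotient {I : Ideal A} (hI : I ≠ ⊤) : IsLocalRing (A ⧸ I) :=
  haveI := nontrivial_quotient hI
  IsLocalRing.of_surjective' (Ideal.Quotient.mk I) Ideal.Quotient.mk_surjective

theorem isLocalHom_mk {I : Ideal A} (hI : I ≠ ⊤) : IsLocalHom (Ideal.Quotient.mk I) :=
  haveI := nontrivial_quotient hI
  IsLocalHom.of_surjective (Ideal.Quotient.mk I) Ideal.Quotient.mk_surjective

theorem isLocalHom_mkₐ {I : Ideal A} (hI : I ≠ ⊤) :
    IsLocalHom ((Ideal.Quotient.mkₐ 𝒪 I : A →ₐ[𝒪] A ⧸ I) : A →+* A ⧸ I) :=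
  isLocalHom_mk hI

theorem mk_mem_maximalIdeal_iff {I : Ideal A} [IsLocalRing (A ⧸ I)] (a : A) :
    Ideal.Quotient.mk I a ∈ maximalIdeal (A ⧸ I) ↔ a ∈ maximalIdeal A := by
  have hI : I ≠ ⊤ := by
    intro h
    have : Subsingleton (A ⧸ I) := Ideal.Quotient.subsingleton_iff.mpr h
    exact not_subsingleton (A ⧸ I) this
  haveI := isLocalHom_mk (A := A) hI
  rw [mem_maximalIdeal, mem_maximalIdeal, mem_nonunits_iff, mem_nonunits_iff]
  exact not_congr (isUnit_map_iff (Ideal.Quotient.mk I) a)

/-- The structure map of a quotient of a local algebra is local. -/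
theorem isLocalHom_algebraMap_quotient {I : Ideal A} [IsLocalRing (A ⧸ I)]
    (hloc : IsLocalHom (algebraMap 𝒪 A)) : IsLocalHom (algebraMap 𝒪 (A ⧸ I)) := by
  constructor
  intro a ha
  have h1 : algebraMap 𝒪 (A ⧸ I) a = Ideal.Quotient.mk I (algebraMap 𝒪 A a) := rfl
  rw [h1] at ha
  by_contra hna
  have h2 : algebraMap 𝒪 A a ∈ maximalIdeal A := by
    rw [mem_maximalIdeal, mem_nonunits_iff]
    intro hu
    exact hna (hloc.map_nonunit a hu)
  have h3 := (mk_mem_maximalIdeal_iff (I := I) (algebraMap 𝒪 A a)).mpr h2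
  rw [mem_maximalIdeal, mem_nonunits_iff] at h3
  exact h3 ha

theorem residue_surjective_quotient {I : Ideal A} [IsLocalRing (A ⧸ I)]
    (hres : Function.Surjective (residue A ∘ algebraMap 𝒪 A)) :
    Function.Surjective (residue (A ⧸ I) ∘ algebraMap 𝒪 (A ⧸ I)) := by
  intro x
  obtain ⟨y, rfl⟩ := residue_surjective x
  obtain ⟨a, rfl⟩ := Ideal.Quotient.mk_surjective y
  obtain ⟨o, ho⟩ := hres (residue A a)
  refine ⟨o, ?_⟩
  have h1 : algebraMap 𝒪 (A ⧸ I) o = Ideal.Quotient.mk I (algebraMap 𝒪 A o) := rfl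
  rw [Function.comp_apply, h1, ← sub_eq_zero, ← map_sub, ← map_sub, residue_eq_zero_iff,
    mk_mem_maximalIdeal_iff, ← residue_eq_zero_iff, map_sub, sub_eq_zero]
  exact ho

/-- (U2) For a Noetherian local algebra with local structure map, surjective residue map and
finite residue field, the quotient by a positive power of the maximal ideal is a test algebra. -/
theorem isArtinianTestAlgebra_quotient_pow [IsNoetherianRing A] [Finite (ResidueField 𝒪)]
    (hloc : IsLocalHom (algebraMap 𝒪 A))
    (hres : Function.Surjective (residue A ∘ algebraMap 𝒪 A)) (n : ℕ)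
    [IsLocalRing (A ⧸ maximalIdeal A ^ n)] :
    IsArtinianTestAlgebra 𝒪 (A ⧸ maximalIdeal A ^ n) := by
  haveI : Finite (ResidueField A) := finite_residueField hres
  haveI : Finite (A ⧸ maximalIdeal A ^ n) := finite_quotient_iff.mpr ⟨n, le_rfl⟩
  exact ⟨isLocalHom_algebraMap_quotient hloc, residue_surjective_quotient hres, inferInstance⟩

theorem finite_quotient_pow [IsNoetherianRing A] [Finite (ResidueField 𝒪)]
    (hres : Function.Surjective (residue A ∘ algebraMap 𝒪 A)) (n : ℕ) :
    Finite (A ⧸ maximalIdeal A ^ n) := by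
  haveI : Finite (ResidueField A) := finite_residueField hres
  exact finite_quotient_iff.mpr ⟨n, le_rfl⟩

/-- The maximal ideal of `A ⧸ 𝔪 ^ n` is nilpotent of exponent `n`. -/
theorem maximalIdeal_quotient_pow_eq_bot (n : ℕ) [IsLocalRing (A ⧸ maximalIdeal A ^ n)] :
    maximalIdeal (A ⧸ maximalIdeal A ^ n) ^ n = ⊥ := by
  have hmap : maximalIdeal (A ⧸ maximalIdeal A ^ n) =
      (maximalIdeal A).map (Ideal.Quotient.mk (maximalIdeal A ^ n)) := by
    ext x
    obtain ⟨a, rfl⟩ := Ideal.Quotient.mk_surjective x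
    rw [mk_mem_maximalIdeal_iff]
    constructor
    · intro ha
      exact Ideal.mem_map_of_mem _ ha
    · intro ha
      rw [Ideal.mem_map_iff_of_surjective _ Ideal.Quotient.mk_surjective] at ha
      obtain ⟨b, hb, hab⟩ := ha
      have h1 : b - a ∈ maximalIdeal A ^ n := by
        rw [← Ideal.Quotient.eq]
        exact hab
      have hn : n ≠ 0 := by
        rintro rfl
        have : Subsingleton (A ⧸ maximalIdeal A ^ 0) :=
          Ideal.Quotient.subsingleton_iff.mpr (by simp)
        exact not_subsingleton _ this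
      have h2 : b - a ∈ maximalIdeal A := Ideal.pow_le_self hn h1
      have : a = b - (b - a) := by ring
      rw [this]
      exact Ideal.sub_mem _ hb h2
  rw [hmap, ← Ideal.map_pow, Ideal.map_quotient_self]

end Quotient

section Factor

variable {R B : Type} [CommRing R] [IsLocalRing R] [CommRing B] [IsLocalRing B]

/-- A surjective ring hom of local rings maps the maximal ideal into the maximal ideal. -/
theorem map_mem_maximalIdeal_of_surjective (q : R →+* B) (hq : Function.Surjective q) {x : R}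
    (hx : x ∈ maximalIdeal R) : q x ∈ maximalIdeal B := by
  haveI := IsLocalHom.of_surjective q hq
  rw [mem_maximalIdeal, mem_nonunits_iff] at hx ⊢
  exact fun h => hx ((isUnit_map_iff q x).mp h)

theorem map_pow_maximalIdeal_le (q : R →+* B) (hq : ∀ x ∈ maximalIdeal R, q x ∈ maximalIdeal B)
    (n : ℕ) : (maximalIdeal R ^ n).map q ≤ maximalIdeal B ^ n := by
  rw [Ideal.map_pow]
  exact Ideal.pow_right_mono (Ideal.map_le_iff_le_comap.mpr hq) n

/-- (U4) A surjection onto an Artinian local ring kills a power of the maximal ideal. -/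
theorem exists_pow_le_ker [IsArtinianRing B] (q : R →+* B) (hq : Function.Surjective q) :
    ∃ n : ℕ, maximalIdeal R ^ n ≤ RingHom.ker q := by
  obtain ⟨n, hn⟩ := exists_pow_maximalIdeal_eq_bot (A := B)
  refine ⟨n, ?_⟩
  have h := map_pow_maximalIdeal_le q (fun x hx => map_mem_maximalIdeal_of_surjective q hq hx) n
  rw [hn, le_bot_iff, Ideal.map_eq_bot_iff_le_ker] at h
  exact h

/-- Local homs kill `𝔪 ^ n` when the target has `𝔪 ^ n = ⊥`. -/
theorem pow_le_ker_of_pow_eq_bot (q : R →+* B) (hq : IsLocalHom q) {n : ℕ}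
    (hn : maximalIdeal B ^ n = ⊥) : maximalIdeal R ^ n ≤ RingHom.ker q := by
  have h := map_pow_maximalIdeal_le q (fun x hx => by
    rw [mem_maximalIdeal, mem_nonunits_iff] at hx ⊢
    exact fun h => hx (hq.map_nonunit x h)) n
  rw [hn, le_bot_iff, Ideal.map_eq_bot_iff_le_ker] at h
  exact h

end Factor


section Dual

variable (𝒪)

/-- The algebra structure on the dual numbers used in `GaloisRep.TangentFinite`. -/
@[reducible] noncomputable def dualAlgebra : Algebra 𝒪 (DualNumber (ResidueField 𝒪)) :=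
  ((algebraMap (ResidueField 𝒪) (DualNumber (ResidueField 𝒪))).comp
    (algebraMap 𝒪 (ResidueField 𝒪))).toAlgebra

theorem dualAlgebra_algebraMap_apply (a : 𝒪) :
    letI := dualAlgebra 𝒪
    algebraMap 𝒪 (DualNumber (ResidueField 𝒪)) a = TrivSqZeroExt.inl (residue 𝒪 a) := rfl

theorem isArtinianRing_dualNumber (k : Type) [Field k] : IsArtinianRing (DualNumber k) := by
  rw [isArtinianRing_iff_isNilpotent_maximalIdeal, DualNumber.maximalIdeal_eq_span_singleton_eps]
  refine ⟨2, ?_⟩
  rw [Ideal.span_singleton_pow, pow_two, DualNumber.eps_mul_eps, Ideal.span_singleton_zero]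
  rfl

theorem mem_maximalIdeal_dualNumber_iff {k : Type} [Field k] (x : DualNumber k) :
    x ∈ maximalIdeal (DualNumber k) ↔ TrivSqZeroExt.fst x = 0 := by
  rw [mem_maximalIdeal, mem_nonunits_iff, TrivSqZeroExt.isUnit_iff_isUnit_fst, isUnit_iff_ne_zero,
    not_not]

/-- (U3) The dual numbers over the residue field form a test algebra. -/
theorem isArtinianTestAlgebra_dualNumber :
    letI := dualAlgebra 𝒪
    IsArtinianTestAlgebra 𝒪 (DualNumber (ResidueField 𝒪)) := by
  letI := dualAlgebra 𝒪
  refine ⟨⟨?_⟩, ?_, isArtinianRing_dualNumber _⟩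
  · intro a ha
    rw [dualAlgebra_algebraMap_apply, TrivSqZeroExt.isUnit_iff_isUnit_fst, TrivSqZeroExt.fst_inl,
      isUnit_iff_ne_zero, ne_eq, residue_eq_zero_iff, mem_maximalIdeal, mem_nonunits_iff,
      not_not] at ha
    exact ha
  · intro x
    obtain ⟨y, rfl⟩ := residue_surjective x
    obtain ⟨o, ho⟩ := residue_surjective (R := 𝒪) (TrivSqZeroExt.fst y)
    refine ⟨o, ?_⟩
    rw [Function.comp_apply, ← sub_eq_zero, ← map_sub, residue_eq_zero_iff,
      mem_maximalIdeal_dualNumber_iff, dualAlgebra_algebraMap_apply, TrivSqZeroExt.fst_sub,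
      TrivSqZeroExt.fst_inl, ho, sub_self]

end Dual

end Fermat.Agent.S53.QuotTest
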