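import Mathlib

set_option autoImplicit false

namespace Fermat.Agent.S53.Slice

open Matrix

section Slice

variable {A : Type*} [CommRing A]

/-- An intertwiner between two matrices whose first column is `e₂` is `a + b C'`. -/
theorem intertwiner_eq (C C' N : Matrix (Fin 2) (Fin 2) A)
    (hC0 : C 0 0 = 0) (hC1 : C 1 0 = 1) (hC'0 : C' 0 0 = 0) (hC'1 : C' 1 0 = 1)
    (hNC : N * C = C' * N) :
    N = N 0 0 • (1 : Matrix (Fin 2) (Fin 2) A) + N 1 0 • C' := by
  have h0 := congr_fun (congr_fun hNC 0) 0
  have h1 := congr_fun (congr_fun hNC 1) 0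
  simp only [Matrix.mul_apply, Fin.sum_univ_two, hC0, hC1, hC'0, hC'1] at h0 h1
  ext i j
  fin_cases i <;> fin_cases j
  · simp [hC'0]
  · simp; linear_combination h0
  · simp [hC'1]
  · simp; linear_combination h1

/-- S1: an invertible intertwiner between two pairs in slice form is a scalar matrix. -/
theorem slice_intertwiner_scalar (C C' X X' N : Matrix (Fin 2) (Fin 2) A) (i : Fin 2)
    (hC0 : C 0 0 = 0) (hC1 : C 1 0 = 1) (hC'0 : C' 0 0 = 0) (hC'1 : C' 1 0 = 1)
    (hNC : N * C = C' * N) (hNX : N * X = X' * N)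
    (hX : X i 0 = X' i 0)
    (hunit : IsUnit ((X' * C' - C' * X) i 0)) :
    N = N 0 0 • (1 : Matrix (Fin 2) (Fin 2) A) := by
  have hN := intertwiner_eq C C' N hC0 hC1 hC'0 hC'1 hNC
  set a := N 0 0 with ha
  set b := N 1 0 with hb
  have key : a • (X - X') = b • (X' * C' - C' * X) := by
    have h1 : N * X = a • X + b • (C' * X) := by
      rw [hN]; simp [add_mul]
    have h2 : X' * N = a • X' + b • (X' * C') := by
      rw [hN]; simp [mul_add]
    rw [h1, h2] at hNX
    rw [smul_sub, smul_sub, sub_eq_sub_iff_add_eq_add, hNX, add_comm]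
  have hb0 : b = 0 := by
    have h := congr_fun (congr_fun key i) 0
    simp only [Matrix.smul_apply, Matrix.sub_apply, smul_eq_mul] at h
    rw [hX, sub_self, mul_zero] at h
    have h' : b * (X' * C' - C' * X) i 0 = 0 := by
      rw [Matrix.sub_apply]; exact h.symm
    exact (hunit.mul_left_eq_zero).mp h'
  rw [hN, hb0, zero_smul, add_zero]

end Slice

end Fermat.Agent.S53.Slice
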