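import Mathlib
import Fermat.Agent.S53.Defs
import Fermat.Agent.S53.CompleteLimit
import Fermat.Agent.S53.Bridge173

/-!
Final wiring for S53 (owner: helper173).

* `nonempty_of_levels` (Route B): framing + ideals `J n` satisfying the hypotheses of
  `CompleteLimit.exists_complete_noetherian_limit` + `Assemble.LevelA` / `Assemble.LevelB`
  give `DeformationRingData`.
* `nonempty_of_adm` (Route A): the same from the least admissible ideals of the captain's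
  skeleton (`Admissible F 𝒟 n K`).
-/

set_option autoImplicit false

namespace Fermat.Agent.S53.Wire173

open IsLocalRing MvPolynomial GaloisRep
open Fermat.Agent.S53 Fermat.Agent.S53.MatRep

/-- Route B wiring: from a frame, a maximal ideal `𝔪` of `Pol 𝒪` with residue field `k`, and
ideals `J n` with the limit hypotheses and the two level hypotheses. -/
theorem nonempty_of_levels
    (𝒪 : Type) [CommRing 𝒪] [IsDomain 𝒪] [IsDiscreteValuationRing 𝒪]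
    [IsAdicComplete (maximalIdeal 𝒪) 𝒪] [Finite (ResidueField 𝒪)]
    (ρbar : ResidualGaloisRep (ResidueField 𝒪))
    (𝒟 : ∀ ⦃A : Type⦄ [CommRing A] [IsLocalRing A] [Algebra 𝒪 A], GaloisRepAdic A → Prop)
    (habs : ρbar.IsAbsolutelyIrreducible)
    (h𝒟 : IsDeformationCondition 𝒪 𝒟)
    (F : Frame 𝒪 ρbar)
    (𝔪 : Ideal (Pol 𝒪)) (J : ℕ → Ideal (Pol 𝒪))
    (h𝔪 : 𝔪.IsMaximal)
    (hres : Function.Surjective ((Ideal.Quotient.mk 𝔪).comp (algebraMap 𝒪 (Pol 𝒪))))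
    (hanti : ∀ n, J (n + 1) ≤ J n) (hpow : ∀ n, 𝔪 ^ n ≤ J n)
    (hle : ∀ n, 1 ≤ n → J n ≤ 𝔪) (hstep : ∀ n, J n = J (n + 1) ⊔ 𝔪 ^ n)
    (hfg : ∃ s : Finset (Pol 𝒪), (↑s : Set (Pol 𝒪)) ⊆ (𝔪 : Set (Pol 𝒪)) ∧
      𝔪 ≤ Ideal.span (↑s : Set (Pol 𝒪)) ⊔ J 2)
    (hJa : Assemble.LevelA 𝒪 𝒟 F.rt F.g0 F.g1 F.i0 J)
    (hJb : Assemble.LevelB 𝒪 𝒟 F.rt F.g0 F.g1 F.i0 J) :
    Nonempty (DeformationRingData 𝒪 ρbar 𝒟) := by
  obtain ⟨R, _, _, _, _, _, ι, hloc, hresR, hcomap, hdense⟩ :=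
    CompleteLimit.exists_complete_noetherian_limit 𝒪 (Pol 𝒪) 𝔪 J h𝔪 hres hanti hpow hle hstep hfg
  have := hloc
  exact Assemble.nonempty_deformationRingData 𝒪 ρbar 𝒟 habs h𝒟 F.b F.rt F.g0 F.g1 F.i0
    (Bridge173.hrt_matrix F) F.h00 F.h10 F.hcomm R hresR ι J hcomap hdense hJa hJb

/-- Route A wiring: from a frame and the least admissible ideals of the skeleton. -/
theorem nonempty_of_adm
    (𝒪 : Type) [CommRing 𝒪] [IsDomain 𝒪] [IsDiscreteValuationRing 𝒪]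
    [IsAdicComplete (maximalIdeal 𝒪) 𝒪] [Finite (ResidueField 𝒪)]
    (ρbar : ResidualGaloisRep (ResidueField 𝒪))
    (𝒟 : ∀ ⦃A : Type⦄ [CommRing A] [IsLocalRing A] [Algebra 𝒪 A], GaloisRepAdic A → Prop)
    (habs : ρbar.IsAbsolutelyIrreducible)
    (h𝒟 : IsDeformationCondition 𝒪 𝒟)
    (F : Frame 𝒪 ρbar) (J : ℕ → Ideal (Pol 𝒪))
    (hadm : ∀ n, 1 ≤ n → Admissible F 𝒟 n (J n) ∧ ∀ K, Admissible F 𝒟 n K → J n ≤ K)
    (hanti : ∀ n, J (n + 1) ≤ J n) (hpow : ∀ n, m0 F ^ n ≤ J n)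
    (hle : ∀ n, 1 ≤ n → J n ≤ m0 F) (hstep : ∀ n, J n = J (n + 1) ⊔ m0 F ^ n)
    (hfg : ∃ s : Finset (Pol 𝒪), (↑s : Set (Pol 𝒪)) ⊆ (m0 F : Set (Pol 𝒪)) ∧
      m0 F ≤ Ideal.span (↑s : Set (Pol 𝒪)) ⊔ J 2) :
    Nonempty (DeformationRingData 𝒪 ρbar 𝒟) :=
  nonempty_of_levels 𝒪 ρbar 𝒟 habs h𝒟 F (m0 F) J (Adm.m0_isMaximal F) (Adm.m0_res F)
    hanti hpow hle hstep hfg
    (Bridge173.levelA F J (fun n hn => (hadm n hn).1))
    (Bridge173.levelB h𝒟 F J (fun n hn => (hadm n hn).2))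

end Fermat.Agent.S53.Wire173
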